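import Fermat.Agent.Igusa.Carayol.LevelUnramified
import Fermat.Agent.Modular.PlaceCounts

/-!
# Levels without elliptic points

If `N` has a prime factor `r ≡ 11 (mod 12)` then `Γ₀(N)` has no elliptic elements, so over every
subfield of `ℚ̄` the function `j` has zeros of order `3` only and `j - 1728` zeros of order `2`.
-/

set_option autoImplicit false
set_option synthInstance.maxHeartbeats 400000

noncomputable section

open UpperHalfPlane hiding I
open CongruenceSubgroup ModularCurve AlgebraicCurve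
open scoped MatrixGroups

namespace FermatLib.Igusa.Carayol

local notation "Qbar" => AlgebraicClosure ℚ

/-- An element fixing a point of the upper half plane is `±1` or has trace in `(-2, 2)`. -/
theorem eq_one_or_neg_one_or_trace_sq_lt {γ : SL(2, ℤ)} {τ : ℍ} (hγ : γ • τ = τ) :
    γ = 1 ∨ γ = -1 ∨ (γ 0 0 + γ 1 1) ^ 2 < 4 := by
  have hdet : γ 0 0 * γ 1 1 - γ 0 1 * γ 1 0 = 1 := (Matrix.det_fin_two _).symm.trans γ.2
  have hden : ((γ 1 0 : ℂ) * τ + (γ 1 1 : ℂ)) ≠ 0 := by
    have := denom_ne_zero (γ : GL (Fin 2) ℝ) τ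
    simpa [denom] using this
  have h0 := congrArg (fun z : ℍ => (z : ℂ)) hγ
  simp only [coe_specialLinearGroup_apply] at h0
  simp only [algebraMap_int_eq, Int.coe_castRingHom] at h0
  rw [div_eq_iff (by simpa using hden)] at h0
  have hre := congrArg Complex.re h0
  have him := congrArg Complex.im h0
  simp at hre him
  have hy : 0 < τ.im := τ.im_pos
  have hd : ((γ 0 0 : ℤ) : ℝ) = 2 * (γ 1 0) * τ.re + γ 1 1 := by
    apply mul_right_cancel₀ hy.ne'
    linear_combination him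
  have hb : ((γ 0 1 : ℤ) : ℝ) = -(γ 1 0) * (τ.re ^ 2 + τ.im ^ 2) := by
    linear_combination hre - τ.re * hd
  by_cases hc : γ 1 0 = 0
  · have hb0 : γ 0 1 = 0 := by
      have : ((γ 0 1 : ℤ) : ℝ) = 0 := by rw [hb, hc]; simp
      exact_mod_cast this
    rw [hc, hb0, mul_zero, sub_zero] at hdet
    rcases Int.eq_one_or_neg_one_of_mul_eq_one' hdet with ⟨e1, e2⟩ | ⟨e1, e2⟩
    · left; ext i j; fin_cases i <;> fin_cases j <;> simp [e1, e2, hb0, hc]
    · right; left; ext i j; fin_cases i <;> fin_cases j <;> simp [e1, e2, hb0, hc]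
  refine Or.inr (Or.inr ?_)
  have hR : ((γ 0 0 : ℤ) : ℝ) * γ 1 1 - γ 0 1 * γ 1 0 = 1 := by exact_mod_cast hdet
  have hcR : (0 : ℝ) < ((γ 1 0 : ℤ) : ℝ) ^ 2 := by positivity
  have key : ((((γ 0 0 + γ 1 1) ^ 2 : ℤ)) : ℝ) < ((4 : ℤ) : ℝ) := by
    push_cast
    have e : (((γ 0 0 : ℤ) : ℝ) + γ 1 1) ^ 2 - 4 = -4 * ((γ 1 0 : ℤ) : ℝ) ^ 2 * τ.im ^ 2 := by
      rw [hb, hd] at hR
      rw [hd]
      linear_combination 4 * hR
    nlinarith [mul_pos hcR (pow_pos hy 2)]
  exact_mod_cast key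

/-- With a prime `r ≡ 11 (mod 12)` in the level, points have trivial stabiliser in `Γ₀(N)`. -/
theorem eq_one_or_neg_one_of_fixes {N r : ℕ} (hr : r.Prime) (hrN : r ∣ N) (hr12 : r % 12 = 11)
    {γ : SL(2, ℤ)} (hγ0 : γ ∈ Gamma0 N) {τ : ℍ} (hγ : γ • τ = τ) : γ = 1 ∨ γ = -1 := by
  rcases eq_one_or_neg_one_or_trace_sq_lt hγ with h | h | h
  · exact Or.inl h
  · exact Or.inr h
  exfalso
  have : Fact r.Prime := ⟨hr⟩
  have hdet : γ 0 0 * γ 1 1 - γ 0 1 * γ 1 0 = 1 := (Matrix.det_fin_two _).symm.trans γ.2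
  have hc : ((γ 1 0 : ℤ) : ZMod r) = 0 := by
    have hN : (N : ℤ) ∣ γ 1 0 :=
      (ZMod.intCast_zmod_eq_zero_iff_dvd _ _).mp (Gamma0_mem.mp hγ0)
    exact (ZMod.intCast_zmod_eq_zero_iff_dvd _ _).mpr
      ((Int.natCast_dvd_natCast.mpr hrN).trans hN)
  have hprod : ((γ 0 0 : ℤ) : ZMod r) * (γ 1 1 : ℤ) = 1 := by
    have := congrArg (Int.cast : ℤ → ZMod r) hdet
    push_cast at this
    rwa [hc, mul_zero, sub_zero] at this
  have hm4 : r % 4 = 3 := by omega
  have hm3 : r % 3 = 2 := by omega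
  have hr2 : r ≠ 2 := by omega
  have hneg1 : ∀ x : ZMod r, x ^ 2 ≠ -1 := fun x hx =>
    ZMod.mod_four_ne_three_of_sq_eq_neg_one hx hm4
  have hneg3 : ∀ x : ZMod r, x ^ 2 ≠ -3 := by
    intro x hx
    have hne : ∀ m : ℕ, m.Prime → m ≠ r → (m : ZMod r) ≠ 0 := fun m hm hmr h0 =>
      hmr ((Nat.prime_dvd_prime_iff_eq hr hm).mp ((ZMod.natCast_eq_zero_iff m r).mp h0)).symm
    have h2 : (2 : ZMod r) ≠ 0 := by exact_mod_cast hne 2 Nat.prime_two hr2.symm
    have h3 : (3 : ZMod r) ≠ 0 := by exact_mod_cast hne 3 Nat.prime_three (by omega)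
    have hω : ((x - 1) / 2) ^ 2 + (x - 1) / 2 + 1 = 0 := by
      field_simp
      linear_combination hx
    have hω3 : ((x - 1) / 2) ^ 3 = 1 := by linear_combination ((x - 1) / 2 - 1) * hω
    have hω1 : (x - 1) / 2 ≠ 1 := fun h => h3 (by rw [h] at hω; linear_combination hω)
    have : Fact (3 : ℕ).Prime := ⟨Nat.prime_three⟩
    have hord := orderOf_eq_prime hω3 hω1
    have hdvd := ZMod.orderOf_dvd_card_sub_one (fun h0 => by simp [h0] at hω3 : (x - 1) / 2 ≠ 0)
    rw [hord] at hdvd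
    omega
  have hbd : γ 0 0 + γ 1 1 = -1 ∨ γ 0 0 + γ 1 1 = 0 ∨ γ 0 0 + γ 1 1 = 1 := by
    have h1 : -2 < γ 0 0 + γ 1 1 := by nlinarith
    have h2 : γ 0 0 + γ 1 1 < 2 := by nlinarith
    omega
  have ha : ∀ t : ℤ, γ 0 0 + γ 1 1 = t →
      ((γ 1 1 : ℤ) : ZMod r) ^ 2 - t * (γ 1 1 : ℤ) + 1 = 0 := by
    intro t ht
    rw [← ht]
    push_cast
    linear_combination -hprod
  rcases hbd with ht | ht | ht <;> have h2 := ha _ ht <;> push_cast at h2
  · exact hneg3 (2 * ((γ 1 1 : ℤ) : ZMod r) + 1) (by linear_combination 4 * h2)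
  · exact hneg1 ((γ 1 1 : ℤ) : ZMod r) (by linear_combination h2)
  · exact hneg3 (2 * ((γ 1 1 : ℤ) : ZMod r) - 1) (by linear_combination 4 * h2)

variable {N r : ℕ} [NeZero N] (hr : r.Prime) (hrN : r ∣ N) (hr12 : r % 12 = 11)

include hr hrN hr12 in
/-- Over `ℚ̄` the zeros of `j` have order `3`, those of `j - 1728` order `2`. -/
theorem ord_jElem_eq_of_no_elliptic
    (v : Place Qbar (laurentBaseChange Qbar (modularFunctionFieldFull N))) :
    (0 < v.ord (Modular.jElem Qbar N) → v.ord (Modular.jElem Qbar N) = 3) ∧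
      (0 < v.ord (Modular.jElem Qbar N - 1728) → v.ord (Modular.jElem Qbar N - 1728) = 2) := by
  have : Algebra.IsAlgebraic ℚ Qbar := AlgebraicClosure.isAlgebraic ℚ
  obtain ⟨ι⟩ : Nonempty (Qbar →+* ℂ) := ⟨(IsAlgClosed.lift (R := ℚ)).toRingHom⟩
  have key : ∀ c : Qbar, 0 < v.ord (Modular.jElem Qbar N - algebraMap Qbar _ c) →
      v.ord (Modular.jElem Qbar N - algebraMap Qbar _ c) = Modular.jRamIndex (ι c) := by
    intro c h
    obtain ⟨τ, hτ, rfl⟩ := Modular.exists_ptPlace_of_ord_sub_pos Qbar N ι v c h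
    have hord := Modular.ord_jElem_sub_ptPlace ι N τ c hτ.symm
    have hidx : Modular.ptIndex N τ = 1 := by
      rw [Modular.ptIndex, if_pos]
      exact fun γ hγ hfix => eq_one_or_neg_one_of_fixes hr hrN hr12 hγ hfix
    rw [hidx, Nat.cast_one, one_mul] at hord
    rw [hord, hτ]
  constructor
  · intro h
    have := key 0 (by rwa [map_zero, sub_zero])
    rwa [map_zero, sub_zero, map_zero, Modular.jRamIndex, if_pos rfl] at this
  · intro h
    have := key 1728 (by rwa [map_ofNat])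
    rwa [map_ofNat, map_ofNat, Modular.jRamIndex, if_neg (by norm_num), if_pos rfl] at this

variable {K : Type*} [Field K] [Algebra ℚ K] [Algebra K (AlgebraicClosure ℚ)]
  [Algebra.IsAlgebraic K (AlgebraicClosure ℚ)]

include hr hrN hr12 in
/-- No elliptic points, over a subfield `K`. -/
theorem elliptic_of_eleven_mod_twelve
    {x : laurentBaseChange K (modularFunctionFieldFull N)}
    (hx : (x : LaurentSeries K) = jqModC K)
    (V : ValuationSubring (laurentBaseChange K (modularFunctionFieldFull N))) (hV : V ≠ ⊤)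
    (hK : ∀ c : K, algebraMap K (laurentBaseChange K (modularFunctionFieldFull N)) c ∈ V)
    {t : laurentBaseChange K (modularFunctionFieldFull N)} (ht : t ∈ V.nonunits) :
    (x ∈ V.nonunits → x / t ^ 3 ∈ V ∨ ∃ t' ∈ V.nonunits, t' ≠ 0 ∧ t / t' ∈ V.nonunits) ∧
      (x - 1728 ∈ V.nonunits →
        (x - 1728) / t ^ 2 ∈ V ∨ ∃ t' ∈ V.nonunits, t' ≠ 0 ∧ t / t' ∈ V.nonunits) := by
  have := Modular.finiteDimensional_adjoin_jElem Qbar N
  have : Curve.IsFunctionField Qbar (laurentBaseChange Qbar (modularFunctionFieldFull N)) :=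
    .of_transcendental (Modular.transcendental_jElem Qbar N)
  have hxb : levelToBar x = Modular.jElem Qbar N := by
    apply Subtype.ext
    rw [coe_levelToBar, hx, coeffMap_jqModC, Modular.coe_jElem, coeffEmb, ← jqModC_rat,
      coeffMap_jqModC]
  have hj := Modular.transcendental_jElem Qbar N
  have hne : ∀ c : K, x - algebraMap K _ c ≠ 0 := fun c h => by
    refine hj ?_
    rw [← hxb, sub_eq_zero.mp h]
    have e : levelToBar (algebraMap K (laurentBaseChange K (modularFunctionFieldFull N)) c) =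
        algebraMap Qbar _ (algebraMap K Qbar c) := by
      apply Subtype.ext
      rw [coe_levelToBar]
      show coeffMap (algebraMap K Qbar) (algebraMap K (LaurentSeries K) c) = _
      rw [algebraMap_laurentSeries_eq_single, coeffMap_single,
        ← algebraMap_laurentSeries_eq_single]
      rfl
    rw [e]
    exact isAlgebraic_algebraMap _
  constructor
  · refine div_pow_mem_or_exists_of_forall_ord x (fun h => hne 0 (by simp [h])) 3 (fun w hw => ?_)
      V hV hK ht
    rw [hxb] at hw ⊢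
    exact_mod_cast (ord_jElem_eq_of_no_elliptic hr hrN hr12 w).1 hw
  · refine div_pow_mem_or_exists_of_forall_ord (x - 1728)
      (by simpa [map_ofNat] using hne 1728) 2 (fun w hw => ?_) V hV hK ht
    rw [map_sub, hxb, map_ofNat] at hw ⊢
    exact_mod_cast (ord_jElem_eq_of_no_elliptic hr hrN hr12 w).2 hw

end FermatLib.Igusa.Carayol
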