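import Mathlib

/-!
A finite separable extension read through a full set of embeddings into a field of series.
-/

set_option autoImplicit false

noncomputable section

namespace FermatLib.Igusa.Carayol

variable {F F' Ω ι : Type*} [Field F] [CharZero F] [Field F'] [Field Ω] [Algebra F F']
  [FiniteDimensional F F'] [Fintype ι] {e : F →+* Ω} {σ : ι → (F' →+* Ω)}

variable (hσ : ∀ i x, σ i (algebraMap F F' x) = e x) (hinj : Function.Injective σ)
  (hcard : Fintype.card ι = Module.finrank F F')

include hσ hinj hcard in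
/-- Every embedding into the algebraic closure is one of the given ones. -/
theorem exists_closure_bijective :
    letI := ((algebraMap Ω (AlgebraicClosure Ω)).comp e).toAlgebra
    ∃ φ : ι → (F' →ₐ[F] AlgebraicClosure Ω), Function.Bijective φ ∧
      ∀ i a, φ i a = algebraMap Ω (AlgebraicClosure Ω) (σ i a) := by
  classical
  letI := ((algebraMap Ω (AlgebraicClosure Ω)).comp e).toAlgebra
  let φ : ι → (F' →ₐ[F] AlgebraicClosure Ω) := fun i =>
    { (algebraMap Ω (AlgebraicClosure Ω)).comp (σ i) with
      commutes' := fun x => congrArg (algebraMap Ω (AlgebraicClosure Ω)) (hσ i x) }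
  have hφ : Function.Injective φ := fun i i' h => hinj (RingHom.ext fun a =>
    (algebraMap Ω (AlgebraicClosure Ω)).injective (DFunLike.congr_fun h a))
  refine ⟨φ, (Fintype.bijective_iff_injective_and_card φ).mpr ⟨hφ, ?_⟩, fun i a => rfl⟩
  rw [hcard, AlgHom.card]

include hσ hinj hcard in
theorem map_norm_eq_prod (a : F') : e (Algebra.norm F a) = ∏ i, σ i a := by
  classical
  letI := ((algebraMap Ω (AlgebraicClosure Ω)).comp e).toAlgebra
  obtain ⟨φ, hφ, hφa⟩ := exists_closure_bijective hσ hinj hcard
  apply (algebraMap Ω (AlgebraicClosure Ω)).injective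
  rw [map_prod]
  refine (Algebra.norm_eq_prod_embeddings F (AlgebraicClosure Ω) a).trans ?_
  exact (Fintype.prod_bijective φ hφ _ _ fun i => (hφa i a).symm).symm

include hσ hinj hcard in
theorem map_trace_eq_sum (a : F') : e (Algebra.trace F F' a) = ∑ i, σ i a := by
  classical
  letI := ((algebraMap Ω (AlgebraicClosure Ω)).comp e).toAlgebra
  obtain ⟨φ, hφ, hφa⟩ := exists_closure_bijective hσ hinj hcard
  apply (algebraMap Ω (AlgebraicClosure Ω)).injective
  rw [map_sum]
  refine (trace_eq_sum_embeddings (K := F) (E := AlgebraicClosure Ω) (x := a)).trans ?_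
  exact (Fintype.sum_bijective φ hφ _ _ fun i => (hφa i a).symm).symm

include hσ hinj hcard in
/-- The coefficients of the minimal polynomial lie in any subring containing all conjugates. -/
theorem map_minpoly_coeff_mem (V : Subring Ω) {a : F'} (ha : ∀ i, σ i a ∈ V) (n : ℕ) :
    e ((minpoly F a).coeff n) ∈ V := by
  classical
  letI := ((algebraMap Ω (AlgebraicClosure Ω)).comp e).toAlgebra
  obtain ⟨φ, hφ, hφa⟩ := exists_closure_bijective hσ hinj hcard
  let V' : Subring (AlgebraicClosure Ω) := V.map (algebraMap Ω (AlgebraicClosure Ω))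
  set P := (minpoly F a).map (algebraMap F (AlgebraicClosure Ω)) with hP
  have hint : IsIntegral F a := IsIntegral.of_finite F a
  have hmonic : P.Monic := (minpoly.monic hint).map _
  have hsplit : P.Splits := IsAlgClosed.splits P
  have hroots : ∀ r ∈ P.roots, r ∈ V' := by
    intro r hr
    have hmem : r ∈ Set.range fun ψ : F' →ₐ[F] AlgebraicClosure Ω => ψ a := by
      rw [Algebra.IsAlgebraic.range_eval_eq_rootSet_minpoly, Polynomial.mem_rootSet']
      exact ⟨hmonic.ne_zero, by
        simpa [hP, Polynomial.aeval_def, Polynomial.eval_map] using (Polynomial.mem_roots'.mp hr).2⟩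
    obtain ⟨ψ, rfl⟩ := hmem
    obtain ⟨i, rfl⟩ := hφ.2 ψ
    exact ⟨σ i a, ha i, (hφa i a).symm⟩
  have hlift : P ∈ Polynomial.lifts V'.subtype := by
    rw [hsplit.eq_prod_roots_of_monic hmonic]
    refine multiset_prod_mem _ fun p hp => ?_
    obtain ⟨r, hr, rfl⟩ := Multiset.mem_map.mp hp
    exact ⟨Polynomial.X - Polynomial.C ⟨r, hroots r hr⟩, by simp⟩
  obtain ⟨c, hc⟩ := (Polynomial.lifts_iff_coeff_lifts P).mp hlift n
  obtain ⟨v, hv, hv'⟩ : P.coeff n ∈ V' := hc ▸ c.2
  rw [hP, Polynomial.coeff_map] at hv'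
  rwa [← (algebraMap Ω (AlgebraicClosure Ω)).injective hv']

end FermatLib.Igusa.Carayol
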