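import Mathlib
import Fermat.Agent.Igusa.LaurentLattice
import Fermat.Agent.Igusa.MonoNewScale

/-!
The Gauss valuation on the field of bounded Laurent series over a discrete valuation ring, with
its reduction into the Laurent series over the residue field.
-/

set_option autoImplicit false

noncomputable section

open ModularCurve HahnSeries IsLocalRing FermatLib.Igusa

namespace FermatLib.Igusa.Carayol

variable {L : Type*} [Field L] {A : ValuationSubring L} {k : Type*} [Field k] (π : A →+* k)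

/-- Series which are a quotient of integral series with denominator of nonzero reduction. -/
def gaussInt : Subring (LaurentSeries L) where
  carrier := {f | ∃ y z : LaurentSeries A, latRed π z ≠ 0 ∧ f * latVal A z = latVal A y}
  one_mem' := ⟨1, 1, by simp, by simp⟩
  zero_mem' := ⟨0, 1, by simp, by simp⟩
  mul_mem' := by
    rintro f g ⟨y, z, hz, h⟩ ⟨y', z', hz', h'⟩
    refine ⟨y * y', z * z', by simp [hz, hz'], ?_⟩
    rw [map_mul, map_mul, mul_mul_mul_comm, h, h']
  add_mem' := by
    rintro f g ⟨y, z, hz, h⟩ ⟨y', z', hz', h'⟩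
    refine ⟨y * z' + y' * z, z * z', by simp [hz, hz'], ?_⟩
    rw [map_add, map_mul, map_mul, map_mul, ← h, ← h']
    ring
  neg_mem' := by
    rintro f ⟨y, z, hz, h⟩
    exact ⟨-y, z, hz, by rw [neg_mul, h, map_neg]⟩

variable {π}

theorem latVal_mem_gaussInt (y : LaurentSeries A) : latVal A y ∈ gaussInt π :=
  ⟨y, 1, by simp, by simp⟩

theorem algebraMap_mem_gaussInt (a : A) :
    algebraMap L (LaurentSeries L) (a : L) ∈ gaussInt π := by
  rw [algebraMap_laurentSeries_eq_single, ← latVal_single]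
  exact latVal_mem_gaussInt _

theorem gaussInt_ratio_eq {f : LaurentSeries L} {y z y' z' : LaurentSeries A}
    (hz : latRed π z ≠ 0) (hz' : latRed π z' ≠ 0) (h : f * latVal A z = latVal A y)
    (h' : f * latVal A z' = latVal A y') :
    latRed π y / latRed π z = latRed π y' / latRed π z' := by
  have : y * z' = y' * z := latVal_injective (by
    rw [map_mul, map_mul, ← h, ← h']
    ring)
  rw [div_eq_div_iff hz hz', ← map_mul, ← map_mul, this]

variable (π)

open Classical in
/-- The reduction, zero outside the integral series. -/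
def gred (f : LaurentSeries L) : LaurentSeries k :=
  if h : ∃ y z : LaurentSeries A, latRed π z ≠ 0 ∧ f * latVal A z = latVal A y then
    latRed π h.choose / latRed π h.choose_spec.choose else 0

variable {π}

theorem gred_eq {f : LaurentSeries L} {y z : LaurentSeries A} (hz : latRed π z ≠ 0)
    (h : f * latVal A z = latVal A y) : gred π f = latRed π y / latRed π z := by
  have hex : ∃ y z : LaurentSeries A, latRed π z ≠ 0 ∧ f * latVal A z = latVal A y := ⟨y, z, hz, h⟩
  rw [gred, dif_pos hex]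
  exact gaussInt_ratio_eq hex.choose_spec.choose_spec.1 hz hex.choose_spec.choose_spec.2 h

@[simp] theorem gred_latVal (y : LaurentSeries A) : gred π (latVal A y) = latRed π y := by
  rw [gred_eq (y := y) (z := 1) (by simp) (by simp), map_one, div_one]

theorem gred_one : gred π (1 : LaurentSeries L) = 1 := by
  simpa using gred_latVal (π := π) (1 : LaurentSeries A)

theorem gred_zero : gred π (0 : LaurentSeries L) = 0 := by
  simpa using gred_latVal (π := π) (0 : LaurentSeries A)

theorem gred_algebraMap (a : A) :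
    gred π (algebraMap L (LaurentSeries L) (a : L)) = algebraMap k (LaurentSeries k) (π a) := by
  rw [algebraMap_laurentSeries_eq_single, ← latVal_single, gred_latVal, latRed_single,
    algebraMap_laurentSeries_eq_single]

theorem gred_mul {f g : LaurentSeries L} (hf : f ∈ gaussInt π) (hg : g ∈ gaussInt π) :
    gred π (f * g) = gred π f * gred π g := by
  obtain ⟨y, z, hz, h⟩ := hf
  obtain ⟨y', z', hz', h'⟩ := hg
  rw [gred_eq hz h, gred_eq hz' h', gred_eq (y := y * y') (z := z * z') (by simp [hz, hz'])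
    (by rw [map_mul, map_mul, mul_mul_mul_comm, h, h']), map_mul, map_mul, div_mul_div_comm]

theorem gred_add {f g : LaurentSeries L} (hf : f ∈ gaussInt π) (hg : g ∈ gaussInt π) :
    gred π (f + g) = gred π f + gred π g := by
  obtain ⟨y, z, hz, h⟩ := hf
  obtain ⟨y', z', hz', h'⟩ := hg
  rw [gred_eq hz h, gred_eq hz' h', gred_eq (y := y * z' + y' * z) (z := z * z')
      (by simp [hz, hz'])
      (by rw [map_add, map_mul, map_mul, map_mul, ← h, ← h']; ring),
    div_add_div _ _ hz hz', map_add, map_mul, map_mul, map_mul,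
    mul_comm (latRed π z) (latRed π y')]

theorem gred_pow {f : LaurentSeries L} (hf : f ∈ gaussInt π) (n : ℕ) :
    gred π (f ^ n) = gred π f ^ n := by
  induction n with
  | zero => simp [gred_one]
  | succ n ih => rw [pow_succ, gred_mul (pow_mem hf n) hf, ih, pow_succ]

variable (π)

/-- The reduction homomorphism on the integral series. -/
def gaussIntRed : gaussInt π →+* LaurentSeries k where
  toFun f := gred π f
  map_one' := gred_one
  map_zero' := gred_zero
  map_mul' f g := gred_mul f.2 g.2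
  map_add' f g := gred_add f.2 g.2

@[simp] theorem gaussIntRed_apply (f : gaussInt π) : gaussIntRed π f = gred π f := rfl

variable {π}

theorem inv_mem_gaussInt {f : LaurentSeries L} (hf : f ∈ gaussInt π) (h0 : gred π f ≠ 0) :
    f⁻¹ ∈ gaussInt π := by
  obtain ⟨y, z, hz, h⟩ := hf
  rw [gred_eq hz h, div_ne_zero_iff] at h0
  have hf0 : f ≠ 0 := fun hf0 => by
    rw [hf0, zero_mul, eq_comm, ← map_zero (latVal A)] at h
    exact h0.1 (by rw [latVal_injective h, map_zero])
  exact ⟨z, y, h0.1, by rw [← h, ← mul_assoc, inv_mul_cancel₀ hf0, one_mul]⟩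

theorem gred_inv {f : LaurentSeries L} (hf : f ∈ gaussInt π) (h0 : gred π f ≠ 0) :
    gred π f⁻¹ = (gred π f)⁻¹ := by
  have hf0 : f ≠ 0 := fun h => h0 (by rw [h, gred_zero])
  refine eq_inv_of_mul_eq_one_left ?_
  rw [← gred_mul (inv_mem_gaussInt hf h0) hf, inv_mul_cancel₀ hf0, gred_one]

/-- A constant of positive valuation times an integral series reduces to zero. -/
theorem gred_algebraMap_mul_eq_zero {a : A} (ha : π a = 0) {f : LaurentSeries L}
    (hf : f ∈ gaussInt π) : gred π (algebraMap L (LaurentSeries L) (a : L) * f) = 0 := by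
  rw [gred_mul (algebraMap_mem_gaussInt a) hf, gred_algebraMap, ha, map_zero,
    zero_mul]

section field

variable (A)

/-- The field of bounded series. -/
def gaussField : IntermediateField L (LaurentSeries L) where
  carrier := {f | ∃ y z : LaurentSeries A, z ≠ 0 ∧ f * latVal A z = latVal A y}
  one_mem' := ⟨1, 1, one_ne_zero, by simp⟩
  zero_mem' := ⟨0, 1, one_ne_zero, by simp⟩
  mul_mem' := by
    rintro f g ⟨y, z, hz, h⟩ ⟨y', z', hz', h'⟩
    refine ⟨y * y', z * z', mul_ne_zero hz hz', ?_⟩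
    rw [map_mul, map_mul, mul_mul_mul_comm, h, h']
  add_mem' := by
    rintro f g ⟨y, z, hz, h⟩ ⟨y', z', hz', h'⟩
    refine ⟨y * z' + y' * z, z * z', mul_ne_zero hz hz', ?_⟩
    rw [map_add, map_mul, map_mul, map_mul, ← h, ← h']
    ring
  algebraMap_mem' c := by
    rw [algebraMap_laurentSeries_eq_single]
    rcases A.mem_or_inv_mem c with hc | hc
    · exact ⟨single 0 ⟨c, hc⟩, 1, one_ne_zero, by rw [map_one, mul_one, latVal_single]⟩
    rcases eq_or_ne c 0 with rfl | h0
    · exact ⟨0, 1, one_ne_zero, by simp⟩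
    refine ⟨1, single 0 ⟨c⁻¹, hc⟩, single_ne_zero fun h => h0 ?_, ?_⟩
    · simpa using congrArg Subtype.val h
    · rw [latVal_single, single_mul_single, map_one, add_zero, mul_inv_cancel₀ h0,
        single_zero_one]
  inv_mem' := by
    rintro f ⟨y, z, hz, h⟩
    rcases eq_or_ne f 0 with rfl | hf
    · exact ⟨0, 1, one_ne_zero, by simp⟩
    refine ⟨z, y, fun hy => ?_, by rw [← h, ← mul_assoc, inv_mul_cancel₀ hf, one_mul]⟩
    rw [hy, map_zero, mul_eq_zero] at h
    exact hz (latVal_injective ((h.resolve_left hf).trans (map_zero _).symm))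

variable {A}

theorem gaussInt_le_gaussField {f : LaurentSeries L} (hf : f ∈ gaussInt π) : f ∈ gaussField A := by
  obtain ⟨y, z, hz, h⟩ := hf
  exact ⟨y, z, fun h0 => hz (by rw [h0, map_zero]), h⟩

variable [IsDiscreteValuationRing A]

/-- Content of a nonzero series over the discrete valuation ring. -/
theorem exists_content (hπ : ∀ a : A, π a = 0 ↔ ¬ IsUnit a) {ϖ : A} (hϖ : Irreducible ϖ)
    {y : LaurentSeries A} (hy : y ≠ 0) :
    ∃ (n : ℕ) (y' : LaurentSeries A), latRed π y' ≠ 0 ∧ y = single 0 (ϖ ^ n) * y' := by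
  classical
  obtain ⟨i₁, hi₁⟩ : ∃ i, y.coeff i ≠ 0 := by
    by_contra! h
    exact hy (by ext i; simp [h i])
  have hex : ∃ n : ℕ, ∃ i, y.coeff i ≠ 0 ∧ ∃ u : Aˣ, y.coeff i = u * ϖ ^ n := by
    obtain ⟨n, u, hu⟩ := IsDiscreteValuationRing.eq_unit_mul_pow_irreducible hi₁ hϖ
    exact ⟨n, i₁, hi₁, u, hu⟩
  obtain ⟨i₀, -, u₀, hu₀⟩ := Nat.find_spec hex
  have hdvd : ∀ i, ϖ ^ Nat.find hex ∣ y.coeff i := by
    intro i
    rcases eq_or_ne (y.coeff i) 0 with h | h
    · simp [h]
    obtain ⟨n, u, hu⟩ := IsDiscreteValuationRing.eq_unit_mul_pow_irreducible h hϖ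
    rw [hu]
    exact (pow_dvd_pow ϖ (Nat.find_le ⟨i, h, u, hu⟩)).mul_left _
  obtain ⟨y', hy'⟩ := (single_dvd_iff _ y).mpr hdvd
  refine ⟨Nat.find hex, y', fun h0 => ?_, hy'⟩
  have h1 := congrArg (fun x : LaurentSeries A => x.coeff i₀) hy'
  simp only [coeff_single_mul, sub_zero] at h1
  rw [hu₀, mul_comm] at h1
  have h2 : y'.coeff i₀ = u₀ := (mul_left_cancel₀ (pow_ne_zero _ hϖ.ne_zero) h1).symm
  have h3 := congrArg (fun x : LaurentSeries k => x.coeff i₀) h0
  simp only [latRed_coeff, h2, coeff_zero] at h3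
  exact (hπ _).mp h3 u₀.isUnit

/-- Normalisation of a nonzero bounded series by a power of the uniformiser. -/
theorem exists_zpow_mul_gred_ne_zero (hπ : ∀ a : A, π a = 0 ↔ ¬ IsUnit a) {ϖ : A}
    (hϖ : Irreducible ϖ) {f : LaurentSeries L} (hf : f ∈ gaussField A) (hf0 : f ≠ 0) :
    ∃ n : ℤ, algebraMap L (LaurentSeries L) ((ϖ : L) ^ n) * f ∈ gaussInt π ∧
      gred π (algebraMap L (LaurentSeries L) ((ϖ : L) ^ n) * f) ≠ 0 := by
  obtain ⟨y, z, hz, h⟩ := hf
  have hy : y ≠ 0 := fun hy => by
    rw [hy, map_zero, mul_eq_zero] at h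
    exact hz (latVal_injective ((h.resolve_left hf0).trans (map_zero _).symm))
  obtain ⟨n₁, y', hy', rfl⟩ := exists_content hπ hϖ hy
  obtain ⟨n₂, z', hz', rfl⟩ := exists_content hπ hϖ hz
  have hL : (ϖ : L) ≠ 0 := by simpa using hϖ.ne_zero
  rw [map_mul, map_mul, latVal_single, latVal_single, ← algebraMap_laurentSeries_eq_single,
    ← algebraMap_laurentSeries_eq_single, SubmonoidClass.coe_pow, SubmonoidClass.coe_pow] at h
  set φ := algebraMap L (LaurentSeries L)
  have h1 : φ ((ϖ : L) ^ n₁) ≠ 0 := (_root_.map_ne_zero φ).mpr (pow_ne_zero _ hL)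
  have h' : φ ((ϖ : L) ^ ((n₂ : ℤ) - n₁)) * f * latVal A z' = latVal A y' := by
    rw [zpow_sub₀ hL, zpow_natCast, zpow_natCast, map_div₀, div_mul_eq_mul_div,
      div_mul_eq_mul_div, div_eq_iff h1, mul_comm (φ _) f, mul_assoc, h, mul_comm]
  refine ⟨(n₂ : ℤ) - n₁, ⟨y', z', hz', h'⟩, ?_⟩
  rw [gred_eq hz' h', div_ne_zero_iff]
  exact ⟨hy', hz'⟩

theorem mem_or_inv_mem_gaussInt (hπ : ∀ a : A, π a = 0 ↔ ¬ IsUnit a) {f : LaurentSeries L}
    (hf : f ∈ gaussField A) : f ∈ gaussInt π ∨ f⁻¹ ∈ gaussInt π := by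
  rcases eq_or_ne f 0 with rfl | hf0
  · exact Or.inl (zero_mem _)
  obtain ⟨ϖ, hϖ⟩ := IsDiscreteValuationRing.exists_irreducible A
  have hL : (ϖ : L) ≠ 0 := by simpa using hϖ.ne_zero
  obtain ⟨n, hn, hn0⟩ := exists_zpow_mul_gred_ne_zero hπ hϖ hf hf0
  have hp : ∀ d : ℕ, algebraMap L (LaurentSeries L) ((ϖ : L) ^ d) ∈ gaussInt π := fun d => by
    simpa using algebraMap_mem_gaussInt (π := π) (ϖ ^ d)
  have hne : ∀ d : ℕ, algebraMap L (LaurentSeries L) ((ϖ : L) ^ d) ≠ 0 := fun d =>
    (_root_.map_ne_zero _).mpr (pow_ne_zero _ hL)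
  rcases le_or_gt n 0 with h | h
  · left
    obtain ⟨d, rfl⟩ := Int.exists_eq_neg_ofNat h
    have := mul_mem (hp d) hn
    rwa [zpow_neg, zpow_natCast, map_inv₀, mul_inv_cancel_left₀ (hne d)] at this
  · right
    obtain ⟨d, rfl⟩ := Int.eq_ofNat_of_zero_le h.le
    rw [zpow_natCast] at hn hn0
    have := mul_mem (hp d) (inv_mem_gaussInt hn hn0)
    rwa [mul_inv, mul_inv_cancel_left₀ (hne d)] at this

end field

section transport

/-- Endomorphisms of the three series rings compatible with value and reduction preserve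
integrality and commute with reduction. -/
theorem map_mem_gaussInt_and_gred (τA : LaurentSeries A →+* LaurentSeries A)
    (τ : LaurentSeries L →+* LaurentSeries L) (τk : LaurentSeries k →+* LaurentSeries k)
    (hL : ∀ y, latVal A (τA y) = τ (latVal A y)) (hk : ∀ y, latRed π (τA y) = τk (latRed π y))
    {f : LaurentSeries L} (hf : f ∈ gaussInt π) :
    τ f ∈ gaussInt π ∧ gred π (τ f) = τk (gred π f) := by
  obtain ⟨y, z, hz, h⟩ := hf
  have hz' : latRed π (τA z) ≠ 0 := by rw [hk]; simpa using hz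
  have h' : τ f * latVal A (τA z) = latVal A (τA y) := by rw [hL, hL, ← map_mul, h]
  refine ⟨⟨_, _, hz', h'⟩, ?_⟩
  rw [gred_eq hz' h', gred_eq hz h, hk, hk, map_div₀]

theorem qExpand_mem_gaussInt (n : ℕ) [NeZero n] {f : LaurentSeries L} (hf : f ∈ gaussInt π) :
    qExpand L n f ∈ gaussInt π ∧ gred π (qExpand L n f) = qExpand k n (gred π f) :=
  map_mem_gaussInt_and_gred (qExpand A n) (qExpand L n) (qExpand k n)
    (fun y => coeffMap_qExpand _ n y) (fun y => coeffMap_qExpand _ n y) hf

/-- Twisting by a unit with reduction one does not change the reduction. -/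
theorem monoNewScale_mem_gaussInt (c : Aˣ) (hc : π (c : A) = 1) {f : LaurentSeries L}
    (hf : f ∈ gaussInt π) :
    monoNewScale (Units.map (A.subtype : A →* L) c) f ∈ gaussInt π ∧
      gred π (monoNewScale (Units.map (A.subtype : A →* L) c) f) = gred π f := by
  have h1 : Units.map (π : A →* k) c = 1 := Units.ext hc
  refine map_mem_gaussInt_and_gred (monoNewScale c) _ (RingHom.id _)
    (fun y => coeffMap_monoNewScale _ c y) (fun y => ?_) hf
  rw [latRed, coeffMap_monoNewScale, h1, monoNewScale_one]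
  rfl

end transport

end FermatLib.Igusa.Carayol
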