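import Mathlib
import Fermat.Agent.Igusa.Carayol.Gauss

/-!
The abstract datum of the tower `X₀(N q²) → X₀(N q) → X₀(N)` used in Carayol's argument: three
function fields over an unramified base, the two degeneracy maps at each step, the Atkin–Lehner
involutions and the expansions at the cusps `∞` and `1 / (N q)`.
-/

set_option autoImplicit false

noncomputable section

open ModularCurve HahnSeries FermatLib.Igusa

namespace FermatLib.Igusa.Carayol

/-- `u d/du` on Laurent series. -/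
def thetaSeries {R : Type*} [CommRing R] (f : LaurentSeries R) : LaurentSeries R where
  coeff n := (n : R) * f.coeff n
  isPWO_support' := f.isPWO_support.mono fun n hn => by
    rw [HahnSeries.mem_support]
    intro h
    exact hn (by simp [h])

@[simp] theorem thetaSeries_coeff {R : Type*} [CommRing R] (f : LaurentSeries R) (n : ℤ) :
    (thetaSeries f).coeff n = (n : R) * f.coeff n := rfl

/-- The rings and reduction map under the tower. -/
structure Base (q : ℕ) where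
  K : Type
  L : Type
  k : Type
  [fieldK : Field K]
  [fieldL : Field L]
  [fieldk : Field k]
  [charZeroK : CharZero K]
  [algKL : Algebra K L]
  [algClosed : IsAlgClosed k]
  [charP : CharP k q]
  prime : q.Prime
  A : ValuationSubring L
  [dvrA : IsDiscreteValuationRing A]
  π : A →+* k
  π_eq_zero : ∀ a : A, π a = 0 ↔ ¬ IsUnit a
  π_surjective : ∀ c : k, ∃ (w : K) (hw : algebraMap K L w ∈ A), π ⟨_, hw⟩ = c
  irreducible_q : Irreducible (q : (A.comap (algebraMap K L)))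
  ζ : Aˣ
  ζ_primitive : IsPrimitiveRoot ((ζ : A) : L) q
  π_ζ : π (ζ : A) = 1
  ram : ∀ a : A, ¬ IsUnit a → (q : A) ∣ a ^ (q - 1)
  exists_conj : ∀ i : ℕ, ¬ q ∣ i → ∃ σ : L →ₐ[K] L,
    σ ((ζ : A) : L) = ((ζ : A) : L) ^ i ∧ ∀ a ∈ A, σ a ∈ A
  algebraic_k : ∀ c : k, ∃ n : ℕ, 0 < n ∧ c ^ q ^ n = c

attribute [instance] Base.fieldK Base.fieldL Base.fieldk Base.charZeroK Base.algKL Base.algClosed
  Base.charP Base.dvrA

namespace Base

variable {q : ℕ} (B : Base q)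

/-- The valuation ring of the base. -/
abbrev W : ValuationSubring B.K := B.A.comap (algebraMap B.K B.L)

/-- The root of unity as a unit of `L`. -/
def ζL : B.Lˣ := Units.map (B.A.subtype : B.A →* B.L) B.ζ

/-- The reduction of a bounded series. -/
abbrev red : LaurentSeries B.L → LaurentSeries B.k := gred B.π

end Base

/-- The tower of the three levels. -/
structure Tower (q : ℕ) [NeZero q] extends Base q where
  F₀ : Type
  F₁ : Type
  F₂ : Type
  [field₀ : Field F₀]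
  [field₁ : Field F₁]
  [field₂ : Field F₂]
  [alg₀ : Algebra K F₀]
  [alg₁ : Algebra K F₁]
  [alg₂ : Algebra K F₂]
  ι₀ : F₀ →ₐ[K] F₁
  β₀ : F₀ →ₐ[K] F₁
  ι₁ : F₁ →ₐ[K] F₂
  β₁ : F₁ →ₐ[K] F₂
  comm : ∀ x, β₁ (ι₀ x) = ι₁ (β₀ x)
  w₁ : F₁ ≃ₐ[K] F₁
  w₁_ι₀ : ∀ x, w₁ (ι₀ x) = β₀ x
  w₁_w₁ : ∀ y, w₁ (w₁ y) = y
  w₂ : F₂ ≃ₐ[K] F₂
  w₂_ι₁ : ∀ y, w₂ (ι₁ y) = β₁ (w₁ y)
  w₂_w₂ : ∀ y, w₂ (w₂ y) = y
  /-- The expansion at `∞`. -/
  ε : F₂ →+* LaurentSeries L
  /-- The expansion at `1 / (N q)`. -/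
  εb : F₂ →+* LaurentSeries L
  ε_algebraMap : ∀ c, ε (algebraMap K F₂ c) = algebraMap L (LaurentSeries L) (algebraMap K L c)
  ε_rat : ∀ y n, (ε y).coeff n ∈ Set.range (algebraMap K L)
  /-- The expansions at `∞` have content a power of `q`. -/
  ε_content : ∀ y : F₂, y ≠ 0 → ∃ n : ℤ,
    algebraMap L (LaurentSeries L) ((q : L) ^ n) * ε y ∈ gaussInt π ∧
      gred π (algebraMap L (LaurentSeries L) ((q : L) ^ n) * ε y) ≠ 0
  ε_bounded : ∀ y, ε y ∈ gaussField A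
  εb_bounded : ∀ y, εb y ∈ gaussField A
  ε_β₁ : ∀ y, ε (β₁ y) = qExpand L q (ε (ι₁ y))
  εb_ι₁ : ∀ y, εb (ι₁ y) = ε (ι₁ y)
  εb_β : ∀ x, εb (β₁ (β₀ x)) =
    monoNewScale (Units.map (A.subtype : A →* L) ζ) (ε (ι₁ (ι₀ x)))
  finrank₀ : letI := ι₀.toRingHom.toAlgebra
    Module.finrank F₀ F₁ = q + 1
  finrank₁ : letI := ι₁.toRingHom.toAlgebra
    Module.finrank F₁ F₂ = q
  adjoin₁ : IntermediateField.adjoin K (Set.range ι₀ ∪ Set.range β₀) = ⊤
  adjoin₂ : IntermediateField.adjoin K (Set.range ι₁ ∪ Set.range β₁) = ⊤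
  j : F₀
  transcendental_j : Transcendental K j
  finite_j : FiniteDimensional (IntermediateField.adjoin K {j}) F₀
  j_coeff : ((ε (ι₁ (ι₀ j))).coeff (-1)) = 1
  j_int : ∀ i, (ε (ι₁ (ι₀ j))).coeff i ∈ Set.range (Int.cast : ℤ → L)

attribute [instance] Tower.field₀ Tower.field₁ Tower.field₂ Tower.alg₀ Tower.alg₁ Tower.alg₂

namespace Tower

variable {q : ℕ} [NeZero q] (T : Tower q)

/-- The expansion of level `N` at `∞`. -/
def e₀ : T.F₀ →+* LaurentSeries T.L := T.ε.comp (T.ι₁.toRingHom.comp T.ι₀.toRingHom)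

/-- The expansion of level `N q` at `∞`. -/
def e₁ : T.F₁ →+* LaurentSeries T.L := T.ε.comp T.ι₁.toRingHom

/-- The expansion at the cusp `0` in the variable of the top level. -/
def εc : T.F₂ →+* LaurentSeries T.L := T.ε.comp T.w₂.toRingEquiv.toRingHom

@[simp] theorem e₀_apply (x : T.F₀) : T.e₀ x = T.ε (T.ι₁ (T.ι₀ x)) := rfl

@[simp] theorem e₁_apply (y : T.F₁) : T.e₁ y = T.ε (T.ι₁ y) := rfl

@[simp] theorem εc_apply (y : T.F₂) : T.εc y = T.ε (T.w₂ y) := rfl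

/-- An element of level `N` whose reduced expansion has coefficients fixed by Frobenius. -/
def IsRat (a : T.F₀) : Prop :=
  T.e₀ a ∈ gaussInt T.π ∧ qExpand T.k q (T.red (T.e₀ a)) = T.red (T.e₀ a) ^ q

/-- The functions of level `N` integral over `W[t]`. -/
def chart₀ (t : T.F₀) : Subalgebra T.W T.F₀ :=
  (integralClosure (Algebra.adjoin T.W {t}) T.F₀).restrictScalars T.W

/-- The functions of level `N q` integral over `W[t]`. -/
def chart₁ (t : T.F₀) : Subalgebra T.W T.F₁ :=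
  (integralClosure (Algebra.adjoin T.W {T.ι₀ t}) T.F₁).restrictScalars T.W

/-- The functions of level `N q²` integral over `W[t]`. -/
def chart₂ (t : T.F₀) : Subalgebra T.W T.F₂ :=
  (integralClosure (Algebra.adjoin T.W {T.ι₁ (T.ι₀ t)}) T.F₂).restrictScalars T.W

/-- The properties of the level `N` (good reduction at `q`, no elliptic points) and of the
modular polynomial of degree `q` used in the argument. -/
structure Inputs : Prop where
  /-- `q`-divisibility of functions on the finite chart is read on the expansion. -/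
  gauss_mem : ∀ a : T.F₀, IsIntegral (Algebra.adjoin T.K {T.j}) a → T.e₀ a ∈ gaussInt T.π →
    a ∈ T.chart₀ T.j
  gauss_mem_inf : ∀ a : T.F₀, IsIntegral (Algebra.adjoin T.K {T.j⁻¹}) a →
    T.e₀ a ∈ gaussInt T.π → a ∈ T.chart₀ T.j⁻¹
  /-- Smoothness: reductions of the chart exhaust the normal affine ring of the reduced curve. -/
  smooth : ∀ a b : T.F₀, T.e₀ a ∈ gaussInt T.π → T.e₀ b ∈ gaussInt T.π →
    T.red (T.e₀ b) ≠ 0 →
    IsIntegral (Algebra.adjoin T.k {T.red (T.e₀ T.j)}) (T.red (T.e₀ a) / T.red (T.e₀ b)) →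
    T.red (T.e₀ a) / T.red (T.e₀ b) ∈ Submodule.span T.k
      {h | ∃ c ∈ T.chart₀ T.j, T.IsRat c ∧ h = T.red (T.e₀ c)}
  smooth_inf : ∀ a b : T.F₀, T.e₀ a ∈ gaussInt T.π → T.e₀ b ∈ gaussInt T.π →
    T.red (T.e₀ b) ≠ 0 →
    IsIntegral (Algebra.adjoin T.k {(T.red (T.e₀ T.j))⁻¹}) (T.red (T.e₀ a) / T.red (T.e₀ b)) →
    T.red (T.e₀ a) / T.red (T.e₀ b) ∈ Submodule.span T.k
      {h | ∃ c ∈ T.chart₀ T.j⁻¹, T.IsRat c ∧ h = T.red (T.e₀ c)}
  /-- No elliptic points: `j` has only zeros of order `≥ 3`. -/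
  elliptic_zero : ∀ V : ValuationSubring T.F₀, V ≠ ⊤ →
    (∀ c : T.K, algebraMap T.K T.F₀ c ∈ V) → ∀ t ∈ V.nonunits, T.j ∈ V.nonunits →
      T.j / t ^ 3 ∈ V ∨ ∃ t' ∈ V.nonunits, t' ≠ 0 ∧ t / t' ∈ V.nonunits
  /-- No elliptic points: `j - 1728` has only zeros of order `≥ 2`. -/
  elliptic_1728 : ∀ V : ValuationSubring T.F₀, V ≠ ⊤ →
    (∀ c : T.K, algebraMap T.K T.F₀ c ∈ V) → ∀ t ∈ V.nonunits, T.j - 1728 ∈ V.nonunits →
      (T.j - 1728) / t ^ 2 ∈ V ∨ ∃ t' ∈ V.nonunits, t' ≠ 0 ∧ t / t' ∈ V.nonunits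
  /-- `(θ j)^6 = j^4 (j - 1728)^3 Δ`, and the modular unit `q^12 Δ(qτ)/Δ(τ)` of level `N q`. -/
  delta : ∃ (Δ : LaurentSeries T.L) (U : T.F₁),
    Δ ∈ gaussInt T.π ∧ T.red Δ ≠ 0 ∧
    thetaSeries (T.e₀ T.j) ^ 6 = T.e₀ T.j ^ 4 * (T.e₀ T.j - 1728) ^ 3 * Δ ∧
    U ∈ T.chart₁ T.j ∧ T.e₁ U ∈ gaussInt T.π ∧ T.red (T.e₁ U) = 0 ∧
    T.e₁ (T.w₁ U) ∈ gaussInt T.π ∧ T.red (T.e₁ (T.w₁ U)) * T.red Δ ^ (q - 1) = 1
  /-- The modular polynomial of degree `q`. -/
  modular : ∃ Φ : Polynomial (Polynomial ℤ), Φ.Monic ∧ Φ.natDegree = q + 1 ∧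
    (Φ.map (Polynomial.aeval (T.ι₀ T.j)).toRingHom).eval (T.β₀ T.j) = 0 ∧
    (∀ i ≤ q + 1, (Φ.coeff i).natDegree + q * i ≤ q * (q + 1)) ∧
    (∀ i, (Φ.coeff i).natDegree ≤ q + 1) ∧
    (Φ.coeff 0).natDegree = q + 1 ∧ (Φ.coeff 0).Monic ∧
    Polynomial.C (Polynomial.C (q : ℤ)) ∣
      Φ - (Polynomial.X - Polynomial.C (Polynomial.X ^ q)) *
        (Polynomial.X ^ q - Polynomial.C Polynomial.X)

/-- `f` is locally, away from the constants, a `m`-th power. -/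
def IsLocPow {F : Type} [Field F] [Algebra T.K F] (m : ℕ) (f : F) : Prop :=
  ∀ V : ValuationSubring F, V ≠ ⊤ → (∀ c : T.K, algebraMap T.K F c ∈ V) →
    ∃ a : F, a ≠ 0 ∧ a ^ m / f ∈ V ∧ (a ^ m / f)⁻¹ ∈ V

/-- The exponent killing the obstruction. -/
def bound (q : ℕ) : ℕ := ((q + 1) * (q - 1)) ^ 4

/-- **The main statement about the tower**: a function which is locally an `m`-th power and
whose norms to both copies of level `N q` are constants times `m`-th powers is, up to the exponent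
`bound q`, globally an `m`-th power times a constant. -/
def MainStatement : Prop :=
  ∀ (m : ℕ), (m : T.k) ≠ 0 → ∀ (f : T.F₂), f ≠ 0 → T.IsLocPow m f →
    (letI := T.ι₁.toRingHom.toAlgebra
      ∃ (γ : T.K) (G : T.F₁), Algebra.norm T.F₁ f = algebraMap T.K T.F₁ γ * G ^ m) →
    (letI := T.β₁.toRingHom.toAlgebra
      ∃ (γ : T.K) (G : T.F₁), Algebra.norm T.F₁ f = algebraMap T.K T.F₁ γ * G ^ m) →
    ∃ a : T.F₂, a ≠ 0 ∧ ∀ V : ValuationSubring T.F₂,
      (∀ c : T.K, algebraMap T.K T.F₂ c ∈ V) → a ^ m / f ^ bound q ∈ V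

end Tower

end FermatLib.Igusa.Carayol
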