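import Mathlib
import Fermat.Agent.Igusa.Carayol.Tower
import Fermat.Agent.Igusa.Carayol.Embeddings

/-!
First consequences of the tower datum: constants, the base ring, rings of the charts.
-/

set_option autoImplicit false
set_option maxHeartbeats 400000

noncomputable section

open ModularCurve HahnSeries FermatLib.Igusa

namespace FermatLib.Igusa.Carayol

namespace Tower

variable {q : ℕ} [NeZero q] (T : Tower q)

theorem coe_mem_A (w : T.W) : algebraMap T.K T.L (w : T.K) ∈ T.A := w.2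

/-- The reduction of the base ring. -/
def πW : T.W →+* T.k where
  toFun w := T.π ⟨_, T.coe_mem_A w⟩
  map_one' := (congrArg T.π (Subtype.ext (map_one (algebraMap T.K T.L)))).trans (map_one T.π)
  map_zero' := (congrArg T.π (Subtype.ext (map_zero (algebraMap T.K T.L)))).trans (map_zero T.π)
  map_mul' a b := (congrArg T.π (Subtype.ext (map_mul (algebraMap T.K T.L) (a : T.K) b))).trans
    (map_mul T.π _ _)
  map_add' a b := (congrArg T.π (Subtype.ext (map_add (algebraMap T.K T.L) (a : T.K) b))).trans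
    (map_add T.π _ _)

theorem πW_surjective : Function.Surjective T.πW := fun c => by
  obtain ⟨w, hw, h⟩ := T.π_surjective c
  exact ⟨⟨w, hw⟩, h⟩

theorem πW_q : T.πW (q : T.W) = 0 := by
  rw [map_natCast, CharP.cast_eq_zero]

theorem ι₁₀_algebraMap (c : T.K) :
    T.ι₁ (T.ι₀ (algebraMap T.K T.F₀ c)) = algebraMap T.K T.F₂ c := by
  simp

theorem e₀_algebraMap (c : T.K) :
    T.e₀ (algebraMap T.K T.F₀ c) = algebraMap T.L (LaurentSeries T.L) (algebraMap T.K T.L c) := by
  rw [e₀_apply, ι₁₀_algebraMap, T.ε_algebraMap]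

theorem e₁_algebraMap (c : T.K) :
    T.e₁ (algebraMap T.K T.F₁ c) = algebraMap T.L (LaurentSeries T.L) (algebraMap T.K T.L c) := by
  rw [e₁_apply, AlgHom.commutes, T.ε_algebraMap]

theorem e₀_W (w : T.W) : T.e₀ (algebraMap T.W T.F₀ w) ∈ gaussInt T.π ∧
    T.red (T.e₀ (algebraMap T.W T.F₀ w)) = algebraMap T.k (LaurentSeries T.k) (T.πW w) := by
  rw [IsScalarTower.algebraMap_apply T.W T.K T.F₀, T.e₀_algebraMap]
  exact ⟨algebraMap_mem_gaussInt (π := T.π) ⟨algebraMap T.K T.L (w : T.K), T.coe_mem_A w⟩,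
    gred_algebraMap (π := T.π) ⟨algebraMap T.K T.L (w : T.K), T.coe_mem_A w⟩⟩

/-- A parameter of a chart of level `N`. -/
structure ChartParam (t : T.F₀) : Prop where
  int : T.e₀ t ∈ gaussInt T.π
  red_transcendental : Transcendental T.k (T.red (T.e₀ t))
  transcendental : Transcendental T.K t
  finite : FiniteDimensional (IntermediateField.adjoin T.K {t}) T.F₀
  gauss_mem : ∀ a : T.F₀, IsIntegral (Algebra.adjoin T.K {t}) a → T.e₀ a ∈ gaussInt T.π →
    a ∈ T.chart₀ t
  smooth : ∀ a b : T.F₀, T.e₀ a ∈ gaussInt T.π → T.e₀ b ∈ gaussInt T.π →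
    T.red (T.e₀ b) ≠ 0 →
    IsIntegral (Algebra.adjoin T.k {T.red (T.e₀ t)}) (T.red (T.e₀ a) / T.red (T.e₀ b)) →
    T.red (T.e₀ a) / T.red (T.e₀ b) ∈ Submodule.span T.k
      {h | ∃ c ∈ T.chart₀ t, T.IsRat c ∧ h = T.red (T.e₀ c)}

/-- The reduction of a function of level `N`. -/
abbrev red₀ (a : T.F₀) : LaurentSeries T.k := T.red (T.e₀ a)

/-- A reduced function is regular at a point of a chart of level `N`. -/
def RegAt {t : T.F₀} (x : Ideal (T.chart₀ t)) (h : LaurentSeries T.k) : Prop :=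
  ∃ a s : T.chart₀ t, s ∉ x ∧ h * T.red₀ s = T.red₀ a

/-- A reduced function vanishes at a point of a chart of level `N`. -/
def VanAt {t : T.F₀} (x : Ideal (T.chart₀ t)) (h : LaurentSeries T.k) : Prop :=
  ∃ a s : T.chart₀ t, s ∉ x ∧ a ∈ x ∧ h * T.red₀ s = T.red₀ a

/-- `Δ` read from `(θ j)^6 = j^4 (j - 1728)^3 Δ`. -/
def deltaS : LaurentSeries T.L :=
  thetaSeries (T.e₀ T.j) ^ 6 / (T.e₀ T.j ^ 4 * (T.e₀ T.j - 1728) ^ 3)

/-- `Δ^(1-q)` in the reduced field; it vanishes exactly at the supersingular points. -/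
def phiBar : LaurentSeries T.k := (T.red T.deltaS ^ (q - 1))⁻¹

/-- A special (supersingular) point of the finite chart of level `N`. -/
def IsSpecial (x : Ideal (T.chart₀ T.j)) : Prop := T.VanAt x T.phiBar

/-- `(z (u^q) - z^q) / q` modulo `q`. -/
def frobQuot (z : T.F₀) : LaurentSeries T.k :=
  T.red ((qExpand T.L q (T.e₀ z) - T.e₀ z ^ q) / (q : LaurentSeries T.L))

end Tower

end FermatLib.Igusa.Carayol
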