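import Mathlib
import Fermat.Agent.Igusa.Carayol.TowerBasic

/-!
The charts of level `N` at the prime `q`, first properties: parameters, finiteness, normality,
and the special fibre is cut out by `q`.
-/

set_option autoImplicit false
set_option linter.style.haveILetI false
set_option maxHeartbeats 400000
set_option synthInstance.maxHeartbeats 100000

noncomputable section

open ModularCurve HahnSeries FermatLib.Igusa

namespace FermatLib.Igusa.Carayol

namespace Tower

variable {q : ℕ} [NeZero q] (T : Tower q)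

/-- The base ring is a discrete valuation ring with uniformiser `q`. -/
theorem isDiscreteValuationRing_W : IsDiscreteValuationRing T.W := by
  have hq : Irreducible (q : T.W) := T.irreducible_q
  let i : T.W →+* T.A :=
    { toFun := fun w => ⟨_, T.coe_mem_A w⟩
      map_one' := Subtype.ext (map_one (algebraMap T.K T.L))
      map_mul' := fun a b => Subtype.ext (map_mul (algebraMap T.K T.L) (a : T.K) b)
      map_zero' := Subtype.ext (map_zero (algebraMap T.K T.L))
      map_add' := fun a b => Subtype.ext (map_add (algebraMap T.K T.L) (a : T.K) b) }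
  have hi : Function.Injective i := fun a b h =>
    Subtype.ext ((algebraMap T.K T.L).injective (congrArg Subtype.val h))
  have hqA : ¬ IsUnit (q : T.A) := (T.π_eq_zero _).mp (by rw [map_natCast, CharP.cast_eq_zero])
  have hdvd : ∀ a : T.W, ¬ IsUnit a → (q : T.W) ∣ a := fun a ha => by
    rcases ValuationRing.dvd_total (q : T.W) a with h | ⟨b, hb⟩
    · exact h
    · rcases hq.isUnit_or_isUnit hb with h | h
      · exact absurd h ha
      · exact hb ▸ (associated_mul_unit_left a b h).dvd
  refine IsDiscreteValuationRing.ofHasUnitMulPowIrreducibleFactorization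
    ⟨(q : T.W), hq, fun {x} hx => ?_⟩
  have hfin : ∃ n : ℕ, ¬ (q : T.W) ^ n ∣ x := by
    obtain ⟨n, hn⟩ := FiniteMultiplicity.of_not_isUnit hqA
      (b := i x) (fun h => hx (hi (h.trans (map_zero i).symm)))
    exact ⟨n + 1, fun h => hn (by simpa using map_dvd i h)⟩
  classical
  obtain ⟨n, hn⟩ : ∃ n, Nat.find hfin = n + 1 := Nat.exists_eq_succ_of_ne_zero fun h => by
    have := Nat.find_spec hfin
    rw [h, pow_zero] at this
    exact this (one_dvd x)
  obtain ⟨y, hy⟩ : (q : T.W) ^ n ∣ x := not_not.mp (Nat.find_min hfin (by omega))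
  refine ⟨n, hy ▸ associated_mul_unit_right _ _ ?_⟩
  by_contra hyu
  refine Nat.find_spec hfin ?_
  rw [hn, hy, pow_succ]
  exact mul_dvd_mul_left _ (hdvd y hyu)

theorem red₀_q_pow_mul {n : ℕ} (hn : 0 < n) {f : LaurentSeries T.L} (hf : f ∈ gaussInt T.π) :
    T.red (algebraMap T.L (LaurentSeries T.L) ((q : T.L) ^ n) * f) = 0 := by
  have h : T.π ((q : T.A) ^ n) = 0 := by
    rw [map_pow, map_natCast, CharP.cast_eq_zero, zero_pow hn.ne']
  simpa using gred_algebraMap_mul_eq_zero h hf

/-- The expansion of `j` is integral with a simple pole reducing to one. -/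
theorem e₀_j_int : T.e₀ T.j ∈ gaussInt T.π ∧ (T.red (T.e₀ T.j)).coeff (-1) = 1 := by
  have hA : ∀ i, (T.e₀ T.j).coeff i ∈ T.A := fun i => by
    obtain ⟨z, hz⟩ := T.j_int i
    rw [e₀_apply, ← hz]
    exact intCast_mem T.A z
  obtain ⟨y, hy⟩ := exists_latVal_eq hA
  refine ⟨hy ▸ latVal_mem_gaussInt y, ?_⟩
  have h1 : y.coeff (-1) = 1 := Subtype.ext <| by
    have := congrArg (fun F : LaurentSeries T.L => F.coeff (-1)) hy
    simp only [latVal_coeff] at this
    rw [this, e₀_apply, T.j_coeff]
    rfl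
  show (gred T.π _).coeff _ = _
  rw [gred_eq (y := y) (z := 1) (by rw [map_one]; exact one_ne_zero)
      (by rw [map_one, mul_one, hy]), map_one, div_one, latRed_coeff, h1, map_one]

theorem transcendental_red_j : Transcendental T.k (T.red (T.e₀ T.j)) := by
  intro halg
  obtain ⟨c, hc⟩ : ∃ c : T.k, algebraMap T.k (LaurentSeries T.k) c = T.red (T.e₀ T.j) :=
    minpoly.mem_range_of_degree_eq_one T.k _
      (IsAlgClosed.degree_eq_one_of_irreducible T.k (minpoly.irreducible halg.isIntegral))
  have h := (T.e₀_j_int).2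
  rw [← hc, algebraMap_laurentSeries_eq_single, HahnSeries.coeff_single_of_ne (by norm_num)] at h
  exact zero_ne_one h

theorem chartParam_j (hI : T.Inputs) : T.ChartParam T.j where
  int := (T.e₀_j_int).1
  red_transcendental := T.transcendental_red_j
  transcendental := T.transcendental_j
  finite := T.finite_j
  gauss_mem := hI.gauss_mem
  smooth := hI.smooth

theorem chartParam_jinv (hI : T.Inputs) : T.ChartParam T.j⁻¹ := by
  have hne : gred T.π (T.e₀ T.j) ≠ 0 := fun h => T.transcendental_red_j (by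
    rw [show T.red (T.e₀ T.j) = 0 from h]; exact isAlgebraic_zero)
  have hinv : T.red (T.e₀ T.j⁻¹) = (T.red (T.e₀ T.j))⁻¹ := by
    rw [map_inv₀]; exact gred_inv (T.e₀_j_int).1 hne
  exact
  { int := by rw [map_inv₀]; exact inv_mem_gaussInt (T.e₀_j_int).1 hne
    red_transcendental := by
      rw [hinv]; exact fun h => T.transcendental_red_j (IsAlgebraic.inv_iff.mp h)
    transcendental := fun h => T.transcendental_j (IsAlgebraic.inv_iff.mp h)
    finite := by
      have h : IntermediateField.adjoin T.K {T.j⁻¹} = IntermediateField.adjoin T.K {T.j} :=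
        le_antisymm
          (IntermediateField.adjoin_simple_le_iff.mpr
            (inv_mem (IntermediateField.mem_adjoin_simple_self T.K T.j)))
          (IntermediateField.adjoin_simple_le_iff.mpr (by
            simpa using inv_mem (IntermediateField.mem_adjoin_simple_self T.K T.j⁻¹)))
      rw [h]; exact T.finite_j
    gauss_mem := hI.gauss_mem_inf
    smooth := by
      rw [hinv]; exact hI.smooth_inf }

variable {T} {t : T.F₀}

theorem ChartParam.adjoin_mem_gaussInt (ht : T.ChartParam t) (c : Algebra.adjoin T.W {t}) :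
    T.e₀ (c : T.F₀) ∈ gaussInt T.π := by
  obtain ⟨c, hc⟩ := c
  induction hc using Algebra.adjoin_induction with
  | mem z hz => rw [Set.mem_singleton_iff] at hz; exact hz ▸ ht.int
  | algebraMap w => exact (T.e₀_W w).1
  | add a b _ _ ha hb => rw [map_add]; exact add_mem ha hb
  | mul a b _ _ ha hb => rw [map_mul]; exact mul_mem ha hb

theorem ChartParam.e₀_mem_gaussInt (ht : T.ChartParam t) (a : T.chart₀ t) :
    T.e₀ a ∈ gaussInt T.π := by
  obtain ⟨a, ha⟩ := a
  set f := T.e₀ a with hf
  rcases mem_or_inv_mem_gaussInt T.π_eq_zero (T.ε_bounded (T.ι₁ (T.ι₀ a)) :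
    T.e₀ a ∈ gaussField T.A) with h | h
  · exact h
  by_contra hnot
  have hf0 : f ≠ 0 := fun h0 => hnot (by show f ∈ _; rw [h0]; exact zero_mem _)
  have hg : gred T.π f⁻¹ = 0 := by
    by_contra hne
    exact hnot (by simpa [hf] using inv_mem_gaussInt h hne)
  obtain ⟨p, hp, hpa⟩ := (ha : IsIntegral (Algebra.adjoin T.W {t}) a)
  have h0 := congrArg T.e₀ hpa
  rw [map_zero, Polynomial.hom_eval₂, Polynomial.eval₂_eq_sum_range, Finset.sum_range_succ,
    hp.coeff_natDegree, map_one, one_mul] at h0
  set d := p.natDegree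
  let g : gaussInt T.π := ⟨f⁻¹, h⟩
  let c : ℕ → gaussInt T.π := fun i => ⟨_, ht.adjoin_mem_gaussInt (p.coeff i)⟩
  have h1 : ∑ i ∈ Finset.range d, c i * g ^ (d - i) + 1 = 0 := by
    apply Subtype.ext
    have h2 := congrArg (· * f⁻¹ ^ d) h0
    simp only [zero_mul, add_mul, Finset.sum_mul] at h2
    rw [← mul_pow, mul_inv_cancel₀ hf0, one_pow] at h2
    simp only [AddMemClass.coe_add, AddSubmonoidClass.coe_finsetSum, MulMemClass.coe_mul,
      SubmonoidClass.coe_pow, OneMemClass.coe_one, ZeroMemClass.coe_zero, g, c]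
    rw [← h2]
    congr 1
    refine Finset.sum_congr rfl fun i hi => ?_
    have hid : i ≤ d := (Finset.mem_range.mp hi).le
    have hsplit : f⁻¹ ^ d = f⁻¹ ^ (d - i) * f⁻¹ ^ i := by
      rw [← _root_.pow_add, Nat.sub_add_cancel hid]
    show _ = T.e₀ (algebraMap _ T.F₀ (p.coeff i)) * f ^ i * f⁻¹ ^ d
    rw [hsplit, mul_assoc, mul_left_comm (f ^ i), ← mul_pow f, mul_inv_cancel₀ hf0, one_pow,
      mul_one]
    rfl
  have h3 := congrArg (gaussIntRed T.π) h1
  rw [map_add, map_one, map_zero, map_sum, Finset.sum_eq_zero fun i hi => by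
    rw [map_mul, map_pow, show gaussIntRed T.π g = 0 from hg,
      zero_pow (Nat.sub_ne_zero_of_lt (Finset.mem_range.mp hi)), mul_zero], zero_add] at h3
  exact one_ne_zero h3

theorem ChartParam.transcendental_W (ht : T.ChartParam t) : Transcendental T.W t := fun h =>
  ht.transcendental (h.extendScalars (S := T.K) Subtype.val_injective)

/-- The polynomial ring over the base, mapped onto `W[t]`. -/
def ChartParam.polyEquiv (ht : T.ChartParam t) :
    Polynomial T.W ≃ₐ[T.W] Algebra.adjoin T.W {t} :=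
  (AlgEquiv.ofInjective _ (transcendental_iff_injective.mp ht.transcendental_W)).trans
    (Subalgebra.equivOfEq _ _ (Algebra.adjoin_singleton_eq_range_aeval T.W t).symm)

theorem ChartParam.isNoetherianRing (ht : T.ChartParam t) :
    IsNoetherianRing (Algebra.adjoin T.W {t}) :=
  haveI := T.isDiscreteValuationRing_W
  isNoetherianRing_of_ringEquiv _ ht.polyEquiv.toRingEquiv

theorem ChartParam.isIntegrallyClosed_base (ht : T.ChartParam t) :
    IsIntegrallyClosed (Algebra.adjoin T.W {t}) :=
  haveI := T.isDiscreteValuationRing_W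
  IsIntegrallyClosed.of_equiv ht.polyEquiv.toRingEquiv

/-- `W[t]` and `K(t)`. -/
theorem ChartParam.module_finite_and_isFractionRing (ht : T.ChartParam t) :
    Module.Finite (Algebra.adjoin T.W {t})
      (integralClosure (Algebra.adjoin T.W {t}) T.F₀) ∧
    IsFractionRing (integralClosure (Algebra.adjoin T.W {t}) T.F₀) T.F₀ ∧
    IsIntegrallyClosed (integralClosure (Algebra.adjoin T.W {t}) T.F₀) := by
  classical
  set R := Algebra.adjoin T.W {t}
  set E := IntermediateField.adjoin T.K {t}
  have hle : ∀ r ∈ R, r ∈ E := fun r hr => by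
    induction hr using Algebra.adjoin_induction with
    | mem z hz => rw [Set.mem_singleton_iff] at hz; exact hz ▸ IntermediateField.mem_adjoin_simple_self T.K t
    | algebraMap w =>
      rw [IsScalarTower.algebraMap_apply T.W T.K T.F₀]
      exact E.algebraMap_mem _
    | add a b _ _ ha hb => exact add_mem ha hb
    | mul a b _ _ ha hb => exact mul_mem ha hb
  letI : Algebra R E := ((algebraMap R T.F₀).codRestrict E.toSubfield.toSubring
    fun r => hle _ r.2).toAlgebra
  haveI : IsScalarTower R E T.F₀ := IsScalarTower.of_algebraMap_eq fun _ => rfl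
  have htR : ∀ p : Polynomial T.K, ∃ (r : R) (s : T.W), s ≠ 0 ∧
      Polynomial.aeval t p * algebraMap T.W T.F₀ s = r := fun p => by
    obtain ⟨b, hb⟩ := IsLocalization.exist_integer_multiples_of_finset (nonZeroDivisors T.W)
      (p.support.image p.coeff)
    have hco : ∀ i, ∃ w : T.W, algebraMap T.W T.K w = algebraMap T.W T.K b * p.coeff i := fun i => by
      by_cases hi : i ∈ p.support
      · obtain ⟨w, hw⟩ := hb _ (Finset.mem_image_of_mem _ hi)
        exact ⟨w, by rw [hw, Algebra.smul_def]⟩
      · exact ⟨0, by rw [Polynomial.notMem_support_iff.mp hi, mul_zero, map_zero]⟩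
    choose w hw using hco
    refine ⟨⟨∑ i ∈ Finset.range (p.natDegree + 1), algebraMap T.W T.F₀ (w i) * t ^ i,
      sum_mem fun i _ => mul_mem (R.algebraMap_mem _)
        (pow_mem (Algebra.self_mem_adjoin_singleton T.W t) i)⟩, b, nonZeroDivisors.ne_zero b.2, ?_⟩
    change _ = ∑ i ∈ Finset.range (p.natDegree + 1), algebraMap T.W T.F₀ (w i) * t ^ i
    rw [Polynomial.aeval_eq_sum_range, Finset.sum_mul]
    refine Finset.sum_congr rfl fun i _ => ?_
    rw [Algebra.smul_def, IsScalarTower.algebraMap_apply T.W T.K T.F₀ (w i), hw, map_mul,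
      ← IsScalarTower.algebraMap_apply T.W T.K T.F₀]
    ring
  haveI : FaithfulSMul R E := (faithfulSMul_iff_algebraMap_injective R E).mpr fun a b h =>
    Subtype.ext (congrArg Subtype.val h :)
  haveI : IsFractionRing R E := IsFractionRing.of_field _ _ fun z => by
    obtain ⟨p, p', hz⟩ := (IntermediateField.mem_adjoin_simple_iff T.K _).mp z.2
    obtain ⟨r, s, hs, hr⟩ := htR p
    obtain ⟨r', s', hs', hr'⟩ := htR p'
    refine ⟨r * ⟨algebraMap T.W T.F₀ s', R.algebraMap_mem _⟩,
      r' * ⟨algebraMap T.W T.F₀ s, R.algebraMap_mem _⟩, Subtype.ext ?_⟩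
    show (z : T.F₀) = (r * algebraMap T.W T.F₀ s' : T.F₀) / (r' * algebraMap T.W T.F₀ s : T.F₀)
    rw [hz, ← hr, ← hr', mul_assoc, mul_assoc, mul_comm (algebraMap T.W T.F₀ s'),
      mul_div_mul_right]
    exact mul_ne_zero (by simpa [IsScalarTower.algebraMap_apply T.W T.K T.F₀] using hs)
      (by simpa [IsScalarTower.algebraMap_apply T.W T.K T.F₀] using hs')
  haveI : FiniteDimensional E T.F₀ := ht.finite
  haveI : CharZero E := charZero_of_injective_algebraMap (algebraMap T.K E).injective
  haveI := ht.isNoetherianRing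
  haveI := ht.isIntegrallyClosed_base
  exact ⟨IsIntegralClosure.finite R E T.F₀ (integralClosure R T.F₀),
    integralClosure.isFractionRing_of_finite_extension E T.F₀,
    integralClosure.isIntegrallyClosedOfFiniteExtension E⟩

theorem ChartParam.module_finite (ht : T.ChartParam t) :
    Module.Finite (Algebra.adjoin T.W {t})
      (integralClosure (Algebra.adjoin T.W {t}) T.F₀) :=
  ht.module_finite_and_isFractionRing.1

theorem ChartParam.finiteType (ht : T.ChartParam t) :
    Algebra.FiniteType T.W (T.chart₀ t) := by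
  haveI := ht.module_finite
  haveI : Algebra.FiniteType T.W (Algebra.adjoin T.W {t}) :=
    Algebra.FiniteType.of_surjective ht.polyEquiv.toAlgHom ht.polyEquiv.surjective
  letI : Algebra (Algebra.adjoin T.W {t}) (T.chart₀ t) :=
    (integralClosure (Algebra.adjoin T.W {t}) T.F₀).algebra
  haveI : IsScalarTower T.W (Algebra.adjoin T.W {t}) (T.chart₀ t) :=
    IsScalarTower.of_algebraMap_eq fun _ => rfl
  haveI : Module.Finite (Algebra.adjoin T.W {t}) (T.chart₀ t) := ht.module_finite
  exact Algebra.FiniteType.trans (S := Algebra.adjoin T.W {t}) inferInstance inferInstance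

theorem ChartParam.isFractionRing (ht : T.ChartParam t) :
    IsFractionRing (T.chart₀ t) T.F₀ :=
  ht.module_finite_and_isFractionRing.2.1

theorem isIntegral_adjoin_K {a : T.F₀} (ha : a ∈ T.chart₀ t) :
    IsIntegral (Algebra.adjoin T.K {t}) a := by
  obtain ⟨p, hp, hpa⟩ := (ha : IsIntegral (Algebra.adjoin T.W {t}) a)
  have hle : ∀ r ∈ Algebra.adjoin T.W {t}, r ∈ Algebra.adjoin T.K {t} := fun r hr =>
    Algebra.adjoin_le (S := (Algebra.adjoin T.K {t}).restrictScalars T.W)
      Algebra.subset_adjoin hr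
  let i : Algebra.adjoin T.W {t} →+* Algebra.adjoin T.K {t} :=
    (algebraMap (Algebra.adjoin T.W {t}) T.F₀).codRestrict (Algebra.adjoin T.K {t}).toSubring
      fun r => hle _ r.2
  exact ⟨p.map i, hp.map _, by rw [Polynomial.eval₂_map]; exact hpa⟩

/-- A Gauss-integral series with zero reduction and content a power of `q` is divisible by `q`. -/
theorem div_q_mem_gaussInt {f : LaurentSeries T.L} {n : ℤ} (hf : f ∈ gaussInt T.π)
    (hf0 : T.red f = 0)
    (hn : algebraMap T.L (LaurentSeries T.L) ((q : T.L) ^ n) * f ∈ gaussInt T.π)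
    (hn0 : T.red (algebraMap T.L (LaurentSeries T.L) ((q : T.L) ^ n) * f) ≠ 0) :
    algebraMap T.L (LaurentSeries T.L) ((q : T.L)⁻¹) * f ∈ gaussInt T.π := by
  haveI : CharZero T.L := charZero_of_injective_algebraMap (algebraMap T.K T.L).injective
  have hqL : (q : T.L) ≠ 0 := Nat.cast_ne_zero.mpr (NeZero.ne q)
  have hneg : n < 0 := by
    by_contra hge
    obtain ⟨d, rfl⟩ := Int.eq_ofNat_of_zero_le (not_lt.mp hge)
    rw [zpow_natCast] at hn0
    rcases Nat.eq_zero_or_pos d with rfl | hd
    · exact hn0 (by rw [pow_zero, map_one, one_mul]; exact hf0)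
    · exact hn0 (T.red₀_q_pow_mul hd hf)
  obtain ⟨d, rfl⟩ : ∃ d : ℕ, n = -((d + 1 : ℕ) : ℤ) := ⟨(-n - 1).toNat, by omega⟩
  have h1 := mul_mem (algebraMap_mem_gaussInt (π := T.π) ((q : T.A) ^ d)) hn
  rw [SubmonoidClass.coe_pow, show ((q : T.A) : T.L) = q by simp, ← mul_assoc, ← map_mul,
    zpow_neg, zpow_natCast, _root_.pow_succ, mul_inv, ← mul_assoc,
    mul_inv_cancel₀ (pow_ne_zero d hqL), one_mul] at h1
  exact h1

/-- The prime of the special fibre is generated by `q`. -/
theorem ChartParam.exists_eq_mul (ht : T.ChartParam t) (a : T.chart₀ t)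
    (ha : T.red₀ (a : T.F₀) = 0) : ∃ b : T.chart₀ t, a = q * b := by
  rcases eq_or_ne (a : T.F₀) 0 with h0 | h0
  · exact ⟨0, by rw [mul_zero]; exact Subtype.ext h0⟩
  haveI := T.charZeroK
  haveI : CharZero T.F₀ := charZero_of_injective_algebraMap (algebraMap T.K T.F₀).injective
  have hq : (q : T.F₀) ≠ 0 := Nat.cast_ne_zero.mpr (NeZero.ne q)
  have hne : T.ι₁ (T.ι₀ (a : T.F₀)) ≠ 0 := by simpa using h0
  obtain ⟨n, hn, hn0⟩ := T.ε_content _ hne
  have key := T.div_q_mem_gaussInt (ht.e₀_mem_gaussInt a) ha hn hn0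
  have hint : IsIntegral (Algebra.adjoin T.K {t}) ((a : T.F₀) / q) := by
    have h1 : IsIntegral (Algebra.adjoin T.K {t}) (algebraMap T.K T.F₀ ((q : T.K)⁻¹)) :=
      isIntegral_algebraMap (x := (⟨_, Subalgebra.algebraMap_mem _ _⟩ : Algebra.adjoin T.K {t}))
    rw [div_eq_inv_mul, ← map_natCast (algebraMap T.K T.F₀) q, ← map_inv₀]
    exact h1.mul (isIntegral_adjoin_K a.2)
  have hgauss : T.e₀ ((a : T.F₀) / q) ∈ gaussInt T.π := by
    rw [map_div₀, map_natCast, div_eq_inv_mul]
    rwa [map_inv₀, map_natCast] at key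
  exact ⟨⟨(a : T.F₀) / q, ht.gauss_mem _ hint hgauss⟩, Subtype.ext (by
    show (a : T.F₀) = ((q : T.chart₀ t) : T.F₀) * ((a : T.F₀) / q)
    simp [mul_div_cancel₀ _ hq])⟩

end Tower

end FermatLib.Igusa.Carayol
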