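import Mathlib
import Fermat.Agent.Igusa.Carayol.Tower

/-!
`u d/du` on Laurent series, its compatibility with the Gauss reduction, and series with
Frobenius-fixed coefficients.
-/

set_option autoImplicit false

noncomputable section

open ModularCurve HahnSeries FermatLib.Igusa

namespace FermatLib.Igusa.Carayol

section theta

variable {R S : Type*} [CommRing R] [CommRing S]

theorem thetaSeries_add (f g : LaurentSeries R) :
    thetaSeries (f + g) = thetaSeries f + thetaSeries g := by
  ext n
  simp [mul_add]

theorem thetaSeries_sub (f g : LaurentSeries R) :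
    thetaSeries (f - g) = thetaSeries f - thetaSeries g := by
  ext n
  simp [mul_sub]

theorem support_thetaSeries (f : LaurentSeries R) : (thetaSeries f).support ⊆ f.support :=
  fun n hn h => hn (by simp [h])

theorem thetaSeries_mul (f g : LaurentSeries R) :
    thetaSeries (f * g) = thetaSeries f * g + f * thetaSeries g := by
  ext n
  rw [coeff_add, thetaSeries_coeff, coeff_mul,
    coeff_mul_left' f.isPWO_support (support_thetaSeries f),
    coeff_mul_right' g.isPWO_support (support_thetaSeries g), ← Finset.sum_add_distrib,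
    Finset.mul_sum]
  refine Finset.sum_congr rfl fun ij hij => ?_
  obtain ⟨-, -, rfl⟩ := Finset.mem_antidiagonal.mp hij
  simp only [thetaSeries_coeff, Int.cast_add]
  ring

theorem thetaSeries_C (c : R) : thetaSeries (HahnSeries.C c : LaurentSeries R) = 0 := by
  ext n
  rcases eq_or_ne n 0 with rfl | hn
  · simp
  · simp [coeff_single_of_ne hn]

theorem thetaSeries_one : thetaSeries (1 : LaurentSeries R) = 0 := by
  rw [← map_one (HahnSeries.C : R →+* LaurentSeries R)]
  exact thetaSeries_C 1

theorem thetaSeries_pow (f : LaurentSeries R) (m : ℕ) :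
    thetaSeries (f ^ m) = (m : LaurentSeries R) * f ^ (m - 1) * thetaSeries f := by
  induction m with
  | zero => simp [thetaSeries_one]
  | succ m ih =>
    rw [pow_succ, thetaSeries_mul, ih, Nat.add_sub_cancel]
    rcases Nat.eq_zero_or_pos m with rfl | hm
    · simp
    · have e : f ^ m = f ^ (m - 1) * f := by rw [← pow_succ, Nat.sub_add_cancel hm]
      rw [e]
      push_cast
      ring

theorem thetaSeries_coeffMap (φ : R →+* S) (f : LaurentSeries R) :
    thetaSeries (coeffMap φ f) = coeffMap φ (thetaSeries f) := by
  ext n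
  simp [map_mul, map_intCast]

theorem thetaSeries_qExpand (m : ℕ) [NeZero m] (f : LaurentSeries R) :
    thetaSeries (qExpand R m f) = (m : LaurentSeries R) * qExpand R m (thetaSeries f) := by
  ext n
  rw [← map_natCast (HahnSeries.C : R →+* LaurentSeries R), HahnSeries.C_apply, coeff_single_mul,
    sub_zero, thetaSeries_coeff]
  by_cases h : (m : ℤ) ∣ n
  · obtain ⟨k, rfl⟩ := h
    rw [qExpand_coeff_mul, qExpand_coeff_mul, thetaSeries_coeff, Int.cast_mul, Int.cast_natCast]
    ring
  · rw [qExpand_coeff_of_not_dvd m _ h, qExpand_coeff_of_not_dvd m _ h, mul_zero, mul_zero]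

theorem thetaSeries_div {K : Type*} [Field K] (f g : LaurentSeries K) (hg : g ≠ 0) :
    thetaSeries (f / g) = (thetaSeries f * g - f * thetaSeries g) / g ^ 2 := by
  have h := thetaSeries_mul (f / g) g
  rw [div_mul_cancel₀ f hg] at h
  rw [eq_div_iff (pow_ne_zero 2 hg)]
  linear_combination (-g) * h + (-thetaSeries g) * (div_mul_cancel₀ f hg)

theorem algebraMap_laurentSeries_eq_C {K : Type*} [Field K] (c : K) :
    algebraMap K (LaurentSeries K) c = HahnSeries.C c := by
  rw [algebraMap_laurentSeries_eq_single, HahnSeries.C_apply]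

theorem thetaSeries_algebraMap {K : Type*} [Field K] (c : K) :
    thetaSeries (algebraMap K (LaurentSeries K) c) = 0 := by
  rw [algebraMap_laurentSeries_eq_C]
  exact thetaSeries_C c

end theta

section gauss

variable {L : Type*} [Field L] {A : ValuationSubring L} {k : Type*} [Field k] {π : A →+* k}

theorem thetaSeries_mem_gaussInt {f : LaurentSeries L} (hf : f ∈ gaussInt π) :
    thetaSeries f ∈ gaussInt π ∧ gred π (thetaSeries f) = thetaSeries (gred π f) := by
  obtain ⟨y, z, hz, h⟩ := hf
  have hθ : ∀ w : LaurentSeries A, thetaSeries (latVal A w) = latVal A (thetaSeries w) :=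
    fun w => thetaSeries_coeffMap _ w
  have hz2 : latRed π (z ^ 2) ≠ 0 := by rw [map_pow]; exact pow_ne_zero 2 hz
  have h2 : thetaSeries f * latVal A (z ^ 2) =
      latVal A (thetaSeries y * z - y * thetaSeries z) := by
    have := congrArg thetaSeries h
    rw [thetaSeries_mul, hθ, hθ] at this
    rw [map_sub, map_mul, map_mul, map_pow, ← this, ← h]
    ring
  refine ⟨⟨_, _, hz2, h2⟩, ?_⟩
  rw [gred_eq hz2 h2, gred_eq hz h, thetaSeries_div _ _ hz, map_sub, map_mul, map_mul, map_pow]
  simp only [latRed, thetaSeries_coeffMap]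

theorem latVal_intCast (J : LaurentSeries ℤ) :
    latVal A (coeffMap (Int.castRingHom A) J) = coeffMap (Int.castRingHom L) J ∧
      latRed π (coeffMap (Int.castRingHom A) J) = coeffMap (Int.castRingHom k) J := by
  constructor <;>
    · ext n
      simp

end gauss

section frobFix

variable {k : Type*} [Field k] (q : ℕ) [NeZero q] [CharP k q]

theorem charP_laurentSeries : CharP (LaurentSeries k) q :=
  charP_of_injective_algebraMap (algebraMap k (LaurentSeries k)).injective q

/-- Series with Frobenius-fixed coefficients. -/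
def frobFixed (hq : q.Prime) : Subfield (LaurentSeries k) where
  carrier := {h | qExpand k q h = h ^ q}
  one_mem' := by simp
  zero_mem' := by
    show qExpand k q 0 = (0 : LaurentSeries k) ^ q
    rw [map_zero, zero_pow hq.ne_zero]
  mul_mem' := fun {a b} ha hb => by
    show qExpand k q (a * b) = (a * b) ^ q
    rw [map_mul, ha, hb, mul_pow]
  add_mem' := fun {a b} ha hb => by
    show qExpand k q (a + b) = (a + b) ^ q
    haveI : Fact q.Prime := ⟨hq⟩
    haveI := charP_laurentSeries (k := k) q
    rw [map_add, ha, hb, add_pow_char]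
  neg_mem' := fun {a} ha => by
    show qExpand k q (-a) = (-a) ^ q
    haveI : Fact q.Prime := ⟨hq⟩
    haveI := charP_laurentSeries (k := k) q
    have h2 := add_pow_char (a : LaurentSeries k) (-a) q
    rw [add_neg_cancel, zero_pow hq.ne_zero] at h2
    rw [map_neg, show qExpand k q a = a ^ q from ha]
    exact neg_eq_of_add_eq_zero_right h2.symm
  inv_mem' := fun a ha => by
    show qExpand k q a⁻¹ = a⁻¹ ^ q
    rw [map_inv₀, show qExpand k q a = a ^ q from ha, inv_pow]

variable {q} (hq : q.Prime)

theorem mem_frobFixed {h : LaurentSeries k} : h ∈ frobFixed q hq ↔ qExpand k q h = h ^ q :=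
  Iff.rfl

theorem mem_frobFixed_iff_coeff {h : LaurentSeries k} :
    h ∈ frobFixed q hq ↔ ∀ n, h.coeff n ^ q = h.coeff n := by
  haveI : Fact q.Prime := ⟨hq⟩
  rw [mem_frobFixed, monoNew_pow_char q h, (qExpand_injective q).eq_iff]
  constructor
  · intro e n
    conv_rhs => rw [e]
    simp [frobenius_def]
  · intro e
    ext n
    simp [frobenius_def, e n]

theorem coeffMap_intCast_mem_frobFixed (J : LaurentSeries ℤ) :
    coeffMap (Int.castRingHom k) J ∈ frobFixed q hq := by
  rw [mem_frobFixed_iff_coeff]
  intro n
  haveI : Fact q.Prime := ⟨hq⟩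
  simp only [coeffMap_coeff, eq_intCast]
  rw [← frobenius_def, map_intCast]

theorem thetaSeries_mem_frobFixed {h : LaurentSeries k} (hh : h ∈ frobFixed q hq) :
    thetaSeries h ∈ frobFixed q hq := by
  rw [mem_frobFixed_iff_coeff] at hh ⊢
  intro n
  haveI : Fact q.Prime := ⟨hq⟩
  rw [thetaSeries_coeff, mul_pow, hh n, ← frobenius_def, map_intCast]

end frobFix

end FermatLib.Igusa.Carayol
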