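import Mathlib
import Fermat.Agent.Igusa.Carayol.LevelZeroChart

/-!
The points of the special fibre of a chart of level `N`: residue fields, the reduced ring is a
Dedekind domain, rational parameters, every reduced function is regular or has regular vanishing
inverse.
-/

set_option autoImplicit false
set_option linter.style.haveILetI false
set_option maxHeartbeats 400000
set_option synthInstance.maxHeartbeats 100000

noncomputable section

open ModularCurve HahnSeries FermatLib.Igusa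
open Polynomial hiding C

namespace FermatLib.Igusa.Carayol

namespace Tower

variable {q : ℕ} [NeZero q] {T : Tower q} {t : T.F₀}

theorem series_smul_eq (c : T.k) (a : LaurentSeries T.k) :
    c • a = algebraMap T.k (LaurentSeries T.k) c * a := by
  ext i
  simp [algebraMap_laurentSeries_eq_single]

theorem charP_series : CharP (LaurentSeries T.k) q :=
  charP_of_injective_algebraMap (algebraMap T.k (LaurentSeries T.k)).injective q

theorem mem_chart₀_self : t ∈ T.chart₀ t :=
  (isIntegral_algebraMap (x := (⟨t, Algebra.self_mem_adjoin_singleton T.W t⟩ :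
    Algebra.adjoin T.W {t})) : IsIntegral (Algebra.adjoin T.W {t}) t)

/-- The reduction on a chart. -/
def ChartParam.redHom (ht : T.ChartParam t) : T.chart₀ t →+* LaurentSeries T.k :=
  (gaussIntRed T.π).comp
    ((T.e₀.comp (T.chart₀ t).val.toRingHom).codRestrict (gaussInt T.π) ht.e₀_mem_gaussInt)

@[simp] theorem ChartParam.redHom_apply (ht : T.ChartParam t) (a : T.chart₀ t) :
    ht.redHom a = T.red₀ (a : T.F₀) := rfl

theorem ChartParam.redHom_W (ht : T.ChartParam t) (w : T.W) :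
    ht.redHom (algebraMap T.W (T.chart₀ t) w) = algebraMap T.k (LaurentSeries T.k) (T.πW w) :=
  (T.e₀_W w).2

theorem ChartParam.dvd_of_redHom_eq_zero (ht : T.ChartParam t) {a : T.chart₀ t}
    (h : ht.redHom a = 0) : (q : T.chart₀ t) ∣ a :=
  ht.exists_eq_mul a h

theorem ChartParam.ker_redHom_le (ht : T.ChartParam t) {x : Ideal (T.chart₀ t)}
    (hx : (q : T.chart₀ t) ∈ x) : RingHom.ker ht.redHom ≤ x := fun a ha => by
  obtain ⟨b, rfl⟩ := ht.dvd_of_redHom_eq_zero (RingHom.mem_ker.mp ha)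
  exact x.mul_mem_right _ hx

theorem ChartParam.exists_residue (ht : T.ChartParam t) (x : Ideal (T.chart₀ t)) [x.IsMaximal]
    (hx : (q : T.chart₀ t) ∈ x) (a : T.chart₀ t) :
    ∃ w : T.W, a - algebraMap T.W (T.chart₀ t) w ∈ x := by
  letI := Ideal.Quotient.field x
  let f : T.W →+* T.chart₀ t ⧸ x := (Ideal.Quotient.mk x).comp (algebraMap T.W (T.chart₀ t))
  have hle : RingHom.ker T.πW ≤ RingHom.ker f := fun w hw =>
    Ideal.Quotient.eq_zero_iff_mem.mpr (ht.ker_redHom_le hx (RingHom.mem_ker.mpr (by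
      rw [ht.redHom_W, RingHom.mem_ker.mp hw, map_zero])))
  let ψ : T.k →+* T.chart₀ t ⧸ x := T.πW.liftOfSurjective T.πW_surjective ⟨f, hle⟩
  have hψ : ∀ w, ψ (T.πW w) = f w := fun w => RingHom.liftOfRightInverse_comp_apply _ _ _ _ w
  have hft : (ψ.comp T.πW).FiniteType := by
    rw [show ψ.comp T.πW = f from RingHom.ext hψ]
    exact (RingHom.FiniteType.of_surjective _ Ideal.Quotient.mk_surjective).comp
      (RingHom.finiteType_algebraMap.mpr ht.finiteType)
  letI : Algebra T.k (T.chart₀ t ⧸ x) := ψ.toAlgebra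
  haveI : Algebra.FiniteType T.k (T.chart₀ t ⧸ x) :=
    RingHom.finiteType_algebraMap.mp (RingHom.FiniteType.of_comp_finiteType hft)
  haveI := finite_of_finite_type_of_isJacobsonRing T.k (T.chart₀ t ⧸ x)
  obtain ⟨c, hc⟩ := (IsAlgClosed.algebraMap_bijective_of_isIntegral (k := T.k)
    (K := T.chart₀ t ⧸ x)).2 (Ideal.Quotient.mk x a)
  obtain ⟨w, rfl⟩ := T.πW_surjective c
  exact ⟨w, Ideal.Quotient.eq.mp ((hc.symm.trans (hψ w)))⟩

/-- The reduced ring of a chart. -/
abbrev ChartParam.redRing (ht : T.ChartParam t) : Subring (LaurentSeries T.k) := ht.redHom.range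

theorem ChartParam.algebraMap_mem_redRing (ht : T.ChartParam t) (c : T.k) :
    algebraMap T.k (LaurentSeries T.k) c ∈ ht.redRing := by
  obtain ⟨w, rfl⟩ := T.πW_surjective c
  exact ⟨_, ht.redHom_W w⟩

theorem ChartParam.aeval_mem_redRing (ht : T.ChartParam t) (P : T.k[X]) :
    aeval (T.red₀ t) P ∈ ht.redRing := by
  induction P using Polynomial.induction_on' with
  | add P Q hP hQ => rw [map_add]; exact add_mem hP hQ
  | monomial n c =>
    rw [aeval_monomial]
    exact mul_mem (ht.algebraMap_mem_redRing c) (pow_mem (show T.red₀ t ∈ ht.redRing from ⟨⟨t, mem_chart₀_self⟩, rfl⟩) n)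

/-- `k[X]` into the reduced ring. -/
def ChartParam.polyHom (ht : T.ChartParam t) : T.k[X] →+* ht.redRing :=
  (aeval (T.red₀ t)).toRingHom.codRestrict ht.redRing ht.aeval_mem_redRing

theorem ChartParam.polyHom_injective (ht : T.ChartParam t) : Function.Injective ht.polyHom :=
  fun _ _ h => transcendental_iff_injective.mp ht.red_transcendental (congrArg Subtype.val h)

theorem ChartParam.polyHom_isIntegral (ht : T.ChartParam t) : ht.polyHom.IsIntegral := by
  rintro ⟨_, c, rfl⟩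
  obtain ⟨p, hp, hpc⟩ := (c.2 : IsIntegral (Algebra.adjoin T.W {t}) (c : T.F₀))
  let e : Algebra.adjoin T.W {t} →+* T.W[X] := ht.polyEquiv.symm.toAlgHom.toRingHom
  let g : T.W[X] →+* T.chart₀ t := (aeval (⟨t, mem_chart₀_self⟩ : T.chart₀ t)).toRingHom
  have hge : ∀ r, (g (e r) : T.F₀) = r := fun r => by
    show ((aeval (⟨t, mem_chart₀_self⟩ : T.chart₀ t)) (ht.polyEquiv.symm r) : T.F₀) = r
    rw [← Subalgebra.coe_val, ← aeval_algHom_apply]
    exact congrArg Subtype.val (ht.polyEquiv.apply_symm_apply r)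
  have hg : ht.redHom.comp g = ((ht.redRing.subtype).comp ht.polyHom).comp (mapRingHom T.πW) := by
    refine Polynomial.ringHom_ext (fun w => ?_) ?_
    · show ht.redHom (aeval _ (Polynomial.C w)) = aeval (T.red₀ t) ((Polynomial.C w).map T.πW)
      rw [aeval_C, Polynomial.map_C, aeval_C, ht.redHom_W]
    · show ht.redHom (aeval _ (X : T.W[X])) = aeval (T.red₀ t) ((X : T.W[X]).map T.πW)
      rw [aeval_X, Polynomial.map_X, aeval_X, ht.redHom_apply]
  refine ⟨(p.map e).map (mapRingHom T.πW), (hp.map _).map _, Subtype.ext ?_⟩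
  show ht.redRing.subtype _ = 0
  rw [hom_eval₂, eval₂_map, ← hg]
  show eval₂ (ht.redHom.comp g) (ht.redHom c) (p.map e) = 0
  rw [← hom_eval₂,
    show (p.map e).eval₂ g c = 0 from Subtype.ext ?_, map_zero]
  show (T.chart₀ t).val.toRingHom _ = _
  rw [hom_eval₂, eval₂_map, show ((T.chart₀ t).val.toRingHom.comp g).comp e =
    algebraMap (Algebra.adjoin T.W {t}) T.F₀ from RingHom.ext hge]
  exact hpc

theorem ChartParam.isIntegral_adjoin_of_redRing (ht : T.ChartParam t) {h : LaurentSeries T.k}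
    (hh : (ht.redRing.subtype).IsIntegralElem h) :
    IsIntegral (Algebra.adjoin T.k {T.red₀ t}) h := by
  letI : Algebra T.k[X] ht.redRing := ht.polyHom.toAlgebra
  letI : Algebra T.k[X] (LaurentSeries T.k) :=
    ((ht.redRing.subtype).comp ht.polyHom).toAlgebra
  haveI : IsScalarTower T.k[X] ht.redRing (LaurentSeries T.k) :=
    IsScalarTower.of_algebraMap_eq fun _ => rfl
  haveI : Algebra.IsIntegral T.k[X] ht.redRing := ⟨ht.polyHom_isIntegral⟩
  obtain ⟨p, hp, hph⟩ := isIntegral_trans (R := T.k[X]) (A := ht.redRing) h hh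
  refine ⟨p.map ((aeval (T.red₀ t)).toRingHom.codRestrict
      (Algebra.adjoin T.k {T.red₀ t}).toSubring fun P => aeval_mem_adjoin_singleton T.k _),
    hp.map _, ?_⟩
  rw [eval₂_map]
  exact hph

theorem ChartParam.mem_span_of_redRing (ht : T.ChartParam t) (c d : T.chart₀ t)
    (hd : ht.redHom d ≠ 0)
    (h : (ht.redRing.subtype).IsIntegralElem (ht.redHom c / ht.redHom d)) :
    ht.redHom c / ht.redHom d ∈ Submodule.span T.k
      {h | ∃ a ∈ T.chart₀ t, T.IsRat a ∧ h = T.red (T.e₀ a)} :=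
  ht.smooth _ _ (ht.e₀_mem_gaussInt c) (ht.e₀_mem_gaussInt d) hd
    (ht.isIntegral_adjoin_of_redRing h)

theorem ChartParam.span_rat_le_redRing (ht : T.ChartParam t) {h : LaurentSeries T.k}
    (hh : h ∈ Submodule.span T.k {h | ∃ a ∈ T.chart₀ t, T.IsRat a ∧ h = T.red (T.e₀ a)}) :
    h ∈ ht.redRing := by
  induction hh using Submodule.span_induction with
  | mem h hh =>
    obtain ⟨a, ha, -, rfl⟩ := hh
    exact ⟨⟨a, ha⟩, rfl⟩
  | zero => exact zero_mem _
  | add a b _ _ ha hb => exact add_mem ha hb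
  | smul c a _ ha => rw [series_smul_eq]; exact mul_mem (ht.algebraMap_mem_redRing c) ha

theorem ChartParam.isNoetherianRing_chart (ht : T.ChartParam t) : IsNoetherianRing (T.chart₀ t) :=
  haveI := T.isDiscreteValuationRing_W
  haveI := ht.finiteType
  Algebra.FiniteType.isNoetherianRing T.W _

/-- A Noetherian subring of dimension one, integrally closed among its quotients, is a Dedekind
domain. -/
theorem isDedekindDomain_subring {L : Type*} [Field L] (B : Subring L) [IsNoetherianRing B]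
    [Ring.DimensionLEOne B]
    (h : ∀ c d : B, (d : L) ≠ 0 → B.subtype.IsIntegralElem ((c : L) / d) → (c : L) / d ∈ B) :
    IsDedekindDomain B := by
  rw [isDedekindDomain_iff B (FractionRing B)]
  refine ⟨inferInstance, inferInstance, inferInstance, fun {z} hz => ?_⟩
  obtain ⟨c, d, hd, rfl⟩ := IsFractionRing.div_surjective (A := B) z
  let ψ : FractionRing B →+* L := IsFractionRing.lift (g := B.subtype) Subtype.val_injective
  have hψ : ∀ r, ψ (algebraMap B (FractionRing B) r) = r := fun r =>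
    IsFractionRing.lift_algebraMap _ r
  have hint : B.subtype.IsIntegralElem ((c : L) / d) := by
    obtain ⟨p, hp, hpz⟩ := hz
    refine ⟨p, hp, ?_⟩
    have := congrArg ψ hpz
    rw [map_zero, hom_eval₂, show ψ.comp (algebraMap B (FractionRing B)) = B.subtype from
      RingHom.ext hψ, map_div₀, hψ, hψ] at this
    exact this
  refine ⟨⟨_, h c d (fun h0 => nonZeroDivisors.ne_zero hd (Subtype.ext h0)) hint⟩, ψ.injective ?_⟩
  rw [hψ, map_div₀, hψ, hψ]

/-- Smoothness: the reduced ring is a Dedekind domain. -/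
theorem ChartParam.isDedekindDomain_redRing (ht : T.ChartParam t) :
    IsDedekindDomain ht.redRing := by
  haveI := ht.isNoetherianRing_chart
  haveI : IsNoetherianRing ht.redRing := isNoetherianRing_range _
  haveI : Ring.DimensionLEOne ht.redRing := ⟨fun {P} hP0 hP => by
    letI : Algebra T.k[X] ht.redRing := ht.polyHom.toAlgebra
    haveI : Algebra.IsIntegral T.k[X] ht.redRing := ⟨ht.polyHom_isIntegral⟩
    exact Ideal.isMaximal_of_isIntegral_of_isMaximal_comap P
      (IsPrime.to_maximal_ideal (Ideal.IsIntegral.comap_ne_bot T.k[X] hP0))⟩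
  refine isDedekindDomain_subring _ ?_
  rintro ⟨_, c, rfl⟩ ⟨_, d, rfl⟩ hd hint
  exact ht.span_rat_le_redRing (ht.mem_span_of_redRing c d hd hint)

section point

variable (x : Ideal (T.chart₀ t)) [x.IsMaximal]

/-- The point on the reduced ring. -/
abbrev ChartParam.redIdeal (ht : T.ChartParam t) : Ideal ht.redRing :=
  x.map ht.redHom.rangeRestrict

theorem ChartParam.isMaximal_redIdeal (ht : T.ChartParam t) (hx : (q : T.chart₀ t) ∈ x) :
    (ht.redIdeal x).IsMaximal :=
  Ideal.IsMaximal.map_of_surjective_of_ker_le (RingHom.rangeRestrict_surjective _)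
    (by rw [RingHom.ker_rangeRestrict]; exact ht.ker_redHom_le hx)

omit [x.IsMaximal] in
theorem ChartParam.mem_redIdeal_iff (ht : T.ChartParam t) (hx : (q : T.chart₀ t) ∈ x)
    (a : T.chart₀ t) : ht.redHom.rangeRestrict a ∈ ht.redIdeal x ↔ a ∈ x := by
  rw [← Ideal.mem_comap, Ideal.comap_map_of_surjective ht.redHom.rangeRestrict (RingHom.rangeRestrict_surjective _),
    sup_eq_left.mpr]
  rw [← RingHom.ker_eq_comap_bot, RingHom.ker_rangeRestrict]
  exact ht.ker_redHom_le hx

theorem ChartParam.redIdeal_ne_bot (ht : T.ChartParam t) (hx : (q : T.chart₀ t) ∈ x) :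
    ht.redIdeal x ≠ ⊥ := fun h => by
  haveI := ht.isMaximal_redIdeal x hx
  have h1 := Ideal.isMaximal_comap_of_isIntegral_of_isMaximal' ht.polyHom ht.polyHom_isIntegral
    (ht.redIdeal x)
  rw [h, ← RingHom.ker_eq_comap_bot,
    (RingHom.injective_iff_ker_eq_bot ht.polyHom).mp ht.polyHom_injective] at h1
  exact Ring.ne_bot_of_isMaximal_of_not_isField h1 (Polynomial.not_isField T.k) rfl

omit [x.IsMaximal] in
/-- An element of `x` generating it modulo `q` and `x²`. -/
theorem ChartParam.exists_mul_mem_span (ht : T.ChartParam t) (hx : (q : T.chart₀ t) ∈ x)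
    {z : T.chart₀ t} (hz : z ∈ x) (hz2 : ht.redHom.rangeRestrict z ∉ ht.redIdeal x ^ 2) :
    ∃ s : ht.redRing, s ∉ ht.redIdeal x ∧ ∀ c ∈ ht.redIdeal x,
      ∃ y, s * c = ht.redHom.rangeRestrict z * y := by
  haveI := ht.isDedekindDomain_redRing
  obtain ⟨J, hJ⟩ := Ideal.dvd_iff_le.mpr
    ((Ideal.span_singleton_le_iff_mem (ht.redIdeal x)).mpr ((ht.mem_redIdeal_iff x hx z).mpr hz))
  obtain ⟨s, hsJ, hs⟩ : ∃ s ∈ J, s ∉ ht.redIdeal x := by
    by_contra h
    push Not at h
    refine hz2 ?_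
    rw [pow_two]
    exact Ideal.mul_mono_right h (hJ ▸ Ideal.mem_span_singleton_self _)
  refine ⟨s, hs, fun c hc => ?_⟩
  have hmem : s * c ∈ Ideal.span {ht.redHom.rangeRestrict z} := by
    rw [hJ, mul_comm s c]; exact Ideal.mul_mem_mul hc hsJ
  exact Ideal.mem_span_singleton.mp hmem

/-- Every point has a parameter with Frobenius-fixed reduced expansion, uniformising the reduced
ring. -/
theorem ChartParam.exists_rat_notMem_sq (ht : T.ChartParam t) (hx : (q : T.chart₀ t) ∈ x) :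
    ∃ z : T.chart₀ t, T.IsRat z ∧ z ∈ x ∧ ht.redHom.rangeRestrict z ∉ ht.redIdeal x ^ 2 := by
  haveI := ht.isDedekindDomain_redRing
  haveI := ht.isMaximal_redIdeal x hx
  haveI := charP_series (T := T)
  haveI : CharP ht.redRing q :=
    (RingHom.charP_iff ht.redRing.subtype Subtype.val_injective q).mpr inferInstance
  haveI : Fact q.Prime := ⟨T.prime⟩
  set m := ht.redIdeal x
  let κ : T.k → ht.redRing := fun c => ⟨_, ht.algebraMap_mem_redRing c⟩
  obtain ⟨c, hcr, hc⟩ : ∃ c : T.chart₀ t, T.IsRat c ∧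
      ∀ α : T.k, ht.redHom.rangeRestrict c - κ α ∉ m ^ 2 := by
    by_contra hcon
    push Not at hcon
    have hall : ∀ h, h ∈ Submodule.span T.k
        {h | ∃ a ∈ T.chart₀ t, T.IsRat a ∧ h = T.red (T.e₀ a)} →
        ∃ (hh : h ∈ ht.redRing) (α : T.k), (⟨h, hh⟩ : ht.redRing) - κ α ∈ m ^ 2 := by
      intro h hh
      induction hh using Submodule.span_induction with
      | mem h hh =>
        obtain ⟨a, ha, har, rfl⟩ := hh
        obtain ⟨α, hα⟩ := hcon ⟨a, ha⟩ har
        exact ⟨_, α, hα⟩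
      | zero =>
        refine ⟨zero_mem _, 0, ?_⟩
        rw [show (⟨0, zero_mem _⟩ : ht.redRing) - κ 0 = 0 from Subtype.ext (by simp [κ])]
        exact zero_mem _
      | add a b _ _ ha hb =>
        obtain ⟨ha', α, hα⟩ := ha
        obtain ⟨hb', β, hβ⟩ := hb
        refine ⟨add_mem ha' hb', α + β, ?_⟩
        convert add_mem hα hβ using 1
        exact Subtype.ext (by simp [κ, map_add]; ring)
      | smul r a _ ha =>
        obtain ⟨ha', α, hα⟩ := ha
        refine ⟨by rw [series_smul_eq]; exact mul_mem (ht.algebraMap_mem_redRing r) ha',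
          r * α, ?_⟩
        convert (m ^ 2).mul_mem_left (κ r) hα using 1
        exact Subtype.ext (by simp [κ, map_mul, series_smul_eq, mul_sub])
    have hle : m ≤ m ^ 2 := by
      rintro ⟨_, d, rfl⟩ hd
      have hint : (ht.redRing.subtype).IsIntegralElem (ht.redHom d / ht.redHom 1) := by
        rw [map_one, div_one]
        exact RingHom.isIntegralElem_map (f := ht.redRing.subtype) (x := ⟨_, d, rfl⟩)
      obtain ⟨hh, α, hα⟩ := hall _ (ht.mem_span_of_redRing d 1 (by rw [map_one]; exact one_ne_zero) hint)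
      have heq : (⟨ht.redHom d / ht.redHom 1, hh⟩ : ht.redRing) = ⟨ht.redHom d, d, rfl⟩ :=
        Subtype.ext (by show ht.redHom d / ht.redHom 1 = ht.redHom d; rw [map_one, div_one])
      rw [heq] at hα
      rcases eq_or_ne α 0 with rfl | hα0
      · simpa [κ, show κ 0 = 0 from Subtype.ext (map_zero _)] using hα
      · exfalso
        have h1 : κ α ∈ m := by
          have := m.sub_mem hd (Ideal.pow_le_self two_ne_zero hα)
          rwa [sub_sub_cancel] at this
        exact ‹m.IsMaximal›.ne_top (m.eq_top_of_isUnit_mem h1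
          (IsUnit.of_mul_eq_one (κ α⁻¹) (Subtype.ext (by
            show algebraMap T.k (LaurentSeries T.k) α * algebraMap T.k (LaurentSeries T.k) α⁻¹ = 1
            rw [← map_mul, mul_inv_cancel₀ hα0, map_one]))))
    have := Ideal.pow_succ_lt_pow (ht.redIdeal_ne_bot x hx) 1
    rw [pow_one] at this
    exact this.not_ge hle
  obtain ⟨w, hw⟩ := ht.exists_residue x hx c
  obtain ⟨n, hn, hfix⟩ := T.algebraic_k (T.πW w)
  set Q := q ^ n
  have hQ : 2 ≤ Q := T.prime.two_le.trans (Nat.le_self_pow hn.ne' q)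
  set d := ht.redHom.rangeRestrict c - κ (T.πW w)
  have hd : d ∈ m := by
    have := (ht.mem_redIdeal_iff x hx _).mpr hw
    rwa [map_sub, show ht.redHom.rangeRestrict (algebraMap T.W (T.chart₀ t) w) = κ (T.πW w) from
      Subtype.ext (ht.redHom_W w)] at this
  have hzd : ht.redHom.rangeRestrict (c ^ Q - c) = d ^ Q - d := by
    rw [map_sub, map_pow, sub_pow_char_pow, show κ (T.πW w) ^ (q ^ n) = κ (T.πW w) from
      Subtype.ext (by show algebraMap T.k _ _ ^ (q ^ n) = _; rw [← map_pow, hfix])]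
    ring
  refine ⟨c ^ Q - c, ⟨ht.e₀_mem_gaussInt _, ?_⟩, ?_, ?_⟩
  · show qExpand T.k q (ht.redHom (c ^ Q - c)) = ht.redHom (c ^ Q - c) ^ q
    rw [map_sub, map_pow, map_sub, map_pow, sub_pow_char, ← pow_mul, mul_comm, pow_mul,
      show qExpand T.k q (ht.redHom c) = ht.redHom c ^ q from hcr.2]
  · rw [← ht.mem_redIdeal_iff x hx, hzd]
    exact sub_mem (Ideal.pow_mem_of_mem _ hd _ (by omega)) hd
  · rw [hzd]
    intro h
    refine hc (T.πW w) ?_
    have h2 : d ^ Q ∈ m ^ 2 := Ideal.pow_le_pow_right hQ (Ideal.pow_mem_pow hd Q)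
    have := sub_mem h2 h
    rwa [sub_sub_cancel] at this

/-- Every point has a parameter with Frobenius-fixed reduced expansion. -/
theorem ChartParam.exists_rat_parameter (ht : T.ChartParam t) (x : Ideal (T.chart₀ t))
    [x.IsMaximal] (hx : (q : T.chart₀ t) ∈ x) :
    ∃ z : T.chart₀ t, T.IsRat z ∧ z ∈ x ∧
      ∀ a ∈ x, ∃ s ∉ x, s * a ∈ Ideal.span {(q : T.chart₀ t), z} := by
  obtain ⟨z, hzr, hzx, hz2⟩ := ht.exists_rat_notMem_sq x hx
  refine ⟨z, hzr, hzx, fun a ha => ?_⟩
  obtain ⟨⟨_, s, rfl⟩, hs, hsy⟩ := ht.exists_mul_mem_span x hx hzx hz2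
  obtain ⟨⟨_, y, rfl⟩, hy⟩ := hsy _ ((ht.mem_redIdeal_iff x hx a).mpr ha)
  refine ⟨s, fun h => hs ((ht.mem_redIdeal_iff x hx s).mpr h), ?_⟩
  obtain ⟨b, hb⟩ := ht.dvd_of_redHom_eq_zero (a := s * a - z * y) (by
    rw [map_sub, map_mul, map_mul, sub_eq_zero]
    exact congrArg Subtype.val hy)
  rw [show s * a = (q : T.chart₀ t) * b + y * z by rw [← hb]; ring]
  exact Ideal.mem_span_pair.mpr ⟨b, y, by ring⟩

/-- A uniformiser decomposes every nonzero element of the reduced ring at the point. -/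
theorem ChartParam.exists_pow_mul (ht : T.ChartParam t) (hx : (q : T.chart₀ t) ∈ x)
    {z s : ht.redRing} (hs : s ∉ ht.redIdeal x) (hz : z ∈ ht.redIdeal x)
    (hdiv : ∀ c ∈ ht.redIdeal x, ∃ y, s * c = z * y) (c : ht.redRing) (hc : c ≠ 0) :
    ∃ (n : ℕ) (u v : ht.redRing), u ∉ ht.redIdeal x ∧ v ∉ ht.redIdeal x ∧ v * c = z ^ n * u := by
  haveI := ht.isNoetherianRing_chart
  haveI : IsNoetherianRing ht.redRing := isNoetherianRing_range _
  haveI := ht.isMaximal_redIdeal x hx
  set m := ht.redIdeal x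
  suffices key : ∀ (N : ℕ) (c : ht.redRing), c ∉ m ^ N →
      ∃ (n : ℕ) (u v : ht.redRing), u ∉ m ∧ v ∉ m ∧ v * c = z ^ n * u by
    obtain ⟨N, hN⟩ : ∃ N, c ∉ m ^ N := by
      by_contra h
      push Not at h
      refine hc ?_
      have := Ideal.iInf_pow_eq_bot_of_isDomain m ‹m.IsMaximal›.ne_top
      exact Ideal.mem_bot.mp (this ▸ Ideal.mem_iInf.mpr h)
    exact key N c hN
  intro N
  induction N with
  | zero => exact fun c h => absurd (by simp) h
  | succ N ih =>
    intro c hcN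
    by_cases hcm : c ∈ m
    swap
    · exact ⟨0, c, 1, hcm, fun h => ‹m.IsMaximal›.ne_top ((Ideal.eq_top_iff_one m).mpr h),
        by simp⟩
    obtain ⟨y, hy⟩ := hdiv c hcm
    have hy' : y ∉ m ^ N := fun h => by
      refine hcN ?_
      have htop : Ideal.span {s} ⊔ m = ⊤ := by
        by_contra hne
        have := ‹m.IsMaximal›.eq_of_le hne le_sup_right
        exact hs (this.symm ▸ Ideal.mem_sup_left (Ideal.mem_span_singleton_self s))
      have htop' := Ideal.sup_pow_eq_top (n := N + 1) htop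
      obtain ⟨a, ha, b, hb, hab⟩ := Submodule.mem_sup.mp ((Ideal.eq_top_iff_one _).mp htop')
      obtain ⟨r, rfl⟩ := Ideal.mem_span_singleton'.mp ha
      rw [show c = r * (s * c) + b * c by rw [← mul_assoc, ← add_mul, hab, one_mul]]
      refine add_mem (Ideal.mul_mem_left _ r ?_) (Ideal.mul_mem_right _ _ hb)
      rw [hy, pow_succ']
      exact Ideal.mul_mem_mul hz h
    obtain ⟨n, u, v, hu, hv, he⟩ := ih y hy'
    exact ⟨n + 1, u, v * s, hu,
      fun h => (‹m.IsMaximal›.isPrime.mem_or_mem h).elim hv hs, by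
        rw [mul_assoc, hy, mul_left_comm, he, ← mul_assoc, ← pow_succ']⟩

theorem ChartParam.exists_redHom_ne_zero_mul_mem (ht : T.ChartParam t)
    (hx : (q : T.chart₀ t) ∈ x) {a : T.F₀} (ha : T.e₀ a ∈ gaussInt T.π) :
    ∃ d : T.chart₀ t, ht.redHom d ≠ 0 ∧ a * (d : T.F₀) ∈ T.chart₀ t := by
  haveI := ht.isNoetherianRing_chart
  haveI := T.charZeroK
  haveI : CharZero T.F₀ := charZero_of_injective_algebraMap (algebraMap T.K T.F₀).injective
  haveI := ht.isFractionRing
  obtain ⟨c, d₀, hd₀, rfl⟩ := IsFractionRing.div_surjective (A := T.chart₀ t) a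
  have hq : ¬ IsUnit (q : T.chart₀ t) := fun h =>
    Ideal.IsMaximal.ne_top ‹x.IsMaximal› (x.eq_top_of_isUnit_mem hx h)
  obtain ⟨m, d, hdq, hd⟩ :=
    (FiniteMultiplicity.of_not_isUnit hq (nonZeroDivisors.ne_zero hd₀)).exists_eq_pow_mul_and_not_dvd
      |> fun ⟨d, h1, h2⟩ => (⟨multiplicity (q : T.chart₀ t) d₀, d, h2, h1⟩ :
        ∃ m d, ¬ (q : T.chart₀ t) ∣ d ∧ d₀ = (q : T.chart₀ t) ^ m * d)
  refine ⟨d, fun h => hdq (ht.dvd_of_redHom_eq_zero h), ht.gauss_mem _ ?_ ?_⟩
  · have hq0 : (q : T.F₀) ≠ 0 := Nat.cast_ne_zero.mpr (NeZero.ne q)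
    have hd0 : (d : T.F₀) ≠ 0 := fun h => hdq ⟨0, by rw [mul_zero]; exact Subtype.ext h⟩
    have he : algebraMap (T.chart₀ t) T.F₀ c / algebraMap (T.chart₀ t) T.F₀ d₀ * (d : T.F₀) =
        algebraMap T.K T.F₀ (((q : T.K) ^ m)⁻¹) * (c : T.F₀) := by
      show (c : T.F₀) / (d₀ : T.F₀) * (d : T.F₀) = _
      rw [hd, MulMemClass.coe_mul, SubmonoidClass.coe_pow,
        show ((q : T.chart₀ t) : T.F₀) = q by simp, map_inv₀, map_pow, map_natCast]
      field_simp
    rw [he]
    exact (isIntegral_algebraMap (x := (⟨_, Subalgebra.algebraMap_mem _ _⟩ :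
      Algebra.adjoin T.K {t}))).mul (isIntegral_adjoin_K c.2)
  · rw [map_mul]
    exact mul_mem ha (ht.e₀_mem_gaussInt d)

/-- The reduced ring at a point is the valuation ring of the point: every reduced function or its
inverse is regular there. -/
theorem ChartParam.regAt_or_regAt_inv (ht : T.ChartParam t) (x : Ideal (T.chart₀ t))
    [x.IsMaximal] (hx : (q : T.chart₀ t) ∈ x) (a b : T.F₀) (ha : T.e₀ a ∈ gaussInt T.π)
    (hb : T.e₀ b ∈ gaussInt T.π) (hb0 : T.red₀ b ≠ 0) :
    T.RegAt x (T.red₀ a / T.red₀ b) ∨ T.VanAt x (T.red₀ b / T.red₀ a) := by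
  obtain ⟨da, hda, hca⟩ := ht.exists_redHom_ne_zero_mul_mem x hx ha
  obtain ⟨db, hdb, hcb⟩ := ht.exists_redHom_ne_zero_mul_mem x hx hb
  set c : T.chart₀ t := ⟨_, hca⟩ * db
  set d : T.chart₀ t := ⟨_, hcb⟩ * da
  have hmul : ∀ (u : T.F₀) (hu : T.e₀ u ∈ gaussInt T.π) (v : T.chart₀ t)
      (h : u * (v : T.F₀) ∈ T.chart₀ t), ht.redHom ⟨_, h⟩ = T.red₀ u * ht.redHom v :=
    fun u hu v h => by
      show gred T.π (T.e₀ (u * (v : T.F₀))) = _
      rw [map_mul]
      exact gred_mul hu (ht.e₀_mem_gaussInt v)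
  have hc : ht.redHom c = T.red₀ a * (ht.redHom da * ht.redHom db) := by
    rw [map_mul, hmul a ha da hca, mul_assoc]
  have hd : ht.redHom d = T.red₀ b * (ht.redHom da * ht.redHom db) := by
    rw [map_mul, hmul b hb db hcb, mul_assoc, mul_comm (ht.redHom db)]
  have hab : T.red₀ a / T.red₀ b = ht.redHom c / ht.redHom d := by
    rw [hc, hd, mul_div_mul_right _ _ (mul_ne_zero hda hdb)]
  have hba : T.red₀ b / T.red₀ a = ht.redHom d / ht.redHom c := by
    rw [hc, hd, mul_div_mul_right _ _ (mul_ne_zero hda hdb)]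
  have hd0 : ht.redHom d ≠ 0 := by rw [hd]; exact mul_ne_zero hb0 (mul_ne_zero hda hdb)
  rcases eq_or_ne (ht.redHom c) 0 with hc0 | hc0
  · refine Or.inl ⟨0, 1, fun h => Ideal.IsMaximal.ne_top ‹x.IsMaximal›
      ((Ideal.eq_top_iff_one x).mpr h), ?_⟩
    rw [hab, hc0, zero_div, zero_mul]
    exact (map_zero ht.redHom).symm
  obtain ⟨z, -, hzx, hz2⟩ := ht.exists_rat_notMem_sq x hx
  obtain ⟨s, hs, hdiv⟩ := ht.exists_mul_mem_span x hx hzx hz2
  have hzm := (ht.mem_redIdeal_iff x hx z).mpr hzx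
  obtain ⟨n, ⟨_, u, rfl⟩, ⟨_, v, rfl⟩, hu, hv, he⟩ := ht.exists_pow_mul x hx hs hzm hdiv
    (ht.redHom.rangeRestrict c) (fun h => hc0 (congrArg Subtype.val h))
  obtain ⟨k, ⟨_, u', rfl⟩, ⟨_, v', rfl⟩, hu', hv', he'⟩ := ht.exists_pow_mul x hx hs hzm hdiv
    (ht.redHom.rangeRestrict d) (fun h => hd0 (congrArg Subtype.val h))
  have e1 : ht.redHom v * ht.redHom c = ht.redHom z ^ n * ht.redHom u := congrArg Subtype.val he
  have e2 : ht.redHom v' * ht.redHom d = ht.redHom z ^ k * ht.redHom u' := congrArg Subtype.val he'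
  have hmem : ∀ w : T.chart₀ t, ht.redHom.rangeRestrict w ∉ ht.redIdeal x → w ∉ x :=
    fun w hw h => hw ((ht.mem_redIdeal_iff x hx w).mpr h)
  have hprod : ∀ w w' : T.chart₀ t, w ∉ x → w' ∉ x → w * w' ∉ x := fun w w' h h' h2 =>
    (Ideal.IsMaximal.isPrime ‹x.IsMaximal›).mem_or_mem h2 |>.elim h h'
  have hne : ∀ w : T.chart₀ t, w ∉ x → ht.redHom w ≠ 0 := fun w hw h0 =>
    hw (ht.ker_redHom_le hx (RingHom.mem_ker.mpr h0))
  have hz0 : ht.redHom z ≠ 0 := fun h0 => by
    refine hz2 ?_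
    rw [show ht.redHom.rangeRestrict z = 0 from Subtype.ext h0]
    exact zero_mem _
  rcases le_or_gt k n with hkn | hkn
  · obtain ⟨e, rfl⟩ := Nat.exists_eq_add_of_le hkn
    refine Or.inl ⟨z ^ e * u * v', v * u', hprod _ _ (hmem v hv) (hmem u' hu'), ?_⟩
    show _ * ht.redHom (v * u') = ht.redHom (z ^ e * u * v')
    rw [hab, map_mul ht.redHom v u', map_mul ht.redHom (z ^ e * u) v',
      map_mul ht.redHom (z ^ e) u, map_pow, div_mul_eq_mul_div, div_eq_iff hd0]
    rw [_root_.pow_add] at e1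
    linear_combination (ht.redHom u') * e1 - (ht.redHom z ^ e * ht.redHom u) * e2
  · obtain ⟨e, rfl⟩ := Nat.exists_eq_add_of_le hkn.le
    refine Or.inr ⟨z ^ e * u' * v, v' * u, hprod _ _ (hmem v' hv') (hmem u hu), ?_, ?_⟩
    · exact x.mul_mem_right _ (x.mul_mem_right _ (Ideal.pow_mem_of_mem x hzx e (by omega)))
    · show _ * ht.redHom (v' * u) = ht.redHom (z ^ e * u' * v)
      rw [hba, map_mul ht.redHom v' u, map_mul ht.redHom (z ^ e * u') v,
        map_mul ht.redHom (z ^ e) u', map_pow, div_mul_eq_mul_div, div_eq_iff hc0]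
      rw [_root_.pow_add] at e2
      linear_combination (ht.redHom u) * e2 - (ht.redHom z ^ e * ht.redHom u') * e1

end point

end Tower

end FermatLib.Igusa.Carayol
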