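import Mathlib
import Fermat.Agent.Igusa.Carayol.LevelZeroPoints

/-!
Regularity at a point of a chart of level `N`, and scaling into the chart.
-/

set_option autoImplicit false
set_option linter.style.haveILetI false

noncomputable section

open ModularCurve HahnSeries FermatLib.Igusa

namespace FermatLib.Igusa.Carayol

namespace Tower

variable {q : ℕ} [NeZero q] {T : Tower q} {t : T.F₀}

theorem exists_smul_mem_adjoin {a : T.F₀} (ha : a ∈ Algebra.adjoin T.K {t}) :
    ∃ w : T.W, w ≠ 0 ∧ algebraMap T.W T.F₀ w * a ∈ Algebra.adjoin T.W {t} := by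
  induction ha using Algebra.adjoin_induction with
  | mem a ha =>
    exact ⟨1, one_ne_zero, by rw [map_one, one_mul]; exact Algebra.subset_adjoin ha⟩
  | algebraMap c =>
    obtain ⟨⟨n, d⟩, hd⟩ := IsLocalization.surj (nonZeroDivisors T.W) c
    refine ⟨d, nonZeroDivisors.ne_zero d.2, ?_⟩
    rw [IsScalarTower.algebraMap_apply T.W T.K T.F₀, ← map_mul, mul_comm, hd,
      ← IsScalarTower.algebraMap_apply T.W T.K T.F₀]
    exact Subalgebra.algebraMap_mem _ _
  | add a b _ _ ha hb =>
    obtain ⟨v, hv, hva⟩ := ha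
    obtain ⟨w, hw, hwb⟩ := hb
    refine ⟨v * w, mul_ne_zero hv hw, ?_⟩
    have := add_mem (mul_mem (Subalgebra.algebraMap_mem (Algebra.adjoin T.W {t}) w) hva)
      (mul_mem (Subalgebra.algebraMap_mem (Algebra.adjoin T.W {t}) v) hwb)
    convert this using 1
    rw [map_mul]
    ring
  | mul a b _ _ ha hb =>
    obtain ⟨v, hv, hva⟩ := ha
    obtain ⟨w, hw, hwb⟩ := hb
    refine ⟨v * w, mul_ne_zero hv hw, ?_⟩
    convert mul_mem hva hwb using 1
    rw [map_mul]
    ring

/-- An element integral over `K[t]` becomes an element of the chart after scaling by `W`. -/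
theorem exists_smul_mem_chart₀ {b : T.F₀} (hb : IsIntegral (Algebra.adjoin T.K {t}) b) :
    ∃ w : T.W, w ≠ 0 ∧ algebraMap T.W T.F₀ w * b ∈ T.chart₀ t := by
  classical
  obtain ⟨p, hp, hev⟩ := hb
  choose v hv0 hv using fun i => exists_smul_mem_adjoin (p.coeff i).2
  set w : T.W := ∏ i ∈ Finset.range (p.natDegree + 1), v i with hw
  have hw0 : w ≠ 0 := Finset.prod_ne_zero_iff.mpr fun i _ => hv0 i
  refine ⟨w, hw0, ?_⟩
  show IsIntegral (Algebra.adjoin T.W {t}) (algebraMap T.W T.F₀ w * b)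
  set P := p.map (algebraMap _ T.F₀) with hP
  have hPm : P.Monic := hp.map _
  have hroot : P.eval b = 0 := by rw [hP, Polynomial.eval_map]; exact hev
  have hlift : P.scaleRoots (algebraMap T.W T.F₀ w) ∈
      Polynomial.lifts (algebraMap (Algebra.adjoin T.W {t}) T.F₀) := by
    rw [Polynomial.lifts_iff_coeff_lifts]
    intro i
    rw [Polynomial.coeff_scaleRoots]
    rcases lt_or_ge i P.natDegree with hi | hi
    · have hi' : i ∈ Finset.range (p.natDegree + 1) :=
        Finset.mem_range.mpr (by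
          have : P.natDegree ≤ p.natDegree := Polynomial.natDegree_map_le
          omega)
      obtain ⟨d, hd⟩ : v i ∣ w := Finset.dvd_prod_of_mem v hi'
      refine ⟨⟨_, mul_mem (mul_mem (hv i)
        (Subalgebra.algebraMap_mem (Algebra.adjoin T.W {t}) d))
        (pow_mem (Subalgebra.algebraMap_mem (Algebra.adjoin T.W {t}) w)
          (P.natDegree - i - 1))⟩, ?_⟩
      conv_rhs => rw [show P.natDegree - i = (P.natDegree - i - 1) + 1 by omega, pow_succ]
      rw [hP, Polynomial.coeff_map]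
      show algebraMap T.W T.F₀ (v i) * ((p.coeff i : Algebra.adjoin T.K {t}) : T.F₀) *
        algebraMap T.W T.F₀ d * _ = ((p.coeff i : Algebra.adjoin T.K {t}) : T.F₀) * _
      conv_rhs => arg 2; arg 2; rw [hd, map_mul]
      ring
    · rw [Nat.sub_eq_zero_of_le hi, pow_zero, mul_one]
      rcases hi.lt_or_eq with hlt | rfl
      · exact ⟨0, by rw [Polynomial.coeff_eq_zero_of_natDegree_lt hlt, map_zero]⟩
      · exact ⟨1, by rw [hPm.coeff_natDegree, map_one]⟩
  obtain ⟨Q, hQ, -, hQm⟩ := Polynomial.lifts_and_natDegree_eq_and_monic hlift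
    ((Polynomial.monic_scaleRoots_iff _).mpr hPm)
  refine ⟨Q, hQm, ?_⟩
  rw [Polynomial.eval₂_eq_eval_map, hQ]
  have := Polynomial.scaleRoots_eval₂_eq_zero (RingHom.id T.F₀) (s := algebraMap T.W T.F₀ w)
    (p := P) (r := b) (by rwa [Polynomial.eval₂_id])
  rwa [Polynomial.eval₂_id] at this

theorem ChartParam.regAt_mul (ht : T.ChartParam t) {x : Ideal (T.chart₀ t)} [x.IsPrime]
    {g h : LaurentSeries T.k} (hg : T.RegAt x g) (hh : T.RegAt x h) : T.RegAt x (g * h) := by
  obtain ⟨a, s, hs, e⟩ := hg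
  obtain ⟨b, u, hu, e'⟩ := hh
  refine ⟨a * b, s * u, fun h => (Ideal.IsPrime.mem_or_mem inferInstance h).elim hs hu, ?_⟩
  rw [← ht.redHom_apply, ← ht.redHom_apply, map_mul, map_mul, ht.redHom_apply, ht.redHom_apply,
    ht.redHom_apply, ht.redHom_apply, ← e, ← e']
  ring

theorem ChartParam.vanAt_mul (ht : T.ChartParam t) {x : Ideal (T.chart₀ t)} [x.IsPrime]
    {g h : LaurentSeries T.k} (hg : T.VanAt x g) (hh : T.RegAt x h) : T.VanAt x (g * h) := by
  obtain ⟨a, s, hs, ha, e⟩ := hg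
  obtain ⟨b, u, hu, e'⟩ := hh
  refine ⟨a * b, s * u, fun h => (Ideal.IsPrime.mem_or_mem inferInstance h).elim hs hu,
    x.mul_mem_right _ ha, ?_⟩
  rw [← ht.redHom_apply, ← ht.redHom_apply, map_mul, map_mul, ht.redHom_apply, ht.redHom_apply,
    ht.redHom_apply, ht.redHom_apply, ← e, ← e']
  ring

theorem ChartParam.regAt_add (ht : T.ChartParam t) {x : Ideal (T.chart₀ t)} [x.IsPrime]
    {g h : LaurentSeries T.k} (hg : T.RegAt x g) (hh : T.RegAt x h) : T.RegAt x (g + h) := by
  obtain ⟨a, s, hs, e⟩ := hg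
  obtain ⟨b, u, hu, e'⟩ := hh
  refine ⟨a * u + b * s, s * u,
    fun h => (Ideal.IsPrime.mem_or_mem inferInstance h).elim hs hu, ?_⟩
  rw [← ht.redHom_apply, ← ht.redHom_apply, map_mul, map_add, map_mul, map_mul, ht.redHom_apply,
    ht.redHom_apply, ht.redHom_apply, ht.redHom_apply, ← e, ← e']
  ring

theorem ChartParam.regAt_red (ht : T.ChartParam t) {x : Ideal (T.chart₀ t)} [x.IsPrime]
    (a : T.chart₀ t) : T.RegAt x (T.red₀ (a : T.F₀)) :=
  ⟨a, 1, fun h => (Ideal.IsPrime.ne_top inferInstance) ((Ideal.eq_top_iff_one _).mpr h), by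
    rw [← ht.redHom_apply 1, map_one, mul_one]⟩

theorem ChartParam.regAt_pow (ht : T.ChartParam t) {x : Ideal (T.chart₀ t)} [x.IsPrime]
    {g : LaurentSeries T.k} (hg : T.RegAt x g) (n : ℕ) : T.RegAt x (g ^ n) := by
  induction n with
  | zero =>
    rw [pow_zero]
    have := ht.regAt_red (x := x) 1
    rwa [← ht.redHom_apply, map_one] at this
  | succ n ih => rw [pow_succ]; exact ht.regAt_mul ih hg

end Tower

end FermatLib.Igusa.Carayol
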