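import Mathlib
import Fermat.Agent.Igusa.Carayol.TowerBasic

/-!
The embeddings of the three levels into series and the norms of the degeneracy maps.
-/

set_option autoImplicit false
set_option maxHeartbeats 400000

noncomputable section

open ModularCurve HahnSeries FermatLib.Igusa

namespace FermatLib.Igusa.Carayol

namespace Tower

variable {q : ℕ} [NeZero q] (T : Tower q)

open Classical in
/-- A conjugation of `L` over `K` raising `ζ` to the power `i`. -/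
def conj (i : ℕ) : T.L →ₐ[T.K] T.L :=
  if h : ¬ q ∣ i then (T.exists_conj i h).choose else AlgHom.id T.K T.L

theorem conj_ζ {i : ℕ} (h : ¬ q ∣ i) : T.conj i ((T.ζ : T.A) : T.L) = ((T.ζ : T.A) : T.L) ^ i := by
  rw [conj, dif_pos h]
  exact (T.exists_conj i h).choose_spec.1

theorem conj_mem (i : ℕ) {a : T.L} (ha : a ∈ T.A) : T.conj i a ∈ T.A := by
  by_cases h : ¬ q ∣ i
  · rw [conj, dif_pos h]
    exact (T.exists_conj i h).choose_spec.2 a ha
  · rw [conj, dif_neg h]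
    exact ha

/-- The conjugation on the valuation ring. -/
def conjA (i : ℕ) : T.A →+* T.A :=
  ((T.conj i).toRingHom.comp T.A.subtype).codRestrict T.A.toSubring fun a => T.conj_mem i a.2

theorem coe_conjA (i : ℕ) (a : T.A) : (T.conjA i a : T.L) = T.conj i a := rfl

/-- The conjugations induce the identity on the residue field. -/
theorem π_conjA (i : ℕ) (a : T.A) : T.π (T.conjA i a) = T.π a := by
  obtain ⟨w, hw, h⟩ := T.π_surjective (T.π a)
  have hfix : T.conjA i ⟨_, hw⟩ = ⟨_, hw⟩ := Subtype.ext ((T.conj i).commutes w)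
  have hd : T.π (a - ⟨_, hw⟩) = 0 := by rw [map_sub, h, sub_self]
  have h2 : T.π (T.conjA i (a - ⟨_, hw⟩)) = 0 := by
    refine (T.π_eq_zero _).mpr fun hu => (T.π_eq_zero _).mp hd ?_
    -- a field endomorphism preserving the valuation ring sends non-units to non-units
    by_contra hnu
    obtain ⟨d, hd'⟩ := T.ram _ hnu
    have h3 := congrArg (T.conjA i) hd'
    rw [map_pow, map_mul, map_natCast] at h3
    have h4 := congrArg T.π h3
    rw [map_pow, map_mul, map_natCast, CharP.cast_eq_zero, zero_mul] at h4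
    exact (T.π_eq_zero _).mp (eq_zero_of_pow_eq_zero h4) hu
  rw [map_sub, map_sub, hfix, h, sub_eq_zero] at h2
  exact h2

/-- The conjugates of the middle expansion. -/
def εbI (i : ℕ) : T.F₂ →+* LaurentSeries T.L := (coeffMap (T.conj i).toRingHom).comp T.εb

theorem coeffMap_conj_ε (i : ℕ) (y : T.F₂) :
    coeffMap (T.conj i).toRingHom (T.ε y) = T.ε y := by
  ext n
  obtain ⟨c, hc⟩ := T.ε_rat y n
  rw [coeffMap_coeff, ← hc]
  exact (T.conj i).commutes c

theorem εbI_ι₁ (i : ℕ) (y : T.F₁) : T.εbI i (T.ι₁ y) = T.e₁ y := by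
  show coeffMap (T.conj i).toRingHom (T.εb (T.ι₁ y)) = _
  rw [T.εb_ι₁, T.coeffMap_conj_ε]
  rfl

theorem w₁_β₀ (x : T.F₀) : T.w₁ (T.β₀ x) = T.ι₀ x := by rw [← T.w₁_ι₀, T.w₁_w₁]

theorem w₂_β₁ (y : T.F₁) : T.w₂ (T.β₁ y) = T.ι₁ (T.w₁ y) := by
  conv_lhs => rw [show y = T.w₁ (T.w₁ y) from (T.w₁_w₁ y).symm]
  rw [← T.w₂_ι₁, T.w₂_w₂]

theorem e₁_ι₀ (x : T.F₀) : T.e₁ (T.ι₀ x) = T.e₀ x := rfl

theorem e₁_β₀ (x : T.F₀) : T.e₁ (T.β₀ x) = qExpand T.L q (T.e₀ x) := by
  rw [e₁_apply, ← T.comm, T.ε_β₁]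
  rfl

theorem ε_β₁' (y : T.F₁) : T.ε (T.β₁ y) = qExpand T.L q (T.e₁ y) := T.ε_β₁ y

theorem εc_ι₁ (y : T.F₁) : T.εc (T.ι₁ y) = qExpand T.L q (T.e₁ (T.w₁ y)) := by
  rw [εc_apply, T.w₂_ι₁, T.ε_β₁]
  rfl

theorem εc_β₁ (y : T.F₁) : T.εc (T.β₁ y) = T.e₁ (T.w₁ y) := by
  rw [εc_apply, w₂_β₁]
  rfl

theorem ζL_pow : T.toBase.ζL ^ q = 1 := by
  apply Units.ext
  rw [Units.val_pow_eq_pow_val]
  exact T.ζ_primitive.pow_eq_one

theorem scale_qExpand (i : ℕ) (f : LaurentSeries T.L) :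
    monoNewScale (T.toBase.ζL ^ i) (qExpand T.L q f) = qExpand T.L q f :=
  monoNewScale_qExpand _ q (by rw [← pow_mul, mul_comm, pow_mul, ζL_pow, one_pow]) _

/-- Two ring homomorphisms on level `N q` agreeing on constants and both images of level `N`
agree. -/
theorem hom_ext₁ {R : Type*} [Field R] (f g : T.F₁ →+* R)
    (hK : ∀ c, f (algebraMap T.K T.F₁ c) = g (algebraMap T.K T.F₁ c))
    (hι : ∀ x, f (T.ι₀ x) = g (T.ι₀ x)) (hβ : ∀ x, f (T.β₀ x) = g (T.β₀ x)) : f = g := by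
  have hle : (⊤ : IntermediateField T.K T.F₁) ≤
      (f.eqLocusField g).toIntermediateField hK := by
    rw [← T.adjoin₁, IntermediateField.adjoin_le_iff]
    rintro y (⟨x, rfl⟩ | ⟨x, rfl⟩)
    exacts [hι x, hβ x]
  exact RingHom.ext fun y => hle (IntermediateField.mem_top (x := y))

/-- Two ring homomorphisms on level `N q²` agreeing on constants and both images of level `N q`
agree. -/
theorem hom_ext₂ {R : Type*} [Field R] (f g : T.F₂ →+* R)
    (hK : ∀ c, f (algebraMap T.K T.F₂ c) = g (algebraMap T.K T.F₂ c))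
    (hι : ∀ y, f (T.ι₁ y) = g (T.ι₁ y)) (hβ : ∀ x, f (T.β₁ (T.β₀ x)) = g (T.β₁ (T.β₀ x))) :
    f = g := by
  have hβ1 : f.comp T.β₁.toRingHom = g.comp T.β₁.toRingHom :=
    T.hom_ext₁ _ _ (fun c => by simpa using hK c)
      (fun x => by simpa [T.comm] using hι (T.β₀ x)) hβ
  have hle : (⊤ : IntermediateField T.K T.F₂) ≤
      (f.eqLocusField g).toIntermediateField hK := by
    rw [← T.adjoin₂, IntermediateField.adjoin_le_iff]
    rintro y (⟨x, rfl⟩ | ⟨x, rfl⟩)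
    exacts [hι x, RingHom.congr_fun hβ1 x]
  exact RingHom.ext fun y => hle (IntermediateField.mem_top (x := y))

theorem coeffMap_const (σ : T.L →+* T.L) (c : T.K)
    (hσ : σ (algebraMap T.K T.L c) = algebraMap T.K T.L c) :
    coeffMap σ (algebraMap T.L (LaurentSeries T.L) (algebraMap T.K T.L c)) =
      algebraMap T.L (LaurentSeries T.L) (algebraMap T.K T.L c) := by
  rw [algebraMap_laurentSeries_eq_single, coeffMap_single, hσ]

theorem scale_const (c : T.Lˣ) (a : T.L) :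
    monoNewScale c (algebraMap T.L (LaurentSeries T.L) a) =
      algebraMap T.L (LaurentSeries T.L) a := by
  ext n
  rw [algebraMap_laurentSeries_eq_single, monoNewScale_coeff, HahnSeries.coeff_single]
  split_ifs with h
  · subst h
    simp
  · simp

theorem εb_algebraMap (c : T.K) :
    T.εb (algebraMap T.K T.F₂ c) = algebraMap T.L (LaurentSeries T.L) (algebraMap T.K T.L c) := by
  rw [← AlgHom.commutes T.ι₁, T.εb_ι₁]
  exact T.e₁_algebraMap c

theorem εb_β₁ (y : T.F₁) :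
    T.εb (T.β₁ y) = monoNewScale T.toBase.ζL (T.e₁ (T.w₁ y)) := by
  refine RingHom.congr_fun (T.hom_ext₁ (T.εb.comp T.β₁.toRingHom)
    ((monoNewScale T.toBase.ζL).comp (T.e₁.comp T.w₁.toRingEquiv.toRingHom)) (fun c => ?_)
    (fun x => ?_) (fun x => ?_)) y
  · show T.εb (T.β₁ (algebraMap _ _ c)) = monoNewScale _ (T.e₁ (T.w₁ (algebraMap _ _ c)))
    rw [AlgHom.commutes, T.εb_algebraMap, AlgEquiv.commutes, T.e₁_algebraMap, T.scale_const]
  · show T.εb (T.β₁ (T.ι₀ x)) = monoNewScale _ (T.e₁ (T.w₁ (T.ι₀ x)))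
    have h := T.scale_qExpand 1 (T.e₀ x)
    rw [pow_one] at h
    rw [T.w₁_ι₀, T.comm, T.εb_ι₁, T.e₁_β₀, h]
    exact T.e₁_β₀ x
  · show T.εb (T.β₁ (T.β₀ x)) = monoNewScale _ (T.e₁ (T.w₁ (T.β₀ x)))
    rw [w₁_β₀, T.εb_β]
    rfl

theorem coeffMap_conj_scale (i : ℕ) (hi : ¬ q ∣ i) (f : LaurentSeries T.L) :
    coeffMap (T.conj i).toRingHom (monoNewScale T.toBase.ζL f) =
      monoNewScale (T.toBase.ζL ^ i) (coeffMap (T.conj i).toRingHom f) := by
  have hu : Units.map ((T.conj i).toRingHom : T.L →* T.L) T.toBase.ζL = T.toBase.ζL ^ i := by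
    apply Units.ext
    rw [Units.coe_map, Units.val_pow_eq_pow_val]
    exact T.conj_ζ hi
  rw [coeffMap_monoNewScale, hu]

/-- The Atkin–Lehner transform of the middle expansion. -/
theorem εb_w₂ (y : T.F₂) :
    T.εb (T.w₂ y) = monoNewScale T.toBase.ζL (T.εbI (q - 1) y) := by
  have hq1 : ¬ q ∣ q - 1 := fun h => by
    have := Nat.le_of_dvd (by have := T.prime.two_le; omega) h
    have := T.prime.pos
    omega
  refine RingHom.congr_fun (T.hom_ext₂ (T.εb.comp T.w₂.toRingEquiv.toRingHom)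
    ((monoNewScale T.toBase.ζL).comp (T.εbI (q - 1))) (fun c => ?_) (fun y => ?_) (fun x => ?_)) y
  · show T.εb (T.w₂ (algebraMap _ _ c)) = monoNewScale _ (coeffMap _ (T.εb (algebraMap _ _ c)))
    rw [AlgEquiv.commutes, T.εb_algebraMap, T.coeffMap_const _ _ ((T.conj _).commutes c),
      T.scale_const]
  · show T.εb (T.w₂ (T.ι₁ y)) = monoNewScale _ (T.εbI (q - 1) (T.ι₁ y))
    rw [T.w₂_ι₁, T.εb_β₁, T.w₁_w₁, T.εbI_ι₁]
  · show T.εb (T.w₂ (T.β₁ (T.β₀ x))) =
      monoNewScale _ (coeffMap _ (T.εb (T.β₁ (T.β₀ x))))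
    have hfix : coeffMap (T.conj (q - 1)).toRingHom (T.e₀ x) = T.e₀ x := T.coeffMap_conj_ε _ _
    rw [w₂_β₁, w₁_β₀, T.εb_ι₁, T.εb_β]
    rw [show monoNewScale (Units.map (T.A.subtype : T.A →* T.L) T.ζ) (T.ε (T.ι₁ (T.ι₀ x))) =
      monoNewScale T.toBase.ζL (T.e₀ x) from rfl, T.coeffMap_conj_scale _ hq1, hfix]
    ext n
    simp only [monoNewScale_coeff]
    rw [← mul_assoc, ← Units.val_mul, ← mul_zpow, ← pow_succ', Nat.sub_add_cancel T.prime.pos,
      T.ζL_pow, one_zpow, Units.val_one, one_mul]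
    rfl

theorem injective_zetaPow {i i' : Fin q}
    (h : (T.toBase.ζL : T.L) ^ (i : ℕ) = (T.toBase.ζL : T.L) ^ (i' : ℕ)) : i = i' :=
  Fin.ext (T.ζ_primitive.pow_inj i.2 i'.2 h)

theorem coeff_neg_one_e₀_scale (i : ℕ) :
    (monoNewScale (T.toBase.ζL ^ i) (T.e₀ T.j)).coeff (-1) = ((T.toBase.ζL : T.L) ^ i)⁻¹ := by
  rw [monoNewScale_coeff, e₀_apply, T.j_coeff, mul_one, zpow_neg_one,
    Units.val_inv_eq_inv_val, Units.val_pow_eq_pow_val]

theorem coeff_neg_one_qExpand (f : LaurentSeries T.L) :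
    (qExpand T.L q f).coeff (-1) = 0 :=
  qExpand_coeff_of_not_dvd q _ (by
    rw [Int.dvd_neg, show (1 : ℤ) = ((1 : ℕ) : ℤ) from rfl, Int.natCast_dvd_natCast, Nat.dvd_one]
    exact T.prime.ne_one)

/-- The embeddings of level `N q` over level `N`, in the variable of the top level. -/
def emb₁ : Option (Fin q) → (T.F₁ →+* LaurentSeries T.L)
  | none => (qExpand T.L q).comp T.e₁
  | some i => (monoNewScale (T.toBase.ζL ^ (i : ℕ))).comp (T.e₁.comp T.w₁.toRingEquiv.toRingHom)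

theorem map_norm₁ (y : T.F₁) :
    letI := T.ι₀.toRingHom.toAlgebra
    qExpand T.L q (T.e₀ (Algebra.norm T.F₀ y)) =
      qExpand T.L q (T.e₁ y) * ∏ i : Fin q,
        monoNewScale (T.toBase.ζL ^ (i : ℕ)) (T.e₁ (T.w₁ y)) := by
  letI := T.ι₀.toRingHom.toAlgebra
  haveI : FiniteDimensional T.F₀ T.F₁ :=
    FiniteDimensional.of_finrank_pos (by rw [T.finrank₀]; omega)
  haveI : CharZero T.F₀ := charZero_of_injective_algebraMap (algebraMap T.K T.F₀).injective
  have h := map_norm_eq_prod (e := (qExpand T.L q).comp T.e₀) (σ := T.emb₁) (fun o x => ?_) ?_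
    (by rw [Fintype.card_option, Fintype.card_fin, T.finrank₀]) y
  · rw [Fintype.prod_option] at h
    exact h
  · cases o with
    | none => rfl
    | some i =>
      show monoNewScale _ (T.e₁ (T.w₁ (T.ι₀ x))) = qExpand T.L q (T.e₀ x)
      rw [T.w₁_ι₀, T.e₁_β₀, T.scale_qExpand]
  · have hsome : ∀ i : Fin q, T.emb₁ (some i) (T.β₀ T.j) =
        monoNewScale (T.toBase.ζL ^ (i : ℕ)) (T.e₀ T.j) := fun i => by
      show monoNewScale _ (T.e₁ (T.w₁ (T.β₀ T.j))) = _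
      rw [w₁_β₀, T.e₁_ι₀]
    have hnone : (T.emb₁ none (T.β₀ T.j)).coeff (-1) = 0 := T.coeff_neg_one_qExpand _
    rintro (_ | i) (_ | i') h
    · rfl
    · rw [h, hsome, T.coeff_neg_one_e₀_scale, inv_eq_zero] at hnone
      exact absurd hnone (pow_ne_zero _ (Units.ne_zero _))
    · rw [← h, hsome, T.coeff_neg_one_e₀_scale, inv_eq_zero] at hnone
      exact absurd hnone (pow_ne_zero _ (Units.ne_zero _))
    · have h1 := congrArg (fun f : T.F₁ →+* LaurentSeries T.L => (f (T.β₀ T.j)).coeff (-1)) h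
      simp only [hsome, T.coeff_neg_one_e₀_scale, inv_inj] at h1
      rw [T.injective_zetaPow h1]

/-- The embeddings of level `N q²` over level `N q` at `∞`. -/
def emb₂ (i : Fin q) : T.F₂ →+* LaurentSeries T.L :=
  if (i : ℕ) = 0 then T.ε else T.εbI i

theorem finrank_pos₂ :
    letI := T.ι₁.toRingHom.toAlgebra
    FiniteDimensional T.F₁ T.F₂ := by
  letI := T.ι₁.toRingHom.toAlgebra
  exact FiniteDimensional.of_finrank_pos (by rw [T.finrank₁]; exact T.prime.pos)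

theorem εbI_β₁β₀ (i : ℕ) (hi : ¬ q ∣ i) (x : T.F₀) :
    T.εbI i (T.β₁ (T.β₀ x)) = monoNewScale (T.toBase.ζL ^ i) (T.e₀ x) := by
  show coeffMap _ (T.εb _) = _
  rw [T.εb_β₁, w₁_β₀, T.coeffMap_conj_scale i hi, T.e₁_ι₀]
  congr 1
  exact T.coeffMap_conj_ε _ _

/-- Norm of `ι₁` at `∞`. -/
theorem map_norm₂ (f : T.F₂) :
    letI := T.ι₁.toRingHom.toAlgebra
    T.e₁ (Algebra.norm T.F₁ f) = ∏ i : Fin q, T.emb₂ i f := by
  letI := T.ι₁.toRingHom.toAlgebra
  haveI := T.finrank_pos₂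
  haveI : CharZero T.F₁ := charZero_of_injective_algebraMap (algebraMap T.K T.F₁).injective
  refine map_norm_eq_prod (e := T.e₁) (σ := T.emb₂) (fun i x => ?_) ?_
    (by rw [Fintype.card_fin, T.finrank₁]) f
  · show T.emb₂ i (T.ι₁ x) = T.e₁ x
    rw [emb₂]
    split_ifs with h
    · rfl
    · exact T.εbI_ι₁ _ _
  · have hval : ∀ i : Fin q, (T.emb₂ i (T.β₁ (T.β₀ T.j))).coeff (-1) =
        if (i : ℕ) = 0 then 0 else ((T.toBase.ζL : T.L) ^ (i : ℕ))⁻¹ := fun i => by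
      rw [emb₂]
      split_ifs with h
      · rw [T.ε_β₁, T.coeff_neg_one_qExpand]
      · rw [T.εbI_β₁β₀ i (fun hd => h (Nat.eq_zero_of_dvd_of_lt hd i.2)), T.coeff_neg_one_e₀_scale]
    intro i i' h
    have h1 := congrArg (fun f : T.F₂ →+* LaurentSeries T.L =>
      (f (T.β₁ (T.β₀ T.j))).coeff (-1)) h
    simp only [hval] at h1
    by_cases hi : (i : ℕ) = 0 <;> by_cases hi' : (i' : ℕ) = 0 <;> simp only [hi, hi', if_true, if_false] at h1
    · exact Fin.ext (hi.trans hi'.symm)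
    · exact absurd (inv_eq_zero.mp h1.symm) (pow_ne_zero _ (Units.ne_zero _))
    · exact absurd (inv_eq_zero.mp h1) (pow_ne_zero _ (Units.ne_zero _))
    · exact T.injective_zetaPow (inv_inj.mp h1)

/-- Norm of `ι₁` at `0`. -/
theorem map_norm₂_zero (f : T.F₂) :
    letI := T.ι₁.toRingHom.toAlgebra
    qExpand T.L q (T.e₁ (T.w₁ (Algebra.norm T.F₁ f))) =
      ∏ i : Fin q, monoNewScale (T.toBase.ζL ^ (i : ℕ)) (T.εc f) := by
  letI := T.ι₁.toRingHom.toAlgebra
  haveI := T.finrank_pos₂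
  haveI : CharZero T.F₁ := charZero_of_injective_algebraMap (algebraMap T.K T.F₁).injective
  refine map_norm_eq_prod (e := (qExpand T.L q).comp (T.e₁.comp T.w₁.toRingEquiv.toRingHom))
    (σ := fun i : Fin q => (monoNewScale (T.toBase.ζL ^ (i : ℕ))).comp T.εc)
    (fun i x => ?_) ?_ (by rw [Fintype.card_fin, T.finrank₁]) f
  · show monoNewScale _ (T.εc (T.ι₁ x)) = qExpand T.L q (T.e₁ (T.w₁ x))
    rw [T.εc_ι₁, T.scale_qExpand]
  · intro i i' h
    have h1 := congrArg (fun f : T.F₂ →+* LaurentSeries T.L =>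
      (f (T.β₁ (T.β₀ T.j))).coeff (-1)) h
    simp only [RingHom.comp_apply, T.εc_β₁, w₁_β₀, T.e₁_ι₀, T.coeff_neg_one_e₀_scale, inv_inj] at h1
    exact T.injective_zetaPow h1

/-- The norm along `β₁` is the transform of the norm along `ι₁`. -/
theorem norm_β₁ (f : T.F₂) :
    (letI := T.β₁.toRingHom.toAlgebra; Algebra.norm T.F₁ f) =
      T.w₁ (letI := T.ι₁.toRingHom.toAlgebra; Algebra.norm T.F₁ (T.w₂ f)) := by
  have h := @Algebra.norm_eq_of_equiv_equiv T.F₁ T.F₂ T.F₁ T.F₂ _ _ _ _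
    T.β₁.toRingHom.toAlgebra T.ι₁.toRingHom.toAlgebra T.w₁.toRingEquiv T.w₂.toRingEquiv
    (RingHom.ext fun y => (T.w₂_β₁ y).symm) f
  rw [h]
  exact T.w₁.toRingEquiv.symm_apply_eq.mpr (T.w₁_w₁ _).symm

end Tower

end FermatLib.Igusa.Carayol
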