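import Mathlib
import Fermat.Agent.Igusa.Carayol.LevelSeries
import Fermat.Agent.Igusa.Carayol.LevelZeroLocal
import Fermat.Agent.Igusa.Carayol.TowerEmbeddings

/-!
`Δ^(1-q)` on the special fibre of level `N` comes from the chart: norm of the modular unit.
-/

set_option autoImplicit false
set_option linter.style.haveILetI false

noncomputable section

open ModularCurve HahnSeries FermatLib.Igusa

namespace FermatLib.Igusa.Carayol

namespace Tower

variable {q : ℕ} [NeZero q] {T : Tower q}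

theorem e₀_j_intSeries (T : Tower q) :
    ∃ J : LaurentSeries ℤ, coeffMap (Int.castRingHom T.L) J = T.e₀ T.j ∧
      T.red₀ T.j = coeffMap (Int.castRingHom T.k) J ∧ J.coeff (-1) = 1 := by
  haveI : CharZero T.L := charZero_of_injective_algebraMap (algebraMap T.K T.L).injective
  choose c hc using T.j_int
  let J : LaurentSeries ℤ :=
    ⟨c, (T.ε (T.ι₁ (T.ι₀ T.j))).isPWO_support.mono fun n hn h0 => hn (by
      have h1 := hc n
      rw [h0, ← Int.cast_zero] at h1
      exact Int.cast_injective (α := T.L) h1)⟩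
  have hJ : coeffMap (Int.castRingHom T.L) J = T.e₀ T.j := by
    ext n
    exact hc n
  obtain ⟨hv, hr⟩ := latVal_intCast (π := T.π) (L := T.L) J
  refine ⟨J, hJ, ?_, ?_⟩
  · rw [red₀, ← hJ, ← hv, Base.red, gred_latVal, hr]
  · apply Int.cast_injective (α := T.L)
    rw [Int.cast_one]
    exact (hc (-1)).trans T.j_coeff

/-- The facts about `θ j` and the denominator of `Δ` after reduction. -/
theorem thetaSeries_red_j_ne_zero (T : Tower q) : thetaSeries (T.red₀ T.j) ≠ 0 := by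
  obtain ⟨J, -, hred, h1⟩ := e₀_j_intSeries T
  intro h
  have h2 := congrArg (fun f : LaurentSeries T.k => f.coeff (-1)) h
  simp [hred, h1] at h2

theorem red_sub_1728 (hI : T.Inputs) :
    T.e₀ T.j - 1728 ∈ gaussInt T.π ∧ T.red (T.e₀ T.j - 1728) = T.red₀ T.j - 1728 := by
  have hj := (T.chartParam_j hI).int
  have h := map_sub (gaussIntRed T.π) ⟨_, hj⟩ 1728
  rw [map_ofNat] at h
  exact ⟨sub_mem hj (ofNat_mem _ _), h⟩

theorem red_den_ne_zero (hI : T.Inputs) :
    T.red₀ T.j ^ 4 * (T.red₀ T.j - 1728) ^ 3 ≠ 0 := by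
  have ht := (T.chartParam_j hI).red_transcendental
  refine mul_ne_zero (pow_ne_zero _ (fun h => ht (show IsAlgebraic T.k (T.red₀ T.j) from h ▸ isAlgebraic_zero)))
    (pow_ne_zero _ (sub_ne_zero.mpr fun h => ht ?_))
  rw [show T.red (T.e₀ T.j) = (1728 : LaurentSeries T.k) from h,
    ← map_ofNat (algebraMap T.k (LaurentSeries T.k)) 1728]
  exact isAlgebraic_algebraMap _

theorem red_den (hI : T.Inputs) :
    T.e₀ T.j ^ 4 * (T.e₀ T.j - 1728) ^ 3 ∈ gaussInt T.π ∧
      T.red (T.e₀ T.j ^ 4 * (T.e₀ T.j - 1728) ^ 3) = T.red₀ T.j ^ 4 * (T.red₀ T.j - 1728) ^ 3 := by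
  have hj := (T.chartParam_j hI).int
  obtain ⟨h1, h2⟩ := red_sub_1728 hI
  refine ⟨mul_mem (pow_mem hj _) (pow_mem h1 _), ?_⟩
  rw [Base.red, gred_mul (pow_mem hj _) (pow_mem h1 _), gred_pow hj, gred_pow h1,
    show gred T.π (T.e₀ T.j - 1728) = T.red₀ T.j - 1728 from h2]

theorem den_ne_zero (hI : T.Inputs) :
    T.e₀ T.j ^ 4 * (T.e₀ T.j - 1728) ^ 3 ≠ 0 := fun h => red_den_ne_zero hI (by
  rw [← (red_den hI).2, h, Base.red, gred_zero])

theorem red_deltaS (hI : T.Inputs) :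
    T.deltaS ∈ gaussInt T.π ∧ T.red T.deltaS ≠ 0 ∧
      T.red T.deltaS * (T.red₀ T.j ^ 4 * (T.red₀ T.j - 1728) ^ 3) = thetaSeries (T.red₀ T.j) ^ 6 := by
  obtain ⟨Δ, U, hΔ, hΔ0, hid, -⟩ := hI.delta
  have hΔS : T.deltaS = Δ := by
    rw [deltaS, hid, mul_div_cancel_left₀ _ (den_ne_zero hI)]
  rw [hΔS]
  refine ⟨hΔ, hΔ0, ?_⟩
  obtain ⟨hθ, hθr⟩ := thetaSeries_mem_gaussInt (T.chartParam_j hI).int
  have h := congrArg T.red hid
  rw [Base.red, gred_pow hθ, hθr, gred_mul (red_den hI).1 hΔ,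
    show gred T.π (T.e₀ T.j ^ 4 * (T.e₀ T.j - 1728) ^ 3) = _ from (red_den hI).2] at h
  rw [mul_comm]
  exact h.symm

theorem phiBar_mem_frobFixed (hI : T.Inputs) : T.phiBar ∈ frobFixed q T.prime := by
  obtain ⟨J, -, hred, -⟩ := e₀_j_intSeries T
  have hj : T.red₀ T.j ∈ frobFixed q T.prime := hred ▸ coeffMap_intCast_mem_frobFixed T.prime J
  obtain ⟨-, -, h⟩ := red_deltaS hI
  have hΔ : T.red T.deltaS ∈ frobFixed q T.prime := by
    rw [(eq_div_iff (red_den_ne_zero hI)).mpr h]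
    refine div_mem (pow_mem (thetaSeries_mem_frobFixed T.prime hj) _) ?_
    exact mul_mem (pow_mem hj _) (pow_mem (sub_mem hj (ofNat_mem _ _)) _)
  exact inv_mem (pow_mem hΔ _)

/-- The reduction of `Δ^(1-q)` is regular on the finite chart. -/
theorem exists_phiBar_lift (hI : T.Inputs) :
    ∃ a : T.chart₀ T.j, T.IsRat a ∧ T.red₀ (a : T.F₀) = T.phiBar := by
  haveI := Fact.mk T.prime
  letI := T.ι₀.toRingHom.toAlgebra
  obtain ⟨Δ, U, hΔ, hΔ0, hid, hU, hUint, hU0, hwU, hwUred⟩ := hI.delta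
  have hΔS : T.deltaS = Δ := by
    rw [deltaS, hid, mul_div_cancel_left₀ _ (den_ne_zero hI)]
  have hΦ : T.red (T.e₁ (T.w₁ U)) = T.phiBar := by
    rw [phiBar, hΔS]
    exact eq_inv_of_mul_eq_one_left hwUred
  -- the norm lies in the chart
  let y : T.F₁ := 1 + U
  have hint : IsIntegral (Algebra.adjoin T.W {T.j}) (Algebra.norm T.F₀ y) := by
    let φ : Algebra.adjoin T.W {T.j} →+* Algebra.adjoin T.W {T.ι₀ T.j} :=
      ((T.ι₀.restrictScalars T.W).toRingHom.comp
        (algebraMap (Algebra.adjoin T.W {T.j}) T.F₀)).codRestrict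
          (Algebra.adjoin T.W {T.ι₀ T.j}).toSubring fun r => by
        show (T.ι₀.restrictScalars T.W) (r : T.F₀) ∈ Algebra.adjoin T.W {T.ι₀ T.j}
        have : (T.ι₀.restrictScalars T.W) (r : T.F₀) ∈
            (Algebra.adjoin T.W {T.j}).map (T.ι₀.restrictScalars T.W) :=
          Subalgebra.mem_map.mpr ⟨(r : T.F₀), r.2, rfl⟩
        rwa [AlgHom.map_adjoin, Set.image_singleton] at this
    letI : Algebra (Algebra.adjoin T.W {T.j}) (Algebra.adjoin T.W {T.ι₀ T.j}) := φ.toAlgebra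
    haveI : IsScalarTower (Algebra.adjoin T.W {T.j}) (Algebra.adjoin T.W {T.ι₀ T.j}) T.F₁ :=
      IsScalarTower.of_algebraMap_eq fun _ => rfl
    refine Algebra.isIntegral_norm T.F₀ ?_
    haveI : Algebra.IsIntegral (Algebra.adjoin T.W {T.j}) (Algebra.adjoin T.W {T.ι₀ T.j}) := by
      refine ⟨fun r => ?_⟩
      obtain ⟨r, hr⟩ := r
      have hmem : r ∈ (Algebra.adjoin T.W {T.j}).map (T.ι₀.restrictScalars T.W) := by
        rwa [AlgHom.map_adjoin, Set.image_singleton]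
      obtain ⟨a, ha, rfl⟩ := Subalgebra.mem_map.mp hmem
      exact (isIntegral_algebraMap (x := (⟨a, ha⟩ : Algebra.adjoin T.W {T.j})))
    exact isIntegral_trans (A := Algebra.adjoin T.W {T.ι₀ T.j}) _
      ((isIntegral_one).add (hU : IsIntegral (Algebra.adjoin T.W {T.ι₀ T.j}) U))
  -- its reduced expansion
  have h := T.map_norm₁ y
  have hy : T.e₁ y = 1 + T.e₁ U := by simp [y]
  have hwy : T.e₁ (T.w₁ y) = 1 + T.e₁ (T.w₁ U) := by simp [y]
  have hyint : T.e₁ y ∈ gaussInt T.π := hy ▸ add_mem (one_mem _) hUint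
  have hwyint : T.e₁ (T.w₁ y) ∈ gaussInt T.π := hwy ▸ add_mem (one_mem _) hwU
  have hscale : ∀ i : ℕ, monoNewScale (T.ζL ^ i) (T.e₁ (T.w₁ y)) ∈ gaussInt T.π ∧
      T.red (monoNewScale (T.ζL ^ i) (T.e₁ (T.w₁ y))) = 1 + T.phiBar := by
    intro i
    have hc : T.π ((T.ζ ^ i : T.Aˣ) : T.A) = 1 := by
      rw [Units.val_pow_eq_pow_val, map_pow, T.π_ζ, one_pow]
    have := monoNewScale_mem_gaussInt (T.ζ ^ i) hc hwyint
    rw [map_pow] at this
    refine ⟨this.1, this.2.trans ?_⟩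
    rw [hwy, gred_add (one_mem _) hwU, gred_one, show gred T.π (T.e₁ (T.w₁ U)) = _ from hΦ]
  let N := Algebra.norm T.F₀ y
  have hNint : T.e₀ N ∈ gaussInt T.π :=
    (T.chartParam_j hI).e₀_mem_gaussInt ⟨N, hint⟩
  have hred : qExpand T.k q (T.red₀ N) = (1 + T.phiBar) ^ q := by
    rw [red₀, Base.red, ← (qExpand_mem_gaussInt q hNint).2, h]
    let g : Fin q → gaussInt T.π := fun i => ⟨_, (hscale i).1⟩
    have e : qExpand T.L q (T.e₁ y) * ∏ i : Fin q, monoNewScale (T.ζL ^ (i : ℕ)) (T.e₁ (T.w₁ y)) =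
        ((⟨_, (qExpand_mem_gaussInt q hyint).1⟩ * ∏ i, g i : gaussInt T.π) : LaurentSeries T.L) := by
      simp [g]
    rw [e, ← gaussIntRed_apply, map_mul, map_prod, gaussIntRed_apply,
      (qExpand_mem_gaussInt q hyint).2, hy, gred_add (one_mem _) hUint, gred_one,
      show gred T.π (T.e₁ U) = 0 from hU0, add_zero, map_one, one_mul]
    rw [Finset.prod_congr rfl fun i _ => show gaussIntRed T.π (g i) = 1 + T.phiBar from (hscale i).2]
    rw [Finset.prod_const, Finset.card_univ, Fintype.card_fin]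
  have hN : T.red₀ N = 1 + T.phiBar := by
    apply qExpand_injective q
    rw [hred, map_add, map_one, show qExpand T.k q T.phiBar = T.phiBar ^ q from
      phiBar_mem_frobFixed hI]
    haveI := charP_laurentSeries (k := T.k) q
    rw [add_pow_char, one_pow]
  have hmem : N - 1 ∈ T.chart₀ T.j := hint.sub isIntegral_one
  have ha : T.red₀ (N - 1) = T.phiBar := by
    rw [red₀, map_sub, map_one, sub_eq_add_neg, Base.red, gred_add hNint (neg_mem (one_mem _))]
    have h1 : gred T.π (-1 : LaurentSeries T.L) = -1 :=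
      (map_neg (gaussIntRed T.π) 1).trans (by rw [map_one])
    rw [h1, show gred T.π (T.e₀ N) = _ from hN]
    ring
  refine ⟨⟨_, hmem⟩, ⟨(T.chartParam_j hI).e₀_mem_gaussInt ⟨_, hmem⟩, ?_⟩, ha⟩
  show qExpand T.k q (T.red₀ (N - 1)) = T.red₀ (N - 1) ^ q
  rw [ha]
  exact phiBar_mem_frobFixed hI

end Tower

end FermatLib.Igusa.Carayol
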