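import Mathlib
import Fermat.Agent.Igusa.Carayol.LevelZeroPhi

/-!
The special points of the finite chart of level `N`: at a rational parameter `z`, the series
`(z(u^q) - z^q)/q` has a pole exactly where `Δ^(1-q)` vanishes.
-/

set_option autoImplicit false
set_option linter.style.haveILetI false
set_option maxHeartbeats 400000
set_option synthInstance.maxHeartbeats 100000

noncomputable section

open ModularCurve HahnSeries FermatLib.Igusa
open scoped IntermediateField.algebraAdjoinAdjoin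

namespace FermatLib.Igusa.Carayol

namespace Tower

variable {q : ℕ} [NeZero q] {T : Tower q} {t : T.F₀}

theorem thetaSeries_natCast {R : Type*} [CommRing R] (n : ℕ) :
    thetaSeries (n : LaurentSeries R) = 0 := by
  rw [← map_natCast (HahnSeries.C : R →+* LaurentSeries R)]
  exact thetaSeries_C _

theorem thetaSeries_e₀_algebraMap (c : T.K) :
    thetaSeries (T.e₀ (algebraMap T.K T.F₀ c)) = 0 := by
  rw [T.e₀_algebraMap]
  exact thetaSeries_algebraMap _

theorem thetaSeries_e₀_W (w : T.W) : thetaSeries (T.e₀ (algebraMap T.W T.F₀ w)) = 0 := by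
  rw [IsScalarTower.algebraMap_apply T.W T.K T.F₀]
  exact thetaSeries_e₀_algebraMap _

theorem gred_sub_of_mem {L : Type*} [Field L] {A : ValuationSubring L} {k : Type*} [Field k]
    {π : A →+* k} {f g : LaurentSeries L} (hf : f ∈ gaussInt π) (hg : g ∈ gaussInt π) :
    gred π (f - g) = gred π f - gred π g := by
  rw [eq_sub_iff_add_eq, ← gred_add (sub_mem hf hg) hg, sub_add_cancel]

section point

variable (x : Ideal (T.chart₀ t)) [x.IsMaximal]

/-- Near a point with parameters `q, z`, differentials of the chart are multiples of that of `z`. -/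
theorem ChartParam.exists_theta_mul (ht : T.ChartParam t) (z : T.chart₀ t) (hzx : z ∈ x)
    (hx : (q : T.chart₀ t) ∈ x)
    (hgen : ∀ a ∈ x, ∃ s ∉ x, s * a ∈ Ideal.span {(q : T.chart₀ t), z}) :
    ∃ r ∉ x, ∀ a : T.chart₀ t, ∃ b : T.chart₀ t,
      T.e₀ (r : T.F₀) * thetaSeries (T.e₀ (a : T.F₀)) =
        T.e₀ (b : T.F₀) * thetaSeries (T.e₀ (z : T.F₀)) := by
  classical
  let e : T.chart₀ t →+* LaurentSeries T.L := T.e₀.comp (T.chart₀ t).val.toRingHom
  letI : Algebra (T.chart₀ t) (LaurentSeries T.L) := e.toAlgebra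
  let θ : T.chart₀ t → LaurentSeries T.L := fun a => thetaSeries (e a)
  have hsmul : ∀ (c : T.chart₀ t) (f : LaurentSeries T.L), c • f = e c * f := fun _ _ => rfl
  have hadd : ∀ a b, θ (a + b) = θ a + θ b := fun a b => by
    simp only [θ, map_add, thetaSeries_add]
  have hmul : ∀ a b, θ (a * b) = b • θ a + a • θ b := fun a b => by
    simp only [θ, map_mul, thetaSeries_mul, hsmul]
    ring
  have hW : ∀ w : T.W, θ (algebraMap T.W (T.chart₀ t) w) = 0 := fun w => thetaSeries_e₀_W w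
  obtain ⟨S, hS⟩ := ht.finiteType.out
  let M : Submodule (T.chart₀ t) (LaurentSeries T.L) := Submodule.span _ (θ '' (S : Set (T.chart₀ t)))
  have hM : ∀ a, θ a ∈ M := fun a => by
    have ha : a ∈ Algebra.adjoin T.W (S : Set (T.chart₀ t)) := hS ▸ Algebra.mem_top
    induction ha using Algebra.adjoin_induction with
    | mem a ha => exact Submodule.subset_span ⟨a, ha, rfl⟩
    | algebraMap w => rw [hW]; exact zero_mem _
    | add a b _ _ ha hb => rw [hadd]; exact add_mem ha hb
    | mul a b _ _ ha hb => rw [hmul]; exact add_mem (M.smul_mem _ ha) (M.smul_mem _ hb)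
  let P : Submodule (T.chart₀ t) (LaurentSeries T.L) := Submodule.span _ {θ z}
  let N := M.map P.mkQ
  have hN : ∀ a, P.mkQ (θ a) ∈ N := fun a => Submodule.mem_map_of_mem (hM a)
  have key : ∀ a, P.mkQ (θ a) ∈ x • N := by
    intro a
    obtain ⟨w, hw⟩ := ht.exists_residue x hx a
    obtain ⟨s, hs, hmem⟩ := hgen _ hw
    obtain ⟨b, y, hby⟩ := Ideal.mem_span_pair.mp hmem
    set c := a - algebraMap T.W (T.chart₀ t) w
    have hc : θ c = θ a := by
      have := hadd c (algebraMap T.W (T.chart₀ t) w)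
      rw [sub_add_cancel, hW, add_zero] at this
      exact this.symm
    have hq : θ (q : T.chart₀ t) = 0 := by
      rw [← map_natCast (algebraMap T.W (T.chart₀ t)), hW]
    have heq : s • θ a = (q : T.chart₀ t) • θ b + z • θ y + y • θ z - c • θ s := by
      have h := congrArg θ hby
      rw [hadd, hmul, hmul, hmul, hq, smul_zero, add_zero, hc] at h
      rw [eq_sub_iff_add_eq', ← h]
      abel
    have hz0 : P.mkQ (θ z) = 0 :=
      (Submodule.Quotient.mk_eq_zero P).mpr (Submodule.mem_span_singleton_self _)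
    have hs' : s • P.mkQ (θ a) ∈ x • N := by
      rw [← map_smul, heq, map_sub, map_add, map_add, map_smul, map_smul, map_smul, map_smul, hz0,
        smul_zero, add_zero]
      exact sub_mem (add_mem (Submodule.smul_mem_smul hx (hN b))
        (Submodule.smul_mem_smul hzx (hN y))) (Submodule.smul_mem_smul hw (hN s))
    obtain ⟨s', i, hi, h1⟩ := Ideal.IsMaximal.exists_inv ‹x.IsMaximal› hs
    rw [← one_smul (T.chart₀ t) (P.mkQ (θ a)), ← h1, add_smul, mul_smul]
    exact add_mem (Submodule.smul_mem _ _ hs') (Submodule.smul_mem_smul hi (hN a))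
  have hle : N ≤ x • N := by
    rw [Submodule.map_le_iff_le_comap, Submodule.span_le]
    rintro _ ⟨a, -, rfl⟩
    exact key a
  obtain ⟨r, hr, hr0⟩ := Submodule.exists_sub_one_mem_and_smul_eq_zero_of_fg_of_le_smul x N
    ((Submodule.fg_span (S.finite_toSet.image θ)).map _) hle
  refine ⟨r, fun h => ‹x.IsMaximal›.ne_top ((Ideal.eq_top_iff_one _).mpr ?_), fun a => ?_⟩
  · simpa using x.sub_mem h hr
  · have := hr0 _ (hN a)
    rw [← map_smul] at this
    obtain ⟨b, hb⟩ := Submodule.mem_span_singleton.mp ((Submodule.Quotient.mk_eq_zero P).mp this)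
    exact ⟨b, hb.symm⟩

end point

/-- Scaling carries the relation to everything integral over `K[t]`. -/
theorem exists_theta_mul_integral {z r : T.F₀}
    (hr : ∀ a : T.chart₀ t, ∃ b : T.chart₀ t, T.e₀ r * thetaSeries (T.e₀ (a : T.F₀)) =
      T.e₀ (b : T.F₀) * thetaSeries (T.e₀ z))
    {a : T.F₀} (ha : IsIntegral (Algebra.adjoin T.K {t}) a) :
    ∃ b : T.F₀, IsIntegral (Algebra.adjoin T.K {t}) b ∧
      T.e₀ r * thetaSeries (T.e₀ a) = T.e₀ b * thetaSeries (T.e₀ z) := by
  obtain ⟨w, hw, hwa⟩ := exists_smul_mem_chart₀ ha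
  obtain ⟨b, hb⟩ := hr ⟨_, hwa⟩
  refine ⟨algebraMap T.K T.F₀ ((w : T.K)⁻¹) * (b : T.F₀),
    (isIntegral_algebraMap (x := (⟨_, Subalgebra.algebraMap_mem _ _⟩ :
      Algebra.adjoin T.K {t}))).mul (isIntegral_adjoin_K b.2), ?_⟩
  have hw0 : (w : T.K) ≠ 0 := fun h => hw (Subtype.ext h)
  have ha' : a = algebraMap T.K T.F₀ ((w : T.K)⁻¹) * (algebraMap T.W T.F₀ w * a) := by
    rw [IsScalarTower.algebraMap_apply T.W T.K T.F₀, ← mul_assoc, ← map_mul,
      show algebraMap T.W T.K w = (w : T.K) from rfl, inv_mul_cancel₀ hw0, map_one, one_mul]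
  rw [ha', map_mul T.e₀ (algebraMap T.K T.F₀ _) _, thetaSeries_mul, thetaSeries_e₀_algebraMap,
    zero_mul, zero_add, map_mul T.e₀ (algebraMap T.K T.F₀ _) _, mul_left_comm]
  refine (congrArg (T.e₀ (algebraMap T.K T.F₀ ((w : T.K)⁻¹)) * ·) hb).trans ?_
  rw [mul_assoc]

/-- Adic nonunits. -/
theorem mem_nonunits_adic {F : Type*} [Field F] (v : Valuation F (WithZero (Multiplicative ℤ)))
    (a : F) : a ∈ v.valuationSubring.nonunits ↔ v a < 1 := by
  rw [ValuationSubring.mem_nonunits_iff]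
  exact (Valuation.isEquiv_valuation_valuationSubring v).lt_one_iff_lt_one.symm

/-- `(r θj/θz)^6` is divisible by `j^4 (j - 1728)^3`. -/
theorem exists_delta_div (hI : T.Inputs) (x : Ideal (T.chart₀ T.j)) [x.IsMaximal]
    (z : T.chart₀ T.j) (r : T.chart₀ T.j) (hrx : r ∉ x)
    (hr : ∀ a : T.chart₀ T.j, ∃ b : T.chart₀ T.j,
      T.e₀ (r : T.F₀) * thetaSeries (T.e₀ (a : T.F₀)) =
        T.e₀ (b : T.F₀) * thetaSeries (T.e₀ (z : T.F₀))) :
    thetaSeries (T.e₀ (z : T.F₀)) ≠ 0 ∧ ∃ X : T.chart₀ T.j,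
      T.e₀ (X : T.F₀) * thetaSeries (T.e₀ (z : T.F₀)) ^ 6 =
        T.e₀ (r : T.F₀) ^ 6 * T.deltaS := by
  classical
  have ht := T.chartParam_j hI
  obtain ⟨D, hD⟩ := hr ⟨T.j, mem_chart₀_self⟩
  set ζ := thetaSeries (T.e₀ (z : T.F₀))
  have hζ : ζ ≠ 0 := by
    intro h0
    rw [h0, mul_zero, mul_eq_zero] at hD
    refine hD.elim (fun h => hrx ?_) fun h => thetaSeries_red_j_ne_zero T ?_
    · rw [map_eq_zero] at h
      rw [show r = 0 from Subtype.ext h]
      exact x.zero_mem
    · have := (thetaSeries_mem_gaussInt ht.int).2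
      rw [h, gred_zero] at this
      exact this.symm
  refine ⟨hζ, ?_⟩
  let R := Algebra.adjoin T.K {T.j}
  have hequiv : Polynomial T.K ≃ₐ[T.K] R :=
    (AlgEquiv.ofInjective _ (transcendental_iff_injective.mp ht.transcendental)).trans
      (Subalgebra.equivOfEq _ _ (Algebra.adjoin_singleton_eq_range_aeval T.K T.j).symm)
  haveI : IsPrincipalIdealRing R :=
    IsPrincipalIdealRing.of_surjective hequiv.toRingEquiv.toRingHom hequiv.surjective
  haveI := T.finite_j
  haveI : CharZero (IntermediateField.adjoin T.K {T.j}) :=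
    charZero_of_injective_algebraMap (algebraMap T.K _).injective
  haveI : IsDedekindDomain (integralClosure R T.F₀) :=
    integralClosure.isDedekindDomain R (IntermediateField.adjoin T.K {T.j}) T.F₀
  haveI : IsFractionRing (integralClosure R T.F₀) T.F₀ :=
    integralClosure.isFractionRing_of_finite_extension (IntermediateField.adjoin T.K {T.j}) T.F₀
  let A := integralClosure R T.F₀
  let Rel : A → A → Prop := fun a b =>
    T.e₀ (r : T.F₀) * thetaSeries (T.e₀ (a : T.F₀)) = T.e₀ (b : T.F₀) * ζ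
  have huniq : ∀ a b b', Rel a b → Rel a b' → b = b' := fun a b b' h h' =>
    Subtype.ext (T.e₀.injective (mul_right_cancel₀ hζ (h.symm.trans h')))
  have hpow : ∀ (P : Ideal A) (n : ℕ), ∀ a ∈ P ^ (n + 1), ∃ b ∈ P ^ n, Rel a b := by
    intro P n
    induction n with
    | zero =>
      intro a _
      obtain ⟨b, hb, hab⟩ := exists_theta_mul_integral hr a.2
      exact ⟨⟨b, hb⟩, by simp, hab⟩
    | succ n ih =>
      intro a ha
      rw [pow_succ] at ha
      refine Submodule.mul_induction_on ha (fun a ha c hc => ?_) ?_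
      · obtain ⟨b, hb, hab⟩ := ih a ha
        obtain ⟨d, hd, hcd⟩ := exists_theta_mul_integral hr c.2
        refine ⟨b * c + a * ⟨d, hd⟩, add_mem ?_ (Ideal.mul_mem_right _ _ ha), ?_⟩
        · rw [pow_succ]; exact Ideal.mul_mem_mul hb hc
        · simp only [Rel, MulMemClass.coe_mul, AddMemClass.coe_add, map_mul, map_add,
            thetaSeries_mul] at hab hcd ⊢
          linear_combination (T.e₀ (c : T.F₀)) * hab + (T.e₀ (a : T.F₀)) * hcd
      · rintro a a' ⟨b, hb, hab⟩ ⟨b', hb', hab'⟩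
        refine ⟨b + b', add_mem hb hb', ?_⟩
        simp only [Rel, AddMemClass.coe_add, map_add, thetaSeries_add] at hab hab' ⊢
        linear_combination hab + hab'
  let jA : A := ⟨T.j, isIntegral_adjoin_K mem_chart₀_self⟩
  let cA : A := ⟨(1728 : T.F₀), by
    rw [← map_ofNat (algebraMap T.K T.F₀)]
    exact isIntegral_algebraMap (x := (⟨_, Subalgebra.algebraMap_mem _ _⟩ : R))⟩
  let DA : A := ⟨(D : T.F₀), isIntegral_adjoin_K D.2⟩
  haveI : CharZero T.F₀ := charZero_of_injective_algebraMap (algebraMap T.K T.F₀).injective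
  have hcst : ∀ c : T.K, c ≠ 0 → ∀ P : Ideal A, P.IsPrime → ∀ a : A,
      (a : T.F₀) = algebraMap T.K T.F₀ c → a ∉ P := by
    intro c hc P hP a ha h
    let b : A := ⟨algebraMap T.K T.F₀ c⁻¹,
      isIntegral_algebraMap (x := (⟨_, Subalgebra.algebraMap_mem _ _⟩ : R))⟩
    refine hP.ne_top ((Ideal.eq_top_iff_one _).mpr ?_)
    rw [show (1 : A) = b * a from Subtype.ext (by
      simp only [MulMemClass.coe_mul, OneMemClass.coe_one, b, ha]
      rw [← map_mul, inv_mul_cancel₀ hc, map_one])]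
    exact P.mul_mem_left b h
  have h1728 : ∀ P : Ideal A, P.IsPrime → jA ∈ P → jA - cA ∉ P := fun P hP h h' =>
    hcst 1728 (by norm_num) P hP cA (map_ofNat (algebraMap T.K T.F₀) 1728).symm (by
      have := P.sub_mem h h'
      rwa [sub_sub_cancel] at this)
  have hθ : thetaSeries (T.e₀ (T.j - 1728)) = thetaSeries (T.e₀ T.j) := by
    rw [map_sub, thetaSeries_sub, map_ofNat, ← Nat.cast_ofNat, thetaSeries_natCast, sub_zero]
  have hDA : Rel jA DA := hD
  have hDc : Rel (jA - cA) DA := by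
    show T.e₀ (r : T.F₀) * thetaSeries (T.e₀ (T.j - 1728)) = _
    rw [hθ]; exact hD
  have htr : Transcendental T.K T.j := ht.transcendental
  have hj0 : T.j ≠ 0 := fun h => htr (h ▸ isAlgebraic_zero)
  have hj1 : T.j - 1728 ≠ 0 := fun h => htr (by
    rw [sub_eq_zero.mp h, ← map_ofNat (algebraMap T.K T.F₀)]
    exact isAlgebraic_algebraMap _)
  let X : T.F₀ := (D : T.F₀) ^ 6 / (T.j ^ 4 * (T.j - 1728) ^ 3)
  have hXint : IsIntegral R X := by
    suffices ∀ v : IsDedekindDomain.HeightOneSpectrum A, v.valuation T.F₀ X ≤ 1 by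
      obtain ⟨b, hb⟩ := IsDedekindDomain.HeightOneSpectrum.mem_integers_of_valuation_le_one
        (R := A) T.F₀ X this
      exact hb ▸ b.2
    intro v
    set P := v.asIdeal
    haveI hP : P.IsPrime := v.isPrime
    have hval : ∀ a : A, v.valuation T.F₀ (a : T.F₀) = v.intValuation a := fun a =>
      v.valuation_of_algebraMap a
    obtain ⟨π, hπ⟩ := v.intValuation_exists_uniformizer
    let V := (v.valuation T.F₀).valuationSubring
    have hπ0 : (π : T.F₀) ≠ 0 := fun h => by
      rw [show π = 0 from Subtype.ext h, map_zero] at hπ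
      exact WithZero.coe_ne_zero hπ.symm
    have hVtop : V ≠ ⊤ := fun h => by
      have : (π : T.F₀)⁻¹ ∈ V := h ▸ ValuationSubring.mem_top _
      rw [Valuation.mem_valuationSubring_iff, map_inv₀, hval, hπ, ← WithZero.exp_neg,
        ← WithZero.exp_zero, WithZero.exp_le_exp] at this
      omega
    have hVK : ∀ c : T.K, algebraMap T.K T.F₀ c ∈ V := fun c =>
      v.valuation_le_one (K := T.F₀)
        ⟨_, isIntegral_algebraMap (x := (⟨_, Subalgebra.algebraMap_mem _ _⟩ : R))⟩
    have hπV : (π : T.F₀) ∈ V.nonunits := by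
      rw [mem_nonunits_adic, hval, hπ, ← WithZero.exp_zero, WithZero.exp_lt_exp]
      norm_num
    have hno : ¬ ∃ t' ∈ V.nonunits, t' ≠ 0 ∧ (π : T.F₀) / t' ∈ V.nonunits := by
      rintro ⟨t', ht', ht0, hdiv⟩
      rw [mem_nonunits_adic] at ht' hdiv
      rw [map_div₀, hval, hπ] at hdiv
      have hne : v.valuation T.F₀ t' ≠ 0 := (v.valuation T.F₀).ne_zero_iff.mpr ht0
      rw [← WithZero.exp_log hne] at ht' hdiv
      rw [← WithZero.exp_sub, ← WithZero.exp_zero, WithZero.exp_lt_exp] at hdiv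
      rw [← WithZero.exp_zero, WithZero.exp_lt_exp] at ht'
      omega
    -- orders
    have hord : ∀ a : A, a ≠ 0 → ∃ n : ℕ, v.intValuation a = WithZero.exp (-(n : ℤ)) :=
      fun a ha => ⟨_, v.intValuation_eq_exp_neg_multiplicity ha⟩
    obtain ⟨n, hn⟩ := hord jA (fun h => hj0 (congrArg Subtype.val h))
    obtain ⟨m, hm⟩ := hord (jA - cA) (fun h => hj1 (congrArg Subtype.val h))
    have hDle : ∀ (a : A) (k : ℕ), Rel a DA →
        v.intValuation a ≤ WithZero.exp (-((k + 1 : ℕ) : ℤ)) →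
        v.intValuation DA ≤ WithZero.exp (-(k : ℤ)) := fun a k hrel hle => by
      rw [v.intValuation_le_pow_iff_mem] at hle ⊢
      obtain ⟨b, hb, hab⟩ := hpow _ k a hle
      rwa [huniq a DA b hrel hab]
    have hbig : v.intValuation DA ^ 6 ≤
        v.intValuation jA ^ 4 * v.intValuation (jA - cA) ^ 3 := by
      rw [hn, hm, ← WithZero.exp_nsmul, ← WithZero.exp_nsmul, ← WithZero.exp_add]
      rcases Nat.eq_zero_or_pos n with hn0 | hn0
      · rcases Nat.eq_zero_or_pos m with hm0 | hm0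
        · subst hn0 hm0
          simpa using pow_le_one₀ zero_le (v.intValuation_le_one DA)
        · have hmem : jA - cA ∈ P := by
            rw [← v.intValuation_lt_one_iff_mem, hm, ← WithZero.exp_zero, WithZero.exp_lt_exp]
            omega
          have hnu : T.j - 1728 ∈ V.nonunits := by
            rw [mem_nonunits_adic]
            exact (hval (jA - cA)).trans_lt ((v.intValuation_lt_one_iff_mem _).mpr hmem)
          have h2 := (hI.elliptic_1728 V hVtop hVK _ hπV hnu).resolve_right hno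
          rw [Valuation.mem_valuationSubring_iff, map_div₀, map_pow, hval,
            show v.valuation T.F₀ (T.j - 1728) = _ from hval (jA - cA), hm, hπ,
            ← WithZero.exp_nsmul, ← WithZero.exp_sub, ← WithZero.exp_zero,
            WithZero.exp_le_exp] at h2
          simp only [nsmul_eq_mul] at h2
          obtain ⟨k, rfl⟩ := Nat.exists_eq_add_of_le hm0
          have h3 := hDle _ k hDc (by rw [hm]; exact le_of_eq (by rw [add_comm]))
          refine (pow_le_pow_left₀ zero_le h3 6).trans ?_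
          rw [← WithZero.exp_nsmul, WithZero.exp_le_exp, hn0]
          simp only [nsmul_eq_mul]
          push_cast at h2 ⊢
          omega
      · have hmem : jA ∈ P := by
          rw [← v.intValuation_lt_one_iff_mem, hn, ← WithZero.exp_zero, WithZero.exp_lt_exp]
          omega
        have hm0 : m = 0 := by
          by_contra hm0
          refine h1728 P hP hmem ?_
          rw [← v.intValuation_lt_one_iff_mem, hm, ← WithZero.exp_zero, WithZero.exp_lt_exp]
          omega
        have hnu : T.j ∈ V.nonunits := by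
          rw [mem_nonunits_adic]
          exact (hval jA).trans_lt ((v.intValuation_lt_one_iff_mem _).mpr hmem)
        have h2 := (hI.elliptic_zero V hVtop hVK _ hπV hnu).resolve_right hno
        rw [Valuation.mem_valuationSubring_iff, map_div₀, map_pow, hval,
          show v.valuation T.F₀ T.j = _ from hval jA, hn, hπ,
          ← WithZero.exp_nsmul, ← WithZero.exp_sub, ← WithZero.exp_zero,
          WithZero.exp_le_exp] at h2
        simp only [nsmul_eq_mul] at h2
        obtain ⟨k, rfl⟩ := Nat.exists_eq_add_of_le hn0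
        have h3 := hDle _ k hDA (by rw [hn]; exact le_of_eq (by rw [add_comm]))
        refine (pow_le_pow_left₀ zero_le h3 6).trans ?_
        rw [← WithZero.exp_nsmul, WithZero.exp_le_exp, hm0]
        simp only [nsmul_eq_mul]
        push_cast at h2 ⊢
        omega
    rw [map_div₀, map_mul, map_pow, map_pow, map_pow, show v.valuation T.F₀ (D : T.F₀) = _ from
      hval DA, show v.valuation T.F₀ T.j = _ from hval jA,
      show v.valuation T.F₀ (T.j - 1728) = _ from hval (jA - cA)]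
    exact div_le_one_of_le₀ hbig zero_le
  -- integrality at the special fibre
  have hden : T.e₀ (T.j ^ 4 * (T.j - 1728) ^ 3) =
      T.e₀ T.j ^ 4 * (T.e₀ T.j - 1728) ^ 3 := by
    rw [map_mul, map_pow, map_pow, map_sub, map_ofNat]
  have hXg : T.e₀ X ∈ gaussInt T.π := by
    rw [map_div₀, map_pow, hden, div_eq_mul_inv]
    exact mul_mem (pow_mem (ht.e₀_mem_gaussInt D) _)
      (inv_mem_gaussInt (red_den hI).1 (by
        rw [show gred T.π _ = _ from (red_den hI).2]; exact red_den_ne_zero hI))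
  refine ⟨⟨X, ht.gauss_mem X hXint hXg⟩, ?_⟩
  have hden0 := den_ne_zero hI
  show T.e₀ X * ζ ^ 6 = _
  rw [map_div₀, map_pow, hden, deltaS, div_mul_eq_mul_div, ← mul_div_assoc, ← mul_pow, ← mul_pow,
    ← hD]

section reduced

variable (x : Ideal (T.chart₀ t)) [x.IsMaximal]

theorem ChartParam.not_vanAt_red (ht : T.ChartParam t) (hx : (q : T.chart₀ t) ∈ x)
    {a : T.chart₀ t} (ha : a ∉ x) : ¬ T.VanAt x (T.red₀ (a : T.F₀)) := by
  rintro ⟨b, s, hs, hb, h⟩
  have h' : ht.redHom (a * s - b) = 0 := by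
    rw [map_sub, map_mul, sub_eq_zero]
    exact h
  have : a * s ∈ x := by
    have := add_mem (ht.ker_redHom_le hx (RingHom.mem_ker.mpr h')) hb
    rwa [sub_add_cancel] at this
  exact ((Ideal.IsMaximal.isPrime ‹x.IsMaximal›).mem_or_mem this).elim ha hs

omit [x.IsMaximal] in
theorem ChartParam.red_theta_mul (ht : T.ChartParam t) {r a b z : T.chart₀ t}
    (h : T.e₀ (r : T.F₀) * thetaSeries (T.e₀ (a : T.F₀)) =
      T.e₀ (b : T.F₀) * thetaSeries (T.e₀ (z : T.F₀))) :
    ht.redHom r * thetaSeries (ht.redHom a) = ht.redHom b * thetaSeries (ht.redHom z) := by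
  obtain ⟨ha, ha'⟩ := thetaSeries_mem_gaussInt (ht.e₀_mem_gaussInt a)
  obtain ⟨hz, hz'⟩ := thetaSeries_mem_gaussInt (ht.e₀_mem_gaussInt z)
  have := congrArg (gred T.π) h
  rwa [gred_mul (ht.e₀_mem_gaussInt r) ha, gred_mul (ht.e₀_mem_gaussInt b) hz, ha', hz'] at this

/-- `θ` of `(z(u^q) - z^q)/q` modulo `q`. -/
theorem thetaSeries_frobQuot (z : T.F₀) (hz : T.IsRat z) :
    thetaSeries (T.frobQuot z) =
      thetaSeries (T.red₀ z) ^ q - T.red₀ z ^ (q - 1) * thetaSeries (T.red₀ z) := by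
  haveI : CharZero T.L := charZero_of_injective_algebraMap (algebraMap T.K T.L).injective
  obtain ⟨hZ, hrat⟩ := hz
  set Z := T.e₀ z
  set f := qExpand T.L q Z - Z ^ q with hf
  have hq : (q : LaurentSeries T.L) ≠ 0 := by
    rw [← map_natCast (algebraMap T.L (LaurentSeries T.L))]
    exact (map_ne_zero _).mpr (Nat.cast_ne_zero.mpr (NeZero.ne q))
  obtain ⟨hE, hE'⟩ := qExpand_mem_gaussInt (π := T.π) q hZ
  have hP := pow_mem hZ q
  have hfg : f ∈ gaussInt T.π := sub_mem hE hP
  have hf0 : T.red f = 0 := by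
    rw [Base.red, hf, gred_sub_of_mem hE hP, hE', gred_pow hZ]
    exact sub_eq_zero.mpr hrat
  have hQ : f / (q : LaurentSeries T.L) ∈ gaussInt T.π := by
    rcases eq_or_ne f 0 with h0 | h0
    · rw [h0, zero_div]; exact zero_mem _
    have hy : T.ε (T.β₁ (T.ι₀ z) - T.ι₁ (T.ι₀ z) ^ q) = f := by
      rw [map_sub, map_pow, T.ε_β₁]
      rfl
    obtain ⟨n, hn, hn0⟩ := T.ε_content (T.β₁ (T.ι₀ z) - T.ι₁ (T.ι₀ z) ^ q)
      (fun h => h0 (by rw [← hy, h, map_zero]))
    rw [hy] at hn hn0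
    have := T.div_q_mem_gaussInt hfg hf0 hn hn0
    rwa [map_inv₀, map_natCast, ← div_eq_inv_mul] at this
  obtain ⟨hθZ, hθZ'⟩ := thetaSeries_mem_gaussInt hZ
  have key : thetaSeries (f / (q : LaurentSeries T.L)) =
      qExpand T.L q (thetaSeries Z) - Z ^ (q - 1) * thetaSeries Z := by
    refine mul_left_cancel₀ hq ?_
    have h := congrArg thetaSeries (mul_div_cancel₀ f hq)
    rw [thetaSeries_mul, thetaSeries_natCast, zero_mul, zero_add] at h
    rw [h, hf, thetaSeries_sub, thetaSeries_qExpand, thetaSeries_pow]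
    ring
  obtain ⟨hθE, hθE'⟩ := qExpand_mem_gaussInt (π := T.π) q hθZ
  have hθP := mul_mem (pow_mem hZ (q - 1)) hθZ
  rw [frobQuot]
  refine (thetaSeries_mem_gaussInt hQ).2.symm.trans ?_
  rw [key, gred_sub_of_mem hθE hθP, hθE', gred_mul (pow_mem hZ _) hθZ, gred_pow hZ, hθZ']
  exact congrArg (· - _) (thetaSeries_mem_frobFixed T.prime (hrat : _ ∈ frobFixed q T.prime))

/-- If `(z(u^q) - z^q)/q` is regular then so is `(θ z)^(q-1)`. -/
theorem ChartParam.regAt_thetaPow (ht : T.ChartParam t) {r z : T.chart₀ t}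
    (hrx : r ∉ x) (hz : T.IsRat z) (hζ : thetaSeries (ht.redHom z) ≠ 0)
    (hr : ∀ a : T.chart₀ t, ∃ b : T.chart₀ t,
      T.e₀ (r : T.F₀) * thetaSeries (T.e₀ (a : T.F₀)) =
        T.e₀ (b : T.F₀) * thetaSeries (T.e₀ (z : T.F₀)))
    (hreg : T.RegAt x (T.frobQuot z)) : T.RegAt x (thetaSeries (ht.redHom z) ^ (q - 1)) := by
  obtain ⟨a, s, hs, h⟩ := hreg
  obtain ⟨ba, hba⟩ := hr a
  obtain ⟨bs, hbs⟩ := hr s
  have ea := ht.red_theta_mul hba
  have es := ht.red_theta_mul hbs
  have e : T.frobQuot z * ht.redHom s = ht.redHom a := h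
  have hθ := congrArg thetaSeries e
  rw [thetaSeries_mul, thetaSeries_frobQuot _ hz] at hθ
  set Z := T.red₀ (z : T.F₀)
  set ζ := thetaSeries (ht.redHom z)
  have hq : ζ ^ q = ζ * ζ ^ (q - 1) := by
    rw [← pow_succ', Nat.sub_add_cancel T.prime.one_le]
  have hg : T.RegAt x (ζ ^ (q - 1) - Z ^ (q - 1)) := by
    refine ⟨ba * s - a * bs, r * s * s, fun hm => ?_, mul_left_cancel₀ hζ ?_⟩
    · have hp := Ideal.IsMaximal.isPrime ‹x.IsMaximal›
      exact (hp.mem_or_mem hm).elim (fun hm => (hp.mem_or_mem hm).elim hrx hs) hs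
    · show ζ * (_ * ht.redHom (r * s * s)) = ζ * ht.redHom (ba * s - a * bs)
      rw [map_sub, map_mul, map_mul, map_mul, map_mul]
      rw [show thetaSeries (T.red₀ (z : T.F₀)) = ζ from rfl, hq] at hθ
      linear_combination (ht.redHom r * ht.redHom s) * hθ + ht.redHom s * ea
        - ht.redHom a * es - (ht.redHom r * thetaSeries (ht.redHom s)) * e
  have := ht.regAt_add hg (ht.regAt_pow (ht.regAt_red (x := x) z) (q - 1))
  rwa [sub_add_cancel] at this

end reduced

/-- The common setting of the two statements. -/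
theorem exists_special_data (hI : T.Inputs) (x : Ideal (T.chart₀ T.j)) [x.IsMaximal]
    (hx : (q : T.chart₀ T.j) ∈ x) (z : T.chart₀ T.j) (hzx : z ∈ x)
    (hgen : ∀ a ∈ x, ∃ s ∉ x, s * a ∈ Ideal.span {(q : T.chart₀ T.j), z}) :
    ∃ r X : T.chart₀ T.j, r ∉ x ∧ thetaSeries ((T.chartParam_j hI).redHom z) ≠ 0 ∧
      (∀ a : T.chart₀ T.j, ∃ b : T.chart₀ T.j,
        T.e₀ (r : T.F₀) * thetaSeries (T.e₀ (a : T.F₀)) =
          T.e₀ (b : T.F₀) * thetaSeries (T.e₀ (z : T.F₀))) ∧
      T.phiBar * T.red₀ (X : T.F₀) ^ (q - 1) *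
          (thetaSeries (T.red₀ (z : T.F₀)) ^ (q - 1)) ^ 6 =
        T.red₀ ((r ^ (6 * (q - 1)) : T.chart₀ T.j) : T.F₀) := by
  have ht := T.chartParam_j hI
  obtain ⟨r, hrx, hr⟩ := ht.exists_theta_mul x z hzx hx hgen
  obtain ⟨-, X, hX⟩ := exists_delta_div hI x z r hrx hr
  obtain ⟨hθ, hθ'⟩ := thetaSeries_mem_gaussInt (ht.e₀_mem_gaussInt z)
  obtain ⟨hΔ, hΔ0, -⟩ := red_deltaS hI
  have h : ht.redHom X * thetaSeries (ht.redHom z) ^ 6 = ht.redHom r ^ 6 * T.red T.deltaS := by
    have := congrArg (gred T.π) hX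
    rwa [gred_mul (ht.e₀_mem_gaussInt X) (pow_mem hθ _), gred_pow hθ, hθ',
      gred_mul (pow_mem (ht.e₀_mem_gaussInt r) _) hΔ, gred_pow (ht.e₀_mem_gaussInt r)] at this
  have hr0 : ht.redHom r ≠ 0 := fun h0 => hrx (ht.ker_redHom_le hx (RingHom.mem_ker.mpr h0))
  refine ⟨r, X, hrx, fun h0 => ?_, hr, ?_⟩
  · rw [h0, zero_pow (by norm_num), mul_zero] at h
    exact mul_ne_zero (pow_ne_zero _ hr0) hΔ0 h.symm
  · show _ * ht.redHom X ^ (q - 1) * (thetaSeries (ht.redHom z) ^ (q - 1)) ^ 6 =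
      ht.redHom (r ^ (6 * (q - 1)))
    rw [map_pow, ← pow_mul, mul_comm (q - 1) 6, pow_mul, mul_assoc, ← mul_pow, h, mul_pow,
      ← pow_mul, phiBar, mul_left_comm, inv_mul_cancel₀ (pow_ne_zero _ hΔ0), mul_one]

/-- At a special point `(z(u^q) - z^q)/q` has a pole. -/
theorem not_regAt_frobQuot (hI : T.Inputs) (x : Ideal (T.chart₀ T.j)) [x.IsMaximal]
    (hx : (q : T.chart₀ T.j) ∈ x) (z : T.chart₀ T.j) (hz : T.IsRat z) (hzx : z ∈ x)
    (hgen : ∀ a ∈ x, ∃ s ∉ x, s * a ∈ Ideal.span {(q : T.chart₀ T.j), z})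
    (hs : T.IsSpecial x) : ¬ T.RegAt x (T.frobQuot z) := by
  intro hreg
  have ht := T.chartParam_j hI
  obtain ⟨r, X, hrx, hζ, hr, heq⟩ := exists_special_data hI x hx z hzx hgen
  have h := ht.regAt_thetaPow x hrx hz hζ hr hreg
  have := ht.vanAt_mul (ht.vanAt_mul hs (ht.regAt_pow (ht.regAt_red (x := x) X) (q - 1)))
    (ht.regAt_pow h 6)
  refine ht.not_vanAt_red x hx (a := r ^ (6 * (q - 1))) (fun hm => hrx ?_) (heq ▸ this)
  exact (Ideal.IsMaximal.isPrime ‹x.IsMaximal›).mem_of_pow_mem _ hm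

/-- Away from the special points, where `(z(u^q) - z^q)/q` is regular, so is `(θ z)^(q-1)`, and
the latter does not vanish. -/
theorem thetaPow_unit (hI : T.Inputs) (x : Ideal (T.chart₀ T.j)) [x.IsMaximal]
    (hx : (q : T.chart₀ T.j) ∈ x) (z : T.chart₀ T.j) (hz : T.IsRat z) (hzx : z ∈ x)
    (hgen : ∀ a ∈ x, ∃ s ∉ x, s * a ∈ Ideal.span {(q : T.chart₀ T.j), z})
    (_hs : ¬ T.IsSpecial x) (hreg : T.RegAt x (T.frobQuot z)) :
    T.RegAt x (thetaSeries (T.red₀ (z : T.F₀)) ^ (q - 1)) ∧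
      ¬ T.VanAt x (thetaSeries (T.red₀ (z : T.F₀)) ^ (q - 1)) := by
  have ht := T.chartParam_j hI
  obtain ⟨r, X, hrx, hζ, hr, heq⟩ := exists_special_data hI x hx z hzx hgen
  have h := ht.regAt_thetaPow x hrx hz hζ hr hreg
  refine ⟨h, fun hv => ?_⟩
  obtain ⟨a, -, ha⟩ := exists_phiBar_lift hI
  have := ht.vanAt_mul (ht.vanAt_mul hv (ht.regAt_pow h 5))
    (ht.regAt_mul (ht.regAt_red (x := x) a) (ht.regAt_pow (ht.regAt_red (x := x) X) (q - 1)))
  refine ht.not_vanAt_red x hx (a := r ^ (6 * (q - 1))) (fun hm => hrx ?_) ?_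
  · exact (Ideal.IsMaximal.isPrime ‹x.IsMaximal›).mem_of_pow_mem _ hm
  · simp only [ChartParam.redHom_apply] at this
    convert this using 1
    rw [← heq, ha]
    ring

end Tower

end FermatLib.Igusa.Carayol
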