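import Mathlib

/-!
Local algebra for the points of the three charts of `X₀(N q²)`: regularity from a principal prime
with normal quotient, Artin–Rees cancellation, units and membership from codimension one, and
generation of differentials by a parameter.
-/

set_option autoImplicit false

noncomputable section

namespace FermatLib.Igusa.Carayol

section local_

variable {A : Type*} [CommRing A] [IsDomain A] [IsLocalRing A] [IsNoetherianRing A]

/-- Cancelling a nonzero factor costs a bounded power of the ideal (Artin–Rees). -/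
theorem exists_mem_pow_of_mul_mem (I : Ideal A) {w : A} (hw : w ≠ 0) :
    ∃ c : ℕ, ∀ (N : ℕ) (s : A), w * s ∈ I ^ N → s ∈ I ^ (N - c) := by
  obtain ⟨c, hc⟩ := I.exists_pow_inf_eq_pow_smul (Ideal.span {w})
  refine ⟨c, fun N s hs => ?_⟩
  rcases le_or_gt N c with h | h
  · simp [Nat.sub_eq_zero_of_le h]
  · have h1 : w * s ∈ I ^ N • (⊤ : Submodule A A) ⊓ (Ideal.span {w} : Ideal A) := by
      refine ⟨?_, Ideal.mem_span_singleton.mpr (dvd_mul_right w s)⟩
      simpa using hs
    rw [hc N h.le] at h1
    have h2 : w * s ∈ I ^ (N - c) * Ideal.span {w} :=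
      (Submodule.smul_mono le_rfl inf_le_right) h1
    obtain ⟨z, hz, hzw⟩ := Ideal.mem_mul_span_singleton.mp h2
    rw [mul_comm z w, mul_right_inj' hw] at hzw
    exact hzw ▸ hz

omit [IsDomain A] in
/-- An element lying in every power of the maximal ideal plus an ideal lies in that ideal. -/
theorem mem_of_forall_mem_sup_pow {I : Ideal A} {a : A}
    (h : ∀ N : ℕ, a ∈ I ⊔ IsLocalRing.maximalIdeal A ^ N) : a ∈ I := by
  have h1 : Submodule.Quotient.mk a ∈
      ⨅ N : ℕ, IsLocalRing.maximalIdeal A ^ N • (⊤ : Submodule A (A ⧸ I)) := by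
    rw [Submodule.mem_iInf]
    intro N
    obtain ⟨i, hi, r, hr, rfl⟩ := Submodule.mem_sup.mp (h N)
    rw [Submodule.Quotient.mk_add, (Submodule.Quotient.mk_eq_zero I).mpr hi, zero_add]
    have : (Submodule.Quotient.mk r : A ⧸ I) = r • Submodule.Quotient.mk 1 := by
      rw [← Submodule.Quotient.mk_smul, smul_eq_mul, mul_one]
    rw [this]
    exact Submodule.smul_mem_smul hr Submodule.mem_top
  rwa [Ideal.iInf_pow_smul_eq_bot_of_isLocalRing _
    (IsLocalRing.maximalIdeal.isMaximal A).ne_top, Submodule.mem_bot,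
    Submodule.Quotient.mk_eq_zero] at h1

/-- In a normal local ring an element avoiding all primes of height one is a unit. -/
theorem isUnit_of_forall_height_one {u : A}
    (h : ∀ P : Ideal A, P.IsPrime → P.height = 1 → u ∉ P) (hu : u ≠ 0) : IsUnit u := by
  by_contra hnu
  haveI : (Ideal.span {u}).IsPrincipal := ⟨⟨u, rfl⟩⟩
  obtain ⟨P, hP⟩ := (Ideal.span {u}).nonempty_minimalPrimes
    (by rwa [ne_eq, Ideal.span_singleton_eq_top])
  haveI : P.IsPrime := hP.1.1
  have huP : u ∈ P := hP.1.2 (Ideal.mem_span_singleton_self u)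
  have h0 : P.height ≠ 0 := by
    rw [ne_eq, Ideal.height_eq_zero_iff_eq_bot]
    rintro rfl
    exact hu huP
  refine h P this (le_antisymm ?_ (Order.one_le_iff_ne_zero.mpr h0)) huP
  exact Ideal.height_le_one_of_isPrincipal_of_mem_minimalPrimes _ P hP

end local_

end FermatLib.Igusa.Carayol
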