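import Mathlib
import Fermat.Agent.Igusa.Carayol.TowerBasic
import Fermat.Agent.Igusa.Carayol.RegularLemmas
import Fermat.Agent.Igusa.Carayol.LevelZeroChart
import Fermat.Agent.Igusa.Carayol.LevelZeroPoints
import Fermat.Agent.Igusa.Carayol.LevelZeroPhi
import Fermat.Agent.Igusa.Carayol.LevelZeroSpecial

/-!
The charts of level `N` at the prime `q`: the special fibre is the normal reduced curve, rational
parameters exist at every point, and the supersingular points are the poles of `(z(u^q) - z^q)/q`.
-/
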