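import Mathlib
import Fermat.Agent.Igusa.Carayol.LevelZeroChart

/-!
Integral closures of `W[x]` in finite extensions of `K(x)`: functoriality, finiteness, normality.
-/

set_option autoImplicit false
set_option linter.style.haveILetI false
set_option maxHeartbeats 400000
set_option synthInstance.maxHeartbeats 100000

noncomputable section

open ModularCurve HahnSeries FermatLib.Igusa

namespace FermatLib.Igusa.Carayol

/-- An algebra map sends the integral closure of `W[x]` into that of `W[x']` as soon as it sends
`x` there. -/
theorem map_isIntegral_adjoin {W F F' : Type*} [CommRing W] [CommRing F] [CommRing F']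
    [Algebra W F] [Algebra W F'] (φ : F →ₐ[W] F') {x : F} {x' : F'}
    (hx : IsIntegral (Algebra.adjoin W {x'}) (φ x)) {a : F}
    (ha : IsIntegral (Algebra.adjoin W {x}) a) :
    IsIntegral (Algebra.adjoin W {x'}) (φ a) := by
  set R' := Algebra.adjoin W {x'}
  set S := integralClosure R' F'
  have hle : Algebra.adjoin W {x} ≤ (S.restrictScalars W).comap φ :=
    Algebra.adjoin_le (Set.singleton_subset_iff.mpr hx)
  let ψ : Algebra.adjoin W {x} →+* S :=
    (φ.toRingHom.comp (Algebra.adjoin W {x}).val.toRingHom).codRestrict S fun r => hle r.2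
  obtain ⟨p, hp, hpa⟩ := ha
  have hS : IsIntegral S (φ a) := by
    refine ⟨p.map ψ, hp.map _, ?_⟩
    rw [Polynomial.eval₂_map]
    have h := congrArg φ.toRingHom hpa
    rw [map_zero, Polynomial.hom_eval₂] at h
    exact h
  exact isIntegral_trans (φ a) hS

namespace Tower

variable {q : ℕ} [NeZero q] (T : Tower q)

/-- `W[x]` as a polynomial ring. -/
def adjoinPolyEquiv {F : Type} [Field F] [Algebra T.K F] {x : F} (hx : Transcendental T.K x) :
    Polynomial T.W ≃ₐ[T.W] Algebra.adjoin T.W {x} :=
  (AlgEquiv.ofInjective _ (transcendental_iff_injective.mp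
      (fun h => hx (h.extendScalars (S := T.K) Subtype.val_injective) :
        Transcendental T.W x))).trans
    (Subalgebra.equivOfEq _ _ (Algebra.adjoin_singleton_eq_range_aeval T.W x).symm)

theorem isNoetherianRing_adjoin {F : Type} [Field F] [Algebra T.K F] {x : F}
    (hx : Transcendental T.K x) : IsNoetherianRing (Algebra.adjoin T.W {x}) :=
  haveI := T.isDiscreteValuationRing_W
  isNoetherianRing_of_ringEquiv _ (T.adjoinPolyEquiv hx).toRingEquiv

theorem isIntegrallyClosed_adjoin {F : Type} [Field F] [Algebra T.K F] {x : F}
    (hx : Transcendental T.K x) : IsIntegrallyClosed (Algebra.adjoin T.W {x}) :=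
  haveI := T.isDiscreteValuationRing_W
  IsIntegrallyClosed.of_equiv (T.adjoinPolyEquiv hx).toRingEquiv

/-- The integral closure of `W[x]` in a finite extension of `K(x)`. -/
theorem closure_finite_fraction_normal {F : Type} [Field F] [Algebra T.K F] {x : F}
    (hx : Transcendental T.K x)
    (hfin : FiniteDimensional (IntermediateField.adjoin T.K {x}) F) :
    Module.Finite (Algebra.adjoin T.W {x}) (integralClosure (Algebra.adjoin T.W {x}) F) ∧
    IsFractionRing (integralClosure (Algebra.adjoin T.W {x}) F) F ∧
    IsIntegrallyClosed (integralClosure (Algebra.adjoin T.W {x}) F) := by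
  classical
  set R := Algebra.adjoin T.W {x}
  set E := IntermediateField.adjoin T.K {x}
  have hle : ∀ r ∈ R, r ∈ E := fun r hr => by
    induction hr using Algebra.adjoin_induction with
    | mem z hz =>
      rw [Set.mem_singleton_iff] at hz
      exact hz ▸ IntermediateField.mem_adjoin_simple_self T.K x
    | algebraMap w =>
      rw [IsScalarTower.algebraMap_apply T.W T.K F]
      exact E.algebraMap_mem _
    | add a b _ _ ha hb => exact add_mem ha hb
    | mul a b _ _ ha hb => exact mul_mem ha hb
  letI : Algebra R E := ((algebraMap R F).codRestrict E.toSubfield.toSubring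
    fun r => hle _ r.2).toAlgebra
  haveI : IsScalarTower R E F := IsScalarTower.of_algebraMap_eq fun _ => rfl
  have htR : ∀ p : Polynomial T.K, ∃ (r : R) (s : T.W), s ≠ 0 ∧
      Polynomial.aeval x p * algebraMap T.W F s = r := fun p => by
    obtain ⟨b, hb⟩ := IsLocalization.exist_integer_multiples_of_finset (nonZeroDivisors T.W)
      (p.support.image p.coeff)
    have hco : ∀ i, ∃ w : T.W, algebraMap T.W T.K w = algebraMap T.W T.K b * p.coeff i :=
      fun i => by
      by_cases hi : i ∈ p.support
      · obtain ⟨w, hw⟩ := hb _ (Finset.mem_image_of_mem _ hi)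
        exact ⟨w, by rw [hw, Algebra.smul_def]⟩
      · exact ⟨0, by rw [Polynomial.notMem_support_iff.mp hi, mul_zero, map_zero]⟩
    choose w hw using hco
    refine ⟨⟨∑ i ∈ Finset.range (p.natDegree + 1), algebraMap T.W F (w i) * x ^ i,
      sum_mem fun i _ => mul_mem (R.algebraMap_mem _)
        (pow_mem (Algebra.self_mem_adjoin_singleton T.W x) i)⟩, b,
      nonZeroDivisors.ne_zero b.2, ?_⟩
    change _ = ∑ i ∈ Finset.range (p.natDegree + 1), algebraMap T.W F (w i) * x ^ i
    rw [Polynomial.aeval_eq_sum_range, Finset.sum_mul]
    refine Finset.sum_congr rfl fun i _ => ?_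
    rw [Algebra.smul_def, IsScalarTower.algebraMap_apply T.W T.K F (w i), hw, map_mul,
      ← IsScalarTower.algebraMap_apply T.W T.K F]
    ring
  haveI : FaithfulSMul R E := (faithfulSMul_iff_algebraMap_injective R E).mpr fun a b h =>
    Subtype.ext (congrArg Subtype.val h :)
  haveI : IsFractionRing R E := IsFractionRing.of_field _ _ fun z => by
    obtain ⟨p, p', hz⟩ := (IntermediateField.mem_adjoin_simple_iff T.K _).mp z.2
    obtain ⟨r, s, hs, hr⟩ := htR p
    obtain ⟨r', s', hs', hr'⟩ := htR p'
    refine ⟨r * ⟨algebraMap T.W F s', R.algebraMap_mem _⟩,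
      r' * ⟨algebraMap T.W F s, R.algebraMap_mem _⟩, Subtype.ext ?_⟩
    show (z : F) = (r * algebraMap T.W F s' : F) / (r' * algebraMap T.W F s : F)
    rw [hz, ← hr, ← hr', mul_assoc, mul_assoc, mul_comm (algebraMap T.W F s'), mul_div_mul_right]
    exact mul_ne_zero (by simpa [IsScalarTower.algebraMap_apply T.W T.K F] using hs)
      (by simpa [IsScalarTower.algebraMap_apply T.W T.K F] using hs')
  haveI : FiniteDimensional E F := hfin
  haveI : CharZero E := charZero_of_injective_algebraMap (algebraMap T.K E).injective
  haveI := T.isNoetherianRing_adjoin hx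
  haveI := T.isIntegrallyClosed_adjoin hx
  exact ⟨IsIntegralClosure.finite R E F (integralClosure R F),
    integralClosure.isFractionRing_of_finite_extension E F,
    integralClosure.isIntegrallyClosedOfFiniteExtension E⟩

theorem closure_finiteType {F : Type} [Field F] [Algebra T.K F] {x : F}
    (hx : Transcendental T.K x)
    (hfin : FiniteDimensional (IntermediateField.adjoin T.K {x}) F) :
    Algebra.FiniteType T.W ((integralClosure (Algebra.adjoin T.W {x}) F).restrictScalars T.W) := by
  haveI := (T.closure_finite_fraction_normal hx hfin).1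
  haveI : Algebra.FiniteType T.W (Algebra.adjoin T.W {x}) :=
    Algebra.FiniteType.of_surjective (T.adjoinPolyEquiv hx).toAlgHom
      (T.adjoinPolyEquiv hx).surjective
  letI : Algebra (Algebra.adjoin T.W {x})
      ((integralClosure (Algebra.adjoin T.W {x}) F).restrictScalars T.W) :=
    (integralClosure (Algebra.adjoin T.W {x}) F).algebra
  haveI : IsScalarTower T.W (Algebra.adjoin T.W {x})
      ((integralClosure (Algebra.adjoin T.W {x}) F).restrictScalars T.W) :=
    IsScalarTower.of_algebraMap_eq fun _ => rfl
  haveI : Module.Finite (Algebra.adjoin T.W {x})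
      ((integralClosure (Algebra.adjoin T.W {x}) F).restrictScalars T.W) :=
    (T.closure_finite_fraction_normal hx hfin).1
  exact Algebra.FiniteType.trans (S := Algebra.adjoin T.W {x}) inferInstance inferInstance

/-- Finiteness over `K(x)` passes to a finite extension. -/
theorem finite_adjoin_map {F F' : Type} [Field F] [Field F'] [Algebra T.K F] [Algebra T.K F']
    (φ : F →ₐ[T.K] F') {x : F}
    (hfin : FiniteDimensional (IntermediateField.adjoin T.K {x}) F)
    (hφ : letI := φ.toRingHom.toAlgebra; FiniteDimensional F F') :
    FiniteDimensional (IntermediateField.adjoin T.K {φ x}) F' := by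
  letI := φ.toRingHom.toAlgebra
  set E := IntermediateField.adjoin T.K {x}
  haveI : IsScalarTower E F F' := IsScalarTower.of_algebraMap_eq fun _ => rfl
  haveI : FiniteDimensional F F' := hφ
  haveI : FiniteDimensional E F := hfin
  haveI : Module.Finite E F' := Module.Finite.trans F F'
  have hmap : E.map φ = IntermediateField.adjoin T.K {φ x} := by
    rw [IntermediateField.adjoin_map, Set.image_singleton]
  exact Module.Finite.of_equiv_equiv
    ((E.equivMap φ).trans (IntermediateField.equivOfEq hmap)).toRingEquiv (RingEquiv.refl F')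
    (RingHom.ext fun _ => rfl)

end Tower

end FermatLib.Igusa.Carayol
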