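import Mathlib
import Fermat.Agent.Igusa.Carayol.TowerEmbeddings
import Fermat.Agent.Igusa.Carayol.ChartAlgebra

/-!
The reductions of the charts of the three levels along their branches.
-/

set_option autoImplicit false
set_option maxHeartbeats 400000

noncomputable section

open ModularCurve HahnSeries FermatLib.Igusa

namespace FermatLib.Igusa.Carayol

/-- The bounded integral series form a ring integrally closed in the bounded series. -/
theorem mem_gaussInt_of_isIntegral {L : Type*} [Field L] {A : ValuationSubring L}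
    [IsDiscreteValuationRing A] {k : Type*} [Field k] {π : A →+* k}
    (hπ : ∀ a : A, π a = 0 ↔ ¬ IsUnit a) {f : LaurentSeries L} (hf : f ∈ gaussField A)
    (h : IsIntegral (gaussInt π) f) : f ∈ gaussInt π := by
  rcases mem_or_inv_mem_gaussInt (π := π) hπ hf with h' | h'
  · exact h'
  by_cases hg : gred π f⁻¹ = 0
  · obtain ⟨P, hP, hPf⟩ := h
    rcases eq_or_ne f 0 with hf0 | hf0
    · rw [hf0]; exact zero_mem _
    exfalso
    have hsum : ∀ i ∈ Finset.range (P.natDegree + 1),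
        (P.coeff i : LaurentSeries L) * f⁻¹ ^ (P.natDegree - i) ∈ gaussInt π :=
      fun i _ => mul_mem (P.coeff i).2 (pow_mem h' _)
    have h0 : ∑ i ∈ Finset.range (P.natDegree + 1),
        (P.coeff i : LaurentSeries L) * f⁻¹ ^ (P.natDegree - i) = 0 := by
      rw [Polynomial.eval₂_eq_sum_range] at hPf
      have := congrArg (fun z => f⁻¹ ^ P.natDegree * z) hPf
      simp only [mul_zero, Finset.mul_sum] at this
      rw [← this]
      refine Finset.sum_congr rfl fun i hi => ?_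
      have hi' : i ≤ P.natDegree := Nat.lt_succ_iff.mp (Finset.mem_range.mp hi)
      show (P.coeff i : LaurentSeries L) * f⁻¹ ^ (P.natDegree - i) =
        f⁻¹ ^ P.natDegree * (algebraMap (gaussInt π) (LaurentSeries L) (P.coeff i) * f ^ i)
      have h1 : f⁻¹ ^ (P.natDegree - i) = f⁻¹ ^ P.natDegree * f ^ i := by
        conv_rhs => rw [← Nat.sub_add_cancel hi', _root_.pow_add, mul_assoc, ← mul_pow,
          inv_mul_cancel₀ hf0, one_pow, mul_one]
      rw [h1, mul_left_comm]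
      rfl
    have h1 : gaussIntRed π (∑ i ∈ Finset.range (P.natDegree + 1),
        P.coeff i * ⟨f⁻¹, h'⟩ ^ (P.natDegree - i)) = 0 := by
      convert map_zero (gaussIntRed π)
      apply Subtype.ext
      rw [AddSubmonoidClass.coe_finsetSum]
      simpa using h0
    rw [map_sum, Finset.sum_eq_single P.natDegree] at h1
    · rw [Nat.sub_self, pow_zero, mul_one, hP.coeff_natDegree, map_one] at h1
      exact one_ne_zero h1
    · intro i hi hne
      rw [map_mul, map_pow, show gaussIntRed π ⟨f⁻¹, h'⟩ = 0 from hg, zero_pow, mul_zero]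
      have := Finset.mem_range.mp hi
      omega
    · intro hn
      exact absurd (Finset.mem_range.mpr (Nat.lt_succ_self _)) hn
  · have h2 := inv_mem_gaussInt h' hg
    rwa [inv_inv] at h2

namespace Tower

variable {q : ℕ} [NeZero q] (T : Tower q)

/-- Reduction of level `N q` at `∞`. -/
abbrev red₁ (a : T.F₁) : LaurentSeries T.k := T.red (T.e₁ a)

/-- Reduction of level `N q` at `0`. -/
abbrev red₁' (a : T.F₁) : LaurentSeries T.k := T.red (T.e₁ (T.w₁ a))

/-- The three expansions of level `N q²`. -/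
def branch : Fin 3 → (T.F₂ →+* LaurentSeries T.L) := ![T.ε, T.εb, T.εc]

/-- Reduction of level `N q²` along a branch. -/
abbrev red₂ (i : Fin 3) (a : T.F₂) : LaurentSeries T.k := T.red (T.branch i a)

@[simp] theorem branch_zero : T.branch 0 = T.ε := rfl

@[simp] theorem branch_one : T.branch 1 = T.εb := rfl

@[simp] theorem branch_two : T.branch 2 = T.εc := rfl

theorem branch_bounded (i : Fin 3) (a : T.F₂) : T.branch i a ∈ gaussField T.A := by
  fin_cases i
  exacts [T.ε_bounded a, T.εb_bounded a, T.ε_bounded _]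

variable {T}

/-- The branch at `∞` of level `N q` passes through the point. -/
def ThruInf {t : T.F₀} (y : Ideal (T.chart₁ t)) : Prop :=
  ∀ a : T.chart₁ t, T.red₁ a = 0 → a ∈ y

/-- The branch at `0` of level `N q` passes through the point. -/
def ThruZero {t : T.F₀} (y : Ideal (T.chart₁ t)) : Prop :=
  ∀ a : T.chart₁ t, T.red₁' a = 0 → a ∈ y

/-- A branch of level `N q²` passes through the point. -/
def Thru {t : T.F₀} (i : Fin 3) (x : Ideal (T.chart₂ t)) : Prop :=
  ∀ a : T.chart₂ t, T.red₂ i a = 0 → a ∈ x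

theorem ι₀_mem_chart₁ {t : T.F₀} {a : T.F₀} (ha : a ∈ T.chart₀ t) : T.ι₀ a ∈ T.chart₁ t :=
  map_isIntegral_adjoin (T.ι₀.restrictScalars T.W)
    (isIntegral_algebraMap (R := Algebra.adjoin T.W {T.ι₀ t})
      (x := ⟨T.ι₀ t, Algebra.self_mem_adjoin_singleton _ _⟩)) ha

theorem ι₁_mem_chart₂ {t : T.F₀} {a : T.F₁} (ha : a ∈ T.chart₁ t) : T.ι₁ a ∈ T.chart₂ t :=
  map_isIntegral_adjoin (T.ι₁.restrictScalars T.W)
    (isIntegral_algebraMap (R := Algebra.adjoin T.W {T.ι₁ (T.ι₀ t)})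
      (x := ⟨T.ι₁ (T.ι₀ t), Algebra.self_mem_adjoin_singleton _ _⟩)) ha

/-- The second coordinate is integral over the first. -/
theorem β₀_j_mem_chart₁ (hI : T.Inputs) : T.β₀ T.j ∈ T.chart₁ T.j := by
  obtain ⟨Φ, hΦ, -, hev, -⟩ := hI.modular
  let x₁ : Algebra.adjoin T.W {T.ι₀ T.j} :=
    ⟨T.ι₀ T.j, Algebra.self_mem_adjoin_singleton _ _⟩
  refine ⟨Φ.map (Polynomial.aeval x₁).toRingHom, hΦ.map _, ?_⟩
  have hcomp : (algebraMap (Algebra.adjoin T.W {T.ι₀ T.j}) T.F₁).comp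
      (Polynomial.aeval (R := ℤ) x₁).toRingHom = (Polynomial.aeval (T.ι₀ T.j)).toRingHom :=
    Polynomial.ringHom_ext (fun a => by simp) (by simp [x₁])
  rw [Polynomial.eval₂_map, hcomp]
  rw [Polynomial.eval_map] at hev
  exact hev

/-- The inclusion of the charts of levels `N` and `N q`. -/
def chartIncl₁ (t : T.F₀) : T.chart₀ t →ₐ[T.W] T.chart₁ t :=
  (((T.ι₀).restrictScalars T.W).comp (T.chart₀ t).val).codRestrict _ fun a => ι₀_mem_chart₁ a.2

/-- The inclusion of the charts of levels `N q` and `N q²`. -/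
def chartIncl₂ (t : T.F₀) : T.chart₁ t →ₐ[T.W] T.chart₂ t :=
  (((T.ι₁).restrictScalars T.W).comp (T.chart₁ t).val).codRestrict _ fun a => ι₁_mem_chart₂ a.2

theorem w₁_mem_chart₁ (hI : T.Inputs) {a : T.F₁} (ha : a ∈ T.chart₁ T.j) :
    T.w₁ a ∈ T.chart₁ T.j := by
  refine map_isIntegral_adjoin ((T.w₁ : T.F₁ →ₐ[T.K] T.F₁).restrictScalars T.W) ?_ ha
  show IsIntegral _ (T.w₁ (T.ι₀ T.j))
  rw [T.w₁_ι₀]
  exact β₀_j_mem_chart₁ hI

theorem β₀_mem_chart₁ (hI : T.Inputs) {a : T.F₀} (ha : a ∈ T.chart₀ T.j) :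
    T.β₀ a ∈ T.chart₁ T.j := by
  rw [← T.w₁_ι₀]
  exact w₁_mem_chart₁ hI (ι₀_mem_chart₁ ha)

theorem β₁_mem_chart₂ (hI : T.Inputs) {a : T.F₁} (ha : a ∈ T.chart₁ T.j) :
    T.β₁ a ∈ T.chart₂ T.j := by
  refine map_isIntegral_adjoin (T.β₁.restrictScalars T.W) ?_ ha
  show IsIntegral _ (T.β₁ (T.ι₀ T.j))
  rw [T.comm]
  exact ι₁_mem_chart₂ (β₀_j_mem_chart₁ hI)

theorem w₂_mem_chart₂ (hI : T.Inputs) {a : T.F₂} (ha : a ∈ T.chart₂ T.j) :
    T.w₂ a ∈ T.chart₂ T.j := by
  refine map_isIntegral_adjoin ((T.w₂ : T.F₂ →ₐ[T.K] T.F₂).restrictScalars T.W) ?_ ha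
  show IsIntegral _ (T.w₂ (T.ι₁ (T.ι₀ T.j)))
  rw [T.w₂_ι₁, T.w₁_ι₀]
  exact β₁_mem_chart₂ hI (β₀_j_mem_chart₁ hI)

/-- The map `β₁` on the finite charts. -/
def chartBeta₂ (hI : T.Inputs) : T.chart₁ T.j →ₐ[T.W] T.chart₂ T.j :=
  (((T.β₁).restrictScalars T.W).comp (T.chart₁ T.j).val).codRestrict _
    fun a => β₁_mem_chart₂ hI a.2

/-- Integral elements over `W[x]` have integral expansions when `x` and constants do. -/
theorem map_mem_gaussInt_of_isIntegral {F : Type} [Field F] [Algebra T.K F]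
    (f : F →+* LaurentSeries T.L)
    (hK : ∀ c, f (algebraMap T.K F c) =
      algebraMap T.L (LaurentSeries T.L) (algebraMap T.K T.L c))
    (hb : ∀ y, f y ∈ gaussField T.A) {x : F} (hx : f x ∈ gaussInt T.π) {a : F}
    (ha : IsIntegral (Algebra.adjoin T.W {x}) a) : f a ∈ gaussInt T.π := by
  have hle : ∀ r ∈ Algebra.adjoin T.W {x}, f r ∈ gaussInt T.π := fun r hr => by
    induction hr using Algebra.adjoin_induction with
    | mem z hz => rw [Set.mem_singleton_iff] at hz; exact hz ▸ hx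
    | algebraMap w =>
      rw [IsScalarTower.algebraMap_apply T.W T.K F, hK]
      exact algebraMap_mem_gaussInt (π := T.π) ⟨_, T.coe_mem_A w⟩
    | add a b _ _ ha hb => rw [map_add]; exact add_mem ha hb
    | mul a b _ _ ha hb => rw [map_mul]; exact mul_mem ha hb
  let ψ : Algebra.adjoin T.W {x} →+* gaussInt T.π :=
    (f.comp (Algebra.adjoin T.W {x}).val.toRingHom).codRestrict _ fun r => hle _ r.2
  obtain ⟨p, hp, hpa⟩ := ha
  refine mem_gaussInt_of_isIntegral T.π_eq_zero (hb a) ⟨p.map ψ, hp.map _, ?_⟩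
  rw [Polynomial.eval₂_map]
  have h := congrArg f hpa
  rw [map_zero, Polynomial.hom_eval₂] at h
  exact h

theorem e₁_bounded (y : T.F₁) : T.e₁ y ∈ gaussField T.A := T.ε_bounded _

theorem e₁_mem_gaussInt {t : T.F₀} (ht : T.ChartParam t) (a : T.chart₁ t) :
    T.e₁ a ∈ gaussInt T.π ∧ T.e₁ (T.w₁ a) ∈ gaussInt T.π := by
  refine ⟨map_mem_gaussInt_of_isIntegral T.e₁ T.e₁_algebraMap e₁_bounded ht.int a.2,
    map_mem_gaussInt_of_isIntegral (T.e₁.comp T.w₁.toRingEquiv.toRingHom) (fun c => ?_)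
      (fun y => e₁_bounded _) ?_ a.2⟩
  · show T.e₁ (T.w₁ (algebraMap _ _ c)) = _
    rw [AlgEquiv.commutes, T.e₁_algebraMap]
  · show T.e₁ (T.w₁ (T.ι₀ t)) ∈ _
    rw [T.w₁_ι₀, T.e₁_β₀]
    exact (qExpand_mem_gaussInt q ht.int).1

theorem branch_algebraMap (i : Fin 3) (c : T.K) : T.branch i (algebraMap T.K T.F₂ c) =
    algebraMap T.L (LaurentSeries T.L) (algebraMap T.K T.L c) := by
  fin_cases i
  · exact T.ε_algebraMap c
  · exact T.εb_algebraMap c
  · show T.ε (T.w₂ _) = _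
    rw [AlgEquiv.commutes, T.ε_algebraMap]

theorem branch_ι₁ι₀ (i : Fin 3) (x : T.F₀) : T.branch i (T.ι₁ (T.ι₀ x)) = T.e₀ x ∨
    T.branch i (T.ι₁ (T.ι₀ x)) = qExpand T.L q (qExpand T.L q (T.e₀ x)) := by
  fin_cases i
  · exact Or.inl rfl
  · exact Or.inl (T.εb_ι₁ _)
  · refine Or.inr ?_
    show T.εc _ = _
    rw [T.εc_ι₁, T.w₁_ι₀, T.e₁_β₀]

theorem branch_mem_gaussInt {t : T.F₀} (ht : T.ChartParam t) (i : Fin 3) (a : T.chart₂ t) :
    T.branch i a ∈ gaussInt T.π := by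
  refine map_mem_gaussInt_of_isIntegral (T.branch i) (branch_algebraMap i) (T.branch_bounded i)
    ?_ a.2
  rcases branch_ι₁ι₀ i t with h | h <;> rw [h]
  · exact ht.int
  · exact (qExpand_mem_gaussInt q (qExpand_mem_gaussInt q ht.int).1).1

theorem chartParam_of_eq (hI : T.Inputs) {t : T.F₀} (ht : t = T.j ∨ t = T.j⁻¹) :
    T.ChartParam t := by
  rcases ht with rfl | rfl
  exacts [T.chartParam_j hI, T.chartParam_jinv hI]

theorem transcendental_ι₀ {t : T.F₀} (ht : T.ChartParam t) : Transcendental T.K (T.ι₀ t) :=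
  fun h => ht.transcendental ((isAlgebraic_algHom_iff T.ι₀ T.ι₀.toRingHom.injective).mp h)

theorem transcendental_ι₁ι₀ {t : T.F₀} (ht : T.ChartParam t) :
    Transcendental T.K (T.ι₁ (T.ι₀ t)) :=
  fun h => transcendental_ι₀ ht ((isAlgebraic_algHom_iff T.ι₁ T.ι₁.toRingHom.injective).mp h)

theorem finite_adjoin₁ {t : T.F₀} (ht : T.ChartParam t) :
    FiniteDimensional (IntermediateField.adjoin T.K {T.ι₀ t}) T.F₁ :=
  T.finite_adjoin_map T.ι₀ ht.finite
    (letI := T.ι₀.toRingHom.toAlgebra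
     FiniteDimensional.of_finrank_pos (by rw [T.finrank₀]; omega))

theorem finite_adjoin₂ {t : T.F₀} (ht : T.ChartParam t) :
    FiniteDimensional (IntermediateField.adjoin T.K {T.ι₁ (T.ι₀ t)}) T.F₂ :=
  T.finite_adjoin_map T.ι₁ (finite_adjoin₁ ht) T.finrank_pos₂

theorem finiteType_chart₁ (hI : T.Inputs) {t : T.F₀} (ht : t = T.j ∨ t = T.j⁻¹) :
    Algebra.FiniteType T.W (T.chart₁ t) :=
  T.closure_finiteType (transcendental_ι₀ (chartParam_of_eq hI ht))
    (finite_adjoin₁ (chartParam_of_eq hI ht))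

theorem finiteType_chart₂ (hI : T.Inputs) {t : T.F₀} (ht : t = T.j ∨ t = T.j⁻¹) :
    Algebra.FiniteType T.W (T.chart₂ t) :=
  T.closure_finiteType (transcendental_ι₁ι₀ (chartParam_of_eq hI ht))
    (finite_adjoin₂ (chartParam_of_eq hI ht))

theorem isFractionRing_chart₁ {t : T.F₀} (ht : T.ChartParam t) :
    IsFractionRing (T.chart₁ t) T.F₁ :=
  (T.closure_finite_fraction_normal (transcendental_ι₀ ht) (finite_adjoin₁ ht)).2.1

theorem isFractionRing_chart₂ {t : T.F₀} (ht : T.ChartParam t) :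
    IsFractionRing (T.chart₂ t) T.F₂ :=
  (T.closure_finite_fraction_normal (transcendental_ι₁ι₀ ht) (finite_adjoin₂ ht)).2.1

theorem isIntegrallyClosed_chart₂ {t : T.F₀} (ht : T.ChartParam t) :
    IsIntegrallyClosed (T.chart₂ t) :=
  (T.closure_finite_fraction_normal (transcendental_ι₁ι₀ ht) (finite_adjoin₂ ht)).2.2

end Tower

end FermatLib.Igusa.Carayol
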