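import Mathlib
import Fermat.Agent.Igusa.Carayol.TowerChart
import Fermat.Agent.Igusa.Carayol.LevelZero

/-!
The charts of level `N q`: reductions along the two branches, the Gauss criterion, and the
comparison of the branch at `∞` with the reduced chart of level `N`.
-/

set_option autoImplicit false
set_option linter.style.haveILetI false
set_option maxHeartbeats 400000
set_option synthInstance.maxHeartbeats 100000

noncomputable section

open ModularCurve HahnSeries FermatLib.Igusa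

namespace FermatLib.Igusa.Carayol

namespace Tower

variable {q : ℕ} [NeZero q] {T : Tower q}

theorem natCast_q_ne_zero_F₁ : (q : T.F₁) ≠ 0 :=
  haveI : CharZero T.F₁ := charZero_of_injective_algebraMap (algebraMap T.K T.F₁).injective
  Nat.cast_ne_zero.mpr (NeZero.ne q)

theorem charP_redSeries : CharP (LaurentSeries T.k) q :=
  charP_of_injective_algebraMap (algebraMap T.k (LaurentSeries T.k)).injective q

theorem e₁_algebraMap_W (w : T.W) : T.e₁ (algebraMap T.W T.F₁ w) ∈ gaussInt T.π ∧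
    T.red (T.e₁ (algebraMap T.W T.F₁ w)) = algebraMap T.k (LaurentSeries T.k) (T.πW w) := by
  rw [IsScalarTower.algebraMap_apply T.W T.K T.F₁, T.e₁_algebraMap]
  exact ⟨algebraMap_mem_gaussInt (π := T.π) ⟨algebraMap T.K T.L (w : T.K), T.coe_mem_A w⟩,
    gred_algebraMap (π := T.π) ⟨algebraMap T.K T.L (w : T.K), T.coe_mem_A w⟩⟩

/-- A series is integral as soon as its `q`-expansion is. -/
theorem of_qExpand_mem_gaussInt {f : LaurentSeries T.L} (hf : f ∈ gaussField T.A)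
    (h : qExpand T.L q f ∈ gaussInt T.π) : f ∈ gaussInt T.π := by
  rcases mem_or_inv_mem_gaussInt (π := T.π) T.π_eq_zero hf with hm | hinv
  · exact hm
  by_cases hg : gred T.π f⁻¹ = 0
  · rcases eq_or_ne f 0 with rfl | hf0
    · exact zero_mem _
    exfalso
    obtain ⟨hmem, hred⟩ := qExpand_mem_gaussInt (π := T.π) q hinv
    have h1 := gred_mul h hmem
    rw [← map_mul, mul_inv_cancel₀ hf0, map_one, gred_one, hred, hg, map_zero, mul_zero] at h1
    exact one_ne_zero h1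
  · simpa using inv_mem_gaussInt hinv hg

theorem scale_mem_gaussInt (i : ℕ) {f : LaurentSeries T.L} (hf : f ∈ gaussInt T.π) :
    monoNewScale (T.toBase.ζL ^ i) f ∈ gaussInt T.π ∧
      gred T.π (monoNewScale (T.toBase.ζL ^ i) f) = gred T.π f := by
  rw [Base.ζL, ← map_pow]
  exact monoNewScale_mem_gaussInt (T.ζ ^ i)
    (by rw [Units.val_pow_eq_pow_val, map_pow, T.π_ζ, one_pow]) hf

theorem emb₁_ι₀ (o : Option (Fin q)) (x : T.F₀) :
    T.emb₁ o (T.ι₀ x) = qExpand T.L q (T.e₀ x) := by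
  cases o with
  | none => rfl
  | some i =>
    show monoNewScale _ (T.e₁ (T.w₁ (T.ι₀ x))) = qExpand T.L q (T.e₀ x)
    rw [T.w₁_ι₀, T.e₁_β₀, T.scale_qExpand]

theorem emb₁_injective : Function.Injective T.emb₁ := by
  have hsome : ∀ i : Fin q, T.emb₁ (some i) (T.β₀ T.j) =
      monoNewScale (T.toBase.ζL ^ (i : ℕ)) (T.e₀ T.j) := fun i => by
    show monoNewScale _ (T.e₁ (T.w₁ (T.β₀ T.j))) = _
    rw [w₁_β₀, T.e₁_ι₀]
  have hnone : (T.emb₁ none (T.β₀ T.j)).coeff (-1) = 0 := T.coeff_neg_one_qExpand _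
  rintro (_ | i) (_ | i') h
  · rfl
  · rw [h, hsome, T.coeff_neg_one_e₀_scale, inv_eq_zero] at hnone
    exact absurd hnone (pow_ne_zero _ (Units.ne_zero _))
  · rw [← h, hsome, T.coeff_neg_one_e₀_scale, inv_eq_zero] at hnone
    exact absurd hnone (pow_ne_zero _ (Units.ne_zero _))
  · have h1 := congrArg (fun f : T.F₁ →+* LaurentSeries T.L => (f (T.β₀ T.j)).coeff (-1)) h
    simp only [hsome, T.coeff_neg_one_e₀_scale, inv_inj] at h1
    rw [T.injective_zetaPow h1]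

theorem finiteDimensional₁ :
    letI := T.ι₀.toRingHom.toAlgebra
    FiniteDimensional T.F₀ T.F₁ := by
  letI := T.ι₀.toRingHom.toAlgebra
  exact FiniteDimensional.of_finrank_pos (by rw [T.finrank₀]; omega)

variable {t : T.F₀}

/-- An equation over `K[ι t]` comes from one over `K[t]`. -/
theorem exists_monic_adjoin_K {a : T.F₁} (ha : IsIntegral (Algebra.adjoin T.K {T.ι₀ t}) a) :
    ∃ P : Polynomial (Algebra.adjoin T.K {t}), P.Monic ∧
      P.eval₂ (T.ι₀.toRingHom.comp (Algebra.adjoin T.K {t}).val.toRingHom) a = 0 := by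
  obtain ⟨p, hp, hpa⟩ := ha
  have hmap : (Algebra.adjoin T.K {t}).map T.ι₀ = Algebra.adjoin T.K {T.ι₀ t} := by
    rw [AlgHom.map_adjoin, Set.image_singleton]
  let ψ : Algebra.adjoin T.K {t} →+* Algebra.adjoin T.K {T.ι₀ t} :=
    (T.ι₀.toRingHom.comp (Algebra.adjoin T.K {t}).val.toRingHom).codRestrict
      (Algebra.adjoin T.K {T.ι₀ t}).toSubring
      fun r => by
        show T.ι₀ r.1 ∈ Algebra.adjoin T.K {T.ι₀ t}
        rw [← hmap]
        exact ⟨r.1, r.2, rfl⟩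
  have hψ : Function.Surjective ψ := fun x => by
    obtain ⟨r, hr, hrx⟩ : (x : T.F₁) ∈ (Algebra.adjoin T.K {t}).map T.ι₀ := by
      rw [hmap]; exact x.2
    exact ⟨⟨r, hr⟩, Subtype.ext hrx⟩
  have hlift : p ∈ Polynomial.lifts ψ :=
    (Polynomial.lifts_iff_coeff_lifts p).mpr fun n => hψ _
  obtain ⟨P, hP, -, hPm⟩ := Polynomial.lifts_and_natDegree_eq_and_monic hlift hp
  refine ⟨P, hPm, ?_⟩
  rw [← hP, Polynomial.eval₂_map] at hpa
  exact hpa

theorem isIntegral_adjoin_K₁ {a : T.F₁} (ha : a ∈ T.chart₁ t) :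
    IsIntegral (Algebra.adjoin T.K {T.ι₀ t}) a := by
  obtain ⟨p, hp, hpa⟩ := (ha : IsIntegral (Algebra.adjoin T.W {T.ι₀ t}) a)
  have hle : ∀ r ∈ Algebra.adjoin T.W {T.ι₀ t}, r ∈ Algebra.adjoin T.K {T.ι₀ t} := fun r hr =>
    Algebra.adjoin_le (S := (Algebra.adjoin T.K {T.ι₀ t}).restrictScalars T.W)
      Algebra.subset_adjoin hr
  let i : Algebra.adjoin T.W {T.ι₀ t} →+* Algebra.adjoin T.K {T.ι₀ t} :=
    (algebraMap (Algebra.adjoin T.W {T.ι₀ t}) T.F₁).codRestrict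
      (Algebra.adjoin T.K {T.ι₀ t}).toSubring fun r => hle _ r.2
  exact ⟨p.map i, hp.map _, by rw [Polynomial.eval₂_map]; exact hpa⟩

/-- Coefficients of minimal polynomials over level `N` are integral. -/
theorem isIntegral_minpoly_coeff {a : T.F₁} (ha : IsIntegral (Algebra.adjoin T.K {T.ι₀ t}) a)
    (n : ℕ) :
    letI := T.ι₀.toRingHom.toAlgebra
    IsIntegral (Algebra.adjoin T.K {t}) ((minpoly T.F₀ a).coeff n) := by
  letI := T.ι₀.toRingHom.toAlgebra
  haveI := T.finiteDimensional₁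
  obtain ⟨P, hP, hPa⟩ := exists_monic_adjoin_K ha
  refine Polynomial.isIntegral_coeff_of_dvd P _ hP
    (minpoly.monic (IsIntegral.of_finite T.F₀ a)) (minpoly.dvd T.F₀ a ?_) n
  rw [Polynomial.aeval_def, Polynomial.eval₂_map]
  exact hPa

/-- The chart of level `N q` is cut out by the two expansions. -/
theorem gauss_mem₁ {t : T.F₀} (ht : T.ChartParam t) (a : T.F₁)
    (ha : IsIntegral (Algebra.adjoin T.K {T.ι₀ t}) a) (h : T.e₁ a ∈ gaussInt T.π)
    (h' : T.e₁ (T.w₁ a) ∈ gaussInt T.π) : a ∈ T.chart₁ t := by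
  letI := T.ι₀.toRingHom.toAlgebra
  haveI := T.finiteDimensional₁
  haveI : CharZero T.F₀ := charZero_of_injective_algebraMap (algebraMap T.K T.F₀).injective
  have hemb : ∀ o, T.emb₁ o a ∈ gaussInt T.π := by
    rintro (_ | i)
    · exact (qExpand_mem_gaussInt (π := T.π) q h).1
    · exact (scale_mem_gaussInt (i : ℕ) h').1
  have hcoef : ∀ n, T.ι₀ ((minpoly T.F₀ a).coeff n) ∈ T.chart₁ t := fun n => by
    refine ι₀_mem_chart₁ (ht.gauss_mem _ (isIntegral_minpoly_coeff ha n) ?_)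
    refine of_qExpand_mem_gaussInt (T.ε_bounded _) ?_
    exact map_minpoly_coeff_mem (e := (qExpand T.L q).comp T.e₀) (σ := T.emb₁) T.emb₁_ι₀
      T.emb₁_injective (by rw [Fintype.card_option, Fintype.card_fin, T.finrank₀]) _ hemb n
  let C := integralClosure (Algebra.adjoin T.W {T.ι₀ t}) T.F₁
  refine (isIntegral_trans (R := Algebra.adjoin T.W {T.ι₀ t}) (A := C) a ?_ :
    IsIntegral (Algebra.adjoin T.W {T.ι₀ t}) a)
  obtain ⟨P, hP, -, hPm⟩ := Polynomial.lifts_and_natDegree_eq_and_monic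
    (f := C.val.toRingHom) (p := (minpoly T.F₀ a).map T.ι₀.toRingHom)
    ((Polynomial.lifts_iff_coeff_lifts _).mpr fun n => ⟨⟨_, hcoef n⟩, by
      rw [Polynomial.coeff_map]; rfl⟩)
    ((minpoly.monic (IsIntegral.of_finite T.F₀ a)).map _)
  refine ⟨P, hPm, ?_⟩
  show P.eval₂ C.val.toRingHom a = 0
  rw [← Polynomial.eval_map, hP, Polynomial.eval_map]
  exact minpoly.aeval T.F₀ a

/-- The reduction of the chart of level `N`. -/
def red₀Hom (ht : T.ChartParam t) : T.chart₀ t →+* LaurentSeries T.k :=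
  (gaussIntRed T.π).comp ((T.e₀.comp (T.chart₀ t).val.toRingHom).codRestrict (gaussInt T.π)
    fun a => ht.e₀_mem_gaussInt a)

/-- The reduction of the chart of level `N q` at `∞`. -/
def red₁Hom (ht : T.ChartParam t) : T.chart₁ t →+* LaurentSeries T.k :=
  (gaussIntRed T.π).comp ((T.e₁.comp (T.chart₁ t).val.toRingHom).codRestrict (gaussInt T.π)
    fun a => (e₁_mem_gaussInt ht a).1)

/-- The reduction of the chart of level `N q` at `0`. -/
def red₁Hom' (ht : T.ChartParam t) : T.chart₁ t →+* LaurentSeries T.k :=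
  (gaussIntRed T.π).comp
    (((T.e₁.comp T.w₁.toRingEquiv.toRingHom).comp (T.chart₁ t).val.toRingHom).codRestrict
      (gaussInt T.π) fun a => (e₁_mem_gaussInt ht a).2)

theorem red₀Hom_apply (ht : T.ChartParam t) (a : T.chart₀ t) :
    red₀Hom ht a = T.red₀ (a : T.F₀) := rfl

theorem red₁Hom_apply (ht : T.ChartParam t) (a : T.chart₁ t) :
    red₁Hom ht a = T.red₁ (a : T.F₁) := rfl

theorem red₁Hom'_apply (ht : T.ChartParam t) (a : T.chart₁ t) :
    red₁Hom' ht a = T.red₁' (a : T.F₁) := rfl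

theorem coe_chartIncl₁ (t : T.F₀) (b : T.chart₀ t) :
    ((chartIncl₁ t b : T.chart₁ t) : T.F₁) = T.ι₀ b := rfl

theorem red₁_chartIncl₁ (ht : T.ChartParam t) (b : T.chart₀ t) :
    red₁Hom ht (chartIncl₁ t b) = red₀Hom ht b := rfl

theorem red₁'_chartIncl₁ (ht : T.ChartParam t) (b : T.chart₀ t) :
    red₁Hom' ht (chartIncl₁ t b) = qExpand T.k q (red₀Hom ht b) := by
  rw [red₁Hom'_apply, coe_chartIncl₁]
  show T.red (T.e₁ (T.w₁ (T.ι₀ b))) = _
  rw [T.w₁_ι₀, T.e₁_β₀]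
  exact (qExpand_mem_gaussInt (π := T.π) q (ht.e₀_mem_gaussInt b)).2

theorem red₁Hom_natCast_q (ht : T.ChartParam t) : red₁Hom ht (q : T.chart₁ t) = 0 := by
  haveI := charP_redSeries (T := T)
  rw [map_natCast, CharP.cast_eq_zero]

theorem red₀Hom_natCast_q (ht : T.ChartParam t) : red₀Hom ht (q : T.chart₀ t) = 0 := by
  haveI := charP_redSeries (T := T)
  rw [map_natCast, CharP.cast_eq_zero]

/-- An expansion with zero reduction is divisible by `q`. -/
theorem inv_q_mul_mem_gaussInt {a : T.F₁} (h : T.e₁ a ∈ gaussInt T.π)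
    (h0 : T.red (T.e₁ a) = 0) :
    algebraMap T.L (LaurentSeries T.L) ((q : T.L)⁻¹) * T.e₁ a ∈ gaussInt T.π := by
  rcases eq_or_ne a 0 with rfl | ha
  · rw [map_zero, mul_zero]; exact zero_mem _
  · obtain ⟨n, hn, hn0⟩ := T.ε_content (T.ι₁ a) (by simpa using ha)
    exact T.div_q_mem_gaussInt h h0 hn hn0

theorem e₁_div_q (a : T.F₁) :
    T.e₁ (a / q) = algebraMap T.L (LaurentSeries T.L) ((q : T.L)⁻¹) * T.e₁ a := by
  rw [map_div₀, map_natCast, map_inv₀, map_natCast, div_eq_inv_mul]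

/-- Functions vanishing on both branches are divisible by `q`. -/
theorem exists_eq_mul₁ {t : T.F₀} (ht : T.ChartParam t) (a : T.chart₁ t)
    (h : T.red₁ (a : T.F₁) = 0) (h' : T.red₁' (a : T.F₁) = 0) :
    ∃ b : T.chart₁ t, a = q * b := by
  have hint : IsIntegral (Algebra.adjoin T.K {T.ι₀ t}) ((a : T.F₁) / q) := by
    have h1 : IsIntegral (Algebra.adjoin T.K {T.ι₀ t}) (algebraMap T.K T.F₁ ((q : T.K)⁻¹)) :=
      isIntegral_algebraMap
        (x := (⟨_, Subalgebra.algebraMap_mem _ _⟩ : Algebra.adjoin T.K {T.ι₀ t}))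
    rw [div_eq_inv_mul, ← map_natCast (algebraMap T.K T.F₁) q, ← map_inv₀]
    exact h1.mul (isIntegral_adjoin_K₁ a.2)
  have g1 : T.e₁ ((a : T.F₁) / q) ∈ gaussInt T.π := by
    rw [e₁_div_q]
    exact inv_q_mul_mem_gaussInt (e₁_mem_gaussInt ht a).1 h
  have g2 : T.e₁ (T.w₁ ((a : T.F₁) / q)) ∈ gaussInt T.π := by
    rw [map_div₀, map_natCast, e₁_div_q]
    exact inv_q_mul_mem_gaussInt (e₁_mem_gaussInt ht a).2 h'
  exact ⟨⟨(a : T.F₁) / q, gauss_mem₁ ht _ hint g1 g2⟩, Subtype.ext (by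
    show (a : T.F₁) = ((q : T.chart₁ t) : T.F₁) * ((a : T.F₁) / q)
    simp [mul_div_cancel₀ _ (natCast_q_ne_zero_F₁ (T := T))])⟩

theorem mem_ideal_of_red_eq_zero {y : Ideal (T.chart₁ t)} (ht : T.ChartParam t)
    (hy : (q : T.chart₁ t) ∈ y) {a : T.chart₁ t} (h : red₁Hom ht a = 0)
    (h' : red₁Hom' ht a = 0) : a ∈ y := by
  obtain ⟨b, rfl⟩ := exists_eq_mul₁ ht a h h'
  exact y.mul_mem_right b hy

theorem thruInf_or_thruZero {t : T.F₀} (ht : T.ChartParam t) (y : Ideal (T.chart₁ t))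
    [y.IsMaximal] (hy : (q : T.chart₁ t) ∈ y) : ThruInf y ∨ ThruZero y := by
  by_contra hcon
  rw [not_or] at hcon
  simp only [ThruInf, ThruZero, not_forall] at hcon
  obtain ⟨⟨a, ha, hay⟩, ⟨b, hb, hby⟩⟩ := hcon
  have hmem := mem_ideal_of_red_eq_zero ht hy (a := a * b)
    (by rw [map_mul, red₁Hom_apply, ha, zero_mul])
    (by rw [map_mul, red₁Hom'_apply ht b, hb, mul_zero])
  rcases Ideal.IsPrime.mem_or_mem (Ideal.IsMaximal.isPrime ‹_›) hmem with h | h
  exacts [hay h, hby h]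

/-- Reductions of `W[ι t]` are polynomials in the reduction of `t`. -/
theorem red₁_adjoin (ht : T.ChartParam t) (r : T.F₁) (hr : r ∈ Algebra.adjoin T.W {T.ι₀ t}) :
    T.e₁ r ∈ gaussInt T.π ∧ T.red (T.e₁ r) ∈ Algebra.adjoin T.k {T.red₀ t} := by
  induction hr using Algebra.adjoin_induction with
  | mem z hz =>
    rw [Set.mem_singleton_iff] at hz
    subst hz
    exact ⟨ht.int, Algebra.self_mem_adjoin_singleton _ _⟩
  | algebraMap w =>
    obtain ⟨h1, h2⟩ := e₁_algebraMap_W (T := T) w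
    exact ⟨h1, h2 ▸ Subalgebra.algebraMap_mem _ _⟩
  | add a b _ _ ha hb =>
    rw [map_add]
    refine ⟨add_mem ha.1 hb.1, ?_⟩
    show gred T.π _ ∈ _
    rw [gred_add ha.1 hb.1]
    exact add_mem ha.2 hb.2
  | mul a b _ _ ha hb =>
    rw [map_mul]
    refine ⟨mul_mem ha.1 hb.1, ?_⟩
    show gred T.π _ ∈ _
    rw [gred_mul ha.1 hb.1]
    exact mul_mem ha.2 hb.2

theorem isIntegral_red₁ (ht : T.ChartParam t) (a : T.chart₁ t) :
    IsIntegral (Algebra.adjoin T.k {T.red₀ t}) (red₁Hom ht a) := by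
  obtain ⟨p, hp, hpa⟩ := (a.2 : IsIntegral (Algebra.adjoin T.W {T.ι₀ t}) (a : T.F₁))
  let R := Algebra.adjoin T.W {T.ι₀ t}
  let g : R →+* gaussInt T.π :=
    (T.e₁.comp R.val.toRingHom).codRestrict (gaussInt T.π) fun r => (red₁_adjoin ht r r.2).1
  let ψ : R →+* Algebra.adjoin T.k {T.red₀ t} :=
    ((gaussIntRed T.π).comp g).codRestrict (Algebra.adjoin T.k {T.red₀ t}).toSubring
      fun r => (red₁_adjoin ht r r.2).2
  refine ⟨p.map ψ, hp.map _, ?_⟩
  have h1 : p.eval₂ g (⟨T.e₁ a, (e₁_mem_gaussInt ht a).1⟩ : gaussInt T.π) = 0 := by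
    apply Subtype.ext
    show (gaussInt T.π).subtype _ = 0
    rw [Polynomial.hom_eval₂]
    show p.eval₂ (T.e₁.comp (algebraMap R T.F₁)) (T.e₁ a) = 0
    rw [← Polynomial.hom_eval₂, hpa, map_zero]
  have h2 := congrArg (gaussIntRed T.π) h1
  rw [Polynomial.hom_eval₂, map_zero] at h2
  rw [Polynomial.eval₂_map]
  exact h2

theorem isIntegral_red₀ (ht : T.ChartParam t) (b : T.chart₀ t) :
    IsIntegral (Algebra.adjoin T.k {T.red₀ t}) (red₀Hom ht b) :=
  red₁_chartIncl₁ ht b ▸ isIntegral_red₁ ht (chartIncl₁ t b)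

theorem algebraMap_mem_range_red₀ (ht : T.ChartParam t) (l : T.k) :
    algebraMap T.k (LaurentSeries T.k) l ∈ (red₀Hom ht).range := by
  obtain ⟨w, rfl⟩ := T.πW_surjective l
  exact ⟨algebraMap T.W (T.chart₀ t) w, (T.e₀_W w).2⟩

/-- A property of the reduced chart stable under sums and constants which holds at reductions of
rational functions holds on its span. -/
theorem span_rat_induction {P : LaurentSeries T.k → Prop} (h0 : P 0)
    (hadd : ∀ f g, P f → P g → P (f + g))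
    (hsmul : ∀ (l : T.k) f, P f → P (algebraMap T.k (LaurentSeries T.k) l * f))
    (hrat : ∀ c ∈ T.chart₀ t, T.IsRat c → P (T.red₀ c)) {f : LaurentSeries T.k}
    (hf : f ∈ Submodule.span T.k {h | ∃ c ∈ T.chart₀ t, T.IsRat c ∧ h = T.red (T.e₀ c)}) :
    P f := by
  induction hf using Submodule.span_induction with
  | mem x hx => obtain ⟨c, hc, hrat', rfl⟩ := hx; exact hrat c hc hrat'
  | zero => exact h0
  | add x y _ _ hx hy => exact hadd x y hx hy
  | smul l x _ hx =>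
    rw [← HahnSeries.single_zero_mul_eq_smul, ← algebraMap_laurentSeries_eq_single]
    exact hsmul l x hx

theorem smooth_mem_range (ht : T.ChartParam t) {a b : T.F₀} (ha : T.e₀ a ∈ gaussInt T.π)
    (hb : T.e₀ b ∈ gaussInt T.π) (hb0 : T.red₀ b ≠ 0)
    (hint : IsIntegral (Algebra.adjoin T.k {T.red₀ t}) (T.red₀ a / T.red₀ b)) :
    T.red₀ a / T.red₀ b ∈ (red₀Hom ht).range :=
  span_rat_induction (P := fun f => f ∈ (red₀Hom ht).range) (zero_mem _)
    (fun _ _ => add_mem) (fun l _ hf => mul_mem (algebraMap_mem_range_red₀ ht l) hf)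
    (fun c hc _ => ⟨⟨c, hc⟩, rfl⟩) (ht.smooth a b ha hb hb0 hint)

theorem red₀_mem_span_rat (ht : T.ChartParam t) (b : T.chart₀ t) :
    red₀Hom ht b ∈ Submodule.span T.k
      {h | ∃ c ∈ T.chart₀ t, T.IsRat c ∧ h = T.red (T.e₀ c)} := by
  have h1 : T.red (T.e₀ 1) = 1 := by rw [map_one]; exact gred_one
  have h := ht.smooth b 1 (ht.e₀_mem_gaussInt b) (by rw [map_one]; exact one_mem _)
    (by rw [h1]; exact one_ne_zero) (by rw [h1, div_one]; exact isIntegral_red₀ ht b)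
  rwa [h1, div_one] at h

/-- The Frobenius twist of the reduced chart, and its inverse. -/
theorem exists_twist (ht : T.ChartParam t) (b : T.chart₀ t) :
    (∃ b' : T.chart₀ t, red₀Hom ht b' ^ q = qExpand T.k q (red₀Hom ht b)) ∧
      ∃ b' : T.chart₀ t, qExpand T.k q (red₀Hom ht b') = red₀Hom ht b ^ q := by
  haveI := charP_redSeries (T := T)
  haveI : Fact q.Prime := ⟨T.prime⟩
  refine span_rat_induction (t := t) (P := fun f =>
    (∃ b' : T.chart₀ t, red₀Hom ht b' ^ q = qExpand T.k q f) ∧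
      ∃ b' : T.chart₀ t, qExpand T.k q (red₀Hom ht b') = f ^ q) ?_ ?_ ?_ ?_
    (red₀_mem_span_rat ht b)
  · exact ⟨⟨0, by rw [map_zero, map_zero, zero_pow T.prime.ne_zero]⟩,
      0, by rw [map_zero, map_zero, zero_pow T.prime.ne_zero]⟩
  · rintro f g ⟨⟨b₁, h₁⟩, b₂, h₂⟩ ⟨⟨c₁, g₁⟩, c₂, g₂⟩
    refine ⟨⟨b₁ + c₁, ?_⟩, b₂ + c₂, ?_⟩
    · rw [map_add, map_add, add_pow_char, h₁, g₁]
    · rw [map_add, map_add, add_pow_char, h₂, g₂]
  · rintro l f ⟨⟨b₁, h₁⟩, b₂, h₂⟩
    obtain ⟨m, hm⟩ := IsAlgClosed.exists_pow_nat_eq l T.prime.pos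
    obtain ⟨c₁, hc₁⟩ := algebraMap_mem_range_red₀ ht m
    obtain ⟨c₂, hc₂⟩ := algebraMap_mem_range_red₀ ht (l ^ q)
    have hC : ∀ x : T.k, qExpand T.k q (algebraMap T.k (LaurentSeries T.k) x) =
        algebraMap T.k (LaurentSeries T.k) x := fun x => by
      rw [algebraMap_laurentSeries_eq_single, qExpand_single, mul_zero]
    refine ⟨⟨c₁ * b₁, ?_⟩, c₂ * b₂, ?_⟩
    · rw [map_mul, mul_pow, h₁, hc₁, map_mul, hC, ← map_pow, hm]
    · rw [map_mul, map_mul, h₂, hc₂, hC, mul_pow, ← map_pow]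
  · intro c hc hrat
    exact ⟨⟨⟨c, hc⟩, hrat.2.symm⟩, ⟨c, hc⟩, hrat.2⟩

/-- Given a separator, the branch at `∞` is the reduced chart of level `N`. -/
theorem exists_red₁_eq_of_separator (ht : T.ChartParam t) (E : T.chart₁ t)
    (hE : red₁Hom ht E ≠ 0) (hE' : red₁Hom' ht E = 0) (a : T.chart₁ t) :
    ∃ b : T.chart₀ t, red₁Hom ht a = red₀Hom ht b := by
  letI := T.ι₀.toRingHom.toAlgebra
  haveI := T.finiteDimensional₁
  haveI : CharZero T.F₀ := charZero_of_injective_algebraMap (algebraMap T.K T.F₀).injective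
  have key : ∀ x : T.chart₁ t, red₁Hom' ht x = 0 →
      T.e₀ (Algebra.trace T.F₀ T.F₁ (x : T.F₁)) ∈ gaussInt T.π ∧
        T.red₀ (Algebra.trace T.F₀ T.F₁ (x : T.F₁)) = red₁Hom ht x := by
    intro x hx
    have hsum : qExpand T.L q (T.e₀ (Algebra.trace T.F₀ T.F₁ (x : T.F₁))) =
        ∑ o, T.emb₁ o (x : T.F₁) :=
      map_trace_eq_sum (e := (qExpand T.L q).comp T.e₀) (σ := T.emb₁) T.emb₁_ι₀
        T.emb₁_injective (by rw [Fintype.card_option, Fintype.card_fin, T.finrank₀]) _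
    have hterm : ∀ i : Fin q, T.emb₁ (some i) (x : T.F₁) ∈ gaussInt T.π ∧
        gred T.π (T.emb₁ (some i) (x : T.F₁)) = 0 := fun i => by
      obtain ⟨h1, h2⟩ := scale_mem_gaussInt (T := T) (i : ℕ) (e₁_mem_gaussInt ht x).2
      exact ⟨h1, h2.trans hx⟩
    have hnone := qExpand_mem_gaussInt (π := T.π) q (e₁_mem_gaussInt ht x).1
    let z : gaussInt T.π := ⟨qExpand T.L q (T.e₁ x), hnone.1⟩ +
      ∑ i : Fin q, ⟨T.emb₁ (some i) (x : T.F₁), (hterm i).1⟩
    have hz : (z : LaurentSeries T.L) =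
        qExpand T.L q (T.e₀ (Algebra.trace T.F₀ T.F₁ (x : T.F₁))) := by
      rw [hsum, Fintype.sum_option, AddMemClass.coe_add, AddSubmonoidClass.coe_finsetSum]
      rfl
    have hmem : T.e₀ (Algebra.trace T.F₀ T.F₁ (x : T.F₁)) ∈ gaussInt T.π :=
      of_qExpand_mem_gaussInt (T.ε_bounded _) (hz ▸ z.2)
    refine ⟨hmem, qExpand_injective (N := q) ?_⟩
    have hzred : gaussIntRed T.π z = gred T.π (qExpand T.L q (T.e₁ x)) := by
      have h0 : ∀ i : Fin q, gaussIntRed T.π ⟨_, (hterm i).1⟩ = 0 := fun i => (hterm i).2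
      rw [map_add, map_sum]
      simp only [h0, Finset.sum_const_zero, add_zero]
      rfl
    rw [gaussIntRed_apply, hz, (qExpand_mem_gaussInt (π := T.π) q hmem).2, hnone.2] at hzred
    exact hzred
  obtain ⟨hn, hn'⟩ := key (a * E) (by rw [map_mul, hE', mul_zero])
  obtain ⟨hd, hd'⟩ := key E hE'
  have hq : T.red₀ (Algebra.trace T.F₀ T.F₁ ((a * E : T.chart₁ t) : T.F₁)) /
      T.red₀ (Algebra.trace T.F₀ T.F₁ (E : T.F₁)) = red₁Hom ht a := by
    rw [hn', hd', map_mul, mul_div_cancel_right₀ _ hE]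
  obtain ⟨b, hb⟩ := smooth_mem_range ht hn hd (by rw [hd']; exact hE)
    (by rw [hq]; exact isIntegral_red₁ ht a)
  exact ⟨b, (hb.trans hq).symm⟩

end Tower

end FermatLib.Igusa.Carayol
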