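import Mathlib
import Fermat.Agent.Modular.RamanujanE2
import Fermat.Agent.Mazur.Classes.UnitSeries
import Fermat.Agent.Igusa.Carayol.LevelOneBasic
import Fermat.Agent.Igusa.Carayol.LevelSeries

/-!
`(θ j)^6 = j^4 (j - 1728)^3 Δ` over every ring, and the modular unit `q^12 Δ(qτ)/Δ(τ)`: the
`delta` input of a tower.
-/

set_option autoImplicit false
set_option linter.style.haveILetI false
set_option linter.unusedSectionVars false
set_option maxHeartbeats 400000

noncomputable section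

open UpperHalfPlane hiding I
open EisensteinSeries ModularForm
open ModularCurve FermatLib.Mazur.Classes
open scoped MatrixGroups Manifold

namespace FermatLib.Igusa.Carayol

open FermatLib.Modular

/-- `Δ` as a series over any ring. -/
def deltaC (R : Type*) [CommRing R] : LaurentSeries R := HahnSeries.single (1 : ℤ) 1 * etaUnitC R

theorem coeffMap_deltaC {R S : Type*} [CommRing R] [CommRing S] (f : R →+* S) :
    coeffMap f (deltaC R) = deltaC S := by
  rw [deltaC, map_mul, coeffMap_single, map_one, coeffMap_etaUnitC, deltaC]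

section analytic

local notation "Δ" => ModularForm.discriminant

theorem levelOne_mem_qMero {k : ℤ} (f : ModularForm 𝒮ℒ k) :
    (⇑f : ℍ → ℂ) ∈ qMero ∧ IsBoundedAtImInfty (⇑f) := by
  refine ⟨mem_qMero.mpr ⟨fun τ => apply_one_vadd_of_levelOne f τ, ModularFormClass.holo f, 0, ?_⟩,
    ModularFormClass.bdd_at_infty f⟩
  simpa using ModularFormClass.bdd_at_infty f

theorem E2_one_vadd (τ : ℍ) : EisensteinSeries.E2 ((1 : ℝ) +ᵥ τ) = EisensteinSeries.E2 τ := by
  have h := congrFun (EisensteinSeries.E2_slash_action (γ := ModularGroup.T)) τ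
  simp [ModularForm.SL_slash_apply, EisensteinSeries.D2, ModularGroup.denom_apply,
    ModularGroup.coe_T] at h
  rw [show (1 : ℝ) +ᵥ τ = ModularGroup.T • τ from (modular_T_smul τ).symm]
  exact h

theorem E2_mem_qMero :
    EisensteinSeries.E2 ∈ qMero ∧ IsBoundedAtImInfty EisensteinSeries.E2 := by
  refine ⟨mem_qMero.mpr ⟨E2_one_vadd, E2_mdifferentiable, 0, ?_⟩,
    isBoundedAtImInfty_E2⟩
  simpa using isBoundedAtImInfty_E2

/-- `θ` of the expansion is the expansion of `D`. -/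
theorem thetaSeries_qExpL {F : ℍ → ℂ} (hF : F ∈ qMero) (hb : IsBoundedAtImInfty F)
    {G : ℍ → ℂ} (hG : G ∈ qMero) (hGb : IsBoundedAtImInfty G)
    (hD : Derivative.normalizedDerivOfComplex F = G) :
    thetaSeries (qExpL F) = qExpL G := by
  rw [qExpL_of_bounded hF hb, qExpL_of_bounded hG hGb]
  ext n
  rw [thetaSeries_coeff]
  rcases le_or_gt 0 n with hn | hn
  · lift n to ℕ using hn
    have hper : Function.Periodic (F ∘ ofComplex) ((1 : ℝ) : ℂ) :=
      periodic_comp_ofComplex_of_vadd hF.1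
    rw [HahnSeries.ofPowerSeries_apply_coeff, HahnSeries.ofPowerSeries_apply_coeff,
      Int.cast_natCast, ← hD, coeff_qExpansion_normalizedDeriv (by simpa using hper) hF.2.1 hb]
  · rw [ofPowerSeries_coeff_of_neg _ hn, ofPowerSeries_coeff_of_neg _ hn, mul_zero]

theorem normalizedDeriv_eq_of_hasDerivAt {F G : ℍ → ℂ}
    (h : ∀ z : ℍ, HasDerivAt (F ∘ ofComplex) (2 * Real.pi * Complex.I * G z) (z : ℂ)) :
    Derivative.normalizedDerivOfComplex F = G := by
  funext z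
  rw [Derivative.normalizedDerivOfComplex, (h z).deriv]
  field_simp [Complex.two_pi_I_ne_zero]

/-- The identity over `ℂ`. -/
theorem theta_coeffEmb_jq :
    thetaSeries (coeffEmb ℂ jq) ^ 6 =
      coeffEmb ℂ jq ^ 4 * (coeffEmb ℂ jq - 1728) ^ 3 * coeffEmb ℂ deltaSeries := by
  obtain ⟨h4, h4b⟩ := levelOne_mem_qMero ModularForm.E₄
  obtain ⟨h6, h6b⟩ := levelOne_mem_qMero ModularForm.E₆
  obtain ⟨h2, h2b⟩ := E2_mem_qMero
  have hΔ := discriminant_mem_qMero
  have hΔb : IsBoundedAtImInfty (Δ : ℍ → ℂ) :=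
    ModularForm.discriminant_isZeroAtImInfty.isBoundedAtImInfty
  set E4 : ℍ → ℂ := ⇑ModularForm.E₄
  set E6 : ℍ → ℂ := ⇑ModularForm.E₆
  set E2 : ℍ → ℂ := EisensteinSeries.E2
  set J := qExpL jFun
  set D := qExpL (Δ : ℍ → ℂ)
  have hD : D = coeffEmb ℂ deltaSeries := by
    rw [show D = qExpDelta from qExpL_of_bounded hΔ hΔb, qExpDelta_eq]
  have hD0 : D ≠ 0 := by
    rw [hD]; exact (map_ne_zero_iff _ (coeffEmb ℂ).injective).mpr deltaSeries_ne_zero
  have hJ : J * D = qExpL E4 ^ 3 := by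
    rw [← qExpL_mul (weakMod_Gamma0_le_qMero 1 (jFun_mem_weakMod _)) hΔ,
      show jFun * (Δ : ℍ → ℂ) = E4 ^ 3 from funext jFun_mul_discriminant, qExpL_pow h4]
  -- `θ Δ = E₂ Δ`
  have hθD : thetaSeries D = qExpL E2 * D := by
    rw [← qExpL_mul h2 hΔ]
    exact thetaSeries_qExpL hΔ hΔb (mul_mem h2 hΔ) (h2b.mul hΔb)
      (normalizedDeriv_eq_of_hasDerivAt hasDerivAt_discriminant)
  -- `θ E₄³ = E₂ E₄³ - E₄² E₆`
  have hθ4 : thetaSeries (qExpL E4 ^ 3) =
      qExpL E2 * qExpL E4 ^ 3 - qExpL E4 ^ 2 * qExpL E6 := by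
    have hG : E2 * E4 ^ 3 + (-1 : ℂ) • (E4 ^ 2 * E6) ∈ qMero :=
      add_mem (mul_mem h2 (pow_mem h4 3)) (Subalgebra.smul_mem _ (mul_mem (pow_mem h4 2) h6) _)
    have hGb : IsBoundedAtImInfty (E2 * E4 ^ 3 + (-1 : ℂ) • (E4 ^ 2 * E6)) := by
      show _ ∈ boundedAtImInftySubalgebra ℂ
      exact add_mem (mul_mem h2b (pow_mem h4b 3))
        (Subalgebra.smul_mem _ (mul_mem (pow_mem h4b 2) h6b) _)
    have h := thetaSeries_qExpL (pow_mem h4 3) (pow_mem (S := boundedAtImInftySubalgebra ℂ) h4b 3)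
      hG hGb (normalizedDeriv_eq_of_hasDerivAt fun z => by
        have h0 := hasDerivAt_weightTwelve 0 z
        simp only [zero_mul, sub_zero] at h0
        refine h0.congr_deriv ?_
        simp [E4, E6, E2]
        ring)
    rw [qExpL_pow h4] at h
    rw [h, qExpL_add (mul_mem h2 (pow_mem h4 3))
      (Subalgebra.smul_mem _ (mul_mem (pow_mem h4 2) h6) _), qExpL_mul h2 (pow_mem h4 3),
      qExpL_pow h4, show (-1 : ℂ) • (E4 ^ 2 * E6) = algebraMap ℂ (ℍ → ℂ) (-1) * (E4 ^ 2 * E6) from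
        Algebra.smul_def _ _,
      qExpL_mul (Subalgebra.algebraMap_mem _ _) (mul_mem (pow_mem h4 2) h6), qExpL_algebraMap,
      qExpL_mul (pow_mem h4 2) h6, qExpL_pow h4, map_neg, map_one]
    ring
  -- `E₆² = E₄³ - 1728 Δ`
  have h6sq : qExpL E6 ^ 2 = qExpL E4 ^ 3 - 1728 * D := by
    rw [eq_sub_iff_add_eq, ← qExpL_pow h6,
      show (1728 : LaurentSeries ℂ) = qExpL (algebraMap ℂ (ℍ → ℂ) 1728) by
        rw [qExpL_algebraMap, map_ofNat],
      ← qExpL_mul (Subalgebra.algebraMap_mem _ _) hΔ,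
      ← qExpL_add (pow_mem h6 2) (mul_mem (Subalgebra.algebraMap_mem _ _) hΔ), ← qExpL_pow h4]
    congr 1
    funext τ
    simp only [Pi.add_apply, Pi.mul_apply, Pi.pow_apply, Pi.algebraMap_apply,
      Algebra.algebraMap_self, RingHom.id_apply, E4, E6]
    linear_combination (1728 : ℂ) * ModularForm.discriminant_eq_E₄_cube_sub_E₆_sq τ
  have hkey : thetaSeries J * D = -(qExpL E4 ^ 2 * qExpL E6) := by
    have h := congrArg thetaSeries hJ
    rw [thetaSeries_mul, hθD, hθ4] at h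
    linear_combination h - qExpL E2 * hJ
  have hJ2 : (J - 1728) * D = qExpL E6 ^ 2 := by
    rw [h6sq, sub_mul, hJ]
  rw [← hD, ← qExpL_jFun]
  refine mul_right_cancel₀ (pow_ne_zero 6 hD0) ?_
  calc thetaSeries J ^ 6 * D ^ 6 = (qExpL E4 ^ 3) ^ 4 * (qExpL E6 ^ 2) ^ 3 := by
        rw [← mul_pow, hkey]; ring
    _ = J ^ 4 * (J - 1728) ^ 3 * D * D ^ 6 := by rw [← hJ, ← hJ2]; ring

end analytic

/-- **`(θ j)^6 = j^4 (j - 1728)^3 Δ`** over every ring. -/
theorem theta_jqModC (R : Type*) [CommRing R] :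
    thetaSeries (jqModC R) ^ 6 = jqModC R ^ 4 * (jqModC R - 1728) ^ 3 * deltaC R := by
  suffices hZ : thetaSeries (jqModC ℤ) ^ 6 = jqModC ℤ ^ 4 * (jqModC ℤ - 1728) ^ 3 * deltaC ℤ by
    have h := congrArg (coeffMap (Int.castRingHom R)) hZ
    simpa only [map_pow, map_mul, map_sub, map_ofNat, ← thetaSeries_coeffMap, coeffMap_jqModC,
      coeffMap_deltaC] using h
  have hinj : Function.Injective (coeffMap (Int.castRingHom ℂ)) := fun x y h => by
    ext n
    have := congrArg (fun z : LaurentSeries ℂ => z.coeff n) h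
    simpa using this
  refine hinj ?_
  simp only [map_pow, map_mul, map_sub, map_ofNat, ← thetaSeries_coeffMap, coeffMap_jqModC,
    coeffMap_deltaC]
  have hd : coeffEmb ℂ deltaSeries = deltaC ℂ := by
    rw [deltaSeries_eq, show HahnSeries.single (1 : ℤ) 1 * etaUnitC ℚ = deltaC ℚ from rfl,
      coeffEmb, coeffMap_deltaC]
  rw [jqModC_eq_coeffEmb ℂ, ← hd]
  exact theta_coeffEmb_jq

/-- In characteristic `q`, `Δ(τ)/Δ(qτ) · Δ(τ)^(q-1) = 1`. -/
theorem uModC_mul_deltaC_pow (k : Type*) [Field k] {q : ℕ} [NeZero q] [CharP k q] (hq : q.Prime) :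
    uModC k q * deltaC k ^ (q - 1) = 1 := by
  have hI : qExpand k q (etaUnitInvC k) = etaUnitInvC k ^ q := by
    have h := coeffMap_intCast_mem_frobFixed (k := k) hq (etaUnitInvC ℤ)
    rw [mem_frobFixed, coeffMap_etaUnitInvC] at h
    exact h
  rw [uModC, hI, deltaC, mul_pow, HahnSeries.single_pow, one_pow, mul_mul_mul_comm,
    HahnSeries.single_mul_single, mul_right_comm (etaUnitC k), ← pow_succ',
    Nat.sub_add_cancel hq.pos, ← mul_pow, etaUnitC_mul_inv, one_pow, one_mul, mul_one,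
    nsmul_eq_mul, mul_one, Nat.cast_sub hq.pos]
  simp

namespace Tower

variable {q : ℕ} [NeZero q] {T : Tower q}

/-- **The delta input**: from the expansion of `j`, the unit `Δ(τ)/Δ(qτ)` and its transform under
`w₁`. -/
theorem delta_of_unit (ht : T.ChartParam T.j) (hj : T.e₀ T.j = jqModC T.L)
    (U₀ : T.F₁) (hU : T.e₁ U₀ = uModC T.L q)
    (hint : IsIntegral (Algebra.adjoin T.K {T.ι₀ T.j}) U₀⁻¹)
    (hw : T.w₁ U₀ = (q : T.F₁) ^ 12 * U₀⁻¹) :
    ∃ (D : LaurentSeries T.L) (U : T.F₁),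
      D ∈ gaussInt T.π ∧ T.red D ≠ 0 ∧
      thetaSeries (T.e₀ T.j) ^ 6 = T.e₀ T.j ^ 4 * (T.e₀ T.j - 1728) ^ 3 * D ∧
      U ∈ T.chart₁ T.j ∧ T.e₁ U ∈ gaussInt T.π ∧ T.red (T.e₁ U) = 0 ∧
      T.e₁ (T.w₁ U) ∈ gaussInt T.π ∧ T.red (T.e₁ (T.w₁ U)) * T.red D ^ (q - 1) = 1 := by
  have hD : deltaC T.L = latVal T.A (deltaC T.A) := (coeffMap_deltaC _).symm
  have hu : uModC T.L q = latVal T.A (uModC T.A q) := (coeffMap_uModC q _).symm
  have hv : vModC T.L q = latVal T.A (vModC T.A q) := (coeffMap_vModC q _).symm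
  have hDr : T.red (deltaC T.L) = deltaC T.k := by
    rw [hD, Base.red, gred_latVal]; exact coeffMap_deltaC _
  have hw' : T.w₁ ((q : T.F₁) ^ 12 * U₀⁻¹) = U₀ := by rw [← hw, T.w₁_w₁]
  have he' : T.e₁ ((q : T.F₁) ^ 12 * U₀⁻¹) =
      algebraMap T.L (LaurentSeries T.L) (((q : T.A) ^ 12 : T.A) : T.L) *
        latVal T.A (vModC T.A q) := by
    rw [map_mul, map_pow, map_natCast, map_inv₀, hU, ← hv,
      inv_eq_of_mul_eq_one_right (uModC_mul_vModC T.L q)]
    simp
  have hm : T.e₁ ((q : T.F₁) ^ 12 * U₀⁻¹) ∈ gaussInt T.π :=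
    he' ▸ mul_mem (algebraMap_mem_gaussInt _) (latVal_mem_gaussInt _)
  have hm' : T.e₁ (T.w₁ ((q : T.F₁) ^ 12 * U₀⁻¹)) ∈ gaussInt T.π := by
    rw [hw', hU, hu]; exact latVal_mem_gaussInt _
  refine ⟨deltaC T.L, (q : T.F₁) ^ 12 * U₀⁻¹, hD ▸ latVal_mem_gaussInt _, ?_, ?_,
    gauss_mem₁ ht _ ?_ hm hm', hm, ?_, hm', ?_⟩
  · intro h
    rw [hDr] at h
    exact one_ne_zero ((uModC_mul_deltaC_pow T.k T.prime).symm.trans (by
      rw [h, zero_pow (by have := T.prime.two_le; omega), mul_zero]))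
  · rw [hj]; exact theta_jqModC T.L
  · refine IsIntegral.mul (IsIntegral.pow ?_ 12) hint
    rw [← map_natCast (algebraMap T.K T.F₁)]
    exact isIntegral_algebraMap (R := Algebra.adjoin T.K {T.ι₀ T.j})
      (x := algebraMap T.K _ (q : T.K))
  · rw [Base.red, he']
    exact gred_algebraMap_mul_eq_zero
      (by rw [map_pow, map_natCast, CharP.cast_eq_zero, zero_pow (by norm_num)])
      (latVal_mem_gaussInt _)
  · rw [hw', hU, hu, Base.red, gred_latVal, show gred T.π (deltaC T.L) = deltaC T.k from hDr,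
      show latRed T.π (uModC T.A q) = uModC T.k q from coeffMap_uModC q _]
    exact uModC_mul_deltaC_pow T.k T.prime

end Tower

end FermatLib.Igusa.Carayol
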