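import Fermat.Agent.Igusa.Carayol.LevelDescent
import Fermat.Agent.Curve.PlaceExtras
import Fermat.Agent.Curve.PlaceConstruction
import Fermat.Agent.Curve.PoleDegree
import Fermat.Agent.Curve.Descent.LaurentExt

/-!
# `X₀(N)` over a subfield `K` of `ℚ̄`: places do not ramify in `ℚ̄`

If `x` has order exactly `n` at all its zeros over `ℚ̄`, the same holds over `K`, stated for
valuation subrings of the field over `K`.
-/

set_option autoImplicit false
set_option synthInstance.maxHeartbeats 400000

noncomputable section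

open ModularCurve AlgebraicCurve

namespace FermatLib.Igusa.Carayol

local notation "Qbar" => AlgebraicClosure ℚ

/-- A valuation subring extends along a field embedding. -/
theorem exists_valuationSubring_extension {F E : Type*} [Field F] [Field E] (i : F →+* E)
    (V : ValuationSubring F) :
    ∃ W : ValuationSubring E, W.comap i = V := by
  obtain ⟨W, hW⟩ := (LocalSubring.map i V.toLocalSubring).exists_le_valuationSubring
  obtain ⟨hle, hloc⟩ := hW
  refine ⟨W, SetLike.ext fun f => ⟨fun hf => ?_, fun hf => hle ⟨f, hf, rfl⟩⟩⟩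
  rw [ValuationSubring.mem_comap] at hf
  by_contra hfV
  have hinv : f⁻¹ ∈ V := (V.mem_or_inv_mem f).resolve_left hfV
  have hf0 : f ≠ 0 := fun h => hfV (h ▸ V.zero_mem)
  let a : (LocalSubring.map i V.toLocalSubring).toSubring := ⟨i f⁻¹, f⁻¹, hinv, rfl⟩
  have hu : IsUnit (Subring.inclusion hle a) := by
    refine IsUnit.of_mul_eq_one (⟨i f, hf⟩ : W) (Subtype.ext ?_)
    show i f⁻¹ * i f = 1
    rw [← map_mul, inv_mul_cancel₀ hf0, map_one]
  obtain ⟨⟨_, b, hb, rfl⟩, hab⟩ := (hloc.map_nonunit a hu).exists_right_inv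
  have h1 : i (f⁻¹ * b) = i 1 := by
    rw [map_mul, map_one]
    exact congrArg Subtype.val hab
  have h2 := i.injective h1
  rw [inv_mul_eq_one₀ hf0] at h2
  exact hfV (h2 ▸ hb)

variable {K : Type*} [Field K] [Algebra ℚ K] [Algebra K (AlgebraicClosure ℚ)]
  [Algebra.IsAlgebraic K (AlgebraicClosure ℚ)] {N : ℕ}

local notation "Bar" => laurentBaseChange (AlgebraicClosure ℚ) (modularFunctionFieldFull N)

/-- The functions over `ℚ̄` have coefficients in a finite extension of `K`. -/
theorem exists_finiteExtension_coeff {f : LaurentSeries Qbar}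
    (hf : f ∈ laurentBaseChange Qbar (modularFunctionFieldFull N)) :
    ∃ E : IntermediateField K Qbar, FiniteDimensional K E ∧
      f ∈ (coeffMap E.val.toRingHom).range := by
  obtain ⟨E₀, hE₀, y, hy⟩ := exists_numberField_coeff hf
  let b := Module.finBasis ℚ E₀
  let S : Set Qbar := Set.range fun i => (b i : Qbar)
  refine ⟨IntermediateField.adjoin K S, ?_, ?_⟩
  · have : Finite S := Set.finite_range _
    exact IntermediateField.finiteDimensional_adjoin fun x _ =>
      (Algebra.IsAlgebraic.isAlgebraic x).isIntegral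
  · have hmem : ∀ c : E₀, (c : Qbar) ∈ IntermediateField.adjoin K S := fun c => by
      rw [← b.sum_repr c, AddSubmonoidClass.coe_finsetSum]
      refine sum_mem fun i _ => ?_
      rw [Algebra.smul_def, MulMemClass.coe_mul]
      refine mul_mem ?_ (IntermediateField.subset_adjoin K S ⟨i, rfl⟩)
      show (algebraMap ℚ E₀ (b.repr c i) : Qbar) ∈ _
      rw [show ((algebraMap ℚ E₀ (b.repr c i) : E₀) : Qbar) =
        algebraMap K Qbar (algebraMap ℚ K (b.repr c i)) from
          RingHom.congr_fun (Subsingleton.elim (E₀.val.toRingHom.comp (algebraMap ℚ E₀))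
            ((algebraMap K Qbar).comp (algebraMap ℚ K))) _]
      exact IntermediateField.algebraMap_mem _ _
    let ψ : E₀ →+* IntermediateField.adjoin K S :=
      E₀.val.toRingHom.codRestrict _ hmem
    exact ⟨coeffMap ψ y, by rw [← hy]; ext n; rfl⟩

/-- The embedding of the field over `K` into the field over `ℚ̄`. -/
def levelToBar : laurentBaseChange K (modularFunctionFieldFull N) →+* Bar :=
  Curve.baseChangeMap K Qbar (modularFunctionFieldFull N)

theorem coe_levelToBar (f : laurentBaseChange K (modularFunctionFieldFull N)) :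
    (levelToBar f : LaurentSeries Qbar) = coeffMap (algebraMap K Qbar) (f : LaurentSeries K) :=
  Curve.coe_baseChangeMap _ _ _ f

set_option maxHeartbeats 800000 in
/-- **No ramification**: if `x` has order `n` at all its zeros over `ℚ̄`, then at every valuation
subring over `K` in which `x` is a nonunit, a nonunit `t` has `x / t ^ n` integral unless `t` is
the product of two nonunits. -/
theorem div_pow_mem_or_exists_of_forall_ord
    [Curve.IsFunctionField Qbar Bar]
    (x : laurentBaseChange K (modularFunctionFieldFull N)) (hx0 : x ≠ 0) (n : ℕ)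
    (hord : ∀ w : Place Qbar Bar, 0 < w.ord (levelToBar x) → w.ord (levelToBar x) = n)
    (V : ValuationSubring (laurentBaseChange K (modularFunctionFieldFull N))) (hV : V ≠ ⊤)
    (hK : ∀ c : K, algebraMap K (laurentBaseChange K (modularFunctionFieldFull N)) c ∈ V)
    {t : laurentBaseChange K (modularFunctionFieldFull N)} (ht : t ∈ V.nonunits)
    (hx : x ∈ V.nonunits) :
    x / t ^ n ∈ V ∨ ∃ t' ∈ V.nonunits, t' ≠ 0 ∧ t / t' ∈ V.nonunits := by
  classical
  obtain ⟨W, hWV⟩ := exists_valuationSubring_extension (levelToBar (N := N)) V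
  set i : laurentBaseChange K (modularFunctionFieldFull N) →+* Bar := levelToBar with hi
  have hmemV : ∀ f, f ∈ V ↔ i f ∈ W := fun f => by rw [← hWV, ValuationSubring.mem_comap]
  have hnu : ∀ f, f ∈ V.nonunits ↔ i f ∈ W.nonunits := fun f => by
    rcases eq_or_ne f 0 with rfl | hf
    · simp
    rw [ValuationSubring.mem_nonunits_iff, ValuationSubring.mem_nonunits_iff, ← not_le,
      ← not_le]
    have h1 : (1 ≤ V.valuation f ↔ f⁻¹ ∈ V) := by
      rw [← V.valuation_le_one_iff, map_inv₀, inv_le_one₀ (zero_lt_iff.mpr (by simpa using hf))]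
    have h2 : (1 ≤ W.valuation (i f) ↔ (i f)⁻¹ ∈ W) := by
      rw [← W.valuation_le_one_iff, map_inv₀, inv_le_one₀ (zero_lt_iff.mpr (by simpa using hf))]
    rw [h1, h2, hmemV, map_inv₀]
  have hWK : ∀ c : Qbar, algebraMap Qbar Bar c ∈ W := by
    intro c
    letI : Algebra K W := (((algebraMap Qbar Bar).comp (algebraMap K Qbar)).codRestrict
      W.toSubring fun c => by
        have h := (hmemV (algebraMap K _ c)).mp (hK c)
        have e : i (algebraMap K _ c) = algebraMap Qbar Bar (algebraMap K Qbar c) := by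
          apply Subtype.ext
          rw [hi, coe_levelToBar]
          show coeffMap (algebraMap K Qbar) (algebraMap K (LaurentSeries K) c) = _
          rw [algebraMap_laurentSeries_eq_single, coeffMap_single,
            ← algebraMap_laurentSeries_eq_single]
          rfl
        exact e ▸ h).toAlgebra
    obtain ⟨p, hp, hpc⟩ := (Algebra.IsAlgebraic.isAlgebraic (R := K) c).isIntegral
    have hint : IsIntegral W (algebraMap Qbar Bar c) := by
      refine ⟨p.map (algebraMap K W), hp.map _, ?_⟩
      rw [Polynomial.eval₂_map, show (algebraMap W Bar).comp (algebraMap K W) =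
        (algebraMap Qbar Bar).comp (algebraMap K Qbar) from rfl, ← Polynomial.hom_eval₂, hpc,
        map_zero]
    obtain ⟨z, hz⟩ := IsIntegrallyClosed.isIntegral_iff.mp hint
    exact hz ▸ z.2
  have hWne : W ≠ ⊤ := fun h => hV (by rw [← hWV, h]; ext f; simp)
  let w : Place Qbar Bar := Curve.placeOfValuationSubring W hWK hWne
  have hpos : ∀ f : laurentBaseChange K (modularFunctionFieldFull N), f ≠ 0 →
      (f ∈ V.nonunits ↔ 0 < w.ord (i f)) := fun f hf => by
    rw [hnu, ValuationSubring.mem_nonunits_iff, ← not_le]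
    have hif : i f ≠ 0 := (map_ne_zero i).mpr hf
    have h2 : (1 ≤ W.valuation (i f) ↔ (i f)⁻¹ ∈ w.toValuationSubring) := by
      rw [Curve.placeOfValuationSubring_toValuationSubring, ← W.valuation_le_one_iff, map_inv₀,
        inv_le_one₀ (zero_lt_iff.mpr (by simpa using hif))]
    rw [h2, Curve.mem_iff_ord_nonneg w (inv_ne_zero hif), w.ord_inv]
    omega
  rcases eq_or_ne t 0 with rfl | ht0
  · left
    rcases eq_or_ne n 0 with rfl | hn
    · simpa using V.nonunits_subset hx
    · simp [zero_pow hn]
  have hit : i t ≠ 0 := (map_ne_zero i).mpr ht0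
  have hwt := (hpos t ht0).mp ht
  have hwx := hord w ((hpos x hx0).mp hx)
  by_cases h1 : w.ord (i t) = 1
  · left
    rw [hmemV, map_div₀, map_pow]
    refine (Curve.mem_iff_ord_nonneg w (div_ne_zero ((map_ne_zero i).mpr hx0)
      (pow_ne_zero _ hit))).mpr ?_
    rw [div_eq_mul_inv, w.ord_mul ((map_ne_zero i).mpr hx0) (inv_ne_zero (pow_ne_zero _ hit)),
      w.ord_inv, ← zpow_natCast, w.ord_zpow, h1, hwx]
    simp
  by_contra hcon
  push Not at hcon
  obtain ⟨-, hgen⟩ := hcon
  -- a uniformiser at all zeros of `t`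
  set e := w.ord (i t) with he
  set Sz := Curve.poles Qbar (i t)⁻¹ with hSz
  have hmemSz : ∀ w' : Place Qbar Bar, w' ∈ Sz ↔ 0 < w'.ord (i t) := fun w' => by
    rw [hSz, Curve.mem_poles, w'.ord_inv]; omega
  obtain ⟨s, hs0, hs⟩ := Curve.exists_ord_eq_on Sz fun _ => 1
  -- descent of `s`
  obtain ⟨E, hE, y, hy⟩ := exists_finiteExtension_coeff (K := K) s.2
  have : CharZero K := algebraRat.charZero K
  let b := Module.finBasis K E
  let d := (Algebra.traceForm K E).dualBasis (traceForm_nondegenerate K E) b
  let dd := (Algebra.traceForm K E).dualBasis (traceForm_nondegenerate K E) d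
  have : Normal K Qbar := normal_iff.mpr fun z =>
    ⟨(Algebra.IsAlgebraic.isAlgebraic z).isIntegral, IsAlgClosed.splits _⟩
  let g : Fin (Module.finrank K E) → LaurentSeries K := fun l =>
    Modular.coeffFun ((Algebra.trace K E).comp (LinearMap.mulLeft K (d l))) y
  -- conjugates
  let τ : (E →ₐ[K] Qbar) → Qbar ≃ₐ[ℚ] Qbar := fun σ =>
    { (AlgEquiv.ofBijective (σ.liftNormal Qbar)
        (Algebra.IsAlgebraic.algHom_bijective _)).toRingEquiv with
      commutes' := fun r => RingHom.congr_fun (Subsingleton.elim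
        (((σ.liftNormal Qbar : Qbar →ₐ[K] Qbar) : Qbar →+* Qbar).comp (algebraMap ℚ Qbar))
        (algebraMap ℚ Qbar)) r }
  let si : (E →ₐ[K] Qbar) → Bar := fun σ =>
    ⟨coeffMap ((τ σ : Qbar ≃ₐ[ℚ] Qbar) : Qbar →+* Qbar) (s : LaurentSeries Qbar),
      coeffMap_mem_laurentBaseChange (τ σ) s.2⟩
  have hsi : ∀ σ, si σ ∈ W.nonunits := by
    intro σ
    let τF : Bar →+* Bar :=
      { toFun := fun z => ⟨coeffMap ((τ σ : Qbar ≃ₐ[ℚ] Qbar) : Qbar →+* Qbar) z,
          coeffMap_mem_laurentBaseChange (τ σ) z.2⟩
        map_one' := Subtype.ext (map_one _)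
        map_zero' := Subtype.ext (map_zero _)
        map_mul' := fun a b => Subtype.ext (map_mul _ _ _)
        map_add' := fun a b => Subtype.ext (map_add _ _ _) }
    have hτc : ∀ c, τF (algebraMap Qbar Bar c) = algebraMap Qbar Bar (τ σ c) := fun c =>
      Subtype.ext (coeffMap_algebraMap _ c)
    have hτt : ∀ f, τF (i f) = i f := fun f => by
      apply Subtype.ext
      show coeffMap _ _ = _
      rw [hi, coe_levelToBar, coeffMap_coeffMap]
      refine coeffMap_congr (RingHom.ext fun c => ?_) _
      exact (σ.liftNormal Qbar).commutes c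
    have hK' : ∀ c, algebraMap Qbar Bar c ∈ W.comap τF := fun c => by
      rw [ValuationSubring.mem_comap, hτc]; exact hWK _
    have hne : W.comap τF ≠ ⊤ := by
      intro htop
      have h3 : (i t)⁻¹ ∈ W.comap τF := htop ▸ ValuationSubring.mem_top _
      rw [ValuationSubring.mem_comap, map_inv₀, hτt] at h3
      have := (Curve.mem_iff_ord_nonneg w (inv_ne_zero hit)).mp h3
      rw [w.ord_inv] at this
      omega
    let w' : Place Qbar Bar := Curve.placeOfValuationSubring (W.comap τF) hK' hne
    have hw't : 0 < w'.ord (i t) := by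
      by_contra hle
      have h3 : (i t)⁻¹ ∈ w'.toValuationSubring :=
        (Curve.mem_iff_ord_nonneg w' (inv_ne_zero hit)).mpr (by rw [w'.ord_inv]; omega)
      rw [Curve.placeOfValuationSubring_toValuationSubring, ValuationSubring.mem_comap, map_inv₀,
        hτt] at h3
      have := (Curve.mem_iff_ord_nonneg w (inv_ne_zero hit)).mp h3
      rw [w.ord_inv] at this
      omega
    have hone := hs w' ((hmemSz _).mpr hw't)
    rw [ValuationSubring.mem_nonunits_iff, ← not_le]
    intro hle
    have hsi0 : τF s ≠ 0 := (map_ne_zero τF).mpr hs0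
    have h4 : (τF s)⁻¹ ∈ W := by
      rw [← W.valuation_le_one_iff, map_inv₀, inv_le_one₀ (zero_lt_iff.mpr (by simpa using hsi0))]
      exact hle
    rw [← map_inv₀] at h4
    have := (Curve.mem_iff_ord_nonneg w' (inv_ne_zero hs0)).mp h4
    rw [w'.ord_inv, hone] at this
    omega
  -- the coordinates are rational and vanish at `V`
  have hg : ∀ l, ∃ f : laurentBaseChange K (modularFunctionFieldFull N),
      (f : LaurentSeries K) = g l ∧
        i f = ∑ σ : E →ₐ[K] Qbar, algebraMap Qbar Bar (σ (d l)) * si σ := by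
    intro l
    have h : coeffMap (algebraMap K Qbar) (g l) =
        ((∑ σ : E →ₐ[K] Qbar, algebraMap Qbar Bar (σ (d l)) * si σ : Bar) :
          LaurentSeries Qbar) := by
      rw [AddSubmonoidClass.coe_finsetSum]
      ext m
      rw [HahnSeries.coeff_sum, coeffMap_coeff, Modular.coeffFun_coeff]
      show algebraMap K Qbar (Algebra.trace K E (d l * y.coeff m)) = _
      rw [trace_eq_sum_embeddings Qbar]
      refine Finset.sum_congr rfl fun σ _ => ?_
      show σ (d l * y.coeff m) = (algebraMap Qbar (LaurentSeries Qbar) (σ (d l)) *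
        coeffMap ((τ σ : Qbar ≃ₐ[ℚ] Qbar) : Qbar →+* Qbar) (s : LaurentSeries Qbar)).coeff m
      rw [Modular.algebraMap_mul_coeff, coeffMap_coeff, ← hy, coeffMap_coeff, map_mul]
      congr 1
      exact (AlgHom.liftNormal_commutes σ Qbar (y.coeff m)).symm
    refine ⟨⟨g l, Modular.mem_of_coeffMap_mem_adjoin (L := Qbar) ?_⟩, rfl, Subtype.ext ?_⟩
    · rw [← Curve.laurentBaseChange_eq_adjoin K Qbar (modularFunctionFieldFull N), h]
      exact SetLike.coe_mem _
    · rw [hi, coe_levelToBar]; exact h
  choose f hfg hfi using hg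
  -- `i (f l)` is divisible by `i t`
  have hdiv : ∀ l, i (f l) / i t ∈ W := by
    intro l
    have hnon : f l ∈ V.nonunits := by
      rw [hnu, hfi]
      have hsum : ∀ σ : E →ₐ[K] Qbar, W.valuation (algebraMap Qbar Bar (σ (d l)) * si σ) < 1 :=
        fun σ => by
          rw [map_mul]
          calc W.valuation (algebraMap Qbar Bar (σ (d l))) * W.valuation (si σ)
              ≤ 1 * W.valuation (si σ) :=
                mul_le_mul_of_nonneg_right ((W.valuation_le_one_iff _).mpr (hWK _)) zero_le
            _ < 1 := by rw [one_mul]; exact W.mem_nonunits_iff.mp (hsi σ)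
      exact W.mem_nonunits_iff.mpr (W.valuation.map_sum_lt' zero_lt_one fun σ _ => hsum σ)
    rcases eq_or_ne (f l) 0 with h0 | h0
    · rw [h0, map_zero, zero_div]; exact W.zero_mem
    have hnot := hgen (f l) hnon h0
    have hmem : f l / t ∈ V := by
      by_contra hnm
      refine hnot ?_
      rw [ValuationSubring.mem_nonunits_iff, ← inv_div, map_inv₀]
      exact inv_lt_one_of_one_lt₀ (not_le.mp fun h => hnm ((V.valuation_le_one_iff _).mp h))
    have := (hmemV _).mp hmem
    rwa [map_div₀] at this
  -- so does `s`, a contradiction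
  have hsum : (s : Bar) = ∑ l, algebraMap Qbar Bar ((dd l : E) : Qbar) * i (f l) := by
    apply Subtype.ext
    rw [AddSubmonoidClass.coe_finsetSum]
    ext m
    rw [HahnSeries.coeff_sum, ← hy, coeffMap_coeff]
    conv_lhs => rw [← dd.sum_repr (y.coeff m), map_sum]
    refine Finset.sum_congr rfl fun l _ => ?_
    rw [LinearMap.BilinForm.dualBasis_repr_apply, Algebra.traceForm_apply]
    show E.val.toRingHom (_ • dd l) = (algebraMap Qbar (LaurentSeries Qbar) ((dd l : E) : Qbar) *
      (i (f l) : LaurentSeries Qbar)).coeff m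
    rw [Modular.algebraMap_mul_coeff, hi, coe_levelToBar, hfg, coeffMap_coeff,
      Modular.coeffFun_coeff, Algebra.smul_def, map_mul, mul_comm (y.coeff m),
      mul_comm ((dd l : E) : Qbar)]
    rfl
  have hmem : (s : Bar) / i t ∈ W := by
    rw [hsum, Finset.sum_div]
    refine sum_mem fun l _ => ?_
    rw [mul_div_assoc]
    exact W.mul_mem _ _ (hWK _) (hdiv l)
  have := (Curve.mem_iff_ord_nonneg w (div_ne_zero hs0 hit)).mp hmem
  rw [div_eq_mul_inv, w.ord_mul hs0 (inv_ne_zero hit), w.ord_inv,
    hs w ((hmemSz w).mpr hwt)] at this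
  omega

end FermatLib.Igusa.Carayol
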