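import Fermat.Agent.Igusa.Carayol.Gauss
import Fermat.Prelude.Def_ModularCurve_X0ModL
import Fermat.Prelude.Thm_ModularCurve_coeffMap_qExpand

/-!
# Transport of integrality, Gauss integrality and reduced series along maps of the constants
-/

set_option autoImplicit false

noncomputable section

open Polynomial ModularCurve

namespace FermatLib.Igusa.Carayol

section integral

variable {R B C : Type*} [CommRing R] [CommRing B] [CommRing C] [Algebra R B] [Algebra R C]

/-- The map on one-generator algebras. -/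
def adjoinMap (φ : B →ₐ[R] C) (x : B) :
    Algebra.adjoin R {x} →+* Algebra.adjoin R {φ x} :=
  (φ.toRingHom.comp (Algebra.adjoin R {x}).val.toRingHom).codRestrict _ fun r => by
    have h : φ r ∈ (Algebra.adjoin R {x}).map φ := ⟨r, r.2, rfl⟩
    rwa [AlgHom.map_adjoin, Set.image_singleton] at h

theorem adjoinMap_surjective (φ : B →ₐ[R] C) (x : B) : Function.Surjective (adjoinMap φ x) := by
  rintro ⟨c, hc⟩
  have h : c ∈ (Algebra.adjoin R {x}).map φ := by
    rwa [AlgHom.map_adjoin, Set.image_singleton]
  obtain ⟨r, hr, hrc⟩ := h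
  exact ⟨⟨r, hr⟩, Subtype.ext hrc⟩

theorem isIntegral_adjoin_algHom (φ : B →ₐ[R] C) {x b : B}
    (h : IsIntegral (Algebra.adjoin R {x}) b) :
    IsIntegral (Algebra.adjoin R {φ x}) (φ b) := by
  obtain ⟨p, hp, hpb⟩ := h
  refine ⟨p.map (adjoinMap φ x), hp.map _, ?_⟩
  rw [eval₂_map, ← map_zero φ, ← hpb]
  exact (Polynomial.hom_eval₂ p _ φ.toRingHom b).symm

theorem isIntegral_adjoin_of_algHom (φ : B →ₐ[R] C) (hφ : Function.Injective φ) {x b : B}
    (h : IsIntegral (Algebra.adjoin R {φ x}) (φ b)) :
    IsIntegral (Algebra.adjoin R {x}) b := by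
  obtain ⟨p, hp, hpb⟩ := h
  obtain ⟨p', rfl⟩ := Polynomial.map_surjective _ (adjoinMap_surjective φ x) p
  have hinj : Function.Injective (adjoinMap φ x) := fun r s hrs =>
    Subtype.ext (hφ (congrArg Subtype.val hrs))
  refine ⟨p', Polynomial.monic_of_injective hinj hp, hφ ?_⟩
  rw [map_zero, ← hpb, eval₂_map]
  exact Polynomial.hom_eval₂ p' _ φ.toRingHom b

end integral

section series

/-- Coefficientwise maps on constants. -/
theorem coeffMap_const {R S : Type*} [Field R] [Field S] (φ : R →+* S) (c : R) :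
    coeffMap φ (algebraMap R (LaurentSeries R) c) = algebraMap S (LaurentSeries S) (φ c) := by
  rw [algebraMap_laurentSeries_eq_single, algebraMap_laurentSeries_eq_single, coeffMap_single]

variable {k k' : Type*} [Field k] [Field k'] (ψ : k →+* k')

/-- Coefficientwise maps preserve reduced modular function fields. -/
theorem coeffMap_mem_fullC (N : ℕ) [NeZero N] {h : LaurentSeries k}
    (hh : h ∈ modularFunctionFieldFullC k N) :
    coeffMap ψ h ∈ modularFunctionFieldFullC k' N := by
  induction hh using IntermediateField.adjoin_induction with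
  | mem y hy =>
    obtain ⟨d, _, hd, rfl⟩ := hy
    rw [coeffMap_qExpand, coeffMap_jqModC]
    exact jqModCd_mem_full k' N hd
  | algebraMap c =>
    rw [coeffMap_const]
    exact IntermediateField.algebraMap_mem _ _
  | add a b _ _ ha hb => rw [map_add]; exact add_mem ha hb
  | inv a _ ha => rw [map_inv₀]; exact inv_mem ha
  | mul a b _ _ ha hb => rw [map_mul]; exact mul_mem ha hb

/-- Integrality over `k[x]` is kept when extending the constants. -/
theorem isIntegral_adjoin_coeffMap {x h : LaurentSeries k}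
    (hh : IsIntegral (Algebra.adjoin k {x}) h) :
    IsIntegral (Algebra.adjoin k' {coeffMap ψ x}) (coeffMap ψ h) := by
  have hmaps : ∀ r ∈ Algebra.adjoin k {x}, coeffMap ψ r ∈ Algebra.adjoin k' {coeffMap ψ x} := by
    intro r hr
    induction hr using Algebra.adjoin_induction with
    | mem z hz =>
      rw [Set.mem_singleton_iff.mp hz]
      exact Algebra.self_mem_adjoin_singleton k' _
    | algebraMap c => rw [coeffMap_const]; exact Subalgebra.algebraMap_mem _ _
    | add a b _ _ ha hb => rw [map_add]; exact add_mem ha hb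
    | mul a b _ _ ha hb => rw [map_mul]; exact mul_mem ha hb
  obtain ⟨p, hp, hph⟩ := hh
  let τ : Algebra.adjoin k {x} →+* Algebra.adjoin k' {coeffMap ψ x} :=
    ((coeffMap ψ).comp (Algebra.adjoin k {x}).val.toRingHom).codRestrict _ fun r => hmaps r r.2
  refine ⟨p.map τ, hp.map _, ?_⟩
  rw [eval₂_map, ← map_zero (coeffMap ψ), ← hph, hom_eval₂]
  rfl

/-- Spans commute with coefficientwise isomorphisms. -/
theorem mem_span_of_coeffMap (ψ : k ≃+* k') {S : Set (LaurentSeries k)}
    {S' : Set (LaurentSeries k')} (hS : ∀ r ∈ S', coeffMap (ψ.symm : k' →+* k) r ∈ S)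
    {h : LaurentSeries k} (hh : coeffMap (ψ : k →+* k') h ∈ Submodule.span k' S') :
    h ∈ Submodule.span k S := by
  have key : ∀ z ∈ Submodule.span k' S', coeffMap (ψ.symm : k' →+* k) z ∈ Submodule.span k S := by
    intro z hz
    induction hz using Submodule.span_induction with
    | mem z hz => exact Submodule.subset_span (hS z hz)
    | zero => rw [map_zero]; exact zero_mem _
    | add a b _ _ ha hb => rw [map_add]; exact add_mem ha hb
    | smul c a _ ha =>
      have e : coeffMap (ψ.symm : k' →+* k) (c • a) =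
          ψ.symm c • coeffMap (ψ.symm : k' →+* k) a := by
        ext i; simp
      rw [e]
      exact Submodule.smul_mem _ _ ha
  have := key _ hh
  rwa [show coeffMap (ψ.symm : k' →+* k) (coeffMap (ψ : k →+* k') h) = h from by
    ext i; simp] at this

end series

section gauss

variable {L L' k k' : Type*} [Field L] [Field L'] [Field k] [Field k'] {A : ValuationSubring L}
  {A' : ValuationSubring L'} {π : A →+* k} {π' : A' →+* k'}

/-- Gauss integrality and reduction under a map of constants compatible with the reductions. -/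
theorem coeffMap_mem_gaussInt (i : L →+* L') (iA : A →+* A')
    (hiA : ∀ a : A, (iA a : L') = i a) (ψ : k →+* k') (hψ : ∀ a, ψ (π a) = π' (iA a))
    {f : LaurentSeries L} (hf : f ∈ gaussInt π) :
    coeffMap i f ∈ gaussInt π' ∧ gred π' (coeffMap i f) = coeffMap ψ (gred π f) := by
  obtain ⟨y, z, hz, h⟩ := hf
  have hv : ∀ w : LaurentSeries A, latVal A' (coeffMap iA w) = coeffMap i (latVal A w) := fun w => by
    ext n; exact hiA _
  have hr : ∀ w : LaurentSeries A, latRed π' (coeffMap iA w) = coeffMap ψ (latRed π w) := fun w => by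
    ext n; exact (hψ _).symm
  have hz' : latRed π' (coeffMap iA z) ≠ 0 := by
    rw [hr]; exact (_root_.map_ne_zero _).mpr hz
  have h' : coeffMap i f * latVal A' (coeffMap iA z) = latVal A' (coeffMap iA y) := by
    rw [hv, hv, ← map_mul, h]
  refine ⟨⟨_, _, hz', h'⟩, ?_⟩
  rw [gred_eq hz' h', gred_eq hz h, hr, hr, map_div₀]

/-- Gauss integrality descends, when contents are powers of `q`. -/
theorem mem_gaussInt_of_coeffMap (i : L →+* L') (iA : A →+* A')
    (hiA : ∀ a : A, (iA a : L') = i a) (ψ : k →+* k') (hψ : ∀ a, ψ (π a) = π' (iA a))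
    {q : ℕ} (hq : (q : L) ≠ 0) (hq' : (q : k') = 0) {f : LaurentSeries L} {n : ℤ}
    (hn : algebraMap L (LaurentSeries L) ((q : L) ^ n) * f ∈ gaussInt π)
    (hn0 : gred π (algebraMap L (LaurentSeries L) ((q : L) ^ n) * f) ≠ 0)
    (hf : coeffMap i f ∈ gaussInt π') : f ∈ gaussInt π := by
  rcases le_or_gt n 0 with h | h
  · obtain ⟨d, rfl⟩ := Int.exists_eq_neg_ofNat h
    have hd : algebraMap L (LaurentSeries L) ((q : L) ^ d) ∈ gaussInt π := by
      simpa using algebraMap_mem_gaussInt (π := π) ((q : A) ^ d)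
    have := mul_mem hd hn
    rwa [← mul_assoc, ← map_mul, zpow_neg, zpow_natCast, mul_inv_cancel₀ (pow_ne_zero _ hq),
      map_one, one_mul] at this
  · exfalso
    obtain ⟨d, rfl⟩ := Int.eq_ofNat_of_zero_le h.le
    have e := (coeffMap_mem_gaussInt i iA hiA ψ hψ hn).2
    have hd0 : π' ((q : A') ^ d) = 0 := by
      rw [map_pow, map_natCast, hq', zero_pow (by omega)]
    have hc : ((((q : A') ^ d : A')) : L') = (q : L') ^ d := by simp
    have h0 := gred_algebraMap_mul_eq_zero (π := π') (a := (q : A') ^ d) hd0 hf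
    rw [hc] at h0
    rw [map_mul, zpow_natCast, coeffMap_const, map_pow, map_natCast, h0] at e
    rw [zpow_natCast] at hn0
    exact hn0 ((_root_.map_eq_zero (coeffMap ψ)).mp e.symm)

end gauss

/-- The nonunits of a valuation subring. -/
theorem mem_nonunits_iff_inv {F : Type*} [Field F] (V : ValuationSubring F) {x : F} :
    x ∈ V.nonunits ↔ x = 0 ∨ x⁻¹ ∉ V := by
  rw [ValuationSubring.mem_nonunits_iff, ← V.valuation_le_one_iff, map_inv₀, not_le]
  rcases eq_or_ne x 0 with rfl | hx
  · simp
  · rw [one_lt_inv₀ (zero_lt_iff.mpr ((Valuation.ne_zero_iff _).mpr hx))]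
    simp [hx]

end FermatLib.Igusa.Carayol
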