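import Mathlib
import Fermat.Agent.Igusa.Carayol.Tower
import Fermat.Agent.Galois.MazurP.InertiaField
import Fermat.Agent.Galois.PlaceBasic

/-!
The base of the modular tower at a place of `ℚ̄` over `q`: the inertia field `K`, the field
`L = K(ζ)` of the `q`-th roots of unity and the residue field of the place.
-/

set_option autoImplicit false

noncomputable section

open Polynomial IsLocalRing
open scoped IntermediateField

namespace FermatLib.Igusa.Carayol

local notation "Qbar" => AlgebraicClosure ℚ

open FermatLib.MazurP (inertiaField)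

/-- A fixed primitive `q`-th root of unity in `ℚ̄`. -/
def rootZeta (q : ℕ) [NeZero q] : Qbar :=
  (HasEnoughRootsOfUnity.exists_primitiveRoot Qbar q).choose

theorem rootZeta_spec (q : ℕ) [NeZero q] : IsPrimitiveRoot (rootZeta q) q :=
  (HasEnoughRootsOfUnity.exists_primitiveRoot Qbar q).choose_spec

/-- The inertia field with the `q`-th roots of unity adjoined. -/
abbrev zetaField (A : ValuationSubring Qbar) (q : ℕ) [NeZero q] :
    IntermediateField (inertiaField A) Qbar :=
  (inertiaField A)⟮rootZeta q⟯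

section valuations

variable {A : ValuationSubring Qbar} {q : ℕ}

/-- Combinations of `1, π, …, π^(m-1)` over the inertia field, when `v(π)^m = v(q)`, take the
largest value of a term; in particular the value of a nonzero one has `m`-th power in the value
group of the inertia field. -/
theorem valuation_combination (hq : q.Prime) (hA : A.LiesOverPrime q) {m : ℕ} {π : Qbar}
    (hπ : A.valuation π ^ m = A.valuation (q : Qbar)) (a : Fin m → inertiaField A) :
    (A.valuation (∑ i, (a i : Qbar) * π ^ (i : ℕ)) =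
      Finset.univ.sup fun i : Fin m => A.valuation ((a i : Qbar) * π ^ (i : ℕ))) ∧
    ((∀ i, a i = 0) ∨ (∑ i, (a i : Qbar) * π ^ (i : ℕ) ≠ 0 ∧
      ∃ k : ℤ, A.valuation (∑ i, (a i : Qbar) * π ^ (i : ℕ)) ^ m =
        A.valuation (q : Qbar) ^ k)) := by
  classical
  by_cases hall : ∀ i, a i = 0
  · refine ⟨?_, Or.inl hall⟩
    simp [hall, eq_comm (a := (0 : A.ValueGroup))]
  push Not at hall
  obtain ⟨i0, hi0⟩ := hall
  have hm : 0 < m := (Nat.zero_le _).trans_lt i0.2
  have hq0 := Galois.Flat.valuation_prime_ne_zero (A := A) hq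
  have hπ0 : π ≠ 0 := fun h => by
    rw [h, map_zero, zero_pow hm.ne'] at hπ
    exact hq0 hπ.symm
  have hterm : ∀ i, a i ≠ 0 → (a i : Qbar) * π ^ (i : ℕ) ≠ 0 := fun i hi =>
    mul_ne_zero (fun e => hi (Subtype.ext e)) (pow_ne_zero _ hπ0)
  have hval : ∀ i, a i ≠ 0 → ∃ k : ℤ,
      A.valuation ((a i : Qbar) * π ^ (i : ℕ)) ^ m = A.valuation (q : Qbar) ^ (k * m + (i : ℕ)) :=
    fun i hi => by
      obtain ⟨k, hk⟩ := MazurP.exists_valuation_eq_zpow_of_mem hq hA (a i).2
        (fun e => hi (Subtype.ext e))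
      refine ⟨k, ?_⟩
      rw [map_mul, map_pow, mul_pow, hk, ← pow_mul, mul_comm (i : ℕ) m, pow_mul, hπ,
        zpow_add₀ hq0, zpow_natCast, zpow_mul, zpow_natCast]
  obtain ⟨j, -, hmax⟩ := (Finset.univ : Finset (Fin m)).exists_max_image
    (fun i => A.valuation ((a i : Qbar) * π ^ (i : ℕ))) ⟨i0, Finset.mem_univ _⟩
  have hj : a j ≠ 0 := fun h => by
    have h1 := hmax i0 (Finset.mem_univ _)
    rw [h, ZeroMemClass.coe_zero, zero_mul, map_zero] at h1
    exact A.valuation.ne_zero_iff.mpr (hterm i0 hi0) (le_antisymm h1 zero_le)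
  have hlt : ∀ i, i ≠ j →
      A.valuation ((a i : Qbar) * π ^ (i : ℕ)) < A.valuation ((a j : Qbar) * π ^ (j : ℕ)) := by
    intro i hij
    refine lt_of_le_of_ne (hmax i (Finset.mem_univ _)) fun e => ?_
    have hi : a i ≠ 0 := fun h => by
      rw [h, ZeroMemClass.coe_zero, zero_mul, map_zero] at e
      exact A.valuation.ne_zero_iff.mpr (hterm j hj) e.symm
    obtain ⟨k, hk⟩ := hval i hi
    obtain ⟨l, hl⟩ := hval j hj
    rw [e, hl] at hk
    have h2 : l * m + ((j : ℕ) : ℤ) = k * m + ((i : ℕ) : ℤ) :=
      Galois.Flat.valuation_zpow_injective hq hA hk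
    refine hij (Fin.ext ?_)
    have h3 := congrArg (· % (m : ℤ)) h2
    simp only [add_comm (l * (m : ℤ)), add_comm (k * (m : ℤ)),
      Int.add_mul_emod_self_right] at h3
    rw [Int.emod_eq_of_lt (by positivity) (by exact_mod_cast j.2),
      Int.emod_eq_of_lt (by positivity) (by exact_mod_cast i.2)] at h3
    exact_mod_cast h3.symm
  have hsum : A.valuation (∑ i, (a i : Qbar) * π ^ (i : ℕ)) =
      A.valuation ((a j : Qbar) * π ^ (j : ℕ)) :=
    A.valuation.map_sum_eq_of_lt (Finset.mem_univ j) fun i hi =>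
      hlt i fun e => (Finset.mem_sdiff.mp hi).2 (Finset.mem_singleton.mpr e)
  refine ⟨?_, Or.inr ⟨fun h0 => ?_, ?_⟩⟩
  · rw [hsum]
    exact le_antisymm (Finset.le_sup (f := fun i : Fin m => A.valuation ((a i : Qbar) * π ^ (i : ℕ)))
      (Finset.mem_univ j)) (Finset.sup_le fun i hi => hmax i hi)
  · rw [h0, map_zero] at hsum
    exact A.valuation.ne_zero_iff.mpr (hterm j hj) hsum.symm
  · obtain ⟨k, hk⟩ := hval j hj
    exact ⟨_, hsum ▸ hk⟩

/-- A polynomial of degree `< m` over the inertia field does not vanish at `π`. -/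
theorem eq_zero_of_aeval_small (hq : q.Prime) (hA : A.LiesOverPrime q) {m : ℕ} {π : Qbar}
    (hπ : A.valuation π ^ m = A.valuation (q : Qbar)) {f : (inertiaField A)[X]}
    (hf : f.natDegree < m) (h : aeval π f = 0) : f = 0 := by
  have h1 : ∑ i : Fin m, (f.coeff i : Qbar) * π ^ (i : ℕ) = 0 := by
    rw [← h, aeval_eq_sum_range' hf, Finset.sum_range fun i => f.coeff i • π ^ i]
    rfl
  rcases (valuation_combination hq hA hπ fun i : Fin m => f.coeff i).2 with h2 | ⟨h2, -⟩
  · ext1 n
    rcases lt_or_ge n m with hn | hn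
    · exact (h2 ⟨n, hn⟩).trans (coeff_zero n).symm
    · rw [coeff_eq_zero_of_natDegree_lt (hf.trans_le hn), coeff_zero]
  · exact absurd h1 h2

end valuations

section zeta

variable {A : ValuationSubring Qbar} {q : ℕ} [NeZero q]

variable (A) in
/-- The `q`-th cyclotomic polynomial in the variable `X + 1`. -/
def shiftedCyclotomic (q : ℕ) : (inertiaField A)[X] :=
  (cyclotomic q (inertiaField A)).comp (X + C 1)

theorem shiftedCyclotomic_monic : (shiftedCyclotomic A q).Monic :=
  (cyclotomic.monic q _).comp (monic_X_add_C 1) (by rw [natDegree_X_add_C]; exact one_ne_zero)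

theorem natDegree_shiftedCyclotomic (hq : q.Prime) :
    (shiftedCyclotomic A q).natDegree = q - 1 := by
  rw [shiftedCyclotomic, natDegree_comp, natDegree_cyclotomic, natDegree_X_add_C, mul_one,
    Nat.totient_prime hq]

theorem aeval_shiftedCyclotomic {ζ : Qbar} (hζ : IsPrimitiveRoot ζ q) :
    aeval (ζ - 1) (shiftedCyclotomic A q) = 0 := by
  rw [shiftedCyclotomic, aeval_comp]
  simp only [map_add, aeval_X, map_one, sub_add_cancel]
  rw [aeval_def, eval₂_eq_eval_map, map_cyclotomic]
  exact hζ.isRoot_cyclotomic (Nat.pos_of_ne_zero (NeZero.ne q))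

/-- The cyclotomic polynomial is irreducible over the inertia field. -/
theorem minpoly_rootZeta (hq : q.Prime) (hA : A.LiesOverPrime q) :
    minpoly (inertiaField A) (rootZeta q) = cyclotomic q (inertiaField A) := by
  have hroot : aeval (rootZeta q) (cyclotomic q (inertiaField A)) = 0 := by
    rw [aeval_def, eval₂_eq_eval_map, map_cyclotomic]
    exact (rootZeta_spec q).isRoot_cyclotomic hq.pos
  have hint : IsIntegral (inertiaField A) (rootZeta q) := ⟨_, cyclotomic.monic q _, hroot⟩
  refine (eq_of_monic_of_dvd_of_natDegree_le (minpoly.monic hint) (cyclotomic.monic q _)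
    (minpoly.dvd _ _ hroot) ?_).symm
  rw [natDegree_cyclotomic, Nat.totient_prime hq]
  by_contra hlt
  push Not at hlt
  have h1 : aeval (rootZeta q - 1) ((minpoly (inertiaField A) (rootZeta q)).comp (X + C 1)) = 0 := by
    rw [aeval_comp]
    simp [minpoly.aeval]
  refine ((minpoly.monic hint).comp (monic_X_add_C 1) (by rw [natDegree_X_add_C]; exact one_ne_zero)).ne_zero
    (eq_zero_of_aeval_small hq hA
      (Galois.Flat.valuation_sub_one_pow hq hA (rootZeta_spec q)) ?_ h1)
  rw [natDegree_comp, natDegree_X_add_C, mul_one]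
  exact hlt

theorem finiteDimensional_zetaField : FiniteDimensional (inertiaField A) (zetaField A q) :=
  IntermediateField.adjoin.finiteDimensional
    ((AlgebraicClosure.isAlgebraic ℚ).isAlgebraic (rootZeta q)).isIntegral.tower_top

theorem exists_coeffs_zetaField (hq : q.Prime) (z : zetaField A q) :
    ∃ a : Fin (q - 1) → inertiaField A,
      (z : Qbar) = ∑ i, (a i : Qbar) * (rootZeta q - 1) ^ (i : ℕ) := by
  have hint : IsIntegral (inertiaField A) (rootZeta q) :=
    ((AlgebraicClosure.isAlgebraic ℚ).isAlgebraic _).isIntegral.tower_top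
  have hz := z.2
  rw [← IntermediateField.mem_toSubalgebra,
    IntermediateField.adjoin_simple_toSubalgebra_of_isAlgebraic hint.isAlgebraic,
    Algebra.adjoin_singleton_eq_range_aeval] at hz
  obtain ⟨f, hf⟩ := hz
  set g := f.comp (X + C 1)
  have hg : aeval (rootZeta q - 1) g = (z : Qbar) := by
    rw [← hf, aeval_comp]
    simp
  have hm := shiftedCyclotomic_monic (A := A) (q := q)
  have hdeg : (g %ₘ shiftedCyclotomic A q).natDegree < q - 1 := by
    rw [← natDegree_shiftedCyclotomic (A := A) hq]
    refine natDegree_modByMonic_lt g hm fun h1 => ?_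
    have := natDegree_shiftedCyclotomic (A := A) hq
    rw [h1, natDegree_one] at this
    have := hq.two_le
    omega
  refine ⟨fun i => (g %ₘ shiftedCyclotomic A q).coeff i, ?_⟩
  rw [← hg, ← aeval_modByMonic_eq_self_of_root (aeval_shiftedCyclotomic (rootZeta_spec q)),
    aeval_eq_sum_range' hdeg,
    Finset.sum_range fun i => (g %ₘ shiftedCyclotomic A q).coeff i • (rootZeta q - 1) ^ i]
  rfl

theorem exists_valuation_pow_eq (hq : q.Prime) (hA : A.LiesOverPrime q) {z : zetaField A q}
    (hz : z ≠ 0) :
    ∃ k : ℤ, A.valuation (z : Qbar) ^ (q - 1) = A.valuation (q : Qbar) ^ k := by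
  obtain ⟨a, ha⟩ := exists_coeffs_zetaField hq z
  rcases (valuation_combination hq hA
    (Galois.Flat.valuation_sub_one_pow hq hA (rootZeta_spec q)) a).2 with h | ⟨-, h⟩
  · exact absurd (Subtype.ext (by rw [ha]; simp [h])) hz
  · exact ha ▸ h

/-- The conjugations of `L` over `K` preserve the valuation. -/
theorem exists_conj_zetaField (hq : q.Prime) (hA : A.LiesOverPrime q) {i : ℕ} (hi : ¬ q ∣ i) :
    ∃ σ : zetaField A q →ₐ[inertiaField A] zetaField A q,
      ((σ (IntermediateField.AdjoinSimple.gen _ (rootZeta q)) : zetaField A q) : Qbar) =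
        rootZeta q ^ i ∧
      ∀ z : zetaField A q, A.valuation (σ z : Qbar) = A.valuation (z : Qbar) := by
  have hint : IsIntegral (inertiaField A) (rootZeta q) :=
    ((AlgebraicClosure.isAlgebraic ℚ).isAlgebraic _).isIntegral.tower_top
  let pb := IntermediateField.adjoin.powerBasis hint
  let y : zetaField A q := IntermediateField.AdjoinSimple.gen _ (rootZeta q) ^ i
  have hy : (y : Qbar) = rootZeta q ^ i := by simp [y]
  have hy' : IsPrimitiveRoot (y : Qbar) q := by
    rw [hy]
    exact (rootZeta_spec q).pow_of_coprime i (hq.coprime_iff_not_dvd.mpr hi).symm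
  have hroot : aeval y (minpoly (inertiaField A) pb.gen) = 0 := by
    have hgen : minpoly (inertiaField A) pb.gen = minpoly (inertiaField A) (rootZeta q) := by
      rw [IntermediateField.adjoin.powerBasis_gen, IntermediateField.minpoly_gen]
    rw [hgen, minpoly_rootZeta hq hA]
    apply (algebraMap (zetaField A q) Qbar).injective
    rw [map_zero, ← aeval_algebraMap_apply, aeval_def, eval₂_eq_eval_map, map_cyclotomic]
    exact hy'.isRoot_cyclotomic hq.pos
  let σ := pb.lift y hroot
  have hσ : σ (IntermediateField.AdjoinSimple.gen _ (rootZeta q)) = y := by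
    rw [← IntermediateField.adjoin.powerBasis_gen hint]
    exact pb.lift_gen y hroot
  refine ⟨σ, by rw [hσ, hy], fun z => ?_⟩
  obtain ⟨a, ha⟩ := exists_coeffs_zetaField hq z
  let w : zetaField A q := IntermediateField.AdjoinSimple.gen _ (rootZeta q) - 1
  have hz : z = ∑ i : Fin (q - 1), algebraMap (inertiaField A) (zetaField A q) (a i) * w ^ (i : ℕ) := by
    apply Subtype.ext
    rw [ha]
    simp [w]
  have hσz : (σ z : Qbar) = ∑ i : Fin (q - 1), (a i : Qbar) * ((y : Qbar) - 1) ^ (i : ℕ) := by
    rw [hz, map_sum]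
    simp [w, hσ]
  have h1 := Galois.Flat.valuation_sub_one_pow hq hA (rootZeta_spec q)
  have h2 := Galois.Flat.valuation_sub_one_pow hq hA hy'
  have hv : A.valuation ((y : Qbar) - 1) = A.valuation (rootZeta q - 1) :=
    (pow_left_inj₀ zero_le zero_le (by have := hq.two_le; omega)).mp (h2.trans h1.symm)
  rw [hσz, ha, (valuation_combination hq hA h2 a).1, (valuation_combination hq hA h1 a).1]
  exact Finset.sup_congr rfl fun i _ => by rw [map_mul, map_mul, map_pow, map_pow, hv]

end zeta

section base

variable (A : ValuationSubring Qbar) (q : ℕ) [NeZero q]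

/-- The valuation ring of `L`. -/
abbrev zetaRing : ValuationSubring (zetaField A q) := A.comap (algebraMap (zetaField A q) Qbar)

/-- The inclusion of the valuation ring of `L` in the place. -/
def zetaRingIncl : zetaRing A q →+* A :=
  ((algebraMap (zetaField A q) Qbar).comp (zetaRing A q).subtype).codRestrict A fun x => x.2

/-- The reduction of the valuation ring of `L`. -/
def zetaRed : zetaRing A q →+* ResidueField A := (residue A).comp (zetaRingIncl A q)

variable {A q}

theorem isUnit_zetaRing_iff {x : zetaRing A q} :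
    IsUnit x ↔ A.valuation ((x : zetaField A q) : Qbar) = 1 := by
  constructor
  · intro h
    have h' := h.map (zetaRingIncl A q)
    exact (A.valuation_eq_one_iff _).mp h'
  · intro h
    have h0 : ((x : zetaField A q) : Qbar) ≠ 0 := fun e => by
      rw [e, map_zero] at h; exact zero_ne_one h
    refine IsUnit.of_mul_eq_one ⟨(x : zetaField A q)⁻¹, ?_⟩
      (Subtype.ext (mul_inv_cancel₀ fun e => h0 (by rw [e]; rfl)))
    show algebraMap (zetaField A q) Qbar (x : zetaField A q)⁻¹ ∈ A
    rw [map_inv₀, ← A.valuation_le_one_iff, map_inv₀]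
    exact (inv_eq_one.mpr h).le

theorem zetaRed_eq_zero (x : zetaRing A q) : zetaRed A q x = 0 ↔ ¬ IsUnit x := by
  show residue A (zetaRingIncl A q x) = 0 ↔ _
  rw [residue_eq_zero_iff, IsLocalRing.mem_maximalIdeal, mem_nonunits_iff, isUnit_zetaRing_iff,
    A.valuation_eq_one_iff]
  rfl

theorem natCast_residue_zero (hA : A.LiesOverPrime q) : (q : ResidueField A) = 0 := by
  rw [← map_natCast (residue A), residue_eq_zero_iff]
  refine (A.valuation_lt_one_iff _).mpr ?_
  simpa using Galois.Flat.valuation_prime_lt_one hA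

theorem charP_residue (hq : q.Prime) (hA : A.LiesOverPrime q) : CharP (ResidueField A) q :=
  (CharP.charP_iff_prime_eq_zero hq).mpr (natCast_residue_zero hA)

/-- The unit `ζ` of the valuation ring of `L`. -/
def zetaUnit (A : ValuationSubring Qbar) {q : ℕ} [NeZero q] : (zetaRing A q)ˣ :=
  haveI hmem : IntermediateField.AdjoinSimple.gen (inertiaField A) (rootZeta q) ∈ zetaRing A q := by
    show algebraMap (zetaField A q) Qbar _ ∈ A
    rw [IntermediateField.AdjoinSimple.algebraMap_gen]
    exact Galois.Flat.mem_A_of_isIntegral A ((rootZeta_spec q).isIntegral (Nat.pos_of_ne_zero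
      (NeZero.ne q)))
  Units.mkOfMulEqOne (⟨_, hmem⟩ : zetaRing A q) ((⟨_, hmem⟩ : zetaRing A q) ^ (q - 1)) (by
    apply Subtype.ext
    apply (algebraMap (zetaField A q) Qbar).injective
    show algebraMap (zetaField A q) Qbar (_ * _) = algebraMap (zetaField A q) Qbar 1
    simp only [SubmonoidClass.coe_pow, map_pow, map_one,
      IntermediateField.AdjoinSimple.algebraMap_gen, ← pow_succ',
      Nat.sub_add_cancel (Nat.pos_of_ne_zero (NeZero.ne q))]
    exact (rootZeta_spec q).pow_eq_one)

theorem coe_zetaUnit :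
    (((zetaUnit A : (zetaRing A q)ˣ) : zetaRing A q) : zetaField A q) =
      IntermediateField.AdjoinSimple.gen (inertiaField A) (rootZeta q) := rfl

theorem zetaRed_zetaUnit (hq : q.Prime) (hA : A.LiesOverPrime q) :
    zetaRed A q ((zetaUnit A : (zetaRing A q)ˣ) : zetaRing A q) = 1 := by
  have := charP_residue hq hA
  have : Fact q.Prime := ⟨hq⟩
  have hpow : ((zetaUnit A : (zetaRing A q)ˣ) : zetaRing A q) ^ q = 1 := by
    apply Subtype.ext
    apply (algebraMap (zetaField A q) Qbar).injective
    rw [SubmonoidClass.coe_pow, coe_zetaUnit, map_pow,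
      IntermediateField.AdjoinSimple.algebraMap_gen]
    simpa using (rootZeta_spec q).pow_eq_one
  have h := congrArg (zetaRed A q) hpow
  rw [map_pow, map_one] at h
  refine sub_eq_zero.mp (pow_eq_zero_iff (NeZero.ne q) |>.mp ?_)
  rw [sub_pow_char, h, one_pow, sub_self]

theorem valuation_natCast_pow_unit {x : inertiaField A} (hq : q.Prime) (hA : A.LiesOverPrime q)
    (hx : x ≠ 0) : ∃ k : ℤ, A.valuation (x : Qbar) = A.valuation (q : Qbar) ^ k :=
  MazurP.exists_valuation_eq_zpow_of_mem hq hA x.2 fun e => hx (Subtype.ext e)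

theorem irreducible_natCast (hq : q.Prime) (hA : A.LiesOverPrime q) :
    Irreducible (q : (zetaRing A q).comap (algebraMap (inertiaField A) (zetaField A q))) := by
  have hlt := Galois.Flat.valuation_prime_lt_one (p := q) hA
  have hq0 := Galois.Flat.valuation_prime_ne_zero (A := A) hq
  have hcast : (((q : (zetaRing A q).comap (algebraMap (inertiaField A) (zetaField A q))) :
      inertiaField A) : Qbar) = (q : Qbar) := by simp
  have hle : ∀ x : (zetaRing A q).comap (algebraMap (inertiaField A) (zetaField A q)),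
      A.valuation ((x : inertiaField A) : Qbar) ≤ 1 := fun x => (A.valuation_le_one_iff _).mpr x.2
  have hunit : ∀ x : (zetaRing A q).comap (algebraMap (inertiaField A) (zetaField A q)),
      A.valuation ((x : inertiaField A) : Qbar) = 1 → IsUnit x := fun x h => by
    have h0 : (x : inertiaField A) ≠ 0 := fun e => by
      rw [e, ZeroMemClass.coe_zero, map_zero] at h; exact zero_ne_one h
    refine IsUnit.of_mul_eq_one ⟨(x : inertiaField A)⁻¹, ?_⟩ (Subtype.ext (mul_inv_cancel₀ h0))
    show algebraMap (zetaField A q) Qbar (algebraMap _ _ (x : inertiaField A)⁻¹) ∈ A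
    rw [← IsScalarTower.algebraMap_apply, map_inv₀, ← A.valuation_le_one_iff, map_inv₀]
    exact (inv_eq_one.mpr h).le
  refine ⟨fun hu => ?_, fun x y hxy => ?_⟩
  · obtain ⟨y, hy⟩ := hu.exists_left_inv
    have h1 := congrArg (fun t : (zetaRing A q).comap (algebraMap (inertiaField A) (zetaField A q)) =>
      A.valuation ((t : inertiaField A) : Qbar)) hy
    simp only [MulMemClass.coe_mul, OneMemClass.coe_one, map_mul, map_one, hcast] at h1
    exact (h1 ▸ mul_lt_one_of_nonneg_of_lt_one_right (hle y) zero_le hlt).false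
  · have h1 := congrArg (fun t : (zetaRing A q).comap (algebraMap (inertiaField A) (zetaField A q)) =>
      A.valuation ((t : inertiaField A) : Qbar)) hxy
    simp only [MulMemClass.coe_mul, map_mul, hcast] at h1
    have hx0 : (x : inertiaField A) ≠ 0 := fun e => hq0 (by simpa [e] using h1)
    have hy0 : (y : inertiaField A) ≠ 0 := fun e => hq0 (by simpa [e] using h1)
    obtain ⟨i, hi⟩ := valuation_natCast_pow_unit hq hA hx0
    obtain ⟨j, hj⟩ := valuation_natCast_pow_unit hq hA hy0
    rw [hi, hj, ← zpow_add₀ hq0] at h1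
    have h2 : (1 : ℤ) = i + j := Galois.Flat.valuation_zpow_injective hq hA (by simpa using h1)
    have hi0 : 0 ≤ i := (Galois.Flat.valuation_zpow_le_zpow_iff hq hA).mp (by
      rw [zpow_zero, ← hi]; exact hle x)
    have hj0 : 0 ≤ j := (Galois.Flat.valuation_zpow_le_zpow_iff hq hA).mp (by
      rw [zpow_zero, ← hj]; exact hle y)
    rcases eq_or_lt_of_le hi0 with h0 | h0
    · exact Or.inl (hunit x (by rw [hi, ← h0, zpow_zero]))
    · exact Or.inr (hunit y (by rw [hj, show j = 0 by omega, zpow_zero]))

theorem natCast_dvd_pow (hq : q.Prime) (hA : A.LiesOverPrime q) {a : zetaRing A q}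
    (ha : ¬ IsUnit a) : (q : zetaRing A q) ∣ a ^ (q - 1) := by
  have h1 : q - 1 ≠ 0 := by have := hq.two_le; omega
  rcases eq_or_ne a 0 with rfl | h0
  · rw [zero_pow h1]; exact dvd_zero _
  have ha0 : (a : zetaField A q) ≠ 0 := fun e => h0 (Subtype.ext e)
  obtain ⟨k, hk⟩ := exists_valuation_pow_eq hq hA ha0
  have hq0 := Galois.Flat.valuation_prime_ne_zero (A := A) hq
  have hlt : A.valuation ((a : zetaField A q) : Qbar) < 1 :=
    lt_of_le_of_ne ((A.valuation_le_one_iff _).mpr a.2) fun h => ha (isUnit_zetaRing_iff.mpr h)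
  have hk0 : 0 < k := by
    by_contra hk0
    push Not at hk0
    have h2 := pow_lt_one₀ zero_le hlt h1
    rw [hk, ← zpow_zero (A.valuation (q : Qbar))] at h2
    exact h2.not_ge ((Galois.Flat.valuation_zpow_le_zpow_iff hq hA).mpr hk0)
  refine ⟨⟨(a : zetaField A q) ^ (q - 1) / (q : zetaField A q), ?_⟩, Subtype.ext ?_⟩
  · show algebraMap (zetaField A q) Qbar _ ∈ A
    rw [map_div₀, map_pow, map_natCast, ← A.valuation_le_one_iff, map_div₀, map_pow]
    change A.valuation ((a : zetaField A q) : Qbar) ^ (q - 1) / _ ≤ 1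
    rw [hk, div_eq_mul_inv, ← zpow_sub_one₀ hq0, ← zpow_zero (A.valuation (q : Qbar))]
    exact (Galois.Flat.valuation_zpow_le_zpow_iff hq hA).mpr (by omega)
  · push_cast
    field_simp [Nat.cast_ne_zero.mpr hq.ne_zero]

theorem residue_pow_pow_eq (hq : q.Prime) (hA : A.LiesOverPrime q) (c : ResidueField A) :
    ∃ n : ℕ, 0 < n ∧ c ^ q ^ n = c := by
  obtain ⟨x, rfl⟩ := residue_surjective (R := A) c
  rcases eq_or_ne (residue A x) 0 with h0 | h0
  · exact ⟨1, one_pos, by rw [h0, zero_pow (pow_ne_zero _ hq.ne_zero)]⟩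
  have hv : A.valuation (x : Qbar) = 1 := by
    refine (A.valuation_eq_one_iff x).mp ?_
    by_contra hu
    exact h0 ((residue_eq_zero_iff x).mpr hu)
  obtain ⟨n, hn, hlt⟩ := MazurP.exists_valuation_pow_sub_one_lt hq hA hv
  have hres : residue A x ^ n = 1 := by
    rw [← map_pow, ← sub_eq_zero, ← map_one (residue A), ← map_sub, residue_eq_zero_iff]
    exact (A.valuation_lt_one_iff _).mpr (by simpa using hlt)
  have hn0 : 0 < n := Nat.pos_of_ne_zero fun e => hn (e ▸ dvd_zero q)
  refine ⟨n.totient, Nat.totient_pos.mpr hn0, ?_⟩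
  have hmod : q ^ n.totient ≡ 1 [MOD n] :=
    Nat.ModEq.pow_totient (hq.coprime_iff_not_dvd.mpr hn)
  have h1 : 1 ≤ q ^ n.totient := Nat.one_le_pow _ _ hq.pos
  obtain ⟨t, ht⟩ := (Nat.modEq_iff_dvd' h1).mp hmod.symm
  rw [show q ^ n.totient = n * t + 1 by omega, pow_succ, pow_mul, hres, one_pow, one_mul]

/-- The base of the modular tower at the place `A`. -/
def modularBase (hq : q.Prime) (hA : A.LiesOverPrime q) : Base q where
  K := inertiaField A
  L := zetaField A q
  k := ResidueField A
  algClosed := Galois.isAlgClosed_residueField A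
  charP := charP_residue hq hA
  prime := hq
  A := zetaRing A q
  dvrA :=
    haveI := finiteDimensional_zetaField (A := A) (q := q)
    MazurP.isDiscreteValuationRing_comap hq hA (zetaField A q)
  π := zetaRed A q
  π_eq_zero := zetaRed_eq_zero
  π_surjective c := by
    obtain ⟨a, rfl⟩ := residue_surjective (R := A) c
    obtain ⟨b, hb, hbA, hlt⟩ := MazurP.exists_inertiaField_sub_lt hq hA a.2
    refine ⟨⟨b, hb⟩, hbA, ?_⟩
    refine (sub_eq_zero.mp ?_).symm
    show residue A a - residue A _ = 0
    rw [← map_sub, residue_eq_zero_iff]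
    exact (A.valuation_lt_one_iff _).mpr hlt
  irreducible_q := irreducible_natCast hq hA
  ζ := zetaUnit A
  ζ_primitive := by
    rw [coe_zetaUnit]
    exact (rootZeta_spec q).of_map_of_injective (f := algebraMap (zetaField A q) Qbar)
      (algebraMap (zetaField A q) Qbar).injective
  π_ζ := zetaRed_zetaUnit hq hA
  ram _ ha := natCast_dvd_pow hq hA ha
  exists_conj i hi := by
    obtain ⟨σ, h1, h2⟩ := exists_conj_zetaField hq hA hi
    refine ⟨σ, ?_, fun a ha => ?_⟩
    · rw [coe_zetaUnit]
      apply Subtype.ext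
      rw [h1]
      simp
    · show algebraMap (zetaField A q) Qbar (σ a) ∈ A
      rw [← A.valuation_le_one_iff]
      exact (h2 a).le.trans ((A.valuation_le_one_iff _).mpr ha)
  algebraic_k := residue_pow_pow_eq hq hA

end base

end FermatLib.Igusa.Carayol
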