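import Mathlib.RingTheory.AdjoinRoot
import Mathlib.RingTheory.Polynomial.Cyclotomic.Roots
import Fermat.Agent.Modular.FieldCx
import Fermat.Agent.Igusa.MonoNewScale

/-!
Homomorphisms out of the function field of `X₀(M)` over any field of characteristic zero from
simultaneous substitutions into the `j (d τ)`.
-/

set_option autoImplicit false

noncomputable section

open UpperHalfPlane ModularCurve
open scoped MatrixGroups ModularForm

namespace FermatLib.Igusa.Carayol

open FermatLib.Modular

section translate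

/-- `rot t` as a unit. -/
def rotUnit (t : ℝ) : ℂˣ := Units.mk0 (rot t) (Complex.exp_ne_zero _)

theorem comp_vadd_mem_qMero_of_mem {G : ℍ → ℂ} (hG : G ∈ qMero) (t : ℝ) :
    (fun τ => G (t +ᵥ τ)) ∈ qMero := by
  obtain ⟨m, hm⟩ := hG.2.2
  have hval : ∀ τ : ℍ,
      ModularForm.upperTriangularGL 1 t 1 (mul_pos one_pos one_pos).ne' • τ = t +ᵥ τ := by
    intro τ
    apply UpperHalfPlane.ext
    rw [coe_upperTriangularGL_smul one_pos one_pos, UpperHalfPlane.coe_vadd]
    simp [add_comm]
  refine mem_qMero.mpr ⟨fun τ => by rw [vadd_comm_one, hG.1], ?_, 1 * m, ?_⟩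
  · rw [show (fun τ => G (t +ᵥ τ)) = G ∘ fun τ =>
      ModularForm.upperTriangularGL 1 t 1 (mul_pos one_pos one_pos).ne' • τ from
        funext fun τ => by rw [Function.comp_apply, hval]]
    refine hG.2.1.comp (UpperHalfPlane.mdifferentiable_smul ?_)
    rw [Matrix.GeneralLinearGroup.val_det_apply, ModularForm.val_upperTriangularGL,
      Matrix.det_fin_two_of]
    norm_num
  · have h := isBoundedAtImInfty_comp_triangular (b := t) hm one_pos one_pos (k := 1) (by simp)
    simpa only [hval] using h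

theorem qExpL_comp_vadd_of_bounded {G : ℍ → ℂ} (hG : G ∈ qMero)
    (hb : IsBoundedAtImInfty G) (t : ℝ) :
    qExpL (fun τ => G (t +ᵥ τ)) = monoNewScale (rotUnit t) (qExpL G) := by
  obtain ⟨hm, hbt⟩ := comp_vadd_mem_qMero hG hb t
  rw [qExpL_of_bounded hm hbt, qExpL_of_bounded hG hb, qExpansion_comp_vadd hG hb]
  ext n
  rw [monoNewScale_coeff]
  rcases le_or_gt 0 n with hn | hn
  · lift n to ℕ using hn
    rw [HahnSeries.ofPowerSeries_apply_coeff, HahnSeries.ofPowerSeries_apply_coeff,
      PowerSeries.coeff_rescale, zpow_natCast, Units.val_pow_eq_pow_val]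
    rfl
  · rw [ModularCurve.ofPowerSeries_coeff_of_neg _ hn, ModularCurve.ofPowerSeries_coeff_of_neg _ hn,
      mul_zero]

theorem qExpL_comp_vadd {G : ℍ → ℂ} (hG : G ∈ qMero) (t : ℝ) :
    qExpL (fun τ => G (t +ᵥ τ)) = monoNewScale (rotUnit t) (qExpL G) := by
  obtain ⟨m, hm⟩ := hG.2.2
  have hΔ := qExpL_comp_vadd_of_bounded discriminant_mem_qMero
    ModularForm.discriminant_isZeroAtImInfty.isBoundedAtImInfty t
  have hΔm := comp_vadd_mem_qMero_of_mem discriminant_mem_qMero t
  have hGt := comp_vadd_mem_qMero_of_mem hG t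
  have h := qExpL_comp_vadd_of_bounded (mul_mem hG (pow_mem discriminant_mem_qMero m)) hm t
  rw [show (fun τ => (G * (ModularForm.discriminant : ℍ → ℂ) ^ m) (t +ᵥ τ)) =
      (fun τ => G (t +ᵥ τ)) * (fun τ => ModularForm.discriminant (t +ᵥ τ)) ^ m from rfl,
    qExpL_mul hGt (pow_mem hΔm m), qExpL_pow hΔm, hΔ,
    qExpL_mul hG (pow_mem discriminant_mem_qMero m), qExpL_pow discriminant_mem_qMero,
    map_mul, map_pow] at h
  refine mul_right_cancel₀ (pow_ne_zero m ?_) h
  intro h0
  rw [← hΔ, qExpL_eq_zero_iff hΔm] at h0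
  exact ModularForm.discriminant_ne_zero _ (congrFun h0 UpperHalfPlane.I)

end translate

section transfer

theorem coeffMap_aeval_rat {K L σ : Type*} [Field K] [Field L] [Algebra ℚ K] [Algebra ℚ L]
    (φ : K →+* L) (S : σ → LaurentSeries K) (P : MvPolynomial σ ℚ) :
    coeffMap φ (MvPolynomial.aeval S P) = MvPolynomial.aeval (fun i => coeffMap φ (S i)) P := by
  simp only [MvPolynomial.aeval_def, MvPolynomial.eval₂_comp_left, Function.comp_def]
  congr 1
  exact Subsingleton.elim _ _

/-- A relation over `ℚ` between the `j (q ^ d)` holds for functions of `τ` obtained from the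
`j (d z)` by a simultaneous substitution. -/
theorem aeval_qExpL_eq_zero_of_subst {σ : Type*} (d : σ → ℕ) [∀ i, NeZero (d i)]
    (G : σ → ℍ → ℂ) (hG : ∀ i, G i ∈ qMero)
    (hz : ∀ τ : ℍ, ∃ z : ℍ, ∀ i, G i τ = jScaleFun (d i) z)
    (P : MvPolynomial σ ℚ) (hP : MvPolynomial.aeval (fun i => qExpand ℚ (d i) jq) P = 0) :
    MvPolynomial.aeval (fun i => qExpL (G i)) P = 0 := by
  have h1 := (aeval_qExpand_jq_rat_eq_zero_iff d P).mp hP
  let w : σ → qMero := fun i => ⟨G i, hG i⟩
  have h2 : MvPolynomial.aeval w P = 0 := by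
    apply Subtype.ext
    funext τ
    obtain ⟨z, hz⟩ := hz τ
    show (((Pi.evalAlgHom ℂ (fun _ : ℍ => ℂ) τ).comp qMero.val).restrictScalars ℚ)
      (MvPolynomial.aeval w P) = 0
    rw [← AlgHom.comp_apply, MvPolynomial.comp_aeval]
    refine Eq.trans ?_ (h1 z)
    congr 2
    funext i
    exact hz i
  have h3 := congrArg (qExpLHom.toRingHom) h2
  rw [map_zero, MvPolynomial.aeval_def, MvPolynomial.eval₂_comp_left] at h3
  rw [MvPolynomial.aeval_def]
  exact (congrArg (fun φ => MvPolynomial.eval₂ φ _ P) (Subsingleton.elim _ _)).trans h3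

/-- Relations over `ℚ` between series with cyclotomic coefficients do not depend on the choice
of the primitive root. -/
theorem exists_cyclotomic_pair {L : Type*} [Field L] [Algebra ℚ L] (e : ℕ) [NeZero e] {w : L}
    (hw : IsPrimitiveRoot w e) {w' : ℂ} (hw' : IsPrimitiveRoot w' e) :
    ∃ (K : Type) (_ : Field K) (_ : Algebra ℚ K) (φ : K →+* ℂ) (ψ : K →+* L) (z : Kˣ),
      φ z = w' ∧ ψ z = w := by
  have : CharZero L := algebraRat.charZero L
  have : Fact (Irreducible (Polynomial.cyclotomic e ℚ)) :=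
    ⟨Polynomial.cyclotomic.irreducible_rat (Nat.pos_of_ne_zero (NeZero.ne e))⟩
  have hroot : ∀ {F : Type _} [Field F] [Algebra ℚ F] [CharZero F] {x : F}, IsPrimitiveRoot x e →
      (Polynomial.cyclotomic e ℚ).eval₂ (algebraMap ℚ F) x = 0 := by
    intro F _ _ _ x hx
    rw [Polynomial.eval₂_eq_eval_map, Polynomial.map_cyclotomic]
    exact (hx.isRoot_cyclotomic (Nat.pos_of_ne_zero (NeZero.ne e))).eq_zero
  let φ := AdjoinRoot.lift (algebraMap ℚ ℂ) w' (hroot hw')
  let ψ := AdjoinRoot.lift (algebraMap ℚ L) w (by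
    rw [Polynomial.eval₂_eq_eval_map, Polynomial.map_cyclotomic]
    exact (hw.isRoot_cyclotomic (Nat.pos_of_ne_zero (NeZero.ne e))).eq_zero)
  have hz : AdjoinRoot.root (Polynomial.cyclotomic e ℚ) ≠ 0 := fun h => by
    have h' : φ (AdjoinRoot.root (Polynomial.cyclotomic e ℚ)) = w' := AdjoinRoot.lift_root _
    rw [h, map_zero] at h'
    exact hw'.ne_zero (NeZero.ne e) h'.symm
  exact ⟨AdjoinRoot (Polynomial.cyclotomic e ℚ), inferInstance, inferInstance, φ, ψ,
    Units.mk0 _ hz, AdjoinRoot.lift_root _, AdjoinRoot.lift_root _⟩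

end transfer

section hom

variable (L : Type*) [Field L] [Algebra ℚ L] (M : ℕ) [NeZero M]

instance neZero_divisor (d : {d : ℕ // d ∣ M}) : NeZero d.1 :=
  ⟨fun h => NeZero.ne M (Nat.eq_zero_of_zero_dvd (h ▸ d.2))⟩

/-- `j (q ^ d)` as an element of the function field over `L`. -/
def jDiv (d : {d : ℕ // d ∣ M}) : laurentBaseChange L (modularFunctionFieldFull M) :=
  ⟨coeffEmb L (qExpand ℚ d.1 jq), coeffEmb_mem_laurentBaseChange L (jqd_mem_full M d.2)⟩

@[simp] theorem coe_jDiv (d : {d : ℕ // d ∣ M}) :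
    (jDiv L M d : LaurentSeries L) = coeffEmb L (qExpand ℚ d.1 jq) := rfl

theorem jDiv_one : jDiv L M ⟨1, one_dvd M⟩ = jElem L M := by
  apply Subtype.ext
  simp [qExpand_one_apply]

theorem jDiv_self : jDiv L M ⟨M, dvd_rfl⟩ = jScaleElem L M := rfl

/-- Relations over `ℚ` give relations over `L`. -/
theorem aeval_eq_zero_of_rat_relations {σ E : Type*} [CommRing E] [Algebra L E] [Algebra ℚ E]
    (u : σ → LaurentSeries ℚ) (S : σ → E)
    (hS : ∀ P : MvPolynomial σ ℚ, MvPolynomial.aeval u P = 0 → MvPolynomial.aeval S P = 0)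
    (P : MvPolynomial σ L) (hP : MvPolynomial.aeval (fun i => coeffEmb L (u i)) P = 0) :
    MvPolynomial.aeval S P = 0 := by
  classical
  have : IsScalarTower ℚ L E := IsScalarTower.of_algebraMap_eq' (Subsingleton.elim _ _)
  let b := Module.Basis.ofVectorSpace ℚ L
  -- coordinates of `P`
  let comp : Module.Basis.ofVectorSpaceIndex ℚ L → MvPolynomial σ ℚ := fun k =>
    ∑ m ∈ P.support, MvPolynomial.monomial m (b.repr (P.coeff m) k)
  have hzero : ∀ k, MvPolynomial.aeval u (comp k) = 0 := by
    intro k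
    let π : L →ₗ[ℚ] ℚ := (Finsupp.lapply k).comp b.repr.toLinearMap
    ext i
    have h := congrArg (fun z : LaurentSeries L => π (z.coeff i)) hP
    rw [MvPolynomial.as_sum P, map_sum] at h
    simp only [HahnSeries.coeff_sum, HahnSeries.coeff_zero, map_zero, map_sum,
      MvPolynomial.aeval_monomial] at h
    simp only [comp, map_sum, HahnSeries.coeff_sum, HahnSeries.coeff_zero,
      MvPolynomial.aeval_monomial]
    rw [← h]
    refine Finset.sum_congr rfl fun m _ => ?_
    rw [show (m.prod fun i e => coeffEmb L (u i) ^ e) = coeffEmb L (m.prod fun i e => u i ^ e) by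
      rw [map_finsuppProd]; simp only [map_pow], algebraMap_mul_coeff, algebraMap_mul_coeff,
      coeffEmb_coeff, mul_comm (P.coeff m), ← Algebra.smul_def, map_smul, smul_eq_mul,
      mul_comm]
    rfl
  set K := P.support.biUnion fun m => (b.repr (P.coeff m)).support
  have hP' : P = ∑ k ∈ K, MvPolynomial.C (b k) * MvPolynomial.map (algebraMap ℚ L) (comp k) := by
    ext n
    simp only [comp, map_sum, MvPolynomial.map_monomial, MvPolynomial.coeff_sum,
      MvPolynomial.coeff_C_mul, MvPolynomial.coeff_monomial, Finset.sum_ite_eq']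
    by_cases hn : n ∈ P.support
    · simp only [hn, if_true]
      conv_lhs => rw [← b.linearCombination_repr (P.coeff n), Finsupp.linearCombination_apply,
        Finsupp.sum]
      refine (Finset.sum_subset ?_ fun k _ hk => ?_).trans
        (Finset.sum_congr rfl fun k _ => by rw [Algebra.smul_def, mul_comm])
      · exact fun k hk => Finset.mem_biUnion.mpr ⟨n, hn, hk⟩
      · rw [Finsupp.notMem_support_iff.mp hk, zero_smul]
    · simp only [hn, if_false, mul_zero, Finset.sum_const_zero]
      exact MvPolynomial.notMem_support_iff.mp hn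
  rw [hP', map_sum]
  refine Finset.sum_eq_zero fun k _ => ?_
  rw [map_mul, MvPolynomial.aeval_map_algebraMap, hS _ (hzero k), mul_zero]

section abstract

variable {L : Type*} [Field L] {F : Type*} [Field F] [Algebra L F]

theorem exists_denominator {x y : F} (R : Subalgebra L F) (hx : x ∈ R) (hy : y ∈ R)
    (hint : IsIntegral (IntermediateField.adjoin L {x}) y)
    (htop : IntermediateField.adjoin (IntermediateField.adjoin L {x}) {y} = ⊤)
    (htr : Transcendental L x) (z : F) :
    ∃ s : Polynomial L, s ≠ 0 ∧ Polynomial.aeval x s * z ∈ R := by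
  have hP : ∀ p : Polynomial L, Polynomial.aeval x p ∈ R := by
    intro p
    induction p using Polynomial.induction_on' with
    | add p q hp hq => rw [map_add]; exact add_mem hp hq
    | monomial n c =>
      rw [Polynomial.aeval_monomial]
      exact mul_mem (R.algebraMap_mem c) (pow_mem hx n)
  have key : ∀ p : Polynomial (IntermediateField.adjoin L {x}),
      ∃ s : Polynomial L, s ≠ 0 ∧ Polynomial.aeval x s * Polynomial.aeval y p ∈ R := by
    intro p
    induction p using Polynomial.induction_on' with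
    | add p q hp hq =>
      obtain ⟨s, hs, hp⟩ := hp
      obtain ⟨t, ht, hq⟩ := hq
      refine ⟨s * t, mul_ne_zero hs ht, ?_⟩
      rw [map_mul, map_add, mul_add, mul_right_comm, mul_assoc _ _ (Polynomial.aeval _ q)]
      exact add_mem (mul_mem hp (hP t)) (mul_mem (hP s) hq)
    | monomial n c =>
      obtain ⟨r, s, h⟩ := (IntermediateField.mem_adjoin_simple_iff L (c : F)).mp c.2
      rcases eq_or_ne s 0 with rfl | hs
      · refine ⟨1, one_ne_zero, ?_⟩
        rw [Polynomial.aeval_monomial, IntermediateField.algebraMap_apply, h, map_zero, div_zero,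
          zero_mul, mul_zero]
        exact zero_mem R
      · refine ⟨s, hs, ?_⟩
        rw [Polynomial.aeval_monomial, IntermediateField.algebraMap_apply, h, ← mul_assoc,
          mul_div_cancel₀ _ (fun h0 => hs (transcendental_iff.mp htr s h0))]
        exact mul_mem (hP r) (pow_mem hy n)
  have hz : z ∈ (IntermediateField.adjoin (IntermediateField.adjoin L {x}) {y}) := by
    rw [htop]; exact IntermediateField.mem_top
  rw [← IntermediateField.mem_toSubalgebra,
    IntermediateField.adjoin_simple_toSubalgebra_of_isAlgebraic hint.isAlgebraic,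
    Algebra.adjoin_singleton_eq_range_aeval] at hz
  obtain ⟨p, hp⟩ := hz
  rw [← hp]
  exact key p

/-- A map on generators respecting the polynomial relations extends to the field, when every
element has a denominator in one variable that stays nonzero. -/
theorem exists_algHom_extension {σ E : Type*} [Field E] [Algebra L E] (g : σ → F) (S : σ → E)
    (hker : ∀ P : MvPolynomial σ L, MvPolynomial.aeval g P = 0 → MvPolynomial.aeval S P = 0) (i₀ : σ)
    (htr : Transcendental L (g i₀)) (htrS : Transcendental L (S i₀))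
    (hden : ∀ z : F, ∃ s : Polynomial L, s ≠ 0 ∧
      Polynomial.aeval (g i₀) s * z ∈ Algebra.adjoin L (Set.range g)) :
    ∃ Φ : F →ₐ[L] E, ∀ i, Φ (g i) = S i := by
  let ev : MvPolynomial σ L →ₐ[L] F := MvPolynomial.aeval g
  let evS : MvPolynomial σ L →ₐ[L] E := MvPolynomial.aeval S
  let e := Ideal.quotientKerEquivRange ev
  let ψ : ev.range →ₐ[L] E :=
    (Ideal.Quotient.liftₐ (RingHom.ker ev) evS fun P hP => hker P (RingHom.mem_ker.mp hP)).comp
      e.symm.toAlgHom
  have hψ : ∀ P, ψ ⟨ev P, P, rfl⟩ = evS P := by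
    intro P
    have he : e.symm ⟨ev P, P, rfl⟩ = Ideal.Quotient.mk (RingHom.ker ev) P := by
      rw [AlgEquiv.symm_apply_eq]
      exact Subtype.ext rfl
    show Ideal.Quotient.liftₐ (RingHom.ker ev) evS (fun P hP => hker P (RingHom.mem_ker.mp hP))
      (e.symm ⟨ev P, P, rfl⟩) = evS P
    rw [he]
    rfl
  have hrange : ev.range = Algebra.adjoin L (Set.range g) :=
    (Algebra.adjoin_range_eq_range_aeval L g).symm
  have hX : ∀ s : Polynomial L, ev (Polynomial.aeval (MvPolynomial.X i₀) s)
      = Polynomial.aeval (g i₀) s := fun s => by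
    rw [← Polynomial.aeval_algHom_apply, MvPolynomial.aeval_X]
  have hmem : ∀ s : Polynomial L, Polynomial.aeval (g i₀) s ∈ ev.range :=
    fun s => ⟨_, hX s⟩
  have hψj : ∀ s : Polynomial L, ψ ⟨_, hmem s⟩ = Polynomial.aeval (S i₀) s := by
    intro s
    have h2 : (⟨_, hmem s⟩ : ev.range) = ⟨ev (Polynomial.aeval (MvPolynomial.X i₀) s),
        _, rfl⟩ := Subtype.ext (hX s).symm
    rw [h2, hψ, ← Polynomial.aeval_algHom_apply, MvPolynomial.aeval_X]
  have hinj : Function.Injective ψ := by
    rw [injective_iff_map_eq_zero]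
    intro a ha
    by_contra hne
    have ha0 : (a : F) ≠ 0 := fun h => hne (Subtype.ext h)
    obtain ⟨s, hs, hm⟩ := hden (a : F)⁻¹
    rw [← hrange] at hm
    have h : (⟨_, hm⟩ : ev.range) * a = ⟨_, hmem s⟩ := Subtype.ext (by
      show Polynomial.aeval (g i₀) s * (a : F)⁻¹ * (a : F) = _
      rw [mul_assoc, inv_mul_cancel₀ ha0, mul_one])
    have h' := congrArg ψ h
    rw [map_mul, ha, mul_zero, hψj s] at h'
    exact hs (transcendental_iff.mp htrS s h'.symm)
  have : IsFractionRing ev.range F := by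
    refine IsFractionRing.of_field _ _ fun z => ?_
    obtain ⟨s, hs, hm⟩ := hden z
    rw [← hrange] at hm
    refine ⟨⟨_, hm⟩, ⟨_, hmem s⟩, ?_⟩
    show z = Polynomial.aeval (g i₀) s * z / Polynomial.aeval (g i₀) s
    rw [mul_div_cancel_left₀ _ (fun h0 => hs (transcendental_iff.mp htr s h0))]
  refine ⟨IsFractionRing.liftAlgHom hinj, fun i => ?_⟩
  have hd : g i = algebraMap ev.range F ⟨ev (MvPolynomial.X i), _, rfl⟩ :=
    (MvPolynomial.aeval_X _ _).symm
  rw [hd, IsFractionRing.liftAlgHom_apply, IsFractionRing.lift_algebraMap]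
  show ψ _ = _
  rw [hψ]
  exact MvPolynomial.aeval_X _ _

end abstract

set_option synthInstance.maxHeartbeats 100000 in
/-- **Sheets**: values on the `j_d` satisfying the rational relations, nonconstant at `d = 1`,
define an embedding of the function field over `L`. -/
theorem exists_algHom_of_relations {E : Type*} [Field E] [Algebra L E] [Algebra ℚ E]
    (S : {d : ℕ // d ∣ M} → E)
    (hS : ∀ P : MvPolynomial {d : ℕ // d ∣ M} ℚ,
      MvPolynomial.aeval (fun d : {d : ℕ // d ∣ M} => qExpand ℚ d.1 jq) P = 0 →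
        MvPolynomial.aeval S P = 0)
    (htr : Transcendental L (S ⟨1, one_dvd M⟩)) :
    ∃ Φ : laurentBaseChange L (modularFunctionFieldFull M) →ₐ[L] E,
      ∀ d, Φ (jDiv L M d) = S d := by
  have h1 : jDiv L M ⟨1, one_dvd M⟩ = jElem L M := jDiv_one L M
  have h2 : jDiv L M ⟨M, dvd_rfl⟩ = jScaleElem L M := jDiv_self L M
  have htr1 : Transcendental L (jDiv L M ⟨1, one_dvd M⟩) := by
    rw [h1]; exact transcendental_jElem L M
  have hker : ∀ P : MvPolynomial {d : ℕ // d ∣ M} L, MvPolynomial.aeval (jDiv L M) P = 0 →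
      MvPolynomial.aeval S P = 0 := by
    intro P hP
    refine aeval_eq_zero_of_rat_relations L
      (fun d : {d : ℕ // d ∣ M} => qExpand ℚ d.1 jq) S hS P ?_
    have h' : (laurentBaseChange L (modularFunctionFieldFull M)).val
        (MvPolynomial.aeval (jDiv L M) P) = 0 := (congrArg _ hP).trans (map_zero _)
    rw [← AlgHom.comp_apply, MvPolynomial.comp_aeval] at h'
    exact h'
  refine exists_algHom_extension (jDiv L M) S hker ⟨1, one_dvd M⟩ htr1 htr ?_
  intro z
  rw [h1]
  refine exists_denominator (y := jScaleElem L M) _ ?_ ?_ (isIntegral_jScaleElem L M)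
    (adjoin_jScaleElem_eq_top L M) (transcendental_jElem L M) z
  · rw [← h1]; exact Algebra.subset_adjoin ⟨_, rfl⟩
  · rw [← h2]; exact Algebra.subset_adjoin ⟨_, rfl⟩

end hom

end FermatLib.Igusa.Carayol

end
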