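import Mathlib.RingTheory.RootsOfUnity.Complex
import Fermat.Agent.Igusa.Carayol.SheetHom

/-!
The Atkin–Lehner involution of `X₀(N q^k)` at `q` and the expansion of `X₀(N q²)` at the cusp
`1 / (N q)`, on the generators `j (d τ)`, over any field of characteristic zero.
-/

set_option autoImplicit false

noncomputable section

open UpperHalfPlane ModularCurve
open scoped MatrixGroups

namespace FermatLib.Igusa.Carayol

open FermatLib.Modular

section arithmetic

/-- `d q^i ↦ d q^(k-i)` on the divisors of `N q^k`, with `Q = q ^ k`. -/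
def alDiv (N Q e : ℕ) : ℕ := N.gcd e * (Q / (e / N.gcd e))

variable {N q k M : ℕ} [NeZero M]

theorem exists_divisor_split (hq : q.Prime) {e : ℕ} (he : e ∣ N * q ^ k) :
    ∃ d i, d ∣ N ∧ i ≤ k ∧ e = d * q ^ i := by
  obtain ⟨y, z, hy, hz, rfl⟩ := Nat.dvd_mul.mp he
  obtain ⟨i, hi, rfl⟩ := (Nat.dvd_prime_pow hq).mp hz
  exact ⟨y, i, hy, hi, rfl⟩

theorem alDiv_mul (hq : q.Prime) (hqN : ¬ q ∣ N) {d i : ℕ} (hd : d ∣ N) (hi : i ≤ k) :
    alDiv N (q ^ k) (d * q ^ i) = d * q ^ (k - i) := by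
  have hN : 0 < N := Nat.pos_of_ne_zero fun h => hqN (h ▸ dvd_zero q)
  have hcop : (q ^ i).Coprime N := Nat.Coprime.pow_left i (hq.coprime_iff_not_dvd.mpr hqN)
  have hg : N.gcd (d * q ^ i) = d := by
    rw [Nat.Coprime.gcd_mul_right_cancel_right d hcop, Nat.gcd_eq_right hd]
  rw [alDiv, hg, Nat.mul_div_cancel_left _ (Nat.pos_of_dvd_of_pos hd hN), Nat.pow_div hi hq.pos]

/-- `alDiv` as a permutation of the divisors. -/
def alSub (hq : q.Prime) (hqN : ¬ q ∣ N) (hM : M = N * q ^ k) (e : {d : ℕ // d ∣ M}) :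
    {d : ℕ // d ∣ M} :=
  ⟨alDiv N (q ^ k) e.1, by
    obtain ⟨d, i, hd, hi, he⟩ := exists_divisor_split hq (e.2.trans hM.dvd)
    rw [he, alDiv_mul hq hqN hd hi, hM]
    exact mul_dvd_mul hd (pow_dvd_pow q (Nat.sub_le k i))⟩

omit [NeZero M] in
theorem alSub_eq (hq : q.Prime) (hqN : ¬ q ∣ N) (hM : M = N * q ^ k) (e : {d : ℕ // d ∣ M})
    {d i : ℕ} (hd : d ∣ N) (hi : i ≤ k) (he : e.1 = d * q ^ i) :
    (alSub hq hqN hM e).1 = d * q ^ (k - i) := by
  show alDiv N (q ^ k) e.1 = _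
  rw [he, alDiv_mul hq hqN hd hi]

theorem alSub_alSub (hq : q.Prime) (hqN : ¬ q ∣ N) (hM : M = N * q ^ k)
    (e : {d : ℕ // d ∣ M}) : alSub hq hqN hM (alSub hq hqN hM e) = e := by
  obtain ⟨d, i, hd, hi, he⟩ := exists_divisor_split hq (e.2.trans hM.dvd)
  apply Subtype.ext
  rw [alSub_eq hq hqN hM _ hd (Nat.sub_le k i) (alSub_eq hq hqN hM e hd hi he),
    Nat.sub_sub_self hi, he]

/-- For every `τ` there is a point at which each `j (e τ)` takes the value of `j (e' τ)` at `τ`. -/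
theorem exists_al_point (hq : q.Prime) (hqN : ¬ q ∣ N) (hM : M = N * q ^ k) (τ : ℍ) :
    ∃ w : ℍ, ∀ e : {d : ℕ // d ∣ M},
      jScaleFun (alSub hq hqN hM e).1 τ = jScaleFun e.1 w := by
  have hN : N ≠ 0 := fun h => hqN (h ▸ dvd_zero q)
  obtain ⟨a, c, hac⟩ : IsCoprime ((q ^ k : ℕ) : ℤ) (N : ℤ) :=
    Int.isCoprime_iff_gcd_eq_one.mpr (by
      rw [Int.gcd_natCast_natCast]
      exact Nat.Coprime.pow_left k (hq.coprime_iff_not_dvd.mpr hqN))
  push_cast at hac
  let g : SL(2, ℤ) := ⟨!![(q : ℤ) ^ k * a, -c; (N : ℤ), 1], by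
    rw [Matrix.det_fin_two_of]; linear_combination hac⟩
  have hqC : ((q ^ k : ℕ) : ℂ) ≠ 0 := by exact_mod_cast pow_ne_zero _ hq.ne_zero
  have him : 0 < (((g • τ : ℍ) : ℂ) / ((q ^ k : ℕ) : ℂ)).im := by
    rw [Complex.div_natCast_im]
    exact div_pos (g • τ).im_pos (by exact_mod_cast pow_pos hq.pos k)
  have hden : (N : ℂ) * (τ : ℂ) + 1 ≠ 0 := fun h => by
    have h2 := congrArg Complex.im h
    simp [τ.im_pos.ne', hN] at h2
  refine ⟨UpperHalfPlane.mk _ him, fun e => ?_⟩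
  obtain ⟨d, i, ⟨m, hm⟩, hi, he⟩ := exists_divisor_split hq (e.2.trans hM.dvd)
  have he' := alSub_eq hq hqN hM e ⟨m, hm⟩ hi he
  let δ : SL(2, ℤ) := ⟨!![(q : ℤ) ^ i * a, -((d : ℤ) * c); (m : ℤ), (q : ℤ) ^ (k - i)], by
    rw [Matrix.det_fin_two_of]
    have h1 : (q : ℤ) ^ i * (q : ℤ) ^ (k - i) = (q : ℤ) ^ k := by
      rw [← pow_add, Nat.add_sub_cancel' hi]
    have h2 : (d : ℤ) * (m : ℤ) = N := by exact_mod_cast hm.symm
    linear_combination hac + a * h1 + c * h2⟩
  rw [jScaleFun_apply, jScaleFun_apply,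
    ← jFun_smul δ (ModularForm.heckeDiagMatrix (alSub hq hqN hM e).1 • τ)]
  congr 1
  apply UpperHalfPlane.ext
  rw [ModularForm.coe_heckeDiagMatrix_smul (NeZero.ne e.1)]
  show _ = (e.1 : ℂ) * (((g • τ : ℍ) : ℂ) / ((q ^ k : ℕ) : ℂ))
  rw [UpperHalfPlane.coe_specialLinearGroup_apply δ,
    ModularForm.coe_heckeDiagMatrix_smul (NeZero.ne (alSub hq hqN hM e).1),
    UpperHalfPlane.coe_specialLinearGroup_apply, he, he']
  simp only [algebraMap_int_eq, eq_intCast, g, δ, Matrix.of_apply, Matrix.cons_val',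
    Matrix.cons_val_zero, Matrix.cons_val_one, Matrix.cons_val_fin_one, Complex.ofReal_intCast]
  push_cast
  obtain ⟨l, rfl⟩ : ∃ l, k = i + l := ⟨k - i, (Nat.add_sub_cancel' hi).symm⟩
  rw [Nat.add_sub_cancel_left, pow_add]
  have hmC : (N : ℂ) = (d : ℂ) * (m : ℂ) := by exact_mod_cast hm
  rw [hmC] at hden ⊢
  have hq0 : (q : ℂ) ≠ 0 := by exact_mod_cast hq.ne_zero
  field_simp

/-- The points of the cusp `1 / (N q)`: `j (e τ)` for `q ^ 2 ∤ e` is unchanged, and
`j (q ^ 2 d z)` becomes `j (d (τ + r / q))`. -/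
theorem exists_middle_point (hq : q.Prime) (hqN : ¬ q ∣ N) (hM : M = N * q * q) :
    ∃ r : ℤ, IsCoprime r (q : ℤ) ∧ ∀ τ : ℍ, ∃ z : ℍ,
      (∀ e : {d : ℕ // d ∣ M}, ¬ q * q ∣ e.1 → jScaleFun e.1 z = jScaleFun e.1 τ) ∧
      ∀ d : ℕ, d ∣ N → jScaleFun (q * q * d) z = jScaleFun d (((r : ℝ) / q) +ᵥ τ) := by
  have hN : N ≠ 0 := fun h => hqN (h ▸ dvd_zero q)
  obtain ⟨r, s, hrs⟩ : IsCoprime (N : ℤ) (q : ℤ) :=
    Int.isCoprime_iff_gcd_eq_one.mpr (by
      rw [Int.gcd_natCast_natCast]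
      exact (hq.coprime_iff_not_dvd.mpr hqN).symm)
  refine ⟨r, ⟨(N : ℤ), s, by linear_combination hrs⟩, fun τ => ?_⟩
  let g : SL(2, ℤ) := ⟨!![(1 : ℤ), 0; ((N * q : ℕ) : ℤ), 1], by rw [Matrix.det_fin_two_of]; ring⟩
  refine ⟨g • τ, fun e he => ?_, fun d hd => ?_⟩
  · obtain ⟨d, i, hd, hi, hei⟩ := exists_divisor_split (k := 2) hq
      (e.2.trans (by rw [hM, pow_two, mul_assoc]))
    refine jScaleFun_smul_of_mem ?_ τ
    show (e.1 : ℤ) ∣ ((N * q : ℕ) : ℤ)
    have hi1 : i ≤ 1 := by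
      by_contra h
      refine he ?_
      rw [hei, show i = 2 by omega, pow_two]
      exact Dvd.intro_left d rfl
    rw [hei]
    exact_mod_cast (mul_dvd_mul hd ((pow_dvd_pow q hi1).trans (pow_one q).dvd))
  · obtain ⟨m, hm⟩ := hd
    have hd0 : d ≠ 0 := fun h => hN (by rw [hm, h, zero_mul])
    have : NeZero d := ⟨hd0⟩
    have : NeZero (q * q * d) := ⟨by positivity [hq.pos]⟩
    have hqd : q * q * d ≠ 0 := NeZero.ne _
    let δ : SL(2, ℤ) := ⟨!![s, r * d; -(m : ℤ), (q : ℤ)], by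
      rw [Matrix.det_fin_two_of]
      have h2 : (d : ℤ) * (m : ℤ) = N := by exact_mod_cast hm.symm
      linear_combination hrs + r * h2⟩
    rw [jScaleFun_apply, jScaleFun_apply,
      ← jFun_smul δ (ModularForm.heckeDiagMatrix (q * q * d) • g • τ)]
    congr 1
    apply UpperHalfPlane.ext
    rw [UpperHalfPlane.coe_specialLinearGroup_apply δ,
      ModularForm.coe_heckeDiagMatrix_smul hqd, ModularForm.coe_heckeDiagMatrix_smul hd0,
      UpperHalfPlane.coe_specialLinearGroup_apply, UpperHalfPlane.coe_vadd]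
    simp only [algebraMap_int_eq, eq_intCast, g, δ, Matrix.of_apply, Matrix.cons_val',
      Matrix.cons_val_zero, Matrix.cons_val_one, Matrix.cons_val_fin_one, Complex.ofReal_intCast]
    push_cast
    have hmC : (N : ℂ) = (d : ℂ) * (m : ℂ) := by exact_mod_cast hm
    have hrsC : (r : ℂ) * (N : ℂ) + (s : ℂ) * (q : ℂ) = 1 := by exact_mod_cast hrs
    rw [hmC] at hrsC ⊢
    have hq0 : (q : ℂ) ≠ 0 := by exact_mod_cast hq.ne_zero
    have hden : (d : ℂ) * (m : ℂ) * (q : ℂ) * (τ : ℂ) + 1 ≠ 0 := fun h => by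
      have h2 := congrArg Complex.im h
      have hm0 : m ≠ 0 := fun h => hN (by rw [hm, h, mul_zero])
      simp [τ.im_pos.ne', hd0, hm0, hq.ne_zero] at h2
    have key : -(m : ℂ) * ((q : ℂ) * q * d * ((1 * (τ : ℂ) + 0) /
        ((d : ℂ) * m * q * τ + 1))) + (q : ℂ) = (q : ℂ) / ((d : ℂ) * m * q * τ + 1) := by
      rw [mul_div_assoc', mul_div_assoc', div_add' _ _ _ hden]
      congr 1
      ring
    rw [key]
    field_simp
    rw [show (q : ℂ) * d * τ * m + 1 = (d : ℂ) * m * q * τ + 1 by ring, mul_add,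
      mul_div_cancel₀ _ hden]
    linear_combination (q : ℂ) * (τ : ℂ) * hrsC

end arithmetic

section field

variable {L : Type*} [Field L] [Algebra ℚ L] {M : ℕ} [NeZero M]

omit [NeZero M] in
theorem coeffMap_coeffEmb' {K L' : Type*} [Field K] [Algebra ℚ K] [Field L'] [Algebra ℚ L']
    (φ : K →+* L') (x : LaurentSeries ℚ) : coeffMap φ (coeffEmb K x) = coeffEmb L' x := by
  rw [coeffEmb, coeffEmb, coeffMap_coeffMap]
  exact coeffMap_congr (Subsingleton.elim _ _) x

/-- Induction on the generators of the function field. -/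
theorem induction_jDiv {p : laurentBaseChange L (modularFunctionFieldFull M) → Prop}
    (hc : ∀ c, p (algebraMap L _ c)) (hj : ∀ d, p (jDiv L M d))
    (hadd : ∀ x y, p x → p y → p (x + y)) (hinv : ∀ x, p x → p x⁻¹)
    (hmul : ∀ x y, p x → p y → p (x * y)) (x) : p x := by
  have hx : x ∈ IntermediateField.adjoin L {jElem L M, jScaleElem L M} := by
    rw [adjoin_jElem_jScaleElem]; exact IntermediateField.mem_top
  induction hx using IntermediateField.adjoin_induction with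
  | mem y hy =>
    rcases hy with rfl | rfl
    · rw [← jDiv_one L M]; exact hj _
    · rw [← jDiv_self L M]; exact hj _
  | algebraMap c => exact hc c
  | add y z _ _ hy hz => exact hadd y z hy hz
  | inv y _ hy => exact hinv y hy
  | mul y z _ _ hy hz => exact hmul y z hy hz

set_option synthInstance.maxHeartbeats 100000 in
theorem algHom_ext_jDiv {E : Type*} [Field E] [Algebra L E]
    {f g : laurentBaseChange L (modularFunctionFieldFull M) →ₐ[L] E}
    (h : ∀ d, f (jDiv L M d) = g (jDiv L M d)) : f = g :=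
  AlgHom.ext fun x => induction_jDiv (p := fun x => f x = g x)
    (fun c => (f.commutes c).trans (g.commutes c).symm) h
    (fun x y hx hy => by rw [map_add, map_add, hx, hy])
    (fun x hx => by rw [map_inv₀, map_inv₀, hx])
    (fun x y hx hy => by rw [map_mul, map_mul, hx, hy]) x

theorem transcendental_coeffEmb_jq_self : Transcendental L (coeffEmb L jq) :=
  transcendental_iff.mpr fun p hp => (aeval_coeffEmb_jq_eq_zero_iff p).mp hp

variable {N q k : ℕ}

set_option synthInstance.maxHeartbeats 100000 in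
/-- **The Atkin–Lehner involution** at `q` of the function field of `X₀(N q^k)`. -/
theorem exists_atkinLehner (hq : q.Prime) (hqN : ¬ q ∣ N) (hM : M = N * q ^ k) :
    ∃ w : laurentBaseChange L (modularFunctionFieldFull M) ≃ₐ[L]
        laurentBaseChange L (modularFunctionFieldFull M),
      (∀ e, w (jDiv L M e) = jDiv L M (alSub hq hqN hM e)) ∧ ∀ x, w (w x) = x := by
  let S : {d : ℕ // d ∣ M} → LaurentSeries L := fun e => jDiv L M (alSub hq hqN hM e)
  have hS : ∀ P : MvPolynomial {d : ℕ // d ∣ M} ℚ,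
      MvPolynomial.aeval (fun d : {d : ℕ // d ∣ M} => qExpand ℚ d.1 jq) P = 0 →
        MvPolynomial.aeval S P = 0 := by
    intro P hP
    have h1 := aeval_qExpL_eq_zero_of_subst (fun d : {d : ℕ // d ∣ M} => d.1)
      (fun e => jScaleFun (alSub hq hqN hM e).1)
      (fun e => weakMod_Gamma0_le_qMero M (jScaleFun_mem_weakMod (alSub hq hqN hM e).2))
      (exists_al_point hq hqN hM) P hP
    simp only [qExpL_jScaleFun] at h1
    have h2 : MvPolynomial.aeval (fun e => qExpand ℚ (alSub hq hqN hM e).1 jq) P = 0 := by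
      apply (coeffEmb ℂ).injective
      rw [map_zero, coeffEmb, coeffMap_aeval_rat]
      exact h1
    have h3 := congrArg (coeffEmb L) h2
    rw [map_zero, coeffEmb, coeffMap_aeval_rat] at h3
    exact h3
  have htr : Transcendental L (S ⟨1, one_dvd M⟩) := by
    have h : alSub hq hqN hM ⟨1, one_dvd M⟩ = ⟨q ^ k, hM ▸ dvd_mul_left _ _⟩ :=
      Subtype.ext ((alSub_eq hq hqN hM ⟨1, one_dvd M⟩ (d := 1) (i := 0) (one_dvd N)
        (Nat.zero_le k) (by rw [pow_zero, mul_one])).trans (by rw [Nat.sub_zero, one_mul]))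
    have : NeZero (q ^ k) := ⟨pow_ne_zero _ hq.ne_zero⟩
    show Transcendental L ((jDiv L M (alSub hq hqN hM ⟨1, one_dvd M⟩)) : LaurentSeries L)
    rw [h, coe_jDiv, coeffEmb_qExpand]
    intro halg
    refine transcendental_coeffEmb_jq_self (L := L) ?_
    obtain ⟨p, hp, hpe⟩ := halg
    refine ⟨p, hp, (qExpand L (q ^ k)).injective ?_⟩
    rw [map_zero, ← hpe, Polynomial.aeval_def, Polynomial.aeval_def, Polynomial.hom_eval₂]
    congr 1
    ext c : 1
    simp [algebraMap_laurentSeries_eq_single]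
  obtain ⟨Φ, hΦ⟩ := exists_algHom_of_relations L M S hS htr
  have hmem : ∀ x, Φ x ∈ laurentBaseChange L (modularFunctionFieldFull M) :=
    induction_jDiv (fun c => by rw [AlgHom.commutes]; exact IntermediateField.algebraMap_mem _ c)
      (fun d => by rw [hΦ]; exact Subtype.property _)
      (fun x y hx hy => by rw [map_add]; exact add_mem hx hy)
      (fun x hx => by rw [map_inv₀]; exact inv_mem hx)
      (fun x y hx hy => by rw [map_mul]; exact mul_mem hx hy)
  let w : laurentBaseChange L (modularFunctionFieldFull M) →ₐ[L]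
      laurentBaseChange L (modularFunctionFieldFull M) :=
    Φ.codRestrict (laurentBaseChange L (modularFunctionFieldFull M)).toSubalgebra hmem
  have hw : ∀ e, w (jDiv L M e) = jDiv L M (alSub hq hqN hM e) := fun e => Subtype.ext (hΦ e)
  have hww : w.comp w = AlgHom.id L _ := algHom_ext_jDiv fun e => by
    show w (w (jDiv L M e)) = jDiv L M e
    rw [hw, hw, alSub_alSub]
  exact ⟨AlgEquiv.ofAlgHom w w hww hww, hw, fun x => AlgHom.congr_fun hww x⟩

set_option synthInstance.maxHeartbeats 100000 in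
/-- **The expansion at the cusp `1 / (N q)`** of the function field of `X₀(N q²)`. -/
theorem exists_middleSheet (hq : q.Prime) (hqN : ¬ q ∣ N) (hM : M = N * q * q) {w : Lˣ}
    (hw : IsPrimitiveRoot (w : L) q) :
    ∃ Φ : laurentBaseChange L (modularFunctionFieldFull M) →ₐ[L] LaurentSeries L,
      (∀ e, ¬ q * q ∣ e.1 → Φ (jDiv L M e) = (jDiv L M e : LaurentSeries L)) ∧
      ∀ (d : ℕ) [NeZero d] (h : q * q * d ∣ M),
        Φ (jDiv L M ⟨q * q * d, h⟩) = monoNewScale w (coeffEmb L (qExpand ℚ d jq)) := by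
  have : CharZero L := algebraRat.charZero L
  have : NeZero q := ⟨hq.ne_zero⟩
  have hne : ∀ e : {d : ℕ // d ∣ M}, q * q ∣ e.1 → NeZero (e.1 / (q * q)) := fun e h =>
    ⟨fun h0 => NeZero.ne e.1 (by rw [← Nat.div_mul_cancel h, h0, zero_mul])⟩
  have hdiv : ∀ e : {d : ℕ // d ∣ M}, q * q ∣ e.1 → e.1 / (q * q) ∣ N := fun e h => by
    have h1 : e.1 ∣ q * q * N := (e.2.trans hM.dvd).trans (dvd_of_eq (by ring))
    exact (Nat.mul_dvd_mul_iff_left (Nat.mul_pos hq.pos hq.pos)).mp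
      ((Nat.mul_div_cancel' h).dvd.trans h1)
  obtain ⟨r, hr, hpt⟩ := exists_middle_point hq hqN hM
  have hw' : IsPrimitiveRoot (rot ((r : ℝ) / q)) q := by
    have h := Complex.isPrimitiveRoot_exp_of_isCoprime r q hq.ne_zero hr
    rwa [rot, show ((((r : ℝ) / q : ℝ)) : ℂ) = (r : ℂ) / (q : ℂ) by push_cast; rfl]
  obtain ⟨K, iK, iA, φ, ψ, z, hφ, hψ⟩ := exists_cyclotomic_pair q hw hw'
  let U : {d : ℕ // d ∣ M} → LaurentSeries K := fun e =>
    if h : q * q ∣ e.1 then
      haveI := hne e h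
      monoNewScale z (coeffEmb K (qExpand ℚ (e.1 / (q * q)) jq))
    else coeffEmb K (qExpand ℚ e.1 jq)
  let G : {d : ℕ // d ∣ M} → ℍ → ℂ := fun e =>
    if q * q ∣ e.1 then fun τ => jScaleFun (e.1 / (q * q)) (((r : ℝ) / q) +ᵥ τ)
    else jScaleFun e.1
  have hG : ∀ e, G e ∈ qMero := fun e => by
    by_cases h : q * q ∣ e.1
    · have := hne e h
      simp only [G, if_pos h]
      exact comp_vadd_mem_qMero_of_mem (weakMod_Gamma0_le_qMero _
        (jScaleFun_mem_weakMod (N := e.1 / (q * q)) dvd_rfl)) _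
    · simp only [G, if_neg h]
      exact weakMod_Gamma0_le_qMero M (jScaleFun_mem_weakMod e.2)
  have hGU : ∀ e, qExpL (G e) = coeffMap φ (U e) := fun e => by
    by_cases h : q * q ∣ e.1
    · have := hne e h
      simp only [G, U, if_pos h, dif_pos h]
      rw [qExpL_comp_vadd (weakMod_Gamma0_le_qMero _
        (jScaleFun_mem_weakMod (N := e.1 / (q * q)) dvd_rfl)), qExpL_jScaleFun,
        coeffMap_monoNewScale, coeffMap_coeffEmb',
        show rotUnit ((r : ℝ) / q) = Units.map (φ : K →* ℂ) z from Units.ext hφ.symm]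
    · simp only [G, U, if_neg h, dif_neg h]
      rw [qExpL_jScaleFun, coeffMap_coeffEmb']
  let S : {d : ℕ // d ∣ M} → LaurentSeries L := fun e => coeffMap ψ (U e)
  have hS : ∀ P : MvPolynomial {d : ℕ // d ∣ M} ℚ,
      MvPolynomial.aeval (fun d : {d : ℕ // d ∣ M} => qExpand ℚ d.1 jq) P = 0 →
        MvPolynomial.aeval S P = 0 := by
    intro P hP
    have h1 := aeval_qExpL_eq_zero_of_subst (fun d : {d : ℕ // d ∣ M} => d.1) G hG (fun τ => by
      obtain ⟨x, hx1, hx2⟩ := hpt τ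
      refine ⟨x, fun e => ?_⟩
      by_cases h : q * q ∣ e.1
      · simp only [G, if_pos h]
        conv_rhs => rw [← Nat.mul_div_cancel' h]
        exact (hx2 _ (hdiv e h)).symm
      · simp only [G, if_neg h]
        exact (hx1 e h).symm) P hP
    simp only [hGU] at h1
    have h2 : MvPolynomial.aeval U P = 0 := (coeffMap φ).injective (by
      rw [map_zero, coeffMap_aeval_rat]
      exact h1)
    show MvPolynomial.aeval (fun e => coeffMap ψ (U e)) P = 0
    rw [← coeffMap_aeval_rat, h2, map_zero]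
  have hSn : ∀ e, ¬ q * q ∣ e.1 → S e = coeffEmb L (qExpand ℚ e.1 jq) := fun e h => by
    simp only [S, U, dif_neg h, coeffMap_coeffEmb']
  have htr : Transcendental L (S ⟨1, one_dvd M⟩) := by
    have h1 : ¬ q * q ∣ 1 := fun h => hq.ne_one (Nat.eq_one_of_mul_eq_one_right (Nat.dvd_one.mp h))
    rw [hSn _ h1]
    simpa [qExpand_one_apply] using transcendental_coeffEmb_jq_self (L := L)
  obtain ⟨Φ, hΦ⟩ := exists_algHom_of_relations L M S hS htr
  refine ⟨Φ, fun e he => ?_, fun d hd h => ?_⟩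
  · rw [hΦ, hSn e he, coe_jDiv]
  · have h' : q * q ∣ q * q * d := dvd_mul_right _ _
    have hz : Units.map (ψ : K →* L) z = w := Units.ext hψ
    rw [hΦ]
    simp only [S, U, dif_pos h', coeffMap_monoNewScale, coeffMap_coeffEmb', hz,
      Nat.mul_div_cancel_left d (Nat.mul_pos hq.pos hq.pos)]

end field

end FermatLib.Igusa.Carayol

end
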