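import Fermat.Agent.Modular.CorrDegree
import Fermat.Agent.Igusa.Carayol.LevelSheets
import Fermat.Agent.Igusa.Carayol.Gauss

/-!
The maps of the modular tower `X₀(N q²) → X₀(N q) → X₀(N)` over any field of characteristic
zero, with the expansions at the cusps `∞` and `1 / (N q)`.
-/

set_option autoImplicit false

noncomputable section

open ModularCurve

namespace FermatLib.Igusa.Carayol

open FermatLib.Modular

local notation "Qbar" => AlgebraicClosure ℚ

section degree

variable {K E F : Type*} [Field K] [Field E] [Field F] [Algebra K E] [Algebra K F]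

theorem finrank_along (f : E →ₐ[K] F) (x : E) {y : F} (hxy : f x = y) {a b c : ℕ} (ha0 : a ≠ 0)
    (ha : Module.finrank (IntermediateField.adjoin K {x}) E = a)
    (hb : Module.finrank (IntermediateField.adjoin K {y}) F = b) (hbac : b = a * c) :
    letI := f.toRingHom.toAlgebra
    Module.finrank E F = c := by
  subst hxy
  let : Algebra E F := f.toRingHom.toAlgebra
  set S := IntermediateField.adjoin K {x}
  let : Algebra S F := (f.toRingHom.comp S.val.toRingHom).toAlgebra
  have : IsScalarTower S E F := IsScalarTower.of_algebraMap_eq fun _ => rfl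
  have hmap : S.map f = IntermediateField.adjoin K {f x} := by
    rw [IntermediateField.adjoin_map, Set.image_singleton]
  have hS : Module.finrank S F = b := by
    rw [← hb]
    exact Algebra.finrank_eq_of_equiv_equiv
      ((S.equivMap f).trans (IntermediateField.equivOfEq hmap)).toRingEquiv (RingEquiv.refl F) rfl
  have h := Module.finrank_mul_finrank S E F
  rw [ha, hS, hbac] at h
  exact mul_left_cancel₀ ha0 h

theorem adjoin_union_range_eq_top {E' : Type*} [Field E'] [Algebra K E'] (f g : E →ₐ[K] E')
    {s : Set E'} (hs : IntermediateField.adjoin K s = ⊤) (h : s ⊆ Set.range f ∪ Set.range g) :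
    IntermediateField.adjoin K (Set.range f ∪ Set.range g) = ⊤ :=
  eq_top_iff.mpr (hs ▸ IntermediateField.adjoin.mono K _ _ h)

end degree

section levels

variable {L : Type*} [Field L] [Algebra ℚ L] {N q M : ℕ} [NeZero N] [NeZero M]

omit [NeZero N] in
theorem jDiv_congr {d e : {d : ℕ // d ∣ M}} (h : d.1 = e.1) : jDiv L M d = jDiv L M e :=
  congrArg _ (Subtype.ext h)

variable [NeZero q]

theorem heckeAlphaBar_jDiv (d : {d : ℕ // d ∣ N}) :
    heckeAlphaBar L N q (jDiv L N d) = jDiv L (N * q) ⟨d.1, d.2.trans (dvd_mul_right N q)⟩ :=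
  Subtype.ext rfl

theorem heckeBetaBar_jDiv (d : {d : ℕ // d ∣ N}) :
    heckeBetaBar L N q (jDiv L N d) =
      jDiv L (N * q) ⟨q * d.1, (mul_dvd_mul_left q d.2).trans (dvd_of_eq (mul_comm q N))⟩ := by
  apply Subtype.ext
  rw [coe_heckeBetaBar, coe_jDiv, coe_jDiv, coeffEmb_qExpand, coeffEmb_qExpand, qExpand_qExpand]

theorem heckeAlphaBar_jElem : heckeAlphaBar L N q (jElem L N) = jElem L (N * q) :=
  Subtype.ext rfl

set_option synthInstance.maxHeartbeats 100000 in
theorem adjoin_alpha_beta_eq_top :
    IntermediateField.adjoin L (Set.range (heckeAlphaBar L N q) ∪ Set.range (heckeBetaBar L N q))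
      = ⊤ := by
  refine adjoin_union_range_eq_top _ _ (adjoin_jElem_jScaleElem L (N * q)) ?_
  intro x hx
  rcases hx with rfl | rfl
  · exact Or.inl ⟨jElem L N, heckeAlphaBar_jElem⟩
  · refine Or.inr ⟨jDiv L N ⟨N, dvd_rfl⟩, ?_⟩
    rw [heckeBetaBar_jDiv, ← jDiv_self L (N * q)]
    exact jDiv_congr (mul_comm q N)

set_option synthInstance.maxHeartbeats 100000 in
theorem finrank_heckeAlphaBar {c : ℕ} (h : dedekindPsi (N * q) = dedekindPsi N * c) :
    letI := (heckeAlphaBar L N q).toRingHom.toAlgebra
    Module.finrank (laurentBaseChange L (modularFunctionFieldFull N))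
      (laurentBaseChange L (modularFunctionFieldFull (N * q))) = c :=
  finrank_along (heckeAlphaBar L N q) (jElem L N) heckeAlphaBar_jElem
    (dedekindPsi_pos (N := N)).ne' (finrank_adjoin_jElem L N) (finrank_adjoin_jElem L (N * q)) h

end levels

section basechange

variable (K L : Type*) [Field K] [Algebra ℚ K] [Field L] [Algebra ℚ L] [Algebra K L]
  (F₀ : IntermediateField ℚ (LaurentSeries ℚ))

theorem coeffMap_mem_baseChange {x : LaurentSeries K} (hx : x ∈ laurentBaseChange K F₀) :
    coeffMap (algebraMap K L) x ∈ laurentBaseChange L F₀ := by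
  rw [mem_laurentBaseChange_iff] at hx
  induction hx using Subfield.closure_induction with
  | mem y hy =>
    rcases hy with ⟨a, rfl⟩ | ⟨z, hz, rfl⟩
    · rw [algebraMap_laurentSeries_eq_single, coeffMap_single,
        ← algebraMap_laurentSeries_eq_single]
      exact (laurentBaseChange L F₀).algebraMap_mem _
    · rw [coeffMap_coeffEmb']
      exact coeffEmb_mem_laurentBaseChange L hz
  | one => simp
  | add x y _ _ hx hy => rw [map_add]; exact add_mem hx hy
  | neg x _ hx => rw [map_neg]; exact neg_mem hx
  | inv x _ hx => rw [map_inv₀]; exact inv_mem hx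
  | mul x y _ _ hx hy => rw [map_mul]; exact mul_mem hx hy

/-- Extension of constants. -/
def baseEmb : laurentBaseChange K F₀ →+* laurentBaseChange L F₀ :=
  ((coeffMap (algebraMap K L)).comp (laurentBaseChange K F₀).val.toRingHom).codRestrict
    (laurentBaseChange L F₀) fun x => coeffMap_mem_baseChange K L F₀ x.2

@[simp] theorem coe_baseEmb (x : laurentBaseChange K F₀) :
    (baseEmb K L F₀ x : LaurentSeries L) = coeffMap (algebraMap K L) (x : LaurentSeries K) := rfl

theorem baseEmb_algebraMap (c : K) :
    baseEmb K L F₀ (algebraMap K _ c) = algebraMap L _ (algebraMap K L c) := by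
  apply Subtype.ext
  show coeffMap (algebraMap K L) (algebraMap K (LaurentSeries K) c) =
    algebraMap L (LaurentSeries L) (algebraMap K L c)
  rw [algebraMap_laurentSeries_eq_single, coeffMap_single, algebraMap_laurentSeries_eq_single]

theorem baseEmb_jDiv (M : ℕ) [NeZero M] (d : {d : ℕ // d ∣ M}) :
    baseEmb K L (modularFunctionFieldFull M) (jDiv K M d) = jDiv L M d :=
  Subtype.ext (coeffMap_coeffEmb' _ _)

end basechange

section integral

variable {L : Type*} [Field L] [Algebra ℚ L] (A : ValuationSubring L)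

theorem coeffEmb_qExpand_jq_eq_latVal (d : ℕ) [NeZero d] :
    coeffEmb L (qExpand ℚ d jq) = latVal A (qExpand A d (jqModC A)) := by
  rw [latVal, coeffMap_qExpand, coeffMap_jqModC, coeffEmb_qExpand, coeffEmb, ← jqModC_rat,
    coeffMap_jqModC]

theorem coeffEmb_qExpand_jq_mem_gaussInt {k : Type*} [Field k] (π : A →+* k) (d : ℕ) [NeZero d] :
    coeffEmb L (qExpand ℚ d jq) ∈ gaussInt π := by
  rw [coeffEmb_qExpand_jq_eq_latVal A d]
  exact latVal_mem_gaussInt _

end integral

section tower

variable (N q : ℕ) [NeZero N] [NeZero q] (hq : q.Prime) (hqN : ¬ q ∣ N)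

omit [NeZero N] [NeZero q] in
theorem towerLevel_one : N * q = N * q ^ 1 := by rw [pow_one]

omit [NeZero N] [NeZero q] in
theorem towerLevel_two : N * q * q = N * q ^ 2 := by ring

variable (K : Type*) [Field K] [Algebra ℚ K]

/-- The Atkin–Lehner involution of level `N q`. -/
def towerW₁ := (exists_atkinLehner (L := K) hq hqN (towerLevel_one N q)).choose

/-- The Atkin–Lehner involution of level `N q²`. -/
def towerW₂ := (exists_atkinLehner (L := K) hq hqN (towerLevel_two N q)).choose

variable {N q}

theorem towerW₁_jDiv {d i : ℕ} (hd : d ∣ N) (hi : i ≤ 1) (e : {e : ℕ // e ∣ N * q})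
    (he : e.1 = d * q ^ i) :
    towerW₁ N q hq hqN K (jDiv K (N * q) e) =
      jDiv K (N * q) ⟨d * q ^ (1 - i),
        mul_dvd_mul hd ((pow_dvd_pow q (Nat.sub_le 1 i)).trans (pow_one q).dvd)⟩ :=
  ((exists_atkinLehner hq hqN (towerLevel_one N q)).choose_spec.1 e).trans
    (jDiv_congr (alSub_eq hq hqN _ e hd hi he))

theorem towerW₂_jDiv {d i : ℕ} (hd : d ∣ N) (hi : i ≤ 2) (e : {e : ℕ // e ∣ N * q * q})
    (he : e.1 = d * q ^ i) :
    towerW₂ N q hq hqN K (jDiv K (N * q * q) e) =
      jDiv K (N * q * q) ⟨d * q ^ (2 - i),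
        (mul_dvd_mul hd (pow_dvd_pow q (Nat.sub_le 2 i))).trans (towerLevel_two N q).symm.dvd⟩ :=
  ((exists_atkinLehner hq hqN (towerLevel_two N q)).choose_spec.1 e).trans
    (jDiv_congr (alSub_eq hq hqN _ e hd hi he))

set_option synthInstance.maxHeartbeats 100000 in
theorem towerW₁_alpha (x : laurentBaseChange K (modularFunctionFieldFull N)) :
    towerW₁ N q hq hqN K (heckeAlphaBar K N q x) = heckeBetaBar K N q x := by
  refine AlgHom.congr_fun (algHom_ext_jDiv
    (f := (towerW₁ N q hq hqN K).toAlgHom.comp (heckeAlphaBar K N q))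
    (g := heckeBetaBar K N q) fun d => ?_) x
  show towerW₁ N q hq hqN K (heckeAlphaBar K N q (jDiv K N d)) = _
  rw [heckeAlphaBar_jDiv, heckeBetaBar_jDiv,
    towerW₁_jDiv hq hqN K d.2 (Nat.zero_le 1) _ (by rw [pow_zero, mul_one])]
  refine jDiv_congr ?_
  show d.1 * q ^ (1 - 0) = q * d.1
  rw [pow_one, mul_comm]

set_option synthInstance.maxHeartbeats 100000 in
theorem towerW₂_alpha (y : laurentBaseChange K (modularFunctionFieldFull (N * q))) :
    towerW₂ N q hq hqN K (heckeAlphaBar K (N * q) q y) =
      heckeBetaBar K (N * q) q (towerW₁ N q hq hqN K y) := by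
  refine AlgHom.congr_fun (algHom_ext_jDiv
    (f := (towerW₂ N q hq hqN K).toAlgHom.comp (heckeAlphaBar K (N * q) q))
    (g := (heckeBetaBar K (N * q) q).comp (towerW₁ N q hq hqN K).toAlgHom) fun e => ?_) y
  obtain ⟨d, i, hd, hi, he⟩ := exists_divisor_split (k := 1) hq (e.2.trans (towerLevel_one N q).dvd)
  show towerW₂ N q hq hqN K (heckeAlphaBar K (N * q) q (jDiv K (N * q) e)) =
    heckeBetaBar K (N * q) q (towerW₁ N q hq hqN K (jDiv K (N * q) e))
  rw [heckeAlphaBar_jDiv, towerW₂_jDiv hq hqN K hd (hi.trans one_le_two) _ he,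
    towerW₁_jDiv hq hqN K hd hi e he, heckeBetaBar_jDiv]
  refine jDiv_congr ?_
  show d * q ^ (2 - i) = q * (d * q ^ (1 - i))
  rw [show 2 - i = 1 - i + 1 by omega, pow_succ]
  ring

theorem heckeBetaBar_comm (x : laurentBaseChange K (modularFunctionFieldFull N)) :
    heckeBetaBar K (N * q) q (heckeAlphaBar K N q x) =
      heckeAlphaBar K (N * q) q (heckeBetaBar K N q x) := by
  apply Subtype.ext
  rw [coe_heckeBetaBar, coe_heckeAlphaBar, coe_heckeAlphaBar, coe_heckeBetaBar]

variable (N q) (L : Type*) [Field L] [Algebra ℚ L] [Algebra K L]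

/-- The expansion at `∞`. -/
def towerEps : laurentBaseChange K (modularFunctionFieldFull (N * q * q)) →+* LaurentSeries L :=
  (laurentBaseChange L (modularFunctionFieldFull (N * q * q))).val.toRingHom.comp
    (baseEmb K L (modularFunctionFieldFull (N * q * q)))

variable {L} (w : Lˣ) (hw : IsPrimitiveRoot (w : L) q)

/-- The expansion at the cusp `1 / (N q)`. -/
def towerEpsb : laurentBaseChange K (modularFunctionFieldFull (N * q * q)) →+* LaurentSeries L :=
  (exists_middleSheet hq hqN rfl hw).choose.toRingHom.comp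
    (baseEmb K L (modularFunctionFieldFull (N * q * q)))

variable {N q}

set_option synthInstance.maxHeartbeats 100000 in
theorem towerEpsb_alpha (y : laurentBaseChange K (modularFunctionFieldFull (N * q))) :
    towerEpsb N q hq hqN K w hw (heckeAlphaBar K (N * q) q y) =
      towerEps N q K L (heckeAlphaBar K (N * q) q y) := by
  revert y
  refine induction_jDiv (fun c => ?_) (fun e => ?_)
    (fun x y hx hy => by simp only [map_add, hx, hy])
    (fun x hx => by simp only [map_inv₀, hx])
    (fun x y hx hy => by simp only [map_mul, hx, hy])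
  · rw [AlgHom.commutes, towerEpsb, towerEps, RingHom.comp_apply, RingHom.comp_apply,
      baseEmb_algebraMap]
    exact AlgHom.commutes _ _
  · rw [heckeAlphaBar_jDiv, towerEpsb, towerEps, RingHom.comp_apply, RingHom.comp_apply,
      baseEmb_jDiv]
    refine (exists_middleSheet hq hqN rfl hw).choose_spec.1 _ fun h => hqN ?_
    have h1 : q * q ∣ q * N := (h.trans e.2).trans (dvd_of_eq (mul_comm N q))
    exact (Nat.mul_dvd_mul_iff_left hq.pos).mp h1

set_option synthInstance.maxHeartbeats 100000 in
theorem towerEpsb_beta (x : laurentBaseChange K (modularFunctionFieldFull N)) :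
    towerEpsb N q hq hqN K w hw (heckeBetaBar K (N * q) q (heckeBetaBar K N q x)) =
      monoNewScale w (towerEps N q K L (heckeAlphaBar K (N * q) q (heckeAlphaBar K N q x))) := by
  revert x
  refine induction_jDiv (fun c => ?_) (fun d => ?_)
    (fun x y hx hy => by simp only [map_add, hx, hy])
    (fun x hx => by simp only [map_inv₀, hx])
    (fun x y hx hy => by simp only [map_mul, hx, hy])
  · simp only [AlgHom.commutes, towerEpsb, towerEps, RingHom.comp_apply, baseEmb_algebraMap]
    refine (AlgHom.commutes _ _).trans ?_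
    show algebraMap L (LaurentSeries L) _ = monoNewScale w (algebraMap L (LaurentSeries L) _)
    rw [algebraMap_laurentSeries_eq_single]
    ext n
    rw [monoNewScale_coeff]
    rcases eq_or_ne n 0 with rfl | hn
    · simp
    · simp [HahnSeries.coeff_single_of_ne hn]
  · have : NeZero d.1 := neZero_divisor N d
    have hdvd : q * q * d.1 ∣ N * q * q :=
      (mul_dvd_mul_left _ d.2).trans (dvd_of_eq (by ring))
    simp only [heckeBetaBar_jDiv, heckeAlphaBar_jDiv, towerEpsb, towerEps, RingHom.comp_apply,
      baseEmb_jDiv]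
    rw [jDiv_congr (e := (⟨q * q * d.1, hdvd⟩ : {e : ℕ // e ∣ N * q * q})) (mul_assoc q q d.1).symm]
    exact (exists_middleSheet hq hqN rfl hw).choose_spec.2 d.1 hdvd

omit hq hqN in
theorem towerEps_beta (y : laurentBaseChange K (modularFunctionFieldFull (N * q))) :
    towerEps N q K L (heckeBetaBar K (N * q) q y) =
      qExpand L q (towerEps N q K L (heckeAlphaBar K (N * q) q y)) := by
  simp only [towerEps, RingHom.comp_apply]
  show (baseEmb K L _ _ : LaurentSeries L) = qExpand L q (baseEmb K L _ _ : LaurentSeries L)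
  rw [coe_baseEmb, coe_baseEmb, coe_heckeBetaBar, coe_heckeAlphaBar, coeffMap_qExpand]

omit hq hqN in
set_option synthInstance.maxHeartbeats 100000 in
theorem towerEps_bounded (A : ValuationSubring L)
    (y : laurentBaseChange K (modularFunctionFieldFull (N * q * q))) :
    towerEps N q K L y ∈ gaussField A := by
  refine induction_jDiv (p := fun y => towerEps N q K L y ∈ gaussField A) (fun c => ?_) (fun e => ?_)
    (fun x y hx hy => by simp only [map_add]; exact add_mem hx hy)
    (fun x hx => by simp only [map_inv₀]; exact inv_mem hx)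
    (fun x y hx hy => by simp only [map_mul]; exact mul_mem hx hy) y
  · simp only [towerEps, RingHom.comp_apply, baseEmb_algebraMap]
    exact (gaussField A).algebraMap_mem _
  · simp only [towerEps, RingHom.comp_apply, baseEmb_jDiv]
    show coeffEmb L (qExpand ℚ e.1 jq) ∈ gaussField A
    exact gaussInt_le_gaussField (coeffEmb_qExpand_jq_mem_gaussInt A (IsLocalRing.residue A) e.1)

set_option synthInstance.maxHeartbeats 100000 in
theorem towerEpsb_bounded (A : ValuationSubring L) (ζ : Aˣ)
    (hζ : Units.map (A.subtype : A →* L) ζ = w)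
    (y : laurentBaseChange K (modularFunctionFieldFull (N * q * q))) :
    towerEpsb N q hq hqN K w hw y ∈ gaussField A := by
  refine induction_jDiv (p := fun y => towerEpsb N q hq hqN K w hw y ∈ gaussField A)
    (fun c => ?_) (fun e => ?_)
    (fun x y hx hy => by simp only [map_add]; exact add_mem hx hy)
    (fun x hx => by simp only [map_inv₀]; exact inv_mem hx)
    (fun x y hx hy => by simp only [map_mul]; exact mul_mem hx hy) y
  · simp only [towerEpsb, RingHom.comp_apply, baseEmb_algebraMap]
    exact (congrArg (· ∈ gaussField A) (AlgHom.commutes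
      (exists_middleSheet (L := L) hq hqN (M := N * q * q) rfl hw).choose
      (algebraMap K L c))).mpr ((gaussField A).algebraMap_mem _)
  · simp only [towerEpsb, RingHom.comp_apply, baseEmb_jDiv]
    have hspec := (exists_middleSheet (L := L) hq hqN (M := N * q * q) rfl hw).choose_spec
    by_cases h : q * q ∣ e.1
    · have hne : NeZero (e.1 / (q * q)) :=
        ⟨fun h0 => NeZero.ne e.1 (by rw [← Nat.div_mul_cancel h, h0, zero_mul])⟩
      have hdvd : q * q * (e.1 / (q * q)) ∣ N * q * q := (Nat.mul_div_cancel' h).dvd.trans e.2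
      rw [jDiv_congr (e := (⟨_, hdvd⟩ : {e : ℕ // e ∣ N * q * q})) (Nat.mul_div_cancel' h).symm]
      show (exists_middleSheet hq hqN rfl hw).choose.toRingHom _ ∈ gaussField A
      refine (hspec.2 _ hdvd).symm ▸ ?_
      rw [coeffEmb_qExpand_jq_eq_latVal A (e.1 / (q * q)), ← hζ]
      have : monoNewScale (Units.map (A.subtype : A →* L) ζ)
          (latVal A (qExpand A (e.1 / (q * q)) (jqModC A))) =
          latVal A (monoNewScale ζ (qExpand A (e.1 / (q * q)) (jqModC A))) :=
        (coeffMap_monoNewScale _ ζ _).symm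
      rw [this]
      exact gaussInt_le_gaussField (latVal_mem_gaussInt (π := IsLocalRing.residue A) _)
    · refine (hspec.1 e h).symm ▸ ?_
      exact gaussInt_le_gaussField (coeffEmb_qExpand_jq_mem_gaussInt A (IsLocalRing.residue A) e.1)

end tower

end FermatLib.Igusa.Carayol

end
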