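import Fermat.Agent.Igusa.Carayol.LevelIntegrality
import Fermat.Agent.Igusa.Carayol.LevelTransfer
import Fermat.Agent.Igusa.Carayol.TowerModularBase
import Fermat.Agent.Igusa.Carayol.TowerModularMaps

/-!
The modular tower `X₀(N q²) → X₀(N q) → X₀(N)` over the inertia field at `q`.
-/

set_option autoImplicit false

noncomputable section

open ModularCurve

namespace FermatLib.Igusa.Carayol

open FermatLib.Modular

local notation "Qbar" => AlgebraicClosure ℚ

section content

variable {q : ℕ} [NeZero q] (hq : q.Prime) {A : ValuationSubring Qbar} (hA : A.LiesOverPrime q)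

/-- The valuation ring of the inertia field. -/
abbrev inertiaRing (A : ValuationSubring Qbar) (q : ℕ) [NeZero q] :
    ValuationSubring (MazurP.inertiaField A) :=
  (zetaRing A q).comap (algebraMap (MazurP.inertiaField A) (zetaField A q))

include hq hA in
theorem isDiscreteValuationRing_inertiaRing : IsDiscreteValuationRing (inertiaRing A q) := by
  have hq0 := Galois.Flat.valuation_prime_ne_zero (A := A) hq
  refine IsDiscreteValuationRing.ofHasUnitMulPowIrreducibleFactorization
    ⟨(q : inertiaRing A q), irreducible_natCast hq hA, fun {x} hx => ?_⟩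
  have hx0 : (x : MazurP.inertiaField A) ≠ 0 := fun e => hx (Subtype.ext e)
  obtain ⟨i, hi⟩ := valuation_natCast_pow_unit hq hA hx0
  have hi0 : 0 ≤ i := (Galois.Flat.valuation_zpow_le_zpow_iff hq hA).mp (by
    rw [zpow_zero, ← hi]; exact (A.valuation_le_one_iff _).mpr x.2)
  lift i to ℕ using hi0
  rw [zpow_natCast] at hi
  have hval : A.valuation (((x : MazurP.inertiaField A) : Qbar) / (q : Qbar) ^ i) = 1 := by
    rw [map_div₀, map_pow, hi, div_self (pow_ne_zero _ hq0)]
  have hz : A.valuation ((q : Qbar) ^ i / ((x : MazurP.inertiaField A) : Qbar)) = 1 := by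
    rw [← inv_div, map_inv₀, hval, inv_one]
  have hmem : ∀ z : MazurP.inertiaField A, A.valuation (z : Qbar) = 1 → z ∈ inertiaRing A q :=
    fun z h => show (z : Qbar) ∈ A from (A.valuation_le_one_iff _).mp h.le
  let e : inertiaRing A q := ⟨(x : MazurP.inertiaField A) / (q : MazurP.inertiaField A) ^ i,
    hmem _ (by simpa using hval)⟩
  let e' : inertiaRing A q := ⟨(q : MazurP.inertiaField A) ^ i / (x : MazurP.inertiaField A),
    hmem _ (by simpa using hz)⟩
  have hqK : ((q : MazurP.inertiaField A)) ^ i ≠ 0 := pow_ne_zero _ (Nat.cast_ne_zero.mpr hq.ne_zero)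
  have he : e * e' = 1 := Subtype.ext (by
    show ((x : MazurP.inertiaField A) / _) * (_ / (x : MazurP.inertiaField A)) = 1
    field_simp)
  refine ⟨i, ⟨Units.mkOfMulEqOne e e' he, Subtype.ext ?_⟩⟩
  show (((q : inertiaRing A q) ^ i : inertiaRing A q) : MazurP.inertiaField A) *
    ((x : MazurP.inertiaField A) / (q : MazurP.inertiaField A) ^ i) = x
  push_cast
  field_simp

include hq hA in
theorem gaussInt_content {f : LaurentSeries (MazurP.inertiaField A)}
    (hf : f ∈ gaussField (inertiaRing A q)) (hf0 : f ≠ 0) :
    ∃ n : ℤ, algebraMap (zetaField A q) (LaurentSeries (zetaField A q))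
          ((q : zetaField A q) ^ n) * coeffMap (algebraMap _ (zetaField A q)) f
        ∈ gaussInt (zetaRed A q) ∧
      gred (zetaRed A q) (algebraMap (zetaField A q) (LaurentSeries (zetaField A q))
          ((q : zetaField A q) ^ n) * coeffMap (algebraMap _ (zetaField A q)) f) ≠ 0 := by
  have := isDiscreteValuationRing_inertiaRing hq hA
  let i := algebraMap (MazurP.inertiaField A) (zetaField A q)
  let π := comapRed (MazurP.inertiaField A) (zetaRing A q) (zetaRed A q)
  have hπ : ∀ a : inertiaRing A q, π a = 0 ↔ ¬ IsUnit a := by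
    intro a
    show zetaRed A q ⟨i a, a.2⟩ = 0 ↔ _
    rw [zetaRed_eq_zero, not_iff_not]
    refine ⟨fun h => ?_, fun h => h.map (comapIncl (MazurP.inertiaField A) (zetaRing A q))⟩
    obtain ⟨b, hb⟩ := isUnit_iff_exists_inv.mp h
    have ha0 : (a : MazurP.inertiaField A) ≠ 0 := fun e => by
      simpa [e] using congrArg Subtype.val hb
    have hb' : (b : zetaField A q) = (i a)⁻¹ :=
      eq_inv_of_mul_eq_one_right (congrArg Subtype.val hb)
    refine IsUnit.of_mul_eq_one (⟨(a : MazurP.inertiaField A)⁻¹, ?_⟩ : inertiaRing A q)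
      (Subtype.ext (mul_inv_cancel₀ ha0))
    show i (a : MazurP.inertiaField A)⁻¹ ∈ zetaRing A q
    rw [map_inv₀, ← hb']
    exact b.2
  obtain ⟨n, hn, hn0⟩ := exists_zpow_mul_gred_ne_zero hπ (irreducible_natCast hq hA) hf hf0
  obtain ⟨h1, h2⟩ := coeffMap_mem_gaussInt (π := π) (π' := zetaRed A q) i
    (comapIncl (MazurP.inertiaField A) (zetaRing A q)) (fun _ => rfl) (RingHom.id _)
    (fun _ => rfl) hn
  have e : coeffMap i (algebraMap (MazurP.inertiaField A) (LaurentSeries (MazurP.inertiaField A))
      (((q : inertiaRing A q) : MazurP.inertiaField A) ^ n) * f) =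
      algebraMap (zetaField A q) (LaurentSeries (zetaField A q)) ((q : zetaField A q) ^ n) *
        coeffMap i f := by
    rw [map_mul, coeffMap_const, map_zpow₀]
    norm_num
  rw [e] at h1 h2
  rw [coeffMap_id] at h2
  exact ⟨n, h1, h2 ▸ hn0⟩

theorem coeffMap_towerEps_self (K : Type*) [Field K] [Algebra ℚ K] (N : ℕ) [NeZero N]
    (y : laurentBaseChange K (modularFunctionFieldFull (N * q * q))) :
    towerEps N q K K y = (y : LaurentSeries K) := by
  show coeffMap (algebraMap K K) (y : LaurentSeries K) = _
  rw [Algebra.algebraMap_self, coeffMap_id]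

include hq hA in
theorem towerEps_content (N : ℕ) [NeZero N]
    (y : laurentBaseChange (MazurP.inertiaField A) (modularFunctionFieldFull (N * q * q)))
    (hy : y ≠ 0) :
    ∃ n : ℤ, algebraMap (zetaField A q) (LaurentSeries (zetaField A q))
          ((q : zetaField A q) ^ n) * towerEps N q (MazurP.inertiaField A) (zetaField A q) y
        ∈ gaussInt (zetaRed A q) ∧
      gred (zetaRed A q) (algebraMap (zetaField A q) (LaurentSeries (zetaField A q))
          ((q : zetaField A q) ^ n) * towerEps N q (MazurP.inertiaField A) (zetaField A q) y) ≠ 0 := by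
  refine gaussInt_content hq hA (f := (y : LaurentSeries (MazurP.inertiaField A))) ?_
    (fun h => hy (Subtype.ext h))
  rw [← coeffMap_towerEps_self (q := q)]
  exact towerEps_bounded _ _ y

end content

section main

variable (N q : ℕ) [NeZero N] [NeZero q] (hq : q.Prime) (hqN : ¬ q ∣ N)
  (A : ValuationSubring Qbar) (hA : A.LiesOverPrime q)

set_option synthInstance.maxHeartbeats 100000 in
/-- **The modular tower.** -/
def modularTower : Tower q :=
  { K := MazurP.inertiaField A
    L := zetaField A q
    k := IsLocalRing.ResidueField A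
    charZeroK := (modularBase (A := A) (q := q) hq hA).charZeroK
    algClosed := (modularBase (A := A) (q := q) hq hA).algClosed
    charP := charP_residue hq hA
    prime := hq
    A := zetaRing A q
    dvrA := (modularBase (A := A) (q := q) hq hA).dvrA
    π := zetaRed A q
    π_eq_zero := zetaRed_eq_zero
    π_surjective := (modularBase (A := A) (q := q) hq hA).π_surjective
    irreducible_q := irreducible_natCast hq hA
    ζ := zetaUnit A
    ζ_primitive := (modularBase (A := A) (q := q) hq hA).ζ_primitive
    π_ζ := zetaRed_zetaUnit hq hA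
    ram := fun _ ha => natCast_dvd_pow hq hA ha
    exists_conj := (modularBase (A := A) (q := q) hq hA).exists_conj
    algebraic_k := residue_pow_pow_eq hq hA
    F₀ := laurentBaseChange (MazurP.inertiaField A) (modularFunctionFieldFull N)
    F₁ := laurentBaseChange (MazurP.inertiaField A) (modularFunctionFieldFull (N * q))
    F₂ := laurentBaseChange (MazurP.inertiaField A) (modularFunctionFieldFull (N * q * q))
    ι₀ := heckeAlphaBar (MazurP.inertiaField A) N q
    β₀ := heckeBetaBar (MazurP.inertiaField A) N q
    ι₁ := heckeAlphaBar (MazurP.inertiaField A) (N * q) q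
    β₁ := heckeBetaBar (MazurP.inertiaField A) (N * q) q
    comm := heckeBetaBar_comm _
    w₁ := towerW₁ N q hq hqN (MazurP.inertiaField A)
    w₁_ι₀ := towerW₁_alpha hq hqN _
    w₁_w₁ := (exists_atkinLehner hq hqN (towerLevel_one N q)).choose_spec.2
    w₂ := towerW₂ N q hq hqN (MazurP.inertiaField A)
    w₂_ι₁ := towerW₂_alpha hq hqN _
    w₂_w₂ := (exists_atkinLehner hq hqN (towerLevel_two N q)).choose_spec.2
    ε := towerEps N q (MazurP.inertiaField A) (zetaField A q)
    εb := towerEpsb N q hq hqN (MazurP.inertiaField A)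
      (Units.map ((zetaRing A q).subtype : zetaRing A q →* zetaField A q) (zetaUnit A))
      ((modularBase (A := A) (q := q) hq hA).ζ_primitive)
    ε_algebraMap := fun c => congrArg Subtype.val (baseEmb_algebraMap _ _ _ c)
    ε_rat := fun y n => ⟨_, rfl⟩
    ε_content := towerEps_content hq hA N
    ε_bounded := towerEps_bounded _ _
    εb_bounded := towerEpsb_bounded hq hqN _ _ _ _ (zetaUnit A) rfl
    ε_β₁ := towerEps_beta _
    εb_ι₁ := towerEpsb_alpha hq hqN _ _ _
    εb_β := towerEpsb_beta hq hqN _ _ _
    finrank₀ := finrank_heckeAlphaBar (L := MazurP.inertiaField A) (N := N) (q := q) (c := q + 1) (by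
      rw [Corr.dedekindPsi_mul_prime N hq, if_neg hqN, mul_comm])
    finrank₁ := finrank_heckeAlphaBar (L := MazurP.inertiaField A) (N := N * q) (q := q) (c := q) (by
      rw [Corr.dedekindPsi_mul_prime (N * q) hq, if_pos (dvd_mul_left q N), mul_comm])
    adjoin₁ := adjoin_alpha_beta_eq_top (L := MazurP.inertiaField A) (N := N) (q := q)
    adjoin₂ := adjoin_alpha_beta_eq_top (L := MazurP.inertiaField A) (N := N * q) (q := q)
    j := jElem (MazurP.inertiaField A) N
    transcendental_j := transcendental_jElem _ N
    finite_j := finiteDimensional_adjoin_jElem _ N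
    j_coeff := by
      show ((coeffMap (algebraMap (MazurP.inertiaField A) (zetaField A q))
        (coeffEmb (MazurP.inertiaField A) jq)).coeff (-1)) = 1
      rw [coeffMap_coeffEmb', coeffEmb, ← jqModC_rat, coeffMap_jqModC]
      exact coeff_jqModC_neg_one _
    j_int := fun i => by
      show (coeffMap (algebraMap (MazurP.inertiaField A) (zetaField A q))
        (coeffEmb (MazurP.inertiaField A) jq)).coeff i ∈ _
      rw [coeffMap_coeffEmb', coeffEmb_jq_eq]
      exact ⟨(jqModC ℤ).coeff i, rfl⟩ }

end main

end FermatLib.Igusa.Carayol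

end
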