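import Mathlib
import Fermat.Agent.Igusa.Carayol.LevelOneBasic

/-!
The ratio `j(qτ)/j(τ)^q` on the chart at infinity of level `N q`: integrality from the degree
bounds of the modular polynomial and approximation by polynomials in `1/j` congruent to one.
-/

set_option autoImplicit false
set_option linter.style.haveILetI false
set_option maxHeartbeats 400000
set_option synthInstance.maxHeartbeats 100000

noncomputable section

open ModularCurve FermatLib.Igusa

namespace FermatLib.Igusa.Carayol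

open Polynomial in
/-- Newton approximation of a simple root congruent to one, modulo powers of `(q, X)`. -/
theorem exists_approx_root (q : ℕ) (Ψ : Polynomial (Polynomial ℤ))
    (h1 : C (q : ℤ) ∣ Ψ.eval 1)
    (h2 : Ψ.derivative.eval 1 - 1 ∈ Ideal.span {C (q : ℤ), (X : Polynomial ℤ)}) (n : ℕ) :
    ∃ g : Polynomial ℤ, C (q : ℤ) ∣ g - 1 ∧ C (q : ℤ) ∣ Ψ.eval g ∧
      Ψ.eval g ∈ Ideal.span {C (q : ℤ), (X : Polynomial ℤ)} ^ n := by
  set I := Ideal.span {C (q : ℤ), (X : Polynomial ℤ)}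
  have hqI : C (q : ℤ) ∈ I := Ideal.subset_span (by simp)
  induction n with
  | zero => exact ⟨1, by simp, h1, by simp⟩
  | succ n ih =>
    obtain ⟨g, hg1, hgq, hgn⟩ := ih
    rcases n with _ | m
    · exact ⟨g, hg1, hgq, by
        rw [zero_add, pow_one]
        exact I.mem_of_dvd hgq hqI⟩
    obtain ⟨k, hk⟩ := Polynomial.binomExpansion Ψ g (-(Ψ.eval g))
    have hder : Ψ.derivative.eval g - 1 ∈ I := by
      have h := I.mem_of_dvd (hg1.trans (Polynomial.sub_dvd_eval_sub g 1 Ψ.derivative)) hqI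
      simpa using I.add_mem h h2
    refine ⟨g + -(Ψ.eval g), ?_, ?_, ?_⟩
    · rw [add_sub_right_comm]; exact dvd_add hg1 (dvd_neg.mpr hgq)
    · rw [hk]
      exact dvd_add (dvd_add hgq (dvd_mul_of_dvd_right (dvd_neg.mpr hgq) _))
        (dvd_mul_of_dvd_right (dvd_pow (dvd_neg.mpr hgq) two_ne_zero) _)
    · rw [hk, show Ψ.eval g + Ψ.derivative.eval g * -(Ψ.eval g) + k * (-(Ψ.eval g)) ^ 2 =
        (1 - Ψ.derivative.eval g) * Ψ.eval g + k * Ψ.eval g * Ψ.eval g by ring, pow_succ' I (m + 1)]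
      refine Ideal.add_mem _ (Ideal.mul_mem_mul (by simpa using I.neg_mem hder) hgn)
        (Ideal.mul_mem_mul (I.mul_mem_left _ ?_) hgn)
      exact I.mem_of_dvd hgq hqI

/-- Reversal of the coefficients of a polynomial in two variables of bidegree `(q (q + 1), q + 1)`
along `(J, X) ↦ (1/J, X/J^q)`. -/
def cuspRev (q : ℕ) : Polynomial (Polynomial ℤ) →+ Polynomial (Polynomial ℤ) where
  toFun Φ := ∑ i ∈ Finset.range (q + 2),
    Polynomial.C (Polynomial.reflect (q * (q + 1) - q * i) (Φ.coeff i)) * Polynomial.X ^ i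
  map_zero' := by simp
  map_add' Φ Φ' := by
    simp only [Polynomial.coeff_add, Polynomial.reflect_add, map_add, add_mul,
      Finset.sum_add_distrib]

theorem cuspRev_apply (q : ℕ) (Φ : Polynomial (Polynomial ℤ)) :
    cuspRev q Φ = ∑ i ∈ Finset.range (q + 2),
      Polynomial.C (Polynomial.reflect (q * (q + 1) - q * i) (Φ.coeff i)) * Polynomial.X ^ i := rfl

theorem cuspRev_C_mul_X_pow (q : ℕ) (c : Polynomial ℤ) {i : ℕ} (hi : i ≤ q + 1) :
    cuspRev q (Polynomial.C c * Polynomial.X ^ i) =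
      Polynomial.C (Polynomial.reflect (q * (q + 1) - q * i) c) * Polynomial.X ^ i := by
  rw [cuspRev_apply, Finset.sum_eq_single i]
  · simp
  · intro j _ hj
    simp [Polynomial.coeff_X_pow, hj, Polynomial.coeff_C_mul]
  · intro h
    exact absurd (Finset.mem_range.mpr (by omega)) h

open Polynomial in
theorem cuspRev_congr (q : ℕ) (hq : 2 ≤ q) (Φ : Polynomial (Polynomial ℤ))
    (h : C (C (q : ℤ)) ∣ Φ - (X - C (X ^ q)) * (X ^ q - C X)) :
    C (C (q : ℤ)) ∣ cuspRev q Φ -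
      (X ^ (q + 1) - X ^ q - C (X ^ (q * q - 1)) * X + C (X ^ (q * q - 1))) := by
  obtain ⟨H, hH⟩ := h
  have hC : cuspRev q (C (C (q : ℤ)) * H) = C (C (q : ℤ)) * cuspRev q H := by
    simp only [cuspRev_apply, Finset.mul_sum, coeff_C_mul, reflect_C_mul, map_mul, mul_assoc]
  have hdec : Φ = C 1 * X ^ (q + 1) + C (-(X ^ q)) * X ^ q + C (-X) * X ^ 1 +
      C (X ^ (q + 1)) * X ^ 0 + C (C (q : ℤ)) * H := by
    rw [← hH]
    simp only [map_neg, map_one, pow_succ, map_mul]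
    ring
  refine ⟨cuspRev q H, ?_⟩
  have n1 : q * (q + 1) - q * (q + 1) = 0 := Nat.sub_self _
  have n2 : q * (q + 1) - q * q = q := by rw [mul_add, mul_one, Nat.add_sub_cancel_left]
  have n3 : q * (q + 1) - q * 1 = q * q := by rw [mul_add, mul_one, Nat.add_sub_cancel]
  have n4 : q + 1 ≤ q * (q + 1) := Nat.le_mul_of_pos_left _ (by omega)
  have n5 : q * (q + 1) - (q + 1) = q * q - 1 := by rw [mul_add, mul_one]; omega
  have r1 : reflect 0 (1 : Polynomial ℤ) = 1 := by rw [← C_1, reflect_C, pow_zero, mul_one]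
  have r2 : reflect q ((X : Polynomial ℤ) ^ q) = 1 := by
    rw [reflect_monomial, revAt_le le_rfl, Nat.sub_self, pow_zero]
  have r3 : reflect (q * q) (X : Polynomial ℤ) = X ^ (q * q - 1) := by
    rw [← pow_one (X : Polynomial ℤ), reflect_monomial, revAt_le (by nlinarith), pow_one]
  have r4 : reflect (q * (q + 1)) ((X : Polynomial ℤ) ^ (q + 1)) = X ^ (q * q - 1) := by
    rw [reflect_monomial, revAt_le n4, n5]
  conv_lhs => rw [hdec]
  simp only [map_add, hC, cuspRev_C_mul_X_pow q _ le_rfl,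
    cuspRev_C_mul_X_pow q _ (Nat.le_succ q), cuspRev_C_mul_X_pow q _ (show 1 ≤ q + 1 by omega),
    cuspRev_C_mul_X_pow q _ (Nat.zero_le (q + 1)), n1, n2, n3, Nat.mul_zero, Nat.sub_zero]
  have rn : ∀ (N : ℕ) (p : Polynomial ℤ), reflect N (-p) = -reflect N p := fun N p => by
    rw [eq_neg_iff_add_eq_zero, ← reflect_add, neg_add_cancel, reflect_zero]
  rw [r1, rn, rn, r2, r3, r4]
  simp only [map_neg, map_one, pow_one, pow_zero, mul_one, one_mul]
  ring

namespace Tower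

variable {q : ℕ} [NeZero q] {T : Tower q} {t : T.F₀}

theorem mem_chart₁_of_isIntegral {a : T.F₁}
    (h : IsIntegral (integralClosure (Algebra.adjoin T.W {T.ι₀ t}) T.F₁) a) : a ∈ T.chart₁ t :=
  isIntegral_trans (R := Algebra.adjoin T.W {T.ι₀ t}) a h

theorem mem_chart₁_of_monic {a : T.F₁} (P : Polynomial (T.chart₁ t)) (hP : P.Monic)
    (h : P.eval₂ (T.chart₁ t).val.toRingHom a = 0) : a ∈ T.chart₁ t :=
  mem_chart₁_of_isIntegral ⟨P, hP, h⟩

theorem ι₀_j_ne_zero : T.ι₀ T.j ≠ 0 := by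
  rw [map_ne_zero]
  exact fun h => T.transcendental_j (by rw [h]; exact isAlgebraic_zero)

theorem β₀_j_ne_zero : T.β₀ T.j ≠ 0 := by
  rw [map_ne_zero]
  exact fun h => T.transcendental_j (by rw [h]; exact isAlgebraic_zero)

/-- `1/ι j` in its chart. -/
def vInf : T.chart₁ T.j⁻¹ :=
  ⟨T.ι₀ T.j⁻¹, isIntegral_algebraMap
    (x := (⟨_, Algebra.self_mem_adjoin_singleton T.W (T.ι₀ T.j⁻¹)⟩ :
      Algebra.adjoin T.W {T.ι₀ T.j⁻¹}))⟩

theorem coe_vInf : ((vInf : T.chart₁ T.j⁻¹) : T.F₁) = (T.ι₀ T.j)⁻¹ := map_inv₀ T.ι₀ T.j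

theorem eval₂_reflect_inv (c : Polynomial ℤ) {N : ℕ} (hN : c.natDegree ≤ N) :
    (((Polynomial.reflect N c).eval₂ (Int.castRingHom (T.chart₁ T.j⁻¹)) vInf :
      T.chart₁ T.j⁻¹) : T.F₁) * T.ι₀ T.j ^ N = Polynomial.aeval (T.ι₀ T.j) c := by
  letI := invertibleOfNonzero (ι₀_j_ne_zero (T := T))
  have h := Polynomial.eval₂_reflect_mul_pow (Int.castRingHom T.F₁) (T.ι₀ T.j) N c hN
  rw [invOf_eq_inv] at h
  rw [Polynomial.aeval_def, show algebraMap ℤ T.F₁ = Int.castRingHom T.F₁ from RingHom.ext_int _ _,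
    ← h]
  congr 1
  show (T.chart₁ T.j⁻¹).val.toRingHom _ = _
  rw [Polynomial.hom_eval₂, RingHom.ext_int ((T.chart₁ T.j⁻¹).val.toRingHom.comp _)
    (Int.castRingHom T.F₁)]
  congr 1
  exact coe_vInf

theorem evalV_eq_aeval (g : Polynomial ℤ) :
    g.eval₂ (Int.castRingHom (T.chart₁ T.j⁻¹)) vInf = Polynomial.aeval vInf g := by
  rw [Polynomial.aeval_def]
  congr 1

/-- Polynomials in `1/j` modulo a point over the cusp. -/
theorem evalV_mem (y : Ideal (T.chart₁ T.j⁻¹)) (hy : (q : T.chart₁ T.j⁻¹) ∈ y)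
    (hv : (vInf : T.chart₁ T.j⁻¹) ∈ y) {g : Polynomial ℤ}
    (hg : g ∈ Ideal.span {Polynomial.C (q : ℤ), (Polynomial.X : Polynomial ℤ)}) :
    g.eval₂ (Int.castRingHom (T.chart₁ T.j⁻¹)) vInf ∈ y := by
  obtain ⟨a, b, rfl⟩ := Ideal.mem_span_pair.mp hg
  simp only [Polynomial.eval₂_add, Polynomial.eval₂_mul, Polynomial.eval₂_X,
    Polynomial.eval₂_natCast, map_natCast]
  exact y.add_mem (y.mul_mem_left _ hy) (y.mul_mem_left _ hv)

/-- `j(qτ)/j(τ)^q` is integral at infinity and is approximated by polynomials in `1/j`. -/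
theorem exists_cusp_ratio (hI : T.Inputs) :
    ∃ r : T.chart₁ T.j⁻¹, (r : T.F₁) * T.ι₀ T.j ^ q = T.β₀ T.j ∧
      ∀ (y : Ideal (T.chart₁ T.j⁻¹)), y.IsPrime → (q : T.chart₁ T.j⁻¹) ∈ y →
        (vInf : T.chart₁ T.j⁻¹) ∈ y → r - 1 ∈ y → ∀ n : ℕ, ∃ g : Polynomial ℤ,
          Polynomial.C (q : ℤ) ∣ g - 1 ∧ ∃ s ∉ y,
            s * (r - Polynomial.aeval vInf g) ∈
              Ideal.span {(q : T.chart₁ T.j⁻¹), vInf} ^ n := by
  obtain ⟨Φ, hΦm, hΦd, hΦ0, hb1, -, -, -, hcong⟩ := hI.modular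
  set ev : Polynomial ℤ →+* T.chart₁ T.j⁻¹ :=
    Polynomial.eval₂RingHom (Int.castRingHom _) vInf with hev
  set Ψ := cuspRev q Φ with hΨ
  have hJ := ι₀_j_ne_zero (T := T)
  -- the monic equation
  have hΨcoef : ∀ i, Ψ.coeff i = if i < q + 2 then
      Polynomial.reflect (q * (q + 1) - q * i) (Φ.coeff i) else 0 := fun i => by
    simp [hΨ, cuspRev_apply, Polynomial.finsetSum_coeff, Polynomial.coeff_X_pow]
  have hΨm : Ψ.Monic := by
    refine Polynomial.monic_of_natDegree_le_of_coeff_eq_one (q + 1) ?_ ?_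
    · rw [hΨ, cuspRev_apply]
      refine Polynomial.natDegree_sum_le_of_forall_le _ _ fun i hi => ?_
      exact (Polynomial.natDegree_C_mul_X_pow_le _ _).trans
        (by have := Finset.mem_range.mp hi; omega)
    · rw [hΨcoef, if_pos (by omega), Nat.sub_self,
        show Φ.coeff (q + 1) = 1 from hΦd ▸ hΦm.coeff_natDegree, ← Polynomial.C_1,
        Polynomial.reflect_C, pow_zero, mul_one]
  set r₀ := T.β₀ T.j / T.ι₀ T.j ^ q with hr₀
  have hroot : (Ψ.map ev).eval₂ (T.chart₁ T.j⁻¹).val.toRingHom r₀ = 0 := by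
    refine (mul_eq_zero_iff_right (pow_ne_zero (q * (q + 1)) hJ)).mp ?_
    rw [← hΦ0, Polynomial.eval₂_map, hΨ, cuspRev_apply, Polynomial.eval₂_finsetSum, Finset.sum_mul,
      Polynomial.eval_map, Polynomial.eval₂_eq_sum_range, hΦd]
    refine Finset.sum_congr rfl fun i hi => ?_
    have hi' : i ≤ q + 1 := Nat.lt_succ_iff.mp (Finset.mem_range.mp hi)
    have hle : q * i ≤ q * (q + 1) := Nat.mul_le_mul_left q hi'
    rw [Polynomial.eval₂_mul, Polynomial.eval₂_C, Polynomial.eval₂_pow, Polynomial.eval₂_X,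
      RingHom.comp_apply, hr₀, div_pow, ← pow_mul,
      show T.ι₀ T.j ^ (q * (q + 1)) = T.ι₀ T.j ^ (q * (q + 1) - q * i) * T.ι₀ T.j ^ (q * i) by
        rw [← _root_.pow_add, Nat.sub_add_cancel hle]]
    show _ = Polynomial.aeval (T.ι₀ T.j) (Φ.coeff i) * T.β₀ T.j ^ i
    rw [← eval₂_reflect_inv (Φ.coeff i)
      (N := q * (q + 1) - q * i) (by have := hb1 i hi'; omega)]
    show ((ev _ : T.chart₁ T.j⁻¹) : T.F₁) * _ * _ = _
    field_simp
    exact mul_comm _ _
  refine ⟨⟨r₀, mem_chart₁_of_monic _ (hΨm.map ev) hroot⟩, by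
    show r₀ * _ = _
    rw [hr₀, div_mul_cancel₀ _ (pow_ne_zero q hJ)], fun y hyp hy hv hr1 n => ?_⟩
  set r : T.chart₁ T.j⁻¹ := ⟨r₀, mem_chart₁_of_monic _ (hΨm.map ev) hroot⟩
  have hr0 : (Ψ.map ev).eval r = 0 := by
    apply Subtype.ext
    show (T.chart₁ T.j⁻¹).val.toRingHom _ = 0
    rw [← Polynomial.eval₂_at_apply]
    exact hroot
  -- the congruences
  obtain ⟨H, hH⟩ := cuspRev_congr q T.prime.two_le Φ hcong
  rw [← hΨ, sub_eq_iff_eq_add] at hH
  have h1 : Polynomial.C (q : ℤ) ∣ Ψ.eval 1 := ⟨H.eval 1, by rw [hH]; simp⟩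
  have h2 : Ψ.derivative.eval 1 - 1 ∈
      Ideal.span {Polynomial.C (q : ℤ), (Polynomial.X : Polynomial ℤ)} := by
    refine Ideal.mem_span_pair.mpr ⟨H.derivative.eval 1,
      -Polynomial.X ^ (q * q - 1 - 1), ?_⟩
    have h4 : 1 ≤ q * q - 1 := by
      have := Nat.mul_le_mul T.prime.two_le T.prime.two_le
      omega
    rw [hH]
    simp only [Polynomial.derivative_sub, Polynomial.derivative_mul,
      Polynomial.derivative_C, Polynomial.derivative_X, Polynomial.derivative_X_pow,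
      Polynomial.eval_add, Polynomial.eval_sub, Polynomial.eval_mul, Polynomial.eval_C,
      Polynomial.eval_X, Polynomial.eval_pow, Polynomial.eval_one,
      one_pow, mul_one, zero_mul, add_zero, zero_add, map_natCast, Polynomial.eval_natCast,
      Polynomial.derivative_natCast, map_add, map_one, Nat.cast_add, Nat.cast_one]
    rw [show (Polynomial.X : Polynomial ℤ) ^ (q * q - 1) =
      Polynomial.X ^ (q * q - 1 - 1) * Polynomial.X by
        rw [← pow_succ, Nat.sub_add_cancel h4]]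
    ring
  obtain ⟨g, hg1, hgq, hgn⟩ := exists_approx_root q Ψ h1 h2 n
  refine ⟨g, hg1, ?_⟩
  rw [← evalV_eq_aeval, show g.eval₂ (Int.castRingHom _) vInf = ev g from rfl]
  have hmem : ∀ f ∈ Ideal.span {Polynomial.C (q : ℤ), (Polynomial.X : Polynomial ℤ)},
      ev f ∈ y := fun f hf => evalV_mem y hy hv hf
  obtain ⟨k, hk⟩ := Polynomial.binomExpansion (Ψ.map ev) (ev g) (r - ev g)
  rw [add_sub_cancel, hr0, Polynomial.eval_map, Polynomial.eval₂_at_apply, Polynomial.derivative_map,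
    Polynomial.eval_map, Polynomial.eval₂_at_apply] at hk
  refine ⟨ev (Ψ.derivative.eval g) + k * (r - ev g), fun hD => hyp.ne_top ?_, ?_⟩
  · have e1 : ev (g - 1) ∈ y := hmem _ (Ideal.mem_of_dvd _ hg1 (Ideal.subset_span (by simp)))
    have e2 : ev (Ψ.derivative.eval g - 1) ∈ y := by
      refine hmem _ ?_
      have h := Ideal.mem_of_dvd _ (hg1.trans (Polynomial.sub_dvd_eval_sub g 1 Ψ.derivative))
        (Ideal.subset_span (by simp) : Polynomial.C (q : ℤ) ∈
          Ideal.span {Polynomial.C (q : ℤ), (Polynomial.X : Polynomial ℤ)})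
      simpa using Ideal.add_mem _ h h2
    rw [map_sub, map_one] at e1 e2
    have e3 : r - ev g ∈ y := by simpa using y.sub_mem hr1 e1
    rw [Ideal.eq_top_iff_one]
    simpa using y.sub_mem (y.sub_mem hD (y.mul_mem_left k e3)) e2
  · have hsp : (Ideal.span {Polynomial.C (q : ℤ), (Polynomial.X : Polynomial ℤ)}).map ev ≤
        Ideal.span {(q : T.chart₁ T.j⁻¹), vInf} := by
      rw [Ideal.map_span, Set.image_pair]
      simp [hev]
    have h := Ideal.pow_right_mono hsp n (Ideal.map_pow ev _ n ▸ Ideal.mem_map_of_mem ev hgn)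
    rw [show (ev (Ψ.derivative.eval g) + k * (r - ev g)) * (r - ev g) = -ev (Ψ.eval g) by
      linear_combination -hk]
    exact neg_mem h

/-- Some multiple of `1/j(qτ)` by a unit at the cusps lies in every point over a cusp. -/
theorem exists_cusp_beta_inv (hI : T.Inputs) :
    ∃ u s : T.chart₁ T.j⁻¹, (s : T.F₁) * T.β₀ T.j⁻¹ = u ∧
      ∀ y : Ideal (T.chart₁ T.j⁻¹), y.IsPrime → (q : T.chart₁ T.j⁻¹) ∈ y →
        (vInf : T.chart₁ T.j⁻¹) ∈ y → s ∉ y ∧ u ∈ y := by
  obtain ⟨Φ, hΦm, hΦd, hΦ0, -, hb2, hc0d, hc0m, hcong⟩ := hI.modular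
  set ev : Polynomial ℤ →+* T.chart₁ T.j⁻¹ :=
    Polynomial.eval₂RingHom (Int.castRingHom _) vInf with hev
  have hJ := ι₀_j_ne_zero (T := T)
  have hB := β₀_j_ne_zero (T := T)
  let P : ℕ → T.chart₁ T.j⁻¹ := fun i => ev (Polynomial.reflect (q + 1) (Φ.coeff i))
  set Y := T.β₀ T.j⁻¹ with hY
  have hYB : Y = (T.β₀ T.j)⁻¹ := map_inv₀ T.β₀ T.j
  have hrel : ∑ i ∈ Finset.range (q + 2), (P i : T.F₁) * Y ^ (q + 1 - i) = 0 := by
    refine (mul_eq_zero_iff_right (mul_ne_zero (pow_ne_zero (q + 1) hJ)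
      (pow_ne_zero (q + 1) hB))).mp ?_
    rw [← hΦ0, Finset.sum_mul, Polynomial.eval_map, Polynomial.eval₂_eq_sum_range, hΦd]
    refine Finset.sum_congr rfl fun i hi => ?_
    have hi' : i ≤ q + 1 := Nat.lt_succ_iff.mp (Finset.mem_range.mp hi)
    show _ = Polynomial.aeval (T.ι₀ T.j) (Φ.coeff i) * T.β₀ T.j ^ i
    rw [← eval₂_reflect_inv (Φ.coeff i) (N := q + 1) (hb2 i), hYB, inv_pow,
      show T.β₀ T.j ^ (q + 1) = T.β₀ T.j ^ (q + 1 - i) * T.β₀ T.j ^ i by
        rw [← _root_.pow_add, Nat.sub_add_cancel hi']]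
    show (ev _ : T.chart₁ T.j⁻¹).1 * _ * _ = _
    field_simp
    rfl
  let M : Polynomial (T.chart₁ T.j⁻¹) := Polynomial.X ^ (q + 1) +
    ∑ i ∈ Finset.range (q + 1), Polynomial.C (P (i + 1) * P 0 ^ i) * Polynomial.X ^ (q - i)
  have hM : M.Monic := Polynomial.monic_X_pow_add ((Polynomial.degree_sum_le _ _).trans_lt
    ((Finset.sup_lt_iff (WithBot.bot_lt_coe _)).mpr fun i _ =>
      (Polynomial.degree_C_mul_X_pow_le _ _).trans_lt (Nat.cast_lt.mpr (by omega))))
  have hMu : M.eval₂ (T.chart₁ T.j⁻¹).val.toRingHom ((P 0 : T.F₁) * Y) = 0 := by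
    have h := congrArg (fun z => (P 0 : T.F₁) ^ q * z) hrel
    simp only [mul_zero, Finset.mul_sum] at h
    rw [Finset.sum_range_succ'] at h
    rw [← h, Polynomial.eval₂_add, Polynomial.eval₂_X_pow, Polynomial.eval₂_finsetSum, add_comm]
    congr 1
    · refine Finset.sum_congr rfl fun i hi => ?_
      have hi' : i ≤ q := Nat.lt_succ_iff.mp (Finset.mem_range.mp hi)
      rw [Polynomial.eval₂_mul, Polynomial.eval₂_C, Polynomial.eval₂_X_pow, map_mul, map_pow,
        show q + 1 - (i + 1) = q - i by omega, mul_pow,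
        show (P 0 : T.F₁) ^ q = (P 0 : T.F₁) ^ i * (P 0 : T.F₁) ^ (q - i) by
          rw [← _root_.pow_add, Nat.add_sub_cancel' hi']]
      show (P (i + 1) : T.F₁) * (P 0 : T.F₁) ^ i * _ = _
      ring
    · rw [Nat.sub_zero, mul_pow]
      ring
  refine ⟨⟨_, mem_chart₁_of_monic M hM hMu⟩, P 0, rfl, fun y hyp hy hv => ?_⟩
  obtain ⟨H, hH⟩ := hcong
  have hconst : ∀ i, ev (Polynomial.reflect (q + 1) (Φ.coeff i)) -
      ((Φ.coeff i).coeff (q + 1) : ℤ) ∈ y := fun i => by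
    have h := evalV_mem y hy hv (g := Polynomial.reflect (q + 1) (Φ.coeff i) -
      Polynomial.C ((Polynomial.reflect (q + 1) (Φ.coeff i)).coeff 0))
      (Ideal.mem_of_dvd _ Polynomial.X_dvd_sub_C (Ideal.subset_span (by simp)))
    rw [Polynomial.coeff_reflect, Polynomial.revAt_le (Nat.zero_le _), Nat.sub_zero,
      Polynomial.eval₂_sub, Polynomial.eval₂_C, eq_intCast] at h
    exact h
  have hzero : ∀ i, 1 ≤ i → P i ∈ y := fun i hi => by
    have h := congrArg (fun F : Polynomial (Polynomial ℤ) => (F.coeff i).coeff (q + 1)) hH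
    simp only [Polynomial.coeff_sub, Polynomial.coeff_C_mul] at h
    have h0 : (((Polynomial.X - Polynomial.C (Polynomial.X ^ q)) *
        (Polynomial.X ^ q - Polynomial.C Polynomial.X) : Polynomial (Polynomial ℤ)).coeff i).coeff
          (q + 1) = 0 := by
      rw [show ((Polynomial.X - Polynomial.C (Polynomial.X ^ q)) *
        (Polynomial.X ^ q - Polynomial.C Polynomial.X) : Polynomial (Polynomial ℤ)) =
          Polynomial.X ^ (q + 1) - Polynomial.C (Polynomial.X ^ q) * Polynomial.X ^ q -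
          Polynomial.C Polynomial.X * Polynomial.X + Polynomial.C (Polynomial.X ^ (q + 1)) by
        simp only [pow_succ, map_mul]; ring]
      have := T.prime.two_le
      simp only [Polynomial.coeff_add, Polynomial.coeff_sub, Polynomial.coeff_C_mul,
        Polynomial.coeff_X_pow, Polynomial.coeff_X, Polynomial.coeff_C]
      split_ifs <;> simp [Polynomial.coeff_one, Polynomial.coeff_X, Polynomial.coeff_X_pow] <;>
        omega
    rw [h0, sub_zero] at h
    have h1 := y.add_mem (hconst i)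
      (show (((Φ.coeff i).coeff (q + 1) : ℤ) : T.chart₁ T.j⁻¹) ∈ y by
        rw [h, Int.cast_mul, Int.cast_natCast]
        exact y.mul_mem_right _ hy)
    rwa [sub_add_cancel] at h1
  have hP0 : P 0 ∉ y := fun hmem => hyp.ne_top ((Ideal.eq_top_iff_one _).mpr (by
    have h := y.sub_mem hmem (hconst 0)
    have hlead : (Φ.coeff 0).coeff (q + 1) = 1 := hc0d ▸ hc0m.coeff_natDegree
    rwa [sub_sub_cancel, hlead, Int.cast_one] at h))
  refine ⟨hP0, hyp.mem_of_pow_mem (q + 1) ?_⟩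
  have hu : M.eval (⟨_, mem_chart₁_of_monic M hM hMu⟩ : T.chart₁ T.j⁻¹) = 0 := by
    apply Subtype.ext
    show (T.chart₁ T.j⁻¹).val.toRingHom _ = 0
    rw [← Polynomial.eval₂_at_apply]
    exact hMu
  rw [Polynomial.eval_add, Polynomial.eval_pow, Polynomial.eval_X] at hu
  rw [eq_neg_of_add_eq_zero_left hu]
  refine neg_mem ?_
  rw [Polynomial.eval_finsetSum]
  refine y.sum_mem fun i _ => ?_
  rw [Polynomial.eval_mul, Polynomial.eval_C]
  exact y.mul_mem_right _ (y.mul_mem_right _ (hzero (i + 1) (Nat.le_add_left 1 i)))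

end Tower

end FermatLib.Igusa.Carayol
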