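import Mathlib
import Fermat.Agent.Igusa.Carayol.LevelOneCusp
import Fermat.Agent.Igusa.Carayol.LevelZeroPhi
import Fermat.Agent.Igusa.Carayol.LevelZeroPoints

/-!
The two branches of the special fibre of level `N q`: separators, the Atkin–Lehner involution on
the finite chart, and rational functions on the two branches.
-/

set_option autoImplicit false
set_option linter.style.haveILetI false
set_option maxHeartbeats 400000
set_option synthInstance.maxHeartbeats 100000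

noncomputable section

open ModularCurve FermatLib.Igusa

namespace FermatLib.Igusa.Carayol

namespace Tower

variable {q : ℕ} [NeZero q] {T : Tower q} {t : T.F₀}

theorem qExpand_red_j (T : Tower q) : qExpand T.k q (T.red₀ T.j) = T.red₀ T.j ^ q := by
  obtain ⟨J, -, hred, -⟩ := e₀_j_intSeries T
  rw [hred]
  exact (mem_frobFixed (hq := T.prime)).mp (coeffMap_intCast_mem_frobFixed T.prime J)

theorem red_j_ne_zero : T.red₀ T.j ≠ 0 := fun h =>
  T.transcendental_red_j (show IsAlgebraic T.k (T.red₀ T.j) from h ▸ isAlgebraic_zero)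

theorem transcendental_pow_ne (x : LaurentSeries T.k) (hx : Transcendental T.k x) {m n : ℕ}
    (h : m ≠ n) : x ^ m ≠ x ^ n := fun he => h (by
  have h1 := transcendental_iff_injective.mp hx
    (a₁ := Polynomial.X ^ m) (a₂ := Polynomial.X ^ n) (by simpa using he)
  simpa using congrArg Polynomial.natDegree h1)

theorem one_lt_q_sq (T : Tower q) : 1 < q * q :=
  Nat.one_lt_mul_iff.mpr ⟨T.prime.pos, T.prime.pos, Or.inl T.prime.one_lt⟩

/-- An element of `T.F₁` in the chart, with its reduced expansions. -/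
theorem red₁Hom_β₀ (ht : T.ChartParam t) (a : T.F₁) (ha : a ∈ T.chart₁ t) (b : T.F₀)
    (hb : T.e₀ b ∈ gaussInt T.π) (hab : a = T.β₀ b) :
    red₁Hom ht ⟨a, ha⟩ = qExpand T.k q (T.red₀ b) ∧ red₁Hom' ht ⟨a, ha⟩ = T.red₀ b := by
  subst hab
  refine ⟨?_, ?_⟩
  · show T.red (T.e₁ (T.β₀ b)) = _
    rw [T.e₁_β₀]
    exact (qExpand_mem_gaussInt (π := T.π) q hb).2
  · show T.red (T.e₁ (T.w₁ (T.β₀ b))) = _
    rw [T.w₁_β₀, T.e₁_ι₀]

/-- The reductions of `j(qτ)/j(τ)^q`. -/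
theorem red_cusp_ratio (hI : T.Inputs) (r : T.chart₁ T.j⁻¹)
    (hr : (r : T.F₁) * T.ι₀ T.j ^ q = T.β₀ T.j) :
    red₁Hom (T.chartParam_jinv hI) r = 1 ∧
      red₁Hom' (T.chartParam_jinv hI) (r ^ q - vInf ^ (q * q - 1)) = 0 := by
  have ht := T.chartParam_jinv hI
  haveI := T.prime.two_le
  have hJ := (T.chartParam_j hI).int
  have hJ0 : T.red₀ T.j ≠ 0 := red_j_ne_zero
  obtain ⟨hE, hEr⟩ := qExpand_mem_gaussInt (π := T.π) q hJ
  have hr1 : red₁Hom ht r * T.red₀ T.j ^ q = qExpand T.k q (T.red₀ T.j) := by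
    rw [← hEr, ← T.e₁_β₀, ← hr, map_mul, map_pow, T.e₁_ι₀,
      gred_mul (e₁_mem_gaussInt ht r).1 (pow_mem hJ q), gred_pow hJ]
    rfl
  have hr2 : red₁Hom' ht r * qExpand T.k q (T.red₀ T.j) ^ q = T.red₀ T.j := by
    have h : T.e₁ (T.w₁ r) * qExpand T.L q (T.e₀ T.j) ^ q = T.e₀ T.j := by
      rw [← T.e₁_β₀, ← T.w₁_ι₀, ← map_pow, ← map_mul, ← map_pow, ← map_mul, hr, T.w₁_β₀, T.e₁_ι₀]
    have h2 := congrArg T.red h
    rw [Base.red, gred_mul (e₁_mem_gaussInt ht r).2 (pow_mem hE q), gred_pow hE] at h2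
    rw [← hEr]
    exact h2
  rw [qExpand_red_j] at hr1 hr2
  have h1 : red₁Hom ht r = 1 :=
    mul_right_cancel₀ (pow_ne_zero q hJ0) (by rw [hr1, one_mul])
  refine ⟨h1, ?_⟩
  have hv : red₁Hom' ht vInf * T.red₀ T.j ^ q = 1 := by
    rw [← qExpand_red_j, ← hEr, red₁Hom'_apply]
    show T.red (T.e₁ (T.w₁ (T.ι₀ T.j⁻¹))) * T.red (qExpand T.L q (T.e₀ T.j)) = 1
    rw [T.w₁_ι₀, T.e₁_β₀, Base.red,
      ← gred_mul ((qExpand_mem_gaussInt (π := T.π) q ht.int).1) hE, ← map_mul, ← map_mul,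
      inv_mul_cancel₀ (show T.j ≠ 0 from fun h => T.transcendental_j (h ▸ isAlgebraic_zero)),
      map_one, map_one, gred_one]
  rw [map_sub, map_pow, map_pow, sub_eq_zero]
  apply mul_right_cancel₀ (pow_ne_zero (q * (q * q - 1) + q) hJ0)
  calc red₁Hom' ht r ^ q * T.red₀ T.j ^ (q * (q * q - 1) + q)
      = (red₁Hom' ht r * (T.red₀ T.j ^ q) ^ q) ^ q := by
        rw [mul_pow]
        congr 1
        simp only [← pow_mul]
        congr 1
        have := one_lt_q_sq T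
        rw [← Nat.mul_add_one, Nat.sub_add_cancel (by omega)]
        ring
    _ = T.red₀ T.j ^ q := by rw [hr2]
    _ = (red₁Hom' ht vInf * T.red₀ T.j ^ q) ^ (q * q - 1) * T.red₀ T.j ^ q := by
        rw [hv, one_pow, one_mul]
    _ = _ := by rw [mul_pow, ← pow_mul, mul_assoc, ← _root_.pow_add]

/-- A function vanishing on the branch at `0` and not on the branch at `∞`. -/
theorem exists_separator_hom (hI : T.Inputs) (ht : t = T.j ∨ t = T.j⁻¹) :
    ∃ E : T.chart₁ t, red₁Hom (chartParam_of_eq hI ht) E ≠ 0 ∧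
      red₁Hom' (chartParam_of_eq hI ht) E = 0 := by
  have hq2 := one_lt_q_sq T
  rcases ht with rfl | rfl
  · have hp := T.chartParam_j hI
    let a : T.chart₁ T.j := chartIncl₁ T.j ⟨T.j, mem_chart₀_self⟩
    let b : T.chart₁ T.j := ⟨_, β₀_j_mem_chart₁ hI⟩
    obtain ⟨hb, hb'⟩ := red₁Hom_β₀ hp _ (β₀_j_mem_chart₁ hI) _ hp.int rfl
    refine ⟨a - b ^ q, ?_, ?_⟩
    · show red₁Hom hp (a - b ^ q) ≠ 0
      rw [map_sub, map_pow, hb, red₁_chartIncl₁, red₀Hom_apply, qExpand_red_j, ← pow_mul,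
        sub_ne_zero]
      show T.red₀ T.j ≠ _
      conv_lhs => rw [← pow_one (T.red₀ T.j)]
      exact transcendental_pow_ne _ T.transcendental_red_j hq2.ne
    · show red₁Hom' hp (a - b ^ q) = 0
      rw [map_sub, map_pow, hb', red₁'_chartIncl₁, red₀Hom_apply, sub_eq_zero]
      exact qExpand_red_j T
  · have hp := T.chartParam_jinv hI
    obtain ⟨r, hr, -⟩ := exists_cusp_ratio hI
    obtain ⟨h1, h2⟩ := red_cusp_ratio hI r hr
    refine ⟨r ^ q - vInf ^ (q * q - 1), ?_, h2⟩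
    show red₁Hom hp _ ≠ 0
    rw [map_sub, map_pow, map_pow, h1, one_pow, sub_ne_zero,
      show red₁Hom hp vInf = T.red₀ T.j⁻¹ from rfl, ← pow_zero (T.red₀ T.j⁻¹)]
    exact transcendental_pow_ne _ hp.red_transcendental (by omega)

theorem exists_red₁Hom_eq (hI : T.Inputs) (ht : t = T.j ∨ t = T.j⁻¹) (a : T.chart₁ t) :
    ∃ b : T.chart₀ t,
      red₁Hom (chartParam_of_eq hI ht) a = red₀Hom (chartParam_of_eq hI ht) b := by
  obtain ⟨E, hE, hE'⟩ := exists_separator_hom hI ht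
  exact exists_red₁_eq_of_separator _ E hE hE' a

theorem chartIncl₁_isIntegral (t : T.F₀) :
    (chartIncl₁ t : T.chart₀ t →ₐ[T.W] T.chart₁ t).toRingHom.IsIntegral := by
  intro a
  obtain ⟨p, hp, hpa⟩ := (a.2 : IsIntegral (Algebra.adjoin T.W {T.ι₀ t}) (a : T.F₁))
  set f : T.chart₀ t →+* T.chart₁ t := (chartIncl₁ t).toRingHom
  have hle : ∀ r ∈ Algebra.adjoin T.W {T.ι₀ t}, ∃ c, ((f c : T.chart₁ t) : T.F₁) = r :=
    fun r hr => by
      induction hr using Algebra.adjoin_induction with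
      | mem z hz =>
        rw [Set.mem_singleton_iff] at hz
        exact hz ▸ ⟨⟨t, mem_chart₀_self⟩, rfl⟩
      | algebraMap w =>
        exact ⟨algebraMap T.W (T.chart₀ t) w, congrArg Subtype.val ((chartIncl₁ t).commutes w)⟩
      | add a b _ _ ha hb =>
        obtain ⟨c, hc⟩ := ha
        obtain ⟨d, hd⟩ := hb
        exact ⟨c + d, by rw [map_add, AddMemClass.coe_add, hc, hd]⟩
      | mul a b _ _ ha hb =>
        obtain ⟨c, hc⟩ := ha
        obtain ⟨d, hd⟩ := hb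
        exact ⟨c * d, by rw [map_mul, MulMemClass.coe_mul, hc, hd]⟩
  obtain ⟨P, hP, -, hPm⟩ := Polynomial.lifts_and_natDegree_eq_and_monic
    (f := ((T.chart₁ t).val.toRingHom).comp f)
    (p := p.map (algebraMap (Algebra.adjoin T.W {T.ι₀ t}) T.F₁))
    ((Polynomial.lifts_iff_coeff_lifts _).mpr fun n => by
      obtain ⟨c, hc⟩ := hle _ (p.coeff n).2
      exact ⟨c, by rw [Polynomial.coeff_map]; exact hc⟩)
    (hp.map _)
  refine ⟨P, hPm, Subtype.ext ?_⟩
  show (T.chart₁ t).val.toRingHom _ = 0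
  rw [Polynomial.hom_eval₂, ← Polynomial.eval_map, hP, Polynomial.eval_map]
  exact hpa

theorem isMaximal_comap_chartIncl₁ (y : Ideal (T.chart₁ t)) [y.IsMaximal] :
    (y.comap (chartIncl₁ t)).IsMaximal :=
  Ideal.isMaximal_comap_of_isIntegral_of_isMaximal'
    (chartIncl₁ t).toRingHom (chartIncl₁_isIntegral t) y

theorem q_mem_comap {y : Ideal (T.chart₁ t)} (hy : (q : T.chart₁ t) ∈ y) :
    (q : T.chart₀ t) ∈ y.comap (chartIncl₁ t) := by
  rw [Ideal.mem_comap, map_natCast]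
  exact hy

theorem mem_iff_of_red₁_eq (ht : T.ChartParam t) {y : Ideal (T.chart₁ t)} (hy : ThruInf y)
    {a b : T.chart₁ t} (h : red₁Hom ht a = red₁Hom ht b) : a ∈ y ↔ b ∈ y := by
  have hab : a - b ∈ y := hy _ (by rw [← red₁Hom_apply ht, map_sub, h, sub_self])
  exact ⟨fun ha => by simpa using y.sub_mem ha hab, fun hb => by simpa using y.add_mem hab hb⟩

theorem mem_iff_of_red₁'_eq (ht : T.ChartParam t) {y : Ideal (T.chart₁ t)} (hy : ThruZero y)
    {a b : T.chart₁ t} (h : red₁Hom' ht a = red₁Hom' ht b) : a ∈ y ↔ b ∈ y := by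
  have hab : a - b ∈ y := hy _ (by rw [← red₁Hom'_apply ht, map_sub, h, sub_self])
  exact ⟨fun ha => by simpa using y.sub_mem ha hab, fun hb => by simpa using y.add_mem hab hb⟩

theorem isSpecial_iff (hI : T.Inputs) (x : Ideal (T.chart₀ T.j)) [x.IsPrime]
    (hx : (q : T.chart₀ T.j) ∈ x) (a₀ : T.chart₀ T.j) (ha₀ : T.red₀ (a₀ : T.F₀) = T.phiBar) :
    T.IsSpecial x ↔ a₀ ∈ x := by
  have ht := T.chartParam_j hI
  constructor
  · rintro ⟨a, s, hs, hax, h⟩
    have hk : a₀ * s - a ∈ x := ht.ker_redHom_le hx (RingHom.mem_ker.mpr (by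
      rw [map_sub, map_mul, ht.redHom_apply, ht.redHom_apply, ht.redHom_apply, ha₀, h, sub_self]))
    have : a₀ * s ∈ x := by simpa using x.add_mem hk hax
    exact (Ideal.IsPrime.mem_or_mem ‹_› this).resolve_right hs
  · intro h
    refine ⟨a₀, 1, fun h1 => (Ideal.IsPrime.ne_top ‹_›) ((Ideal.eq_top_iff_one x).mpr h1), h, ?_⟩
    rw [show ((1 : T.chart₀ T.j) : T.F₀) = 1 from rfl, red₀, map_one, Base.red, gred_one, mul_one,
      ← ha₀]

variable (hI : T.Inputs)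

/-- The Atkin–Lehner involution of the finite chart. -/
def w₁Hom : T.chart₁ T.j →+* T.chart₁ T.j :=
  (T.w₁.toRingEquiv.toRingHom.comp (T.chart₁ T.j).val.toRingHom).codRestrict (T.chart₁ T.j)
    fun a => w₁_mem_chart₁ hI a.2

/-- The second inclusion of the finite charts of levels `N` and `N q`. -/
def betaIncl₁ : T.chart₀ T.j →+* T.chart₁ T.j :=
  (T.β₀.toRingHom.comp (T.chart₀ T.j).val.toRingHom).codRestrict (T.chart₁ T.j)
    fun a => β₀_mem_chart₁ hI a.2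

theorem w₁Hom_w₁Hom (a : T.chart₁ T.j) : w₁Hom hI (w₁Hom hI a) = a :=
  Subtype.ext (T.w₁_w₁ a)

theorem w₁Hom_chartIncl₁ (b : T.chart₀ T.j) :
    w₁Hom hI (chartIncl₁ T.j b) = betaIncl₁ hI b :=
  Subtype.ext (T.w₁_ι₀ _)

theorem red₁'_w₁Hom (a : T.chart₁ T.j) :
    red₁Hom' (T.chartParam_j hI) (w₁Hom hI a) = red₁Hom (T.chartParam_j hI) a :=
  congrArg (fun z => T.red (T.e₁ z)) (T.w₁_w₁ a)

theorem red₁_w₁Hom (a : T.chart₁ T.j) :
    red₁Hom (T.chartParam_j hI) (w₁Hom hI a) = red₁Hom' (T.chartParam_j hI) a := rfl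

theorem red₁_betaIncl₁ (b : T.chart₀ T.j) :
    red₁Hom (T.chartParam_j hI) (betaIncl₁ hI b) =
      qExpand T.k q (red₀Hom (T.chartParam_j hI) b) :=
  (red₁Hom_β₀ (T.chartParam_j hI) _ (β₀_mem_chart₁ hI b.2) _
    ((T.chartParam_j hI).e₀_mem_gaussInt b) rfl).1

theorem red₁'_betaIncl₁ (b : T.chart₀ T.j) :
    red₁Hom' (T.chartParam_j hI) (betaIncl₁ hI b) = red₀Hom (T.chartParam_j hI) b :=
  (red₁Hom_β₀ (T.chartParam_j hI) _ (β₀_mem_chart₁ hI b.2) _
    ((T.chartParam_j hI).e₀_mem_gaussInt b) rfl).2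

/-- The two degeneracy maps agree, for membership in a point of the special fibre, on rational
functions. -/
theorem betaIncl₁_mem_iff (y : Ideal (T.chart₁ T.j)) [y.IsMaximal]
    (hy : (q : T.chart₁ T.j) ∈ y) (a : T.chart₀ T.j) (ha : T.IsRat a) :
    betaIncl₁ hI a ∈ y ↔ chartIncl₁ T.j a ∈ y := by
  have ht := T.chartParam_j hI
  have hrat : qExpand T.k q (red₀Hom ht a) = red₀Hom ht a ^ q := ha.2
  have hyp : y.IsPrime := Ideal.IsMaximal.isPrime ‹_›
  rcases thruInf_or_thruZero ht y hy with h | h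
  · rw [← hyp.pow_mem_iff_mem q T.prime.pos (r := chartIncl₁ T.j a)]
    exact mem_iff_of_red₁_eq ht h (by rw [red₁_betaIncl₁, map_pow, red₁_chartIncl₁, hrat])
  · rw [← hyp.pow_mem_iff_mem q T.prime.pos (r := betaIncl₁ hI a)]
    exact mem_iff_of_red₁'_eq ht h (by rw [map_pow, red₁'_betaIncl₁, red₁'_chartIncl₁, hrat])

theorem thruInf_comap_w₁Hom (y : Ideal (T.chart₁ T.j)) :
    ThruInf (y.comap (w₁Hom hI)) ↔ ThruZero y := by
  have ht := T.chartParam_j hI
  constructor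
  · intro h a ha
    have h1 := h (w₁Hom hI a) (by rw [← red₁Hom_apply ht, red₁_w₁Hom]; exact ha)
    rwa [Ideal.mem_comap, w₁Hom_w₁Hom] at h1
  · intro h a ha
    exact h (w₁Hom hI a) (by rw [← red₁Hom'_apply ht, red₁'_w₁Hom]; exact ha)

theorem thruZero_comap_w₁Hom (y : Ideal (T.chart₁ T.j)) :
    ThruZero (y.comap (w₁Hom hI)) ↔ ThruInf y := by
  have ht := T.chartParam_j hI
  constructor
  · intro h a ha
    have h1 := h (w₁Hom hI a) (by rw [← red₁Hom'_apply ht, red₁'_w₁Hom]; exact ha)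
    rwa [Ideal.mem_comap, w₁Hom_w₁Hom] at h1
  · intro h a ha
    exact h (w₁Hom hI a) (by rw [← red₁Hom_apply ht, red₁_w₁Hom]; exact ha)

theorem isMaximal_comap_w₁Hom (y : Ideal (T.chart₁ T.j)) [y.IsMaximal] :
    (y.comap (w₁Hom hI)).IsMaximal :=
  Ideal.comap_isMaximal_of_surjective _ fun a => ⟨w₁Hom hI a, w₁Hom_w₁Hom hI a⟩

/-- `(z₂ - z₁^q)/q` reduces at infinity to `frobQuot z`. -/
theorem red₁_of_mul_sub_eq (z : T.chart₀ T.j) (hz : T.IsRat (z : T.F₀)) (s u : T.chart₁ T.j)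
    (h : s * (betaIncl₁ hI z - chartIncl₁ T.j z ^ q) = q * u) :
    red₁Hom (T.chartParam_j hI) u =
      T.frobQuot (z : T.F₀) * red₁Hom (T.chartParam_j hI) s := by
  have ht := T.chartParam_j hI
  set L : T.chart₁ T.j := betaIncl₁ hI z - chartIncl₁ T.j z ^ q with hL
  have hL0 : red₁Hom ht L = 0 := by
    rw [hL, map_sub, map_pow, red₁_betaIncl₁, red₁_chartIncl₁, sub_eq_zero]
    exact hz.2
  have hLe : T.e₁ (L : T.F₁) = qExpand T.L q (T.e₀ z) - T.e₀ z ^ q := by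
    rw [← T.e₁_β₀, ← T.e₁_ι₀, ← map_pow, ← map_sub]
    rfl
  have hg := inv_q_mul_mem_gaussInt (e₁_mem_gaussInt ht L).1 hL0
  rw [← e₁_div_q] at hg
  have hu : (u : T.F₁) = (s : T.F₁) * ((L : T.F₁) / q) := by
    have h2 := congrArg (Subtype.val : T.chart₁ T.j → T.F₁) h
    simp only [MulMemClass.coe_mul, SubringClass.coe_natCast] at h2
    rw [← mul_div_assoc, h2, mul_div_cancel_left₀ _ natCast_q_ne_zero_F₁]
  rw [red₁Hom_apply ht u, hu]
  show T.red (T.e₁ _) = _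
  rw [map_mul, Base.red, gred_mul (e₁_mem_gaussInt ht s).1 hg, mul_comm]
  congr 1
  show gred T.π (T.e₁ ((L : T.F₁) / q)) = T.red _
  rw [map_div₀, map_natCast, hLe]

end Tower

end FermatLib.Igusa.Carayol
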