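import Mathlib
import Fermat.Agent.Igusa.Carayol.LevelOneBranch
import Fermat.Agent.Igusa.Carayol.LevelZero

/-!
The special fibre of level `N q`: two copies of the reduced curve of level `N`, crossing exactly at
the supersingular points.
-/

set_option autoImplicit false
set_option linter.style.haveILetI false
set_option maxHeartbeats 400000
set_option synthInstance.maxHeartbeats 100000

noncomputable section

open ModularCurve FermatLib.Igusa

namespace FermatLib.Igusa.Carayol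

namespace Tower

variable {q : ℕ} [NeZero q] {T : Tower q}

theorem eq_of_thruInf (hI : T.Inputs) {t : T.F₀} (ht : t = T.j ∨ t = T.j⁻¹)
    (y y' : Ideal (T.chart₁ t)) [y.IsMaximal] [y'.IsMaximal] (hy : ThruInf y) (hy' : ThruInf y')
    (h : y.comap (chartIncl₁ t) = y'.comap (chartIncl₁ t)) : y = y' := by
  have hp := chartParam_of_eq hI ht
  refine Ideal.IsMaximal.eq_of_le ‹_› (Ideal.IsMaximal.ne_top ‹_›) fun a ha => ?_
  obtain ⟨b, hb⟩ := exists_red₁Hom_eq hI ht a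
  rw [← red₁_chartIncl₁ hp] at hb
  have hbx : b ∈ y.comap (chartIncl₁ t) := (mem_iff_of_red₁_eq hp hy hb).mp ha
  rw [h] at hbx
  exact (mem_iff_of_red₁_eq hp hy' hb).mpr hbx

/-- A parameter has nonzero reduction. -/
theorem red₀_parameter_ne_zero (hI : T.Inputs) (x : Ideal (T.chart₀ T.j)) [x.IsMaximal]
    (hx : (q : T.chart₀ T.j) ∈ x) (z : T.chart₀ T.j)
    (hgen : ∀ a ∈ x, ∃ s ∉ x, s * a ∈ Ideal.span {(q : T.chart₀ T.j), z}) :
    red₀Hom (T.chartParam_j hI) z ≠ 0 := by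
  have ht := T.chartParam_j hI
  intro h0
  refine ht.redIdeal_ne_bot x hx ((Ideal.map_eq_bot_iff_le_ker _).mpr fun a ha => ?_)
  rw [RingHom.ker_rangeRestrict, RingHom.mem_ker]
  obtain ⟨s, hs, hsa⟩ := hgen a ha
  obtain ⟨c₁, c₂, hc⟩ := Ideal.mem_span_pair.mp hsa
  have h := congrArg (red₀Hom ht) hc
  rw [map_add, map_mul, map_mul, map_mul, red₀Hom_natCast_q, h0, mul_zero, mul_zero,
    add_zero] at h
  exact (mul_eq_zero.mp h.symm).resolve_left
    fun hs0 => hs (ht.ker_redHom_le hx (RingHom.mem_ker.mpr hs0))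

/-- On the branch at `0` the parameter of a point still generates after twisting. -/
theorem exists_twisted_parameter (hI : T.Inputs) (y : Ideal (T.chart₁ T.j)) [y.IsMaximal]
    (z : T.chart₀ T.j) (hz : T.IsRat (z : T.F₀))
    (hgen : ∀ a ∈ y.comap (chartIncl₁ T.j), ∃ s ∉ y.comap (chartIncl₁ T.j),
      s * a ∈ Ideal.span {(q : T.chart₀ T.j), z})
    (h : ThruZero y) (b : T.chart₀ T.j) (hb : betaIncl₁ hI b ∈ y) :
    ∃ s c : T.chart₀ T.j, betaIncl₁ hI s ∉ y ∧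
      red₀Hom (T.chartParam_j hI) s * red₀Hom (T.chartParam_j hI) b =
        red₀Hom (T.chartParam_j hI) z * red₀Hom (T.chartParam_j hI) c := by
  have ht := T.chartParam_j hI
  haveI := charP_redSeries (T := T)
  haveI : Fact q.Prime := ⟨T.prime⟩
  obtain ⟨-, b₀, hb₀⟩ := exists_twist ht b
  have hb₀y : chartIncl₁ T.j b₀ ∈ y :=
    (mem_iff_of_red₁'_eq ht h
      (by rw [red₁'_chartIncl₁, map_pow, red₁'_betaIncl₁, hb₀] :
        red₁Hom' ht (chartIncl₁ T.j b₀) = red₁Hom' ht (betaIncl₁ hI b ^ q))).mpr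
      (y.pow_mem_of_mem hb q T.prime.pos)
  obtain ⟨s₀, hs₀, hsb⟩ := hgen b₀ hb₀y
  obtain ⟨c₁, c₂, hc⟩ := Ideal.mem_span_pair.mp hsb
  obtain ⟨⟨s, hs⟩, -⟩ := exists_twist ht s₀
  obtain ⟨⟨c, hc'⟩, -⟩ := exists_twist ht c₂
  refine ⟨s, c, fun hmem => hs₀ ((mem_iff_of_red₁'_eq ht h
    (by rw [red₁'_chartIncl₁, map_pow, red₁'_betaIncl₁, hs] :
      red₁Hom' ht (chartIncl₁ T.j s₀) = red₁Hom' ht (betaIncl₁ hI s ^ q))).mpr
      (y.pow_mem_of_mem hmem q T.prime.pos)), frobenius_inj (LaurentSeries T.k) q ?_⟩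
  have h1 := congrArg (fun r => qExpand T.k q (red₀Hom ht r)) hc
  simp only [map_add, map_mul, red₀Hom_natCast_q, mul_zero, zero_add] at h1
  have hzr : qExpand T.k q (red₀Hom ht z) = red₀Hom ht z ^ q := hz.2
  rw [frobenius_def, frobenius_def, mul_pow, mul_pow, hs, hc', ← hb₀, ← h1, hzr, mul_comm]

theorem thruZero_of_thruInf_of_isSpecial (hI : T.Inputs) (y : Ideal (T.chart₁ T.j)) [y.IsMaximal]
    (hy : (q : T.chart₁ T.j) ∈ y) (hs : T.IsSpecial (y.comap (chartIncl₁ T.j)))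
    (z : T.chart₀ T.j) (hz : T.IsRat (z : T.F₀)) (hzy : z ∈ y.comap (chartIncl₁ T.j))
    (hgen : ∀ a ∈ y.comap (chartIncl₁ T.j), ∃ s ∉ y.comap (chartIncl₁ T.j),
      s * a ∈ Ideal.span {(q : T.chart₀ T.j), z})
    (h : ThruInf y) : ThruZero y := by
  have ht := T.chartParam_j hI
  haveI := isMaximal_comap_chartIncl₁ y
  intro c hc
  by_contra hcy
  set L : T.chart₁ T.j := betaIncl₁ hI z - chartIncl₁ T.j z ^ q with hL
  have hL0 : red₁Hom ht L = 0 := by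
    rw [hL, map_sub, map_pow, red₁_betaIncl₁, red₁_chartIncl₁, sub_eq_zero]
    exact hz.2
  obtain ⟨d, hd⟩ := exists_eq_mul₁ ht (c * L)
    (by rw [← red₁Hom_apply ht, map_mul, hL0, mul_zero])
    (by rw [← red₁Hom'_apply ht, map_mul, red₁Hom'_apply ht c, hc, zero_mul])
  obtain ⟨b, hb⟩ := exists_red₁Hom_eq hI (Or.inl rfl) c
  obtain ⟨a, ha⟩ := exists_red₁Hom_eq hI (Or.inl rfl) d
  refine not_regAt_frobQuot hI _ (q_mem_comap hy) z hz hzy hgen hs ⟨a, b, fun hbx => hcy ?_, ?_⟩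
  · exact (mem_iff_of_red₁_eq ht h (hb.trans (red₁_chartIncl₁ ht b).symm)).mpr hbx
  · rw [← red₀Hom_apply ht, ← red₀Hom_apply ht, ← ha, ← hb]
    exact (red₁_of_mul_sub_eq hI z hz c d hd).symm

theorem thruInf_and_thruZero_of_isSpecial (hI : T.Inputs) (y : Ideal (T.chart₁ T.j)) [y.IsMaximal]
    (hy : (q : T.chart₁ T.j) ∈ y) (hs : T.IsSpecial (y.comap (chartIncl₁ T.j)))
    (z : T.chart₀ T.j) (hz : T.IsRat (z : T.F₀)) (hzy : z ∈ y.comap (chartIncl₁ T.j))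
    (hgen : ∀ a ∈ y.comap (chartIncl₁ T.j), ∃ s ∉ y.comap (chartIncl₁ T.j),
      s * a ∈ Ideal.span {(q : T.chart₀ T.j), z}) :
    ThruInf y ∧ ThruZero y := by
  have ht := T.chartParam_j hI
  rcases thruInf_or_thruZero ht y hy with h | h
  · exact ⟨h, thruZero_of_thruInf_of_isSpecial hI y hy hs z hz hzy hgen h⟩
  refine ⟨?_, h⟩
  set y' := y.comap (w₁Hom hI) with hy'
  haveI : y'.IsMaximal := isMaximal_comap_w₁Hom hI y
  haveI := isMaximal_comap_chartIncl₁ y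
  haveI := isMaximal_comap_chartIncl₁ y'
  have hyq : (q : T.chart₁ T.j) ∈ y' := by rw [hy', Ideal.mem_comap, map_natCast]; exact hy
  have hmem : ∀ b, b ∈ y'.comap (chartIncl₁ T.j) ↔ betaIncl₁ hI b ∈ y := fun b => by
    rw [hy', Ideal.mem_comap, Ideal.mem_comap, w₁Hom_chartIncl₁]
  obtain ⟨a₀, ha₀, ha₀'⟩ := exists_phiBar_lift hI
  have hs' : T.IsSpecial (y'.comap (chartIncl₁ T.j)) := by
    rw [isSpecial_iff hI _ (q_mem_comap hyq) a₀ ha₀', hmem, betaIncl₁_mem_iff hI y hy a₀ ha₀,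
      ← Ideal.mem_comap, ← isSpecial_iff hI _ (q_mem_comap hy) a₀ ha₀']
    exact hs
  refine (thruZero_comap_w₁Hom hI y).mp (thruZero_of_thruInf_of_isSpecial hI y' hyq hs' z hz
    ((hmem z).mpr ((betaIncl₁_mem_iff hI y hy z hz).mpr hzy)) (fun b hb => ?_)
    ((thruInf_comap_w₁Hom hI y).mpr h))
  obtain ⟨s, c, hsy, hsb⟩ := exists_twisted_parameter hI y z hz hgen h b ((hmem b).mp hb)
  obtain ⟨e, he⟩ := ht.exists_eq_mul (s * b - z * c) (by
    rw [← red₀Hom_apply ht, map_sub, map_mul, map_mul, hsb, sub_self])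
  exact ⟨s, fun h' => hsy ((hmem s).mp h'),
    Ideal.mem_span_pair.mpr ⟨e, c, by rw [mul_comm e, ← he]; ring⟩⟩

/-- A special point lies on both branches and has the local equation `L L' = q R`, `R` a unit. -/
theorem special_point (hI : T.Inputs) (y : Ideal (T.chart₁ T.j)) [y.IsMaximal]
    (hy : (q : T.chart₁ T.j) ∈ y) (hs : T.IsSpecial (y.comap (chartIncl₁ T.j)))
    (z : T.chart₀ T.j) (hz : T.IsRat (z : T.F₀)) (hzy : z ∈ y.comap (chartIncl₁ T.j))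
    (hgen : ∀ a ∈ y.comap (chartIncl₁ T.j), ∃ s ∉ y.comap (chartIncl₁ T.j),
      s * a ∈ Ideal.span {(q : T.chart₀ T.j), z})
    (z₁ z₂ : T.chart₁ T.j) (hz₁ : (z₁ : T.F₁) = T.ι₀ z) (hz₂ : (z₂ : T.F₁) = T.β₀ z) :
    ThruInf y ∧ ThruZero y ∧ z₂ ∈ y ∧
      (∃ R s : T.chart₁ T.j, R ∉ y ∧ s ∉ y ∧
        s * ((z₂ - z₁ ^ q) * (z₁ - z₂ ^ q)) = q * R) ∧
      ∀ a ∈ y, ∃ s ∉ y, s * a ∈ Ideal.span {(q : T.chart₁ T.j), z₁, z₂} := by
  obtain rfl : z₁ = chartIncl₁ T.j z := Subtype.ext hz₁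
  obtain rfl : z₂ = betaIncl₁ hI z := Subtype.ext hz₂
  have ht := T.chartParam_j hI
  have hyp : y.IsPrime := Ideal.IsMaximal.isPrime ‹_›
  haveI := isMaximal_comap_chartIncl₁ y
  have hxp : (y.comap (chartIncl₁ T.j)).IsPrime := Ideal.IsMaximal.isPrime inferInstance
  obtain ⟨hInf, hZero⟩ := thruInf_and_thruZero_of_isSpecial hI y hy hs z hz hzy hgen
  have hz2y : betaIncl₁ hI z ∈ y := (betaIncl₁_mem_iff hI y hy z hz).mpr hzy
  have hzr : qExpand T.k q (red₀Hom ht z) = red₀Hom ht z ^ q := hz.2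
  have hone : (1 : T.chart₁ T.j) ∉ y := fun h => hyp.ne_top ((Ideal.eq_top_iff_one y).mpr h)
  have hq2 := one_lt_q_sq T
  have hm : q * q - 1 + 1 = q * q := by omega
  set z₁ := chartIncl₁ T.j z with hz₁'
  set z₂ := betaIncl₁ hI z with hz₂'
  have hL : red₁Hom ht (z₂ - z₁ ^ q) = 0 := by
    rw [map_sub, map_pow, red₁_betaIncl₁, red₁_chartIncl₁, hzr, sub_self]
  have hL' : red₁Hom' ht (z₁ - z₂ ^ q) = 0 := by
    rw [map_sub, map_pow, red₁'_betaIncl₁, red₁'_chartIncl₁, hzr, sub_self]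
  refine ⟨hInf, hZero, hz2y, ?_, fun a ha => ?_⟩
  · obtain ⟨R, hR⟩ := exists_eq_mul₁ ht ((z₂ - z₁ ^ q) * (z₁ - z₂ ^ q))
      (by rw [← red₁Hom_apply ht, map_mul, hL, zero_mul])
      (by rw [← red₁Hom'_apply ht, map_mul, hL', mul_zero])
    refine ⟨R, 1, fun hRy => ?_, hone, by rw [one_mul, hR]⟩
    have hred := red₁_of_mul_sub_eq hI z hz (z₁ - z₂ ^ q) R
      (by rw [mul_comm]; exact hR)
    obtain ⟨b, hb⟩ := exists_red₁Hom_eq hI (Or.inl rfl) R
    obtain ⟨s, hsx, hsb⟩ := hgen b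
      ((mem_iff_of_red₁_eq ht hInf (hb.trans (red₁_chartIncl₁ ht b).symm)).mp hRy)
    obtain ⟨c₁, c₂, hc⟩ := Ideal.mem_span_pair.mp hsb
    refine not_regAt_frobQuot hI _ (q_mem_comap hy) z hz hzy hgen hs
      ⟨c₂, s * (1 - z ^ (q * q - 1)), fun h => ?_, ?_⟩
    · rcases hxp.mem_or_mem h with h | h
      · exact hsx h
      · refine hxp.ne_top ((Ideal.eq_top_iff_one _).mpr ?_)
        simpa using add_mem h (Ideal.pow_mem_of_mem _ hzy (q * q - 1) (by omega))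
    · show T.frobQuot (z : T.F₀) * red₀Hom ht (s * (1 - z ^ (q * q - 1))) = red₀Hom ht c₂
      apply mul_right_cancel₀ (red₀_parameter_ne_zero hI _ (q_mem_comap hy) z hgen)
      have h1 := congrArg (red₀Hom ht) hc
      simp only [map_add, map_mul, red₀Hom_natCast_q, mul_zero, zero_add] at h1
      have h2 : red₁Hom ht (z₁ - z₂ ^ q) =
          red₀Hom ht z * (1 - red₀Hom ht z ^ (q * q - 1)) := by
        rw [map_sub, map_pow, red₁_betaIncl₁, red₁_chartIncl₁, hzr, ← pow_mul, mul_sub, mul_one,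
          ← pow_succ', hm]
      rw [h1, ← hb, hred, h2, map_mul, map_sub, map_one, map_pow]
      ring
  · obtain ⟨b, hb⟩ := exists_red₁Hom_eq hI (Or.inl rfl) a
    obtain ⟨s, hsx, hsb⟩ := hgen b
      ((mem_iff_of_red₁_eq ht hInf (hb.trans (red₁_chartIncl₁ ht b).symm)).mp ha)
    obtain ⟨c₁, c₂, hc⟩ := Ideal.mem_span_pair.mp hsb
    set c := chartIncl₁ T.j s * a - (chartIncl₁ T.j c₁ * q + chartIncl₁ T.j c₂ * z₁) with hcdef
    have hc0 : red₁Hom ht c = 0 := by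
      have h1 := congrArg (red₀Hom ht) hc
      simp only [map_add, map_mul] at h1
      rw [hcdef, map_sub, map_add, map_mul, map_mul, map_mul, red₁_chartIncl₁, red₁_chartIncl₁,
        red₁_chartIncl₁, red₁_chartIncl₁, red₁Hom_natCast_q, sub_eq_zero, hb, ← h1,
        red₀Hom_natCast_q]
    clear_value c
    obtain ⟨b', hb'⟩ := exists_red₁Hom_eq hI (Or.inl rfl) (w₁Hom hI c)
    rw [red₁_w₁Hom] at hb'
    obtain ⟨s', c₃, hs', hsb'⟩ := exists_twisted_parameter hI y z hz hgen hZero b'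
      ((mem_iff_of_red₁'_eq ht hZero (hb'.trans (red₁'_betaIncl₁ hI b').symm)).mp
        (hInf c hc0))
    obtain ⟨e, he⟩ := exists_eq_mul₁ ht
      (betaIncl₁ hI s' * (1 - z₂ ^ (q * q - 1)) * c - (z₂ - z₁ ^ q) * betaIncl₁ hI c₃)
      (by rw [← red₁Hom_apply ht, map_sub, map_mul, map_mul _ (z₂ - z₁ ^ q), hc0, hL, mul_zero,
        zero_mul, sub_zero])
      (by
        rw [← red₁Hom'_apply ht, map_sub, map_mul, map_mul, map_mul, map_sub, map_sub, map_one,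
          map_pow, map_pow, hb', hz₁', hz₂', red₁'_betaIncl₁, red₁'_betaIncl₁, red₁'_betaIncl₁,
          red₁'_chartIncl₁, hzr, ← pow_mul]
        have hpow : red₀Hom ht z ^ (q * q) = red₀Hom ht z ^ (q * q - 1) * red₀Hom ht z := by
          rw [← pow_succ, hm]
        rw [hpow]
        linear_combination (1 - red₀Hom ht z ^ (q * q - 1)) * hsb')
    refine ⟨betaIncl₁ hI s' * (1 - z₂ ^ (q * q - 1)) * chartIncl₁ T.j s, fun h => ?_, ?_⟩
    · rcases hyp.mem_or_mem h with h | h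
      · rcases hyp.mem_or_mem h with h | h
        · exact hs' h
        · exact hone (by simpa using add_mem h (y.pow_mem_of_mem hz2y (q * q - 1) (by omega)))
      · exact hsx h
    · have hspan : ∀ w ∈ ({(q : T.chart₁ T.j), z₁, z₂} : Set (T.chart₁ T.j)),
          w ∈ Ideal.span {(q : T.chart₁ T.j), z₁, z₂} := fun w hw => Ideal.subset_span hw
      rw [show betaIncl₁ hI s' * (1 - z₂ ^ (q * q - 1)) * chartIncl₁ T.j s * a =
          (q : T.chart₁ T.j) * e + (z₂ - z₁ ^ q) * betaIncl₁ hI c₃ +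
            betaIncl₁ hI s' * (1 - z₂ ^ (q * q - 1)) *
              (chartIncl₁ T.j c₁ * q + chartIncl₁ T.j c₂ * z₁) by
        rw [← he, hcdef]; ring]
      refine add_mem (add_mem (Ideal.mul_mem_right _ _ (hspan _ (by simp)))
        (Ideal.mul_mem_right _ _ (sub_mem (hspan _ (by simp))
          (Ideal.pow_mem_of_mem _ (hspan _ (by simp)) q T.prime.pos)))) ?_
      exact Ideal.mul_mem_left _ _ (add_mem (Ideal.mul_mem_left _ _ (hspan _ (by simp)))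
        (Ideal.mul_mem_left _ _ (hspan _ (by simp))))

/-- An ordinary point lies on one branch; on the branch at `∞` the parameters are `q`, `z`. -/
theorem ordinary_point (hI : T.Inputs) (y : Ideal (T.chart₁ T.j)) [y.IsMaximal]
    (hy : (q : T.chart₁ T.j) ∈ y) (hs : ¬ T.IsSpecial (y.comap (chartIncl₁ T.j)))
    (z : T.chart₀ T.j) (hz : T.IsRat (z : T.F₀)) (hzy : z ∈ y.comap (chartIncl₁ T.j))
    (hgen : ∀ a ∈ y.comap (chartIncl₁ T.j), ∃ s ∉ y.comap (chartIncl₁ T.j),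
      s * a ∈ Ideal.span {(q : T.chart₀ T.j), z})
    (z₁ z₂ : T.chart₁ T.j) (hz₁ : (z₁ : T.F₁) = T.ι₀ z) (hz₂ : (z₂ : T.F₁) = T.β₀ z) :
    ¬ (ThruInf y ∧ ThruZero y) ∧ z₂ ∈ y ∧
      (ThruInf y →
        (∀ a ∈ y, ∃ s ∉ y, s * a ∈ Ideal.span {(q : T.chart₁ T.j), z₁}) ∧
        ∃ u s : T.chart₁ T.j, s ∉ y ∧ s * (z₂ - z₁ ^ q) = q * u ∧
          T.red₁ (u : T.F₁) = T.frobQuot (z : T.F₀) * T.red₁ (s : T.F₁)) := by
  obtain rfl : z₁ = chartIncl₁ T.j z := Subtype.ext hz₁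
  obtain rfl : z₂ = betaIncl₁ hI z := Subtype.ext hz₂
  have ht := T.chartParam_j hI
  have hyp : y.IsPrime := Ideal.IsMaximal.isPrime ‹_›
  haveI := isMaximal_comap_chartIncl₁ y
  have hnot : ¬ (ThruInf y ∧ ThruZero y) := by
    rintro ⟨hInf, hZero⟩
    obtain ⟨Δ, U, hΔ, -, hid, hU, -, hU0, -, hwUred⟩ := hI.delta
    obtain ⟨a₀, ha₀, ha₀'⟩ := exists_phiBar_lift hI
    refine hs ((isSpecial_iff hI _ (q_mem_comap hy) a₀ ha₀').mpr ?_)
    have hΦ : T.red (T.e₁ (T.w₁ U)) = T.phiBar := by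
      rw [phiBar, show T.deltaS = Δ by rw [deltaS, hid, mul_div_cancel_left₀ _ (den_ne_zero hI)]]
      exact eq_inv_of_mul_eq_one_left hwUred
    have hUy : (⟨U, hU⟩ : T.chart₁ T.j) ∈ y := hInf _ hU0
    exact (betaIncl₁_mem_iff hI y hy a₀ ha₀).mp ((mem_iff_of_red₁'_eq ht hZero
      (show red₁Hom' ht ⟨U, hU⟩ = red₁Hom' ht (betaIncl₁ hI a₀) by
        rw [red₁'_betaIncl₁, red₀Hom_apply, ha₀']; exact hΦ)).mp hUy)
  refine ⟨hnot, (betaIncl₁_mem_iff hI y hy z hz).mpr hzy, fun hInf => ?_⟩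
  obtain ⟨e, he, hey⟩ : ∃ e : T.chart₁ T.j, T.red₁' (e : T.F₁) = 0 ∧ e ∉ y := by
    by_contra hcon
    exact hnot ⟨hInf, fun a ha => by_contra fun h => hcon ⟨a, ha, h⟩⟩
  rw [← red₁Hom'_apply ht] at he
  have hzr : qExpand T.k q (red₀Hom ht z) = red₀Hom ht z ^ q := hz.2
  refine ⟨fun a ha => ?_, ?_⟩
  · obtain ⟨b, hb⟩ := exists_red₁Hom_eq hI (Or.inl rfl) a
    obtain ⟨s, hsx, hsb⟩ := hgen b
      ((mem_iff_of_red₁_eq ht hInf (hb.trans (red₁_chartIncl₁ ht b).symm)).mp ha)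
    obtain ⟨c₁, c₂, hc⟩ := Ideal.mem_span_pair.mp hsb
    set c := chartIncl₁ T.j s * a -
      (chartIncl₁ T.j c₁ * q + chartIncl₁ T.j c₂ * chartIncl₁ T.j z) with hcdef
    have hc0 : red₁Hom ht c = 0 := by
      have h1 := congrArg (red₀Hom ht) hc
      simp only [map_add, map_mul] at h1
      rw [hcdef, map_sub, map_add, map_mul, map_mul, map_mul, red₁_chartIncl₁, red₁_chartIncl₁,
        red₁_chartIncl₁, red₁_chartIncl₁, red₁Hom_natCast_q, sub_eq_zero, hb, ← h1,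
        red₀Hom_natCast_q]
    clear_value c
    obtain ⟨d, hd⟩ := exists_eq_mul₁ ht (e * c)
      (by rw [← red₁Hom_apply ht, map_mul, hc0, mul_zero])
      (by rw [← red₁Hom'_apply ht, map_mul, he, zero_mul])
    refine ⟨e * chartIncl₁ T.j s, fun h => (hyp.mem_or_mem h).elim hey hsx, ?_⟩
    refine Ideal.mem_span_pair.mpr ⟨d + e * chartIncl₁ T.j c₁, e * chartIncl₁ T.j c₂, ?_⟩
    rw [hcdef] at hd
    linear_combination -hd
  · obtain ⟨u, hu⟩ := exists_eq_mul₁ ht (e * (betaIncl₁ hI z - chartIncl₁ T.j z ^ q))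
      (by rw [← red₁Hom_apply ht, map_mul, map_sub, map_pow, red₁_betaIncl₁, red₁_chartIncl₁, hzr,
        sub_self, mul_zero])
      (by rw [← red₁Hom'_apply ht, map_mul, he, zero_mul])
    exact ⟨u, e, hey, hu, red₁_of_mul_sub_eq hI z hz e u hu⟩

/-- A cusp: one branch only; on the branch at `∞` the ratio `j(qτ)/j(τ)^q` is `≡ 1` polynomially
in `1/j`. -/
theorem cusp_point (hI : T.Inputs) (y : Ideal (T.chart₁ T.j⁻¹)) [y.IsMaximal]
    (hy : (q : T.chart₁ T.j⁻¹) ∈ y) (v : T.chart₁ T.j⁻¹)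
    (hv : (v : T.F₁) = T.ι₀ T.j⁻¹) (hvy : v ∈ y) :
    ∃ r : T.chart₁ T.j⁻¹, (r : T.F₁) * T.ι₀ T.j ^ q = T.β₀ T.j ∧
      ¬ (ThruInf y ∧ ThruZero y) ∧
      (∃ u s : T.chart₁ T.j⁻¹, s ∉ y ∧ u ∈ y ∧ (s : T.F₁) * T.β₀ T.j⁻¹ = u) ∧
      (ThruInf y → r - 1 ∈ y ∧ ∀ n : ℕ, ∃ g : Polynomial ℤ,
        Polynomial.C (q : ℤ) ∣ g - 1 ∧ ∃ s ∉ y,
          s * (r - Polynomial.aeval v g) ∈ Ideal.span {(q : T.chart₁ T.j⁻¹), v} ^ n) := by
  obtain rfl : v = vInf := Subtype.ext hv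
  have ht := T.chartParam_jinv hI
  have hyp : y.IsPrime := Ideal.IsMaximal.isPrime ‹_›
  obtain ⟨r, hr, happ⟩ := exists_cusp_ratio hI
  obtain ⟨u, s, hsu, hus⟩ := exists_cusp_beta_inv hI
  obtain ⟨hr1, hr2⟩ := red_cusp_ratio hI r hr
  have hinf : ThruInf y → r - 1 ∈ y := fun h =>
    h _ (by rw [← red₁Hom_apply ht, map_sub, hr1, map_one, sub_self])
  refine ⟨r, hr, ?_, ⟨u, s, (hus y hyp hy hvy).1, (hus y hyp hy hvy).2, hsu⟩,
    fun h => ⟨hinf h, happ y hyp hy hvy (hinf h)⟩⟩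
  rintro ⟨hInf, hZero⟩
  have hE : r ^ q - vInf ^ (q * q - 1) ∈ y := hZero _ hr2
  have := one_lt_q_sq T
  have hrq : r ^ q ∈ y := by
    simpa using y.add_mem hE (y.pow_mem_of_mem hvy (q * q - 1) (by omega))
  refine hyp.ne_top ((Ideal.eq_top_iff_one y).mpr ?_)
  simpa using y.sub_mem (hyp.mem_of_pow_mem q hrq) (hinf hInf)

end Tower

end FermatLib.Igusa.Carayol
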