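import Mathlib
import Fermat.Agent.Igusa.Carayol.TowerChart
import Fermat.Agent.Igusa.Carayol.LevelZeroPoints

/-!
The local ring of a point of the chart of level `N q²` inside the function field, and the points of
level `N q` under it along a map of function fields.
-/

set_option autoImplicit false
set_option linter.style.haveILetI false
set_option maxHeartbeats 400000
set_option synthInstance.maxHeartbeats 100000

noncomputable section

open ModularCurve FermatLib.Igusa

namespace FermatLib.Igusa.Carayol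

namespace Tower

variable {q : ℕ} [NeZero q] {T : Tower q} {t : T.F₀}

/-- The local ring of a point inside the function field. -/
def locAt (x : Ideal (T.chart₂ t)) [x.IsPrime] : Subring T.F₂ where
  carrier := {a | ∃ s : T.chart₂ t, s ∉ x ∧ (s : T.F₂) * a ∈ T.chart₂ t}
  mul_mem' := fun {a b} ⟨s, hs, hsa⟩ ⟨s', hs', hsb⟩ => ⟨s * s',
    fun h => (‹x.IsPrime›.mem_or_mem h).elim hs hs', by
      rw [MulMemClass.coe_mul, mul_mul_mul_comm]
      exact mul_mem hsa hsb⟩
  one_mem' := ⟨1, fun h => ‹x.IsPrime›.ne_top ((Ideal.eq_top_iff_one x).mpr h), by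
    rw [OneMemClass.coe_one, one_mul]
    exact one_mem _⟩
  add_mem' := fun {a b} ⟨s, hs, hsa⟩ ⟨s', hs', hsb⟩ => ⟨s * s',
    fun h => (‹x.IsPrime›.mem_or_mem h).elim hs hs', by
      rw [MulMemClass.coe_mul, show (s : T.F₂) * (s' : T.F₂) * (a + b) =
        (s' : T.F₂) * ((s : T.F₂) * a) + (s : T.F₂) * ((s' : T.F₂) * b) by ring]
      exact add_mem (mul_mem s'.2 hsa) (mul_mem s.2 hsb)⟩
  zero_mem' := ⟨1, fun h => ‹x.IsPrime›.ne_top ((Ideal.eq_top_iff_one x).mpr h), by
    rw [mul_zero]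
    exact zero_mem _⟩
  neg_mem' := fun {a} ⟨s, hs, hsa⟩ => ⟨s, hs, by rw [mul_neg]; exact neg_mem hsa⟩

/-- The chart inside the local ring of a point. -/
instance algebraLocAt (x : Ideal (T.chart₂ t)) [x.IsPrime] : Algebra (T.chart₂ t) (locAt x) :=
  RingHom.toAlgebra ((T.chart₂ t).val.toRingHom.codRestrict (locAt x) fun r =>
    ⟨1, fun h => ‹x.IsPrime›.ne_top ((Ideal.eq_top_iff_one x).mpr h), by
      rw [OneMemClass.coe_one, one_mul]
      exact r.2⟩)

instance isScalarTower_locAt (x : Ideal (T.chart₂ t)) [x.IsPrime] :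
    IsScalarTower (T.chart₂ t) (locAt x) T.F₂ :=
  IsScalarTower.of_algebraMap_eq fun _ => rfl

variable {x : Ideal (T.chart₂ t)} [x.IsPrime]

theorem coe_mem_locAt (c : T.chart₂ t) : (c : T.F₂) ∈ locAt x :=
  (algebraMap (T.chart₂ t) (locAt x) c).2

omit [x.IsPrime] in
theorem coe_ne_zero_of_not_mem {s : T.chart₂ t} (hs : s ∉ x) : (s : T.F₂) ≠ 0 := fun h =>
  hs (by rw [show s = 0 from Subtype.ext h]; exact x.zero_mem)

instance isLocalization_locAt : IsLocalization.AtPrime (locAt x) x := by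
  refine ⟨⟨fun s => ?_, fun a => ?_, fun {a b} h => ?_⟩⟩
  · have hs : ((s : T.chart₂ t) : T.F₂) ≠ 0 := coe_ne_zero_of_not_mem s.2
    refine IsUnit.of_mul_eq_one ⟨((s : T.chart₂ t) : T.F₂)⁻¹, ⟨(s : T.chart₂ t), s.2, ?_⟩⟩
      (Subtype.ext (mul_inv_cancel₀ hs))
    rw [mul_inv_cancel₀ hs]
    exact one_mem _
  · obtain ⟨s, hs, hsa⟩ := a.2
    exact ⟨⟨⟨_, hsa⟩, ⟨s, hs⟩⟩, Subtype.ext (mul_comm _ _)⟩
  · exact ⟨1, by rw [OneMemClass.coe_one, one_mul, one_mul]; exact Subtype.ext (congrArg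
      (fun z : locAt x => (z : T.F₂)) h)⟩

instance isLocalRing_locAt : IsLocalRing (locAt x) :=
  IsLocalization.AtPrime.isLocalRing (locAt x) x

theorem mem_maximalIdeal_locAt {a : locAt x} :
    a ∈ IsLocalRing.maximalIdeal (locAt x) ↔
      ∃ s c : T.chart₂ t, s ∉ x ∧ c ∈ x ∧ (s : T.F₂) * a = c := by
  obtain ⟨s, hs, hsa⟩ := a.2
  have he : algebraMap (T.chart₂ t) (locAt x) ⟨_, hsa⟩ = algebraMap (T.chart₂ t) (locAt x) s * a :=
    rfl
  constructor
  · intro ha
    refine ⟨s, ⟨_, hsa⟩, hs, ?_, rfl⟩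
    rw [← IsLocalization.AtPrime.to_map_mem_maximal_iff (locAt x) x, he]
    exact Ideal.mul_mem_left _ _ ha
  · rintro ⟨s', c, hs', hc, h⟩
    have h1 : algebraMap (T.chart₂ t) (locAt x) s' * a ∈ IsLocalRing.maximalIdeal (locAt x) := by
      rw [show algebraMap (T.chart₂ t) (locAt x) s' * a = algebraMap (T.chart₂ t) (locAt x) c from
        Subtype.ext h, IsLocalization.AtPrime.to_map_mem_maximal_iff (locAt x) x]
      exact hc
    exact ((IsLocalRing.maximalIdeal.isMaximal (locAt x)).isPrime.mem_or_mem h1).resolve_left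
      fun h2 => hs' ((IsLocalization.AtPrime.to_map_mem_maximal_iff (locAt x) x s').mp h2)

theorem natCast_q_mem_maximalIdeal (hx : (q : T.chart₂ t) ∈ x) :
    (q : locAt x) ∈ IsLocalRing.maximalIdeal (locAt x) := by
  rw [← map_natCast (algebraMap (T.chart₂ t) (locAt x)),
    IsLocalization.AtPrime.to_map_mem_maximal_iff (locAt x) x]
  exact hx

theorem isNoetherianRing_locAt (hI : T.Inputs) (ht : t = T.j ∨ t = T.j⁻¹) :
    IsNoetherianRing (locAt x) := by
  haveI := T.isDiscreteValuationRing_W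
  haveI := finiteType_chart₂ hI ht
  exact IsLocalization.isNoetherianRing x.primeCompl _
    (Algebra.FiniteType.isNoetherianRing T.W (T.chart₂ t))

/-- The local ring is normal. -/
theorem mem_locAt_of_isIntegral (ht : T.ChartParam t) {a : T.F₂} (ha : IsIntegral (locAt x) a) :
    a ∈ locAt x := by
  haveI := isIntegrallyClosed_chart₂ ht
  haveI := isFractionRing_chart₂ ht
  obtain ⟨⟨s, hs⟩, hsa⟩ :=
    IsIntegral.exists_multiple_integral_of_isLocalization (Rₘ := locAt x) x.primeCompl a ha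
  obtain ⟨b, hb⟩ := IsIntegrallyClosed.isIntegral_iff.mp hsa
  refine ⟨s, hs, ?_⟩
  rw [show (s : T.F₂) * a = algebraMap (T.chart₂ t) T.F₂ b from hb.symm]
  exact b.2

/-- A map of function fields sends the chart of level `N q` into the local ring of a point as soon
as it sends the parameter there. -/
theorem algHom_mem_locAt (ht : T.ChartParam t) (η : T.F₁ →ₐ[T.K] T.F₂)
    (hη : η (T.ι₀ t) ∈ locAt x) {a : T.F₁} (ha : a ∈ T.chart₁ t) : η a ∈ locAt x := by
  have h : IsIntegral (Algebra.adjoin T.W {η (T.ι₀ t)}) (η a) :=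
    map_isIntegral_adjoin (η.restrictScalars T.W)
      (isIntegral_algebraMap (R := Algebra.adjoin T.W {η (T.ι₀ t)})
        (x := ⟨η (T.ι₀ t), Algebra.self_mem_adjoin_singleton _ _⟩)) ha
  have hle : ∀ r ∈ Algebra.adjoin T.W {η (T.ι₀ t)}, r ∈ locAt x := fun r hr => by
    induction hr using Algebra.adjoin_induction with
    | mem z hz => rw [Set.mem_singleton_iff] at hz; exact hz ▸ hη
    | algebraMap w => exact coe_mem_locAt (algebraMap T.W (T.chart₂ t) w)
    | add a b _ _ ha hb => exact add_mem ha hb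
    | mul a b _ _ ha hb => exact mul_mem ha hb
  obtain ⟨p, hp, hpa⟩ := h
  refine mem_locAt_of_isIntegral ht
    ⟨p.map ((Algebra.adjoin T.W {η (T.ι₀ t)}).val.toRingHom.codRestrict (locAt x)
      fun r => hle _ r.2), hp.map _, ?_⟩
  rw [Polynomial.eval₂_map]
  exact hpa

/-- The chart of level `N q` in the local ring of a point, along a map of function fields. -/
def pullHom (ht : T.ChartParam t) (η : T.F₁ →ₐ[T.K] T.F₂) (hη : η (T.ι₀ t) ∈ locAt x) :
    T.chart₁ t →+* locAt x :=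
  (η.toRingHom.comp (T.chart₁ t).val.toRingHom).codRestrict (locAt x)
    fun a => algHom_mem_locAt ht η hη a.2

@[simp] theorem coe_pullHom (ht : T.ChartParam t) (η : T.F₁ →ₐ[T.K] T.F₂)
    (hη : η (T.ι₀ t) ∈ locAt x) (a : T.chart₁ t) :
    (pullHom ht η hη a : T.F₂) = η (a : T.F₁) :=
  rfl

/-- The point of level `N q` under a point, along a map of function fields. -/
def pullPoint (ht : T.ChartParam t) (η : T.F₁ →ₐ[T.K] T.F₂) (hη : η (T.ι₀ t) ∈ locAt x) :
    Ideal (T.chart₁ t) :=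
  (IsLocalRing.maximalIdeal (locAt x)).comap (pullHom ht η hη)

theorem q_mem_pullPoint (ht : T.ChartParam t) (η : T.F₁ →ₐ[T.K] T.F₂)
    (hη : η (T.ι₀ t) ∈ locAt x) (hx : (q : T.chart₂ t) ∈ x) :
    (q : T.chart₁ t) ∈ pullPoint ht η hη := by
  rw [pullPoint, Ideal.mem_comap, map_natCast]
  exact natCast_q_mem_maximalIdeal hx

/-- If the parameter vanishes at the point, so does its image point, which is closed. -/
theorem isMaximal_pullPoint (ht : T.ChartParam t) (η : T.F₁ →ₐ[T.K] T.F₂)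
    (hη : η (T.ι₀ t) ∈ locAt x) (hx : (q : T.chart₂ t) ∈ x)
    (hv : (⟨η (T.ι₀ t), hη⟩ : locAt x) ∈ IsLocalRing.maximalIdeal (locAt x)) :
    (pullPoint ht η hη).IsMaximal := by
  haveI := T.isDiscreteValuationRing_W
  set y := pullPoint ht η hη
  haveI hy : y.IsPrime := Ideal.IsPrime.comap _
  refine Ideal.Quotient.maximal_of_isField y ?_
  let f : T.W →+* T.chart₁ t ⧸ y := (Ideal.Quotient.mk y).comp (algebraMap T.W (T.chart₁ t))
  have hle : RingHom.ker T.πW ≤ RingHom.ker f := fun w hw => by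
    have hw' : w ∈ Ideal.span {(q : T.W)} := by
      rw [← Irreducible.maximalIdeal_eq T.irreducible_q, IsLocalRing.mem_maximalIdeal]
      exact fun hu => (hu.map T.πW).ne_zero hw
    obtain ⟨d, rfl⟩ := Ideal.mem_span_singleton.mp hw'
    refine Ideal.Quotient.eq_zero_iff_mem.mpr ?_
    rw [map_mul, map_natCast]
    exact y.mul_mem_right _ (q_mem_pullPoint ht η hη hx)
  let ψ : T.k →+* T.chart₁ t ⧸ y := T.πW.liftOfSurjective T.πW_surjective ⟨f, hle⟩
  have hψ : ∀ w, ψ (T.πW w) = f w := fun w => RingHom.liftOfRightInverse_comp_apply _ _ _ _ w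
  letI : CommRing (T.chart₁ t ⧸ y) := Ideal.Quotient.commRing y
  letI : Algebra T.k (T.chart₁ t ⧸ y) := RingHom.toAlgebra ψ
  haveI : Algebra.IsIntegral T.k (T.chart₁ t ⧸ y) := ⟨fun a => by
    obtain ⟨a, rfl⟩ := Ideal.Quotient.mk_surjective a
    obtain ⟨p, hp, hpa⟩ : IsIntegral (Algebra.adjoin T.W {T.ι₀ t}) (a : T.F₁) := a.2
    have hin : ∀ r ∈ Algebra.adjoin T.W {T.ι₀ t}, r ∈ T.chart₁ t := fun r hr =>
      Algebra.adjoin_le (Set.singleton_subset_iff.mpr
        (ι₀_mem_chart₁ mem_chart₀_self)) hr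
    let g : Algebra.adjoin T.W {T.ι₀ t} →+* T.chart₁ t :=
      (Algebra.adjoin T.W {T.ι₀ t}).val.toRingHom.codRestrict (T.chart₁ t).toSubring
        fun r => hin _ r.2
    have hpa' : p.eval₂ g a = 0 := Subtype.ext (by
      show (T.chart₁ t).val.toRingHom _ = _
      rw [Polynomial.hom_eval₂]
      exact hpa)
    have hrange : ∀ r (hr : r ∈ Algebra.adjoin T.W {T.ι₀ t}),
        Ideal.Quotient.mk y (g ⟨r, hr⟩) ∈ ψ.range := fun r hr => by
      induction hr using Algebra.adjoin_induction with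
      | mem z hz =>
        rw [Set.mem_singleton_iff] at hz
        refine ⟨0, ?_⟩
        rw [map_zero, eq_comm, Ideal.Quotient.eq_zero_iff_mem]
        show pullHom (x := x) ht η hη _ ∈ IsLocalRing.maximalIdeal (locAt x)
        convert hv using 1
        exact Subtype.ext (congrArg η hz)
      | algebraMap w => exact ⟨T.πW w, (hψ w).trans rfl⟩
      | add a b ha hb iha ihb =>
        rw [show g ⟨a + b, _⟩ = g ⟨a, ha⟩ + g ⟨b, hb⟩ from rfl, map_add]
        exact add_mem iha ihb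
      | mul a b ha hb iha ihb =>
        rw [show g ⟨a * b, _⟩ = g ⟨a, ha⟩ * g ⟨b, hb⟩ from rfl, map_mul]
        exact mul_mem iha ihb
    obtain ⟨P, hP, -, hPm⟩ := Polynomial.lifts_and_natDegree_eq_and_monic
      (f := ψ) ((Polynomial.lifts_iff_coeff_lifts
        (p.map ((Ideal.Quotient.mk y).comp g))).mpr fun n => by
          rw [Polynomial.coeff_map]
          exact hrange _ (p.coeff n).2) (hp.map _)
    refine ⟨P, hPm, ?_⟩
    show P.eval₂ ψ _ = 0
    rw [Polynomial.eval₂_eq_eval_map, hP, Polynomial.eval_map, ← Polynomial.hom_eval₂, hpa',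
      map_zero]⟩
  exact isField_of_isIntegral_of_isField' (Field.toIsField T.k)

/-- On a branch through the point, reduction zero implies vanishing at the point. -/
theorem mem_maximalIdeal_of_red₂ (ht : T.ChartParam t) {i : Fin 3} (hi : Thru i x) (a : locAt x)
    (ha : T.branch i (a : T.F₂) ∈ gaussInt T.π) (h0 : T.red₂ i (a : T.F₂) = 0) :
    a ∈ IsLocalRing.maximalIdeal (locAt x) := by
  obtain ⟨s, hs, hsa⟩ := a.2
  refine mem_maximalIdeal_locAt.mpr ⟨s, ⟨_, hsa⟩, hs, hi _ ?_, rfl⟩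
  show gred T.π (T.branch i ((s : T.F₂) * (a : T.F₂))) = 0
  rw [map_mul, gred_mul (branch_mem_gaussInt ht i s) ha,
    show gred T.π (T.branch i (a : T.F₂)) = 0 from h0, mul_zero]

end Tower

end FermatLib.Igusa.Carayol
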