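import Mathlib
import Fermat.Agent.Igusa.Carayol.TowerChart
import Fermat.Agent.Igusa.Carayol.LevelSeries
import Fermat.Agent.Igusa.Carayol.LevelZeroChart

/-!
The reductions of level `N q²` along the three branches lie in the reduced field of level `N`:
weak approximation by explicit separators followed by traces.
-/

set_option autoImplicit false
set_option linter.style.haveILetI false
set_option linter.unusedSectionVars false
set_option maxHeartbeats 400000

noncomputable section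

open ModularCurve HahnSeries FermatLib.Igusa

namespace FermatLib.Igusa.Carayol

section gauss

variable {L : Type*} [Field L] {A : ValuationSubring L} {k : Type*} [Field k] {π : A →+* k}

theorem gred_sum {ι : Type*} (s : Finset ι) {f : ι → LaurentSeries L}
    (hf : ∀ i ∈ s, f i ∈ gaussInt π) :
    gred π (∑ i ∈ s, f i) = ∑ i ∈ s, gred π (f i) := by
  classical
  induction s using Finset.induction_on with
  | empty => simp [gred_zero]
  | insert a s ha ih =>
    rw [Finset.sum_insert ha, Finset.sum_insert ha, gred_add (hf a (Finset.mem_insert_self a s))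
      (sum_mem fun i hi => hf i (Finset.mem_insert_of_mem hi)),
      ih fun i hi => hf i (Finset.mem_insert_of_mem hi)]

variable [IsDiscreteValuationRing A]

/-- An integral series with reduction zero is a multiple of the uniformiser. -/
theorem exists_eq_irreducible_mul (hπ : ∀ a : A, π a = 0 ↔ ¬ IsUnit a) {ϖ : A}
    (hϖ : Irreducible ϖ) {g : LaurentSeries L} (hg : g ∈ gaussInt π) (h0 : gred π g = 0) :
    ∃ g' ∈ gaussInt π, g = algebraMap L (LaurentSeries L) (ϖ : L) * g' := by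
  obtain ⟨y, z, hz, h⟩ := hg
  rw [gred_eq hz h, div_eq_zero_iff, or_iff_left hz] at h0
  obtain ⟨y', hy'⟩ := (single_dvd_iff ϖ y).mpr fun i => by
    have h1 : π (y.coeff i) = 0 := by
      have := congrArg (fun s : LaurentSeries k => s.coeff i) h0
      simpa using this
    have h2 : y.coeff i ∈ IsLocalRing.maximalIdeal A := (hπ _).mp h1
    rwa [hϖ.maximalIdeal_eq, Ideal.mem_span_singleton] at h2
  rw [hy', map_mul, latVal_single, ← algebraMap_laurentSeries_eq_single] at h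
  have hne : algebraMap L (LaurentSeries L) (ϖ : L) ≠ 0 := by simpa using hϖ.ne_zero
  refine ⟨(algebraMap L (LaurentSeries L) (ϖ : L))⁻¹ * g, ⟨y', z, hz, ?_⟩,
    (mul_inv_cancel_left₀ hne g).symm⟩
  rw [mul_assoc, h, inv_mul_cancel_left₀ hne]

/-- A high power of a series with reduction zero absorbs any bounded series. -/
theorem exists_pow_absorb (hπ : ∀ a : A, π a = 0 ↔ ¬ IsUnit a) {f g : LaurentSeries L}
    (hf : f ∈ gaussField A) (hg : g ∈ gaussInt π) (h0 : gred π g = 0) :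
    ∃ N₀ : ℕ, ∀ N, N₀ ≤ N → f * g ^ N ∈ gaussInt π ∧ gred π (f * g ^ N) = 0 := by
  rcases eq_or_ne f 0 with rfl | hf0
  · exact ⟨0, fun N _ => by simp [zero_mem, gred_zero]⟩
  obtain ⟨ϖ, hϖ⟩ := IsDiscreteValuationRing.exists_irreducible A
  have hL : (ϖ : L) ≠ 0 := by simpa using hϖ.ne_zero
  obtain ⟨n, hn, -⟩ := exists_zpow_mul_gred_ne_zero hπ hϖ hf hf0
  obtain ⟨g', hg', rfl⟩ := exists_eq_irreducible_mul hπ hϖ hg h0
  refine ⟨n.natAbs + 1, fun N hN => ?_⟩
  obtain ⟨d, hd⟩ : ∃ d : ℕ, (N : ℤ) - n = (d + 1 : ℕ) :=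
    ⟨((N : ℤ) - n - 1).toNat, by omega⟩
  have hkey : f * (algebraMap L (LaurentSeries L) (ϖ : L) * g') ^ N =
      algebraMap L (LaurentSeries L) ((ϖ ^ (d + 1) : A) : L) *
        (algebraMap L (LaurentSeries L) ((ϖ : L) ^ n) * f * g' ^ N) := by
    rw [SubmonoidClass.coe_pow, ← mul_assoc, ← mul_assoc, ← map_mul,
      ← zpow_natCast (ϖ : L) (d + 1), ← zpow_add₀ hL, ← hd, sub_add_cancel, zpow_natCast,
      map_pow, mul_pow]
    ring
  have hin := mul_mem hn (pow_mem hg' N)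
  rw [hkey]
  refine ⟨mul_mem (algebraMap_mem_gaussInt _) hin, gred_algebraMap_mul_eq_zero ?_ hin⟩
  rw [map_pow, (hπ _).mpr hϖ.not_isUnit, zero_pow d.succ_ne_zero]

theorem mem_gaussInt_of_qExpand (hπ : ∀ a : A, π a = 0 ↔ ¬ IsUnit a) (n : ℕ) [NeZero n]
    {f : LaurentSeries L} (hf : f ∈ gaussField A) (h : qExpand L n f ∈ gaussInt π) :
    f ∈ gaussInt π := by
  rcases mem_or_inv_mem_gaussInt (π := π) hπ hf with h' | h'
  · exact h'
  rcases eq_or_ne f 0 with rfl | hf0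
  · exact zero_mem _
  by_cases h0 : gred π f⁻¹ = 0
  · exfalso
    obtain ⟨hm, hr⟩ := qExpand_mem_gaussInt n h'
    have h1 := gred_mul (π := π) h hm
    rw [hr, h0, map_zero (qExpand k n), mul_zero, ← map_mul, mul_inv_cancel₀ hf0, map_one,
      gred_one] at h1
    exact one_ne_zero h1
  · simpa using inv_mem_gaussInt h' h0

theorem coeffMap_gaussInt_endo (σA : A →+* A) (σ : L →+* L) (hσ : ∀ a : A, (σA a : L) = σ a)
    (hπσ : ∀ a, π (σA a) = π a) {f : LaurentSeries L} (hf : f ∈ gaussInt π) :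
    coeffMap σ f ∈ gaussInt π ∧ gred π (coeffMap σ f) = gred π f := by
  refine map_mem_gaussInt_and_gred (coeffMap σA) _ (RingHom.id _) (fun y => ?_) (fun y => ?_) hf
  · ext n
    simp [hσ]
  · ext n
    simp [hπσ]

end gauss

namespace Tower

variable {q : ℕ} [NeZero q] (T : Tower q)

/-- A reduced series lies in the reduced field of level `N`. -/
def InReduced (h : LaurentSeries T.k) : Prop :=
  ∃ b d : T.F₀, T.e₀ b ∈ gaussInt T.π ∧ T.e₀ d ∈ gaussInt T.π ∧ T.red₀ d ≠ 0 ∧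
    h * T.red₀ d = T.red₀ b

variable {T}

theorem InReduced.of_mul {h g g' : LaurentSeries T.k} (hg : T.InReduced g)
    (hg' : T.InReduced g') (h0 : g ≠ 0) (e : h * g = g') : T.InReduced h := by
  obtain ⟨b, d, hb, hd, hd0, hbd⟩ := hg
  obtain ⟨b', d', hb', hd', hd'0, hbd'⟩ := hg'
  refine ⟨b' * d, b * d', by rw [map_mul]; exact mul_mem hb' hd,
    by rw [map_mul]; exact mul_mem hb hd', ?_, ?_⟩
  · show gred T.π _ ≠ 0
    rw [map_mul, gred_mul hb hd']
    exact mul_ne_zero (fun hb0 => mul_ne_zero h0 hd0 (hbd.trans hb0)) hd'0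
  · show h * gred T.π _ = gred T.π _
    rw [map_mul, map_mul, gred_mul hb hd', gred_mul hb' hd,
      show gred T.π (T.e₀ b) = g * T.red₀ d from hbd.symm,
      show gred T.π (T.e₀ b') = g' * T.red₀ d' from hbd'.symm, ← e]
    ring

variable (T)

theorem e₀_j_series : ∃ J : LaurentSeries ℤ,
    T.red₀ T.j = coeffMap (Int.castRingHom T.k) J := by
  haveI : CharZero T.L := charZero_of_injective_algebraMap (algebraMap T.K T.L).injective
  choose z hz using T.j_int
  have hsupp : (Function.support z).IsPWO := (T.e₀ T.j).isPWO_support.mono fun i hi h => hi (by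
    rw [e₀_apply, ← hz] at h
    exact Int.cast_eq_zero.mp h)
  refine ⟨⟨z, hsupp⟩, ?_⟩
  obtain ⟨h1, h2⟩ := latVal_intCast (π := T.π) (⟨z, hsupp⟩ : LaurentSeries ℤ)
  have h : T.e₀ T.j = coeffMap (Int.castRingHom T.L) (⟨z, hsupp⟩ : LaurentSeries ℤ) := by
    ext i
    rw [e₀_apply, ← hz, coeffMap_coeff]
    rfl
  show gred T.π (T.e₀ T.j) = _
  rw [h, ← h1, gred_latVal, h2]

/-- The reduced expansion of `j` has coefficients in the prime field. -/
theorem red_j_qExpand : qExpand T.k q (T.red₀ T.j) = T.red₀ T.j ^ q := by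
  obtain ⟨J, hJ⟩ := T.e₀_j_series
  rw [hJ]
  exact coeffMap_intCast_mem_frobFixed T.prime J

theorem red_j_qExpand_sq :
    qExpand T.k q (qExpand T.k q (T.red₀ T.j)) = T.red₀ T.j ^ q ^ 2 := by
  rw [T.red_j_qExpand, map_pow, T.red_j_qExpand, ← pow_mul, sq]

theorem red_j_sub_pow_ne_zero {m : ℕ} (hm : 1 < m) : T.red₀ T.j - T.red₀ T.j ^ m ≠ 0 := by
  intro h
  refine T.transcendental_red_j ⟨Polynomial.X - Polynomial.X ^ m, fun h0 => ?_, by
    rw [map_sub, map_pow, Polynomial.aeval_X]; exact h⟩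
  have := congrArg (fun P : Polynomial T.k => P.coeff 1) h0
  simp [Polynomial.coeff_X_pow, hm.ne] at this

theorem scaleζ_mem (i : ℕ) {f : LaurentSeries T.L} (hf : f ∈ gaussInt T.π) :
    monoNewScale (T.toBase.ζL ^ i) f ∈ gaussInt T.π ∧
      T.red (monoNewScale (T.toBase.ζL ^ i) f) = T.red f := by
  rw [Base.ζL, ← map_pow]
  exact monoNewScale_mem_gaussInt _ (by simp [T.π_ζ]) hf

theorem conj_series_mem (i : ℕ) {f : LaurentSeries T.L} (hf : f ∈ gaussInt T.π) :
    coeffMap (T.conj i).toRingHom f ∈ gaussInt T.π ∧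
      T.red (coeffMap (T.conj i).toRingHom f) = T.red f :=
  coeffMap_gaussInt_endo (T.conjA i) _ (fun _ => rfl) (T.π_conjA i) hf

/-- The trace to level `N`, read at `∞`. -/
theorem map_trace₁ (y : T.F₁) :
    letI := T.ι₀.toRingHom.toAlgebra
    qExpand T.L q (T.e₀ (Algebra.trace T.F₀ T.F₁ y)) =
      qExpand T.L q (T.e₁ y) + ∑ i : Fin q,
        monoNewScale (T.toBase.ζL ^ (i : ℕ)) (T.e₁ (T.w₁ y)) := by
  letI := T.ι₀.toRingHom.toAlgebra
  haveI : FiniteDimensional T.F₀ T.F₁ :=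
    FiniteDimensional.of_finrank_pos (by rw [T.finrank₀]; omega)
  haveI : CharZero T.F₀ := charZero_of_injective_algebraMap (algebraMap T.K T.F₀).injective
  have h := map_trace_eq_sum (e := (qExpand T.L q).comp T.e₀) (σ := T.emb₁) (fun o x => ?_) ?_
    (by rw [Fintype.card_option, Fintype.card_fin, T.finrank₀]) y
  · rw [Fintype.sum_option] at h
    exact h
  · cases o with
    | none => rfl
    | some i =>
      show monoNewScale _ (T.e₁ (T.w₁ (T.ι₀ x))) = qExpand T.L q (T.e₀ x)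
      rw [T.w₁_ι₀, T.e₁_β₀, T.scale_qExpand]
  · intro o o' h
    have h1 := congrArg (fun f : T.F₁ →+* LaurentSeries T.L => (f (T.β₀ T.j)).coeff (-1)) h
    have hsome : ∀ i : Fin q, (T.emb₁ (some i) (T.β₀ T.j)).coeff (-1) =
        ((T.toBase.ζL : T.L) ^ (i : ℕ))⁻¹ := fun i => by
      show (monoNewScale _ (T.e₁ (T.w₁ (T.β₀ T.j)))).coeff _ = _
      rw [w₁_β₀, T.e₁_ι₀, T.coeff_neg_one_e₀_scale]
    have hnone : (T.emb₁ none (T.β₀ T.j)).coeff (-1) = 0 := T.coeff_neg_one_qExpand _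
    rcases o with _ | i <;> rcases o' with _ | i' <;>
      simp only [hsome, hnone, inv_inj, zero_eq_inv, inv_eq_zero] at h1
    · rfl
    · exact absurd h1.symm (pow_ne_zero _ (Units.ne_zero _))
    · exact absurd h1 (pow_ne_zero _ (Units.ne_zero _))
    · rw [T.injective_zetaPow h1]

/-- The embeddings over level `N q` at `∞` are distinct. -/
theorem emb₂_injective : Function.Injective T.emb₂ := by
  intro i i' h
  have hval : ∀ i : Fin q, (T.emb₂ i (T.β₁ (T.β₀ T.j))).coeff (-1) =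
      if (i : ℕ) = 0 then 0 else ((T.toBase.ζL : T.L) ^ (i : ℕ))⁻¹ := fun i => by
    rw [emb₂]
    split_ifs with h
    · rw [T.ε_β₁, T.coeff_neg_one_qExpand]
    · rw [T.εbI_β₁β₀ i (fun hd => h (Nat.eq_zero_of_dvd_of_lt hd i.2)), T.coeff_neg_one_e₀_scale]
  have h1 := congrArg (fun f : T.F₂ →+* LaurentSeries T.L =>
    (f (T.β₁ (T.β₀ T.j))).coeff (-1)) h
  simp only [hval] at h1
  split_ifs at h1 with hi hi' hi'
  · exact Fin.ext (hi.trans hi'.symm)
  · exact absurd (inv_eq_zero.mp h1.symm) (pow_ne_zero _ (Units.ne_zero _))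
  · exact absurd (inv_eq_zero.mp h1) (pow_ne_zero _ (Units.ne_zero _))
  · exact T.injective_zetaPow (inv_inj.mp h1)

/-- The embeddings over level `N q` at `0` are distinct. -/
theorem embZero_injective : Function.Injective
    fun i : Fin q => (monoNewScale (T.toBase.ζL ^ (i : ℕ))).comp T.εc := by
  intro i i' h
  have h1 := congrArg (fun f : T.F₂ →+* LaurentSeries T.L =>
    (f (T.β₁ (T.β₀ T.j))).coeff (-1)) h
  simp only [RingHom.comp_apply, T.εc_β₁, w₁_β₀, T.e₁_ι₀, T.coeff_neg_one_e₀_scale, inv_inj] at h1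
  exact T.injective_zetaPow h1

/-- The trace to level `N q` along `ι₁`, read at `∞`. -/
theorem map_trace₂ (f : T.F₂) :
    letI := T.ι₁.toRingHom.toAlgebra
    T.e₁ (Algebra.trace T.F₁ T.F₂ f) = ∑ i : Fin q, T.emb₂ i f := by
  letI := T.ι₁.toRingHom.toAlgebra
  haveI := T.finrank_pos₂
  haveI : CharZero T.F₁ := charZero_of_injective_algebraMap (algebraMap T.K T.F₁).injective
  refine map_trace_eq_sum (e := T.e₁) (σ := T.emb₂) (fun i x => ?_) ?_
    (by rw [Fintype.card_fin, T.finrank₁]) f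
  · show T.emb₂ i (T.ι₁ x) = T.e₁ x
    rw [emb₂]
    split_ifs with h
    · rfl
    · exact T.εbI_ι₁ _ _
  · exact T.emb₂_injective

/-- The reduced field of level `N q` at `∞` is that of level `N`. -/
theorem inReduced_red₁ (y : T.F₁) (hy : T.e₁ y ∈ gaussInt T.π) : T.InReduced (T.red₁ y) := by
  letI := T.ι₀.toRingHom.toAlgebra
  obtain ⟨hj, -⟩ := T.e₀_j_int
  set E : T.F₁ := T.ι₀ T.j - T.β₀ T.j ^ q with hE
  have he : T.e₁ E = T.e₀ T.j - qExpand T.L q (T.e₀ T.j) ^ q := by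
    rw [hE, map_sub, map_pow, T.e₁_ι₀, T.e₁_β₀]
  have he' : T.e₁ (T.w₁ E) = qExpand T.L q (T.e₀ T.j) - T.e₀ T.j ^ q := by
    rw [hE, map_sub, map_pow, T.w₁_ι₀, w₁_β₀, map_sub, map_pow, T.e₁_β₀, T.e₁_ι₀]
  obtain ⟨hq₁, hq₂⟩ := qExpand_mem_gaussInt (π := T.π) q hj
  have hEm : T.e₁ E ∈ gaussInt T.π := he ▸ sub_mem hj (pow_mem hq₁ _)
  have hEm' : T.e₁ (T.w₁ E) ∈ gaussInt T.π := he' ▸ sub_mem hq₁ (pow_mem hj _)
  have hE0' : gred T.π (T.e₁ (T.w₁ E)) = 0 := by
    show gaussIntRed T.π ⟨_, hEm'⟩ = 0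
    have : (⟨_, hEm'⟩ : gaussInt T.π) = ⟨_, hq₁⟩ - ⟨_, hj⟩ ^ q := Subtype.ext he'
    rw [this, map_sub, map_pow, gaussIntRed_apply, gaussIntRed_apply, hq₂,
      show qExpand T.k q (gred T.π (T.e₀ T.j)) = _ from T.red_j_qExpand, sub_self]
  have hE0 : T.red₁ E ≠ 0 := by
    show gaussIntRed T.π ⟨_, hEm⟩ ≠ 0
    have : (⟨_, hEm⟩ : gaussInt T.π) = ⟨_, hj⟩ - ⟨_, hq₁⟩ ^ q := Subtype.ext he
    rw [this, map_sub, map_pow, gaussIntRed_apply, gaussIntRed_apply, hq₂,
      show qExpand T.k q (gred T.π (T.e₀ T.j)) = _ from T.red_j_qExpand, ← pow_mul]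
    exact T.red_j_sub_pow_ne_zero (Nat.one_lt_iff_ne_zero_and_ne_one.mpr
      ⟨(Nat.mul_pos T.prime.pos T.prime.pos).ne', fun h => T.prime.ne_one
        (Nat.eq_one_of_mul_eq_one_right h)⟩)
  have key : ∀ y : T.F₁, T.e₁ y ∈ gaussInt T.π → ∃ N₀ : ℕ, ∀ N, N₀ ≤ N →
      T.InReduced (T.red₁ y * T.red₁ E ^ N) := by
    intro y hy
    obtain ⟨N₀, hN₀⟩ := exists_pow_absorb T.π_eq_zero
      (f := T.e₁ (T.w₁ y)) (T.ε_bounded _) hEm' hE0'
    refine ⟨N₀, fun N hN => ?_⟩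
    set z := y * E ^ N with hz
    have hzm : T.e₁ z ∈ gaussInt T.π := by
      rw [hz, map_mul, map_pow]; exact mul_mem hy (pow_mem hEm N)
    obtain ⟨hz'm, hz'0⟩ := hN₀ N hN
    have hzz : T.e₁ (T.w₁ z) = T.e₁ (T.w₁ y) * T.e₁ (T.w₁ E) ^ N := by
      rw [hz, map_mul, map_pow, map_mul, map_pow]
    rw [← hzz] at hz'm hz'0
    set S := Algebra.trace T.F₀ T.F₁ z with hSdef
    have hS := T.map_trace₁ z
    rw [← hSdef] at hS
    obtain ⟨hqz, hqz'⟩ := qExpand_mem_gaussInt (π := T.π) q hzm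
    have hsum : ∀ i ∈ (Finset.univ : Finset (Fin q)),
        monoNewScale (T.toBase.ζL ^ (i : ℕ)) (T.e₁ (T.w₁ z)) ∈ gaussInt T.π :=
      fun i _ => (T.scaleζ_mem _ hz'm).1
    have hSm : qExpand T.L q (T.e₀ S) ∈ gaussInt T.π := hS ▸ add_mem hqz (sum_mem hsum)
    have hS0 : T.e₀ S ∈ gaussInt T.π :=
      mem_gaussInt_of_qExpand T.π_eq_zero q (T.ε_bounded _) hSm
    refine ⟨S, 1, hS0, by rw [map_one]; exact one_mem _, ?_, ?_⟩
    · show gred T.π _ ≠ 0
      rw [map_one, gred_one]; exact one_ne_zero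
    · show T.red₁ y * T.red₁ E ^ N * gred T.π (T.e₀ 1) = gred T.π (T.e₀ S)
      rw [map_one, gred_one, mul_one]
      refine qExpand_injective (R := T.k) q ?_
      rw [← (qExpand_mem_gaussInt (π := T.π) q hS0).2, hS, gred_add hqz (sum_mem hsum),
        gred_sum _ hsum, Finset.sum_eq_zero fun i _ => (T.scaleζ_mem _ hz'm).2.trans hz'0,
        add_zero, hqz']
      congr 1
      show gred T.π (T.e₁ y) * gred T.π (T.e₁ E) ^ N = gred T.π (T.e₁ z)
      rw [hz, map_mul, map_pow, gred_mul hy (pow_mem hEm N), gred_pow hEm]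
  obtain ⟨N₁, h₁⟩ := key y hy
  obtain ⟨N₂, h₂⟩ := key 1 (by rw [map_one]; exact one_mem _)
  have hg := h₂ (max N₁ N₂) (le_max_right _ _)
  have hone : T.red₁ (1 : T.F₁) = 1 := by
    show gred T.π _ = 1
    rw [map_one, gred_one]
  rw [hone, one_mul] at hg
  exact InReduced.of_mul hg (h₁ (max N₁ N₂) (le_max_left _ _)) (pow_ne_zero _ hE0) rfl

/-- The two branches at `∞` of level `N q²` reduce into the reduced field of level `N`. -/
theorem inReduced_ε_εb (a : T.F₂) :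
    (T.ε a ∈ gaussInt T.π → T.InReduced (T.red (T.ε a))) ∧
      (T.εb a ∈ gaussInt T.π → T.InReduced (T.red (T.εb a))) := by
  letI := T.ι₁.toRingHom.toAlgebra
  obtain ⟨hj, -⟩ := T.e₀_j_int
  obtain ⟨hq₁, hq₂⟩ := qExpand_mem_gaussInt (π := T.π) q hj
  obtain ⟨hqq₁, hqq₂⟩ := qExpand_mem_gaussInt (π := T.π) q hq₁
  rw [hq₂, show qExpand T.k q (qExpand T.k q (gred T.π (T.e₀ T.j))) = _ from
    T.red_j_qExpand_sq] at hqq₂
  obtain ⟨hs₁, hs₂⟩ := T.scaleζ_mem 1 hj
  rw [pow_one] at hs₁ hs₂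
  have hq2 : 1 < q ^ 2 := Nat.one_lt_pow two_ne_zero T.prime.one_lt
  set X := T.ι₁ (T.ι₀ T.j)
  set Y := T.β₁ (T.β₀ T.j)
  have hεY : T.ε Y = qExpand T.L q (qExpand T.L q (T.e₀ T.j)) := by
    rw [T.ε_β₁', T.e₁_β₀]
  have hbY : T.εb Y = monoNewScale T.toBase.ζL (T.e₀ T.j) := by
    rw [T.εb_β₁, w₁_β₀, T.e₁_ι₀]
  have hbX : T.εb X = T.e₀ T.j := T.εb_ι₁ _
  have hεX : T.ε X = T.e₀ T.j := rfl
  have trsum : ∀ c : T.F₂, T.ε c ∈ gaussInt T.π → T.εb c ∈ gaussInt T.π →
      T.InReduced (T.red (T.ε c) + ((q - 1 : ℕ) : LaurentSeries T.k) * T.red (T.εb c)) := by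
    intro c hc hcb
    have hmem : ∀ i : Fin q, T.emb₂ i c ∈ gaussInt T.π ∧ gred T.π (T.emb₂ i c) =
        if (i : ℕ) = 0 then T.red (T.ε c) else T.red (T.εb c) := fun i => by
      rw [emb₂]
      split_ifs
      · exact ⟨hc, rfl⟩
      · exact T.conj_series_mem i hcb
    have h := T.map_trace₂ c
    set S := Algebra.trace T.F₁ T.F₂ c
    have hS : T.e₁ S ∈ gaussInt T.π := h ▸ sum_mem fun i _ => (hmem i).1
    convert T.inReduced_red₁ S hS using 1
    show _ = gred T.π (T.e₁ S)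
    rw [h, gred_sum _ fun i _ => (hmem i).1, Finset.sum_congr rfl fun i _ => (hmem i).2,
      Fin.sum_univ_eq_sum_range
        (fun i => if i = 0 then T.red (T.ε c) else T.red (T.εb c)) q]
    rw [← Finset.add_sum_erase (Finset.range q) _ (Finset.mem_range.2 T.prime.pos), if_pos rfl,
      Finset.sum_congr rfl (fun i hi => if_neg (Finset.ne_of_mem_erase hi)), Finset.sum_const,
      Finset.card_erase_of_mem (Finset.mem_range.2 T.prime.pos), Finset.card_range, nsmul_eq_mul]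
  constructor
  · intro ha
    have hEm : T.ε (X - Y) ∈ gaussInt T.π := by
      rw [map_sub, hεX, hεY]; exact sub_mem hj hqq₁
    have hEb : T.εb (X - Y) ∈ gaussInt T.π := by
      rw [map_sub, hbX, hbY]; exact sub_mem hj hs₁
    have hE0 : T.red (T.ε (X - Y)) ≠ 0 := by
      show gaussIntRed T.π ⟨_, hEm⟩ ≠ 0
      have : (⟨_, hEm⟩ : gaussInt T.π) = ⟨_, hj⟩ - ⟨_, hqq₁⟩ :=
        Subtype.ext (by show T.ε _ = T.e₀ T.j - _; rw [map_sub, hεX, hεY])
      rw [this, map_sub, gaussIntRed_apply, gaussIntRed_apply, hqq₂]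
      exact T.red_j_sub_pow_ne_zero hq2
    have hE0b : gred T.π (T.εb (X - Y)) = 0 := by
      show gaussIntRed T.π ⟨_, hEb⟩ = 0
      have : (⟨_, hEb⟩ : gaussInt T.π) = ⟨_, hj⟩ - ⟨_, hs₁⟩ :=
        Subtype.ext (by show T.εb _ = T.e₀ T.j - _; rw [map_sub, hbX, hbY])
      rw [this, map_sub, gaussIntRed_apply, gaussIntRed_apply,
        show gred T.π (monoNewScale T.toBase.ζL (T.e₀ T.j)) = _ from hs₂, sub_self]
    obtain ⟨N₁, h₁⟩ := exists_pow_absorb T.π_eq_zero (f := T.εb a) (T.εb_bounded a) hEb hE0b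
    obtain ⟨hm, h0⟩ := h₁ (N₁ + 1) N₁.le_succ
    have g₁ := trsum (a * (X - Y) ^ (N₁ + 1))
      (by rw [map_mul, map_pow]; exact mul_mem ha (pow_mem hEm _))
      (by rw [map_mul, map_pow]; exact hm)
    have g₂ := trsum ((X - Y) ^ (N₁ + 1)) (by rw [map_pow]; exact pow_mem hEm _)
      (by rw [map_pow]; exact pow_mem hEb _)
    simp only [map_mul, map_pow, Base.red] at g₁ g₂
    rw [h0, gred_mul ha (pow_mem hEm _), gred_pow hEm, mul_zero, add_zero] at g₁
    rw [gred_pow hEm, gred_pow hEb, hE0b, zero_pow N₁.succ_ne_zero, mul_zero, add_zero] at g₂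
    exact InReduced.of_mul g₂ g₁ (pow_ne_zero _ hE0) rfl
  · intro ha
    set E := Y - X ^ q ^ 2 with hE
    have hEm : T.ε E ∈ gaussInt T.π := by
      rw [hE, map_sub, map_pow, hεX, hεY]; exact sub_mem hqq₁ (pow_mem hj _)
    have hEb : T.εb E ∈ gaussInt T.π := by
      rw [hE, map_sub, map_pow, hbX, hbY]; exact sub_mem hs₁ (pow_mem hj _)
    have hE0 : gred T.π (T.εb E) ≠ 0 := by
      show gaussIntRed T.π ⟨_, hEb⟩ ≠ 0
      have : (⟨_, hEb⟩ : gaussInt T.π) = ⟨_, hs₁⟩ - ⟨_, hj⟩ ^ q ^ 2 :=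
        Subtype.ext (by show T.εb _ = _ - T.e₀ T.j ^ _; rw [hE, map_sub, map_pow, hbX, hbY])
      rw [this, map_sub, map_pow, gaussIntRed_apply, gaussIntRed_apply,
        show gred T.π (monoNewScale T.toBase.ζL (T.e₀ T.j)) = _ from hs₂]
      exact T.red_j_sub_pow_ne_zero hq2
    have hE0ε : gred T.π (T.ε E) = 0 := by
      show gaussIntRed T.π ⟨_, hEm⟩ = 0
      have : (⟨_, hEm⟩ : gaussInt T.π) = ⟨_, hqq₁⟩ - ⟨_, hj⟩ ^ q ^ 2 :=
        Subtype.ext (by show T.ε _ = _ - T.e₀ T.j ^ _; rw [hE, map_sub, map_pow, hεX, hεY])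
      rw [this, map_sub, map_pow, gaussIntRed_apply, gaussIntRed_apply, hqq₂, sub_self]
    obtain ⟨N₁, h₁⟩ := exists_pow_absorb T.π_eq_zero (f := T.ε a) (T.ε_bounded a) hEm hE0ε
    obtain ⟨hm, h0⟩ := h₁ (N₁ + 1) N₁.le_succ
    have g₁ := trsum (a * E ^ (N₁ + 1)) (by rw [map_mul, map_pow]; exact hm)
      (by rw [map_mul, map_pow]; exact mul_mem ha (pow_mem hEb _))
    have g₂ := trsum (E ^ (N₁ + 1)) (by rw [map_pow]; exact pow_mem hEm _)
      (by rw [map_pow]; exact pow_mem hEb _)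
    simp only [map_mul, map_pow, Base.red] at g₁ g₂
    rw [h0, gred_mul ha (pow_mem hEb _), gred_pow hEb, zero_add] at g₁
    rw [gred_pow hEm, hE0ε, zero_pow N₁.succ_ne_zero, gred_pow hEb, zero_add] at g₂
    refine InReduced.of_mul g₂ g₁ (mul_ne_zero ?_ (pow_ne_zero _ hE0)) (mul_left_comm _ _ _)
    intro h
    haveI := T.prime.two_le
    rw [← map_natCast (algebraMap T.k (LaurentSeries T.k)), _root_.map_eq_zero,
      CharP.cast_eq_zero_iff T.k q] at h
    have := Nat.le_of_dvd (by omega) h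
    omega

/-- The reductions along the three branches lie in the reduced field of level `N`. -/
theorem inReduced_red₂ (i : Fin 3) (a : T.F₂) (ha : T.branch i a ∈ gaussInt T.π) :
    T.InReduced (T.red₂ i a) := by
  fin_cases i
  exacts [(T.inReduced_ε_εb a).1 ha, (T.inReduced_ε_εb a).2 ha,
    (T.inReduced_ε_εb (T.w₂ a)).1 ha]

end Tower

end FermatLib.Igusa.Carayol
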