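import Mathlib
import Fermat.Agent.Igusa.Carayol.TowerChart
import Fermat.Agent.Igusa.Carayol.LevelTwoReduced
import Fermat.Agent.Igusa.Carayol.LevelZeroPoints

/-!
The three branches of level `N q²` meet only where all three pass, and such a point is alone over
its two images; at the cusps the branches are disjoint.
-/

set_option autoImplicit false
set_option linter.style.haveILetI false
set_option maxHeartbeats 400000
set_option synthInstance.maxHeartbeats 100000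

noncomputable section

open ModularCurve HahnSeries FermatLib.Igusa

namespace FermatLib.Igusa.Carayol

/-- Denominators of the modular equation: a root `Y` over `J = R v⁻ᵐ` gives `Y v^(n m)`. -/
theorem isIntegral_mul_pow_of_modular {R F : Type*} [CommRing R] [CommRing F] [Algebra R F]
    (S : Subalgebra R F) {Φ : Polynomial (Polynomial ℤ)} (hΦ : Φ.Monic) {n : ℕ}
    (hdeg : Φ.natDegree = n + 1) (hle : ∀ i ≤ n + 1, (Φ.coeff i).natDegree + n * i ≤ n * (n + 1))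
    {v J Y r : F} (hv : v ∈ S) (hr : r ∈ S) {m : ℕ} (hJ : J * v ^ m = r)
    (h0 : (Φ.map (Polynomial.aeval J).toRingHom).eval Y = 0) :
    IsIntegral S (Y * v ^ (n * m)) := by
  classical
  have hc : ∀ i ≤ n + 1, Polynomial.aeval J (Φ.coeff i) * v ^ (n * m * (n + 1 - i)) ∈ S := by
    intro i hi
    rw [Polynomial.aeval_eq_sum_range, Finset.sum_mul]
    refine sum_mem fun l hl => ?_
    have hl' : l ≤ n * (n + 1 - i) := by
      have h1 := Nat.lt_succ_iff.mp (Finset.mem_range.mp hl)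
      have h2 := hle i hi
      rw [Nat.mul_sub]
      omega
    obtain ⟨e, he⟩ := Nat.exists_eq_add_of_le hl'
    have hexp : n * m * (n + 1 - i) = m * l + m * e := by
      rw [← mul_add, ← he]; ring
    rw [smul_mul_assoc]
    refine zsmul_mem ?_ _
    rw [hexp, _root_.pow_add, ← mul_assoc, pow_mul, ← mul_pow, hJ]
    exact mul_mem (pow_mem hr _) (pow_mem hv _)
  let c : Fin (n + 1) → S := fun i => ⟨_, hc i i.2.le⟩
  refine ⟨Polynomial.X ^ (n + 1) + ∑ i : Fin (n + 1), Polynomial.C (c i) * Polynomial.X ^ (i : ℕ),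
    Polynomial.monic_X_pow_add (Polynomial.degree_sum_fin_lt c), ?_⟩
  rw [Polynomial.eval_map, Polynomial.eval₂_eq_sum_range, hdeg, Finset.sum_range_succ] at h0
  have htop : Φ.coeff (n + 1) = 1 := by rw [← hdeg]; exact hΦ.coeff_natDegree
  rw [htop, map_one, one_mul] at h0
  simp only [Polynomial.eval₂_add, Polynomial.eval₂_X_pow, Polynomial.eval₂_finsetSum,
    Polynomial.eval₂_mul, Polynomial.eval₂_C]
  calc (Y * v ^ (n * m)) ^ (n + 1) + ∑ i : Fin (n + 1),
        algebraMap S F (c i) * (Y * v ^ (n * m)) ^ (i : ℕ)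
      = v ^ (n * m * (n + 1)) * ((∑ i ∈ Finset.range (n + 1),
          (Polynomial.aeval J).toRingHom (Φ.coeff i) * Y ^ i) + Y ^ (n + 1)) := by
        rw [mul_add, Finset.mul_sum, add_comm, mul_pow, ← pow_mul, mul_comm (Y ^ (n + 1)),
          ← Fin.sum_univ_eq_sum_range]
        refine congrArg (· + _) (Finset.sum_congr rfl fun i _ => ?_)
        obtain ⟨d, hd⟩ : ∃ d, n + 1 - (i : ℕ) = d := ⟨_, rfl⟩
        have hd' : n * m * (n + 1) = n * m * d + n * m * (i : ℕ) := by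
          rw [← hd, ← mul_add, Nat.sub_add_cancel i.2.le]
        show Polynomial.aeval J (Φ.coeff i) * v ^ (n * m * (n + 1 - i)) *
          (Y * v ^ (n * m)) ^ (i : ℕ) = _
        rw [hd, hd', mul_pow, ← pow_mul, _root_.pow_add]
        show _ = _ * (Polynomial.aeval J (Φ.coeff i) * _)
        ring
    _ = 0 := by rw [h0, mul_zero]

namespace Tower

variable {q : ℕ} [NeZero q] {T : Tower q}

theorem meet_red_mul {f g : LaurentSeries T.L} (hf : f ∈ gaussInt T.π) (hg : g ∈ gaussInt T.π) :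
    T.red (f * g) = T.red f * T.red g := gred_mul hf hg

theorem meet_red_add {f g : LaurentSeries T.L} (hf : f ∈ gaussInt T.π) (hg : g ∈ gaussInt T.π) :
    T.red (f + g) = T.red f + T.red g := gred_add hf hg

theorem meet_red_pow {f : LaurentSeries T.L} (hf : f ∈ gaussInt T.π) (n : ℕ) :
    T.red (f ^ n) = T.red f ^ n := gred_pow hf n

theorem meet_red_one : T.red (1 : LaurentSeries T.L) = 1 := gred_one

theorem meet_red_zero : T.red (0 : LaurentSeries T.L) = 0 := gred_zero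

theorem meet_red_qExpand {f : LaurentSeries T.L} (hf : f ∈ gaussInt T.π) :
    T.red (qExpand T.L q f) = qExpand T.k q (T.red f) := (qExpand_mem_gaussInt q hf).2

theorem meet_red_sum {ι : Type*} (s : Finset ι) {f : ι → LaurentSeries T.L}
    (hf : ∀ i ∈ s, f i ∈ gaussInt T.π) : T.red (∑ i ∈ s, f i) = ∑ i ∈ s, T.red (f i) :=
  gred_sum s hf

section chart

variable {t : T.F₀} (ht : T.ChartParam t)

/-- Reduction of the top chart along a branch, as a ring homomorphism. -/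
def redBranch (i : Fin 3) : T.chart₂ t →+* LaurentSeries T.k :=
  (gaussIntRed T.π).comp (((T.branch i).comp (T.chart₂ t).val.toRingHom).codRestrict _
    fun a => branch_mem_gaussInt ht i a)

@[simp] theorem redBranch_apply (i : Fin 3) (a : T.chart₂ t) :
    redBranch ht i a = T.red₂ i (a : T.F₂) := rfl

include ht in
theorem mem_of_sub_of_thru {i : Fin 3} {x : Ideal (T.chart₂ t)} (h : Thru i x) {a b : T.chart₂ t}
    (e : T.red₂ i (a : T.F₂) = T.red₂ i (b : T.F₂)) : a - b ∈ x :=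
  h _ (by rw [← redBranch_apply ht, map_sub, redBranch_apply, redBranch_apply, e, sub_self])

include ht in
theorem mem_iff_of_thru {i : Fin 3} {x : Ideal (T.chart₂ t)} (h : Thru i x) {a b : T.chart₂ t}
    (e : T.red₂ i (a : T.F₂) = T.red₂ i (b : T.F₂)) : a ∈ x ↔ b ∈ x :=
  ⟨fun ha => by simpa using x.sub_mem ha (mem_of_sub_of_thru ht h e),
    fun hb => by simpa using x.add_mem hb (mem_of_sub_of_thru ht h e)⟩

/-- The trace to level `N q` along `ι₁`, read at `0`. -/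
theorem map_trace₂_zero (f : T.F₂) :
    letI := T.ι₁.toRingHom.toAlgebra
    qExpand T.L q (T.e₁ (T.w₁ (Algebra.trace T.F₁ T.F₂ f))) =
      ∑ i : Fin q, monoNewScale (T.toBase.ζL ^ (i : ℕ)) (T.εc f) := by
  letI := T.ι₁.toRingHom.toAlgebra
  haveI := T.finrank_pos₂
  haveI : CharZero T.F₁ := charZero_of_injective_algebraMap (algebraMap T.K T.F₁).injective
  refine map_trace_eq_sum (e := (qExpand T.L q).comp (T.e₁.comp T.w₁.toRingEquiv.toRingHom))
    (σ := fun i : Fin q => (monoNewScale (T.toBase.ζL ^ (i : ℕ))).comp T.εc)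
    (fun i x => ?_) ?_ (by rw [Fintype.card_fin, T.finrank₁]) f
  · show monoNewScale _ (T.εc (T.ι₁ x)) = qExpand T.L q (T.e₁ (T.w₁ x))
    rw [T.εc_ι₁, T.scale_qExpand]
  · intro i i' h
    have h1 := congrArg (fun f : T.F₂ →+* LaurentSeries T.L =>
      (f (T.β₁ (T.β₀ T.j))).coeff (-1)) h
    simp only [RingHom.comp_apply, T.εc_β₁, w₁_β₀, T.e₁_ι₀, T.coeff_neg_one_e₀_scale, inv_inj] at h1
    exact T.injective_zetaPow h1

/-- The trace to level `N q` along `ι₁` preserves the charts. -/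
theorem trace_mem_chart₁ {a : T.F₂} (ha : a ∈ T.chart₂ t) :
    (letI := T.ι₁.toRingHom.toAlgebra; Algebra.trace T.F₁ T.F₂ a) ∈ T.chart₁ t := by
  letI := T.ι₁.toRingHom.toAlgebra
  haveI := T.finrank_pos₂
  set R := Algebra.adjoin T.W {T.ι₀ t} with hR
  set R' := Algebra.adjoin T.W {T.ι₁ (T.ι₀ t)} with hR'
  haveI : IsScalarTower R T.F₁ T.F₂ := IsScalarTower.of_algebraMap_eq fun _ => rfl
  have hmap : R.map (T.ι₁.restrictScalars T.W) = R' := by
    rw [hR, hR', AlgHom.map_adjoin_singleton]; rfl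
  let φ : R →+* R' := ((T.ι₁.restrictScalars T.W).comp R.val).toRingHom.codRestrict R'
    fun r => hmap ▸ ⟨r, r.2, rfl⟩
  have hφ : ∀ r' : R', r' ∈ Set.range φ := fun r' => by
    obtain ⟨r, hr, he⟩ := (hmap.symm ▸ r'.2 : (r' : T.F₂) ∈ R.map (T.ι₁.restrictScalars T.W))
    exact ⟨⟨r, hr⟩, Subtype.ext he⟩
  obtain ⟨p, hp, hpa⟩ := (ha : IsIntegral R' a)
  obtain ⟨p', hp'map, -, hp'⟩ := Polynomial.lifts_and_degree_eq_and_monic
    (f := φ) ((Polynomial.lifts_iff_coeff_lifts p).mpr fun n => hφ _) hp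
  refine Algebra.isIntegral_trace (R := R) (L := T.F₁) ⟨p', hp', ?_⟩
  rw [← hp'map, Polynomial.eval₂_map] at hpa
  exact hpa

include ht in
/-- Reductions of the trace to level `N q`. -/
theorem red_trace₂ (a : T.chart₂ t) :
    ∃ b : T.chart₁ t, T.red₁ (b : T.F₁) = T.red₂ 0 (a : T.F₂) - T.red₂ 1 (a : T.F₂) ∧
      T.red₁' (b : T.F₁) = 0 := by
  letI := T.ι₁.toRingHom.toAlgebra
  refine ⟨⟨_, trace_mem_chart₁ a.2⟩, ?_, ?_⟩
  · have hq1 : ((q - 1 : ℕ) : LaurentSeries T.k) = -1 := by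
      haveI : CharP (LaurentSeries T.k) q :=
        charP_of_injective_algebraMap (algebraMap T.k (LaurentSeries T.k)).injective q
      rw [Nat.cast_sub T.prime.pos, CharP.cast_eq_zero, Nat.cast_one, zero_sub]
    have hint : ∀ i : Fin q, T.emb₂ i (a : T.F₂) ∈ gaussInt T.π ∧
        T.red (T.emb₂ i (a : T.F₂)) =
          if (i : ℕ) = 0 then T.red₂ 0 (a : T.F₂) else T.red₂ 1 (a : T.F₂) := fun i => by
      rw [emb₂]
      split_ifs with h
      · exact ⟨branch_mem_gaussInt ht 0 a, rfl⟩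
      · exact T.conj_series_mem i (branch_mem_gaussInt ht 1 a)
    show T.red (T.e₁ _) = _
    rw [T.map_trace₂, meet_red_sum _ fun i _ => (hint i).1, Finset.sum_congr rfl fun i _ => (hint i).2,
      Finset.sum_ite, Finset.sum_const, Finset.sum_const,
      show (Finset.univ.filter fun i : Fin q => (i : ℕ) = 0) = {⟨0, T.prime.pos⟩} from by
        ext i
        rw [Finset.mem_filter, Finset.mem_singleton, Fin.ext_iff]
        simp only [Finset.mem_univ, true_and],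
      Finset.card_singleton, one_smul,
      show (Finset.univ.filter fun i : Fin q => ¬ (i : ℕ) = 0) = {⟨0, T.prime.pos⟩}ᶜ from by
        ext i
        rw [Finset.mem_filter, Finset.mem_compl, Finset.mem_singleton, Fin.ext_iff]
        simp only [Finset.mem_univ, true_and],
      Finset.card_compl, Finset.card_singleton, Fintype.card_fin, nsmul_eq_mul, hq1, neg_one_mul,
      ← sub_eq_add_neg]
  · have hb := (e₁_mem_gaussInt ht ⟨_, trace_mem_chart₁ a.2⟩).2
    refine (map_eq_zero_iff _ (qExpand T.k q).injective).mp ?_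
    have hint : ∀ i : Fin q, monoNewScale (T.toBase.ζL ^ (i : ℕ)) (T.εc (a : T.F₂)) ∈ gaussInt T.π ∧
        T.red (monoNewScale (T.toBase.ζL ^ (i : ℕ)) (T.εc (a : T.F₂))) =
          T.red₂ 2 (a : T.F₂) := fun i =>
      T.scaleζ_mem i (branch_mem_gaussInt ht 2 a)
    show qExpand T.k q (T.red (T.e₁ (T.w₁ _))) = 0
    rw [← meet_red_qExpand hb, map_trace₂_zero, meet_red_sum _ fun i _ => (hint i).1,
      Finset.sum_congr rfl fun i _ => (hint i).2, Finset.sum_const, Finset.card_univ,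
      Fintype.card_fin, nsmul_eq_mul,
      show (q : LaurentSeries T.k) = 0 by
        rw [← map_natCast (algebraMap T.k (LaurentSeries T.k)), CharP.cast_eq_zero, map_zero],
      zero_mul]

include ht in
/-- Where the branch `2` meets one of the others, all three pass. -/
theorem thru_of_thru_two {x : Ideal (T.chart₂ t)} (h2 : Thru 2 x) :
    Thru 0 x ↔ Thru 1 x := by
  have key : ∀ a : T.chart₂ t, ∃ b : T.chart₂ t, b ∈ x ∧
      T.red₂ 0 (b : T.F₂) = T.red₂ 0 (a : T.F₂) - T.red₂ 1 (a : T.F₂) ∧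
      T.red₂ 1 (b : T.F₂) = T.red₂ 0 (a : T.F₂) - T.red₂ 1 (a : T.F₂) := fun a => by
    obtain ⟨b, hb, hb'⟩ := red_trace₂ ht a
    refine ⟨chartIncl₂ t b, h2 _ ?_, hb, ?_⟩
    · show T.red (T.εc (T.ι₁ b)) = 0
      rw [T.εc_ι₁, meet_red_qExpand (e₁_mem_gaussInt ht b).2,
        show T.red (T.e₁ (T.w₁ (b : T.F₁))) = 0 from hb', map_zero]
    · show T.red (T.εb (T.ι₁ b)) = _
      rw [T.εb_ι₁]
      exact hb
  constructor <;> intro h a ha <;> obtain ⟨b, hbx, hb0, hb1⟩ := key a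
  · rw [ha, sub_zero] at hb0
    exact (mem_iff_of_thru ht h hb0).mp hbx
  · rw [ha, zero_sub] at hb1
    have : b + a ∈ x := h _ (by
      rw [← redBranch_apply ht, map_add, redBranch_apply, redBranch_apply, hb1, neg_add_cancel])
    simpa using x.sub_mem this hbx

end chart

section finiteChart

variable (hI : T.Inputs)

include hI in
/-- The reductions of the top chart lie in the reduced chart of level `N`. -/
theorem red₂_mem_redRing (i : Fin 3) (a : T.chart₂ T.j) :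
    T.red₂ i (a : T.F₂) ∈ (T.chartParam_j hI).redRing := by
  set ht := T.chartParam_j hI
  obtain ⟨b, d, hb, hd, hd0, hbd⟩ := T.inReduced_red₂ i _ (branch_mem_gaussInt ht i a)
  rw [show T.red₂ i (a : T.F₂) = T.red₀ b / T.red₀ d from eq_div_of_mul_eq hd0 hbd]
  refine ht.span_rat_le_redRing (ht.smooth b d hb hd hd0 (ht.isIntegral_adjoin_of_redRing ?_))
  rw [show T.red (T.e₀ b) / T.red (T.e₀ d) = T.red₂ i (a : T.F₂) from
    (eq_div_of_mul_eq hd0 hbd).symm]
  have hj : T.red₂ i (T.ι₁ (T.ι₀ T.j)) ∈ ht.redRing := by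
    have hJ : T.red₀ T.j ∈ ht.redRing := ⟨⟨T.j, mem_chart₀_self⟩, rfl⟩
    rcases branch_ι₁ι₀ i T.j with h | h <;> show T.red (T.branch i _) ∈ _ <;> rw [h]
    · exact hJ
    · rw [meet_red_qExpand (qExpand_mem_gaussInt q ht.int).1, meet_red_qExpand ht.int,
        T.red_j_qExpand_sq]
      exact pow_mem hJ _
  have hle : ∀ r (hr : r ∈ Algebra.adjoin T.W {T.ι₁ (T.ι₀ T.j)}),
      T.branch i r ∈ gaussInt T.π ∧ T.red₂ i r ∈ ht.redRing := fun r hr => by
    induction hr using Algebra.adjoin_induction with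
    | mem z hz =>
      rw [Set.mem_singleton_iff] at hz
      exact hz ▸ ⟨branch_mem_gaussInt ht i
        ⟨_, isIntegral_algebraMap (R := Algebra.adjoin T.W {T.ι₁ (T.ι₀ T.j)})
          (x := ⟨_, Algebra.self_mem_adjoin_singleton _ _⟩)⟩, hj⟩
    | algebraMap w =>
      rw [red₂, IsScalarTower.algebraMap_apply T.W T.K T.F₂, branch_algebraMap,
        ← T.e₀_algebraMap, ← IsScalarTower.algebraMap_apply T.W T.K T.F₀, (T.e₀_W w).2]
      exact ⟨(T.e₀_W w).1, ht.algebraMap_mem_redRing _⟩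
    | add a b _ _ ha hb =>
      rw [red₂, map_add, meet_red_add ha.1 hb.1]
      exact ⟨add_mem ha.1 hb.1, add_mem ha.2 hb.2⟩
    | mul a b _ _ ha hb =>
      rw [red₂, map_mul, meet_red_mul ha.1 hb.1]
      exact ⟨mul_mem ha.1 hb.1, mul_mem ha.2 hb.2⟩
  let ψ : Algebra.adjoin T.W {T.ι₁ (T.ι₀ T.j)} →+* gaussInt T.π :=
    ((T.branch i).comp (Algebra.adjoin T.W {T.ι₁ (T.ι₀ T.j)}).val.toRingHom).codRestrict _
      fun r => (hle _ r.2).1
  obtain ⟨p, hp, hpa⟩ := (a.2 : IsIntegral (Algebra.adjoin T.W {T.ι₁ (T.ι₀ T.j)}) (a : T.F₂))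
  refine ⟨p.map (((gaussIntRed T.π).comp ψ).codRestrict ht.redRing fun r => (hle _ r.2).2),
    hp.map _, ?_⟩
  rw [Polynomial.eval₂_map]
  have h1 : p.eval₂ ψ (⟨_, branch_mem_gaussInt ht i a⟩ : gaussInt T.π) = 0 := by
    apply Subtype.ext
    show (gaussInt T.π).subtype (p.eval₂ ψ _) = 0
    rw [Polynomial.hom_eval₂]
    have h := congrArg (T.branch i) hpa
    rw [map_zero, Polynomial.hom_eval₂] at h
    exact h
  have h2 := congrArg (gaussIntRed T.π) h1
  rw [map_zero, Polynomial.hom_eval₂] at h2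
  exact h2

include hI in
/-- On a branch a point is determined by its image in level `N`, the branch mapping to the reduced
chart of level `N` by a power of Frobenius. -/
theorem eq_of_thru_of_comap {i : Fin 3} (g : T.chart₀ T.j → T.chart₂ T.j)
    (F : LaurentSeries T.k →+* LaurentSeries T.k) (n : ℕ)
    (hF : ∀ c, F (algebraMap T.k _ c) = algebraMap T.k _ c)
    (hrat : ∀ c : T.F₀, T.IsRat c → F (T.red₀ c) = T.red₀ c ^ q ^ n)
    (hg : ∀ b : T.chart₀ T.j, T.red₂ i (g b : T.F₂) = F (T.red₀ (b : T.F₀)))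
    {x x' : Ideal (T.chart₂ T.j)} [x.IsMaximal] [x'.IsMaximal] (h : Thru i x) (h' : Thru i x')
    (hcomap : ∀ b, g b ∈ x' → g b ∈ x) : x' = x := by
  set ht := T.chartParam_j hI
  refine Ideal.IsMaximal.eq_of_le ‹x'.IsMaximal› (Ideal.IsMaximal.ne_top ‹_›) fun a ha => ?_
  haveI : CharP (LaurentSeries T.k) q :=
    charP_of_injective_algebraMap (algebraMap T.k (LaurentSeries T.k)).injective q
  haveI := Fact.mk T.prime
  have hspan : ∀ y ∈ ht.redRing, ∃ b : T.chart₀ T.j, y ^ q ^ n = F (T.red₀ (b : T.F₀)) := by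
    rintro y ⟨c, rfl⟩
    have hc : ht.redHom c ∈ Submodule.span T.k
        {h | ∃ a ∈ T.chart₀ T.j, T.IsRat a ∧ h = T.red (T.e₀ a)} := by
      have h := ht.mem_span_of_redRing c 1 (by rw [map_one]; exact one_ne_zero) (by
        rw [map_one, div_one]
        exact ⟨Polynomial.X - Polynomial.C ⟨_, c, rfl⟩, Polynomial.monic_X_sub_C _, by simp⟩)
      rwa [map_one, div_one] at h
    generalize ht.redHom c = y at hc ⊢
    induction hc using Submodule.span_induction with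
    | mem h hh =>
      obtain ⟨a, ha, har, rfl⟩ := hh
      exact ⟨⟨a, ha⟩, (hrat a har).symm⟩
    | zero => exact ⟨0, by simp [red₀, meet_red_zero, T.prime.ne_zero]⟩
    | add u v _ _ hu hv =>
      obtain ⟨⟨b, hb⟩, ⟨b', hb'⟩⟩ := hu, hv
      exact ⟨b + b', by rw [add_pow_char_pow, hb, hb', ← ht.redHom_apply,
        ← ht.redHom_apply, ← ht.redHom_apply, map_add, map_add]⟩
    | smul c u _ hu =>
      obtain ⟨b, hb⟩ := hu
      obtain ⟨w, hw⟩ := T.πW_surjective (c ^ q ^ n)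
      refine ⟨algebraMap T.W (T.chart₀ T.j) w * b, ?_⟩
      rw [series_smul_eq, mul_pow, hb, ← map_pow, ← hw, ← ht.redHom_apply, ← ht.redHom_apply,
        map_mul, map_mul, ht.redHom_W, hF]
  obtain ⟨b, hb⟩ := hspan _ (red₂_mem_redRing hI i a)
  have e : T.red₂ i ((a ^ q ^ n : T.chart₂ T.j) : T.F₂) = T.red₂ i (g b : T.F₂) := by
    rw [hg, ← hb, ← redBranch_apply ht, ← redBranch_apply ht, map_pow]
  have hab := (mem_iff_of_thru ht h' e).mp (Ideal.pow_mem_of_mem x' ha _ (pow_pos T.prime.pos _))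
  exact (Ideal.IsMaximal.isPrime ‹_›).mem_of_pow_mem _ ((mem_iff_of_thru ht h e).mpr (hcomap _ hab))

include hI in
/-- Reductions of `ι₁ β₀` are transforms by `u ↦ u ^ q` on each branch. -/
theorem red₂_ι₁β₀ (i : Fin 3) (b : T.chart₀ T.j) :
    T.red₂ i (T.ι₁ (T.β₀ (b : T.F₀))) = qExpand T.k q (T.red₀ (b : T.F₀)) := by
  have hb := (T.chartParam_j hI).e₀_mem_gaussInt b
  have e : T.branch i (T.ι₁ (T.β₀ (b : T.F₀))) = qExpand T.L q (T.e₀ (b : T.F₀)) := by
    fin_cases i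
    · exact T.e₁_β₀ _
    · exact (T.εb_ι₁ _).trans (T.e₁_β₀ _)
    · show T.εc _ = _
      rw [T.εc_ι₁, w₁_β₀, T.e₁_ι₀]
  show T.red (T.branch i _) = _
  rw [e, meet_red_qExpand hb]

include hI in
/-- Two branches meet only where all three pass. -/
theorem thru_all_of_two {x : Ideal (T.chart₂ T.j)} {i k : Fin 3} (hik : i ≠ k) (hi : Thru i x)
    (hk : Thru k x) : ∀ l, Thru l x := by
  set ht := T.chartParam_j hI
  let w : T.chart₂ T.j →+* T.chart₂ T.j :=
    ((T.w₂ : T.F₂ ≃ₐ[T.K] T.F₂).toRingEquiv.toRingHom.comp (T.chart₂ T.j).val.toRingHom).codRestrict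
      (T.chart₂ T.j) fun a => w₂_mem_chart₂ hI a.2
  have hww : ∀ a, w (w a) = a := fun a => Subtype.ext (T.w₂_w₂ _)
  have hr : ∀ a : T.chart₂ T.j, T.red₂ 0 (w a : T.F₂) = T.red₂ 2 (a : T.F₂) ∧
      T.red₂ 1 (w a : T.F₂) = T.red₂ 1 (a : T.F₂) ∧
      T.red₂ 2 (w a : T.F₂) = T.red₂ 0 (a : T.F₂) := fun a => by
    have hc := T.conj_series_mem (q - 1) (branch_mem_gaussInt ht 1 a)
    have hs := T.scaleζ_mem 1 hc.1
    rw [pow_one] at hs
    refine ⟨rfl, ?_, congrArg (fun y => T.red (T.ε y)) (T.w₂_w₂ _)⟩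
    show T.red (T.εb (T.w₂ (a : T.F₂))) = _
    rw [T.εb_w₂]
    exact hs.2.trans hc.2
  have hthru : ∀ {l l' : Fin 3}, (∀ a, T.red₂ l (w a : T.F₂) = T.red₂ l' (a : T.F₂)) →
      Thru l' x → Thru l (x.comap w) := fun hll h a ha => by
    rw [Ideal.mem_comap]
    refine h _ ?_
    rw [← hll (w a), hww]
    exact ha
  suffices h012 : Thru 0 x ∧ Thru 1 x ∧ Thru 2 x by
    intro l; fin_cases l
    exacts [h012.1, h012.2.1, h012.2.2]
  have h01 : Thru 0 x → Thru 1 x → Thru 2 x := fun h0 h1 a ha => by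
    have h' := (thru_of_thru_two ht (hthru (fun a => (hr a).2.2) h0)).mpr
      (hthru (fun a => (hr a).2.1) h1) (w a) (by rw [(hr a).1]; exact ha)
    rwa [Ideal.mem_comap, hww] at h'
  fin_cases i <;> fin_cases k
  · exact absurd rfl hik
  · exact ⟨hi, hk, h01 hi hk⟩
  · exact ⟨hi, (thru_of_thru_two ht hk).mp hi, hk⟩
  · exact ⟨hk, hi, h01 hk hi⟩
  · exact absurd rfl hik
  · exact ⟨(thru_of_thru_two ht hk).mpr hi, hi, hk⟩
  · exact ⟨hk, (thru_of_thru_two ht hi).mp hk, hi⟩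
  · exact ⟨(thru_of_thru_two ht hi).mpr hk, hk, hi⟩
  · exact absurd rfl hik

include hI in
/-- On a branch a point is determined by its image under `ι₁ ι₀`. -/
theorem eq_of_thru_ι {l : Fin 3} {x x' : Ideal (T.chart₂ T.j)} [x.IsMaximal] [x'.IsMaximal]
    (h : Thru l x) (h' : Thru l x')
    (hcomap : ∀ b, chartIncl₂ T.j (chartIncl₁ T.j b) ∈ x' →
      chartIncl₂ T.j (chartIncl₁ T.j b) ∈ x) : x' = x := by
  have hid : ∀ c : T.F₀, T.IsRat c →
      (RingHom.id (LaurentSeries T.k)) (T.red₀ c) = T.red₀ c ^ q ^ 0 := fun c _ => by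
    rw [pow_zero, pow_one, RingHom.id_apply]
  fin_cases l
  · refine eq_of_thru_of_comap hI (i := 0) (fun b => chartIncl₂ T.j (chartIncl₁ T.j b))
      (RingHom.id _) 0 (fun c => rfl) hid (fun b => ?_) h h' hcomap
    show T.red (T.ε (T.ι₁ (T.ι₀ (b : T.F₀)))) = T.red (T.e₀ (b : T.F₀))
    rw [e₀_apply]
  · refine eq_of_thru_of_comap hI (i := 1) (fun b => chartIncl₂ T.j (chartIncl₁ T.j b))
      (RingHom.id _) 0 (fun c => rfl) hid (fun b => ?_) h h' hcomap
    show T.red (T.εb (T.ι₁ (T.ι₀ (b : T.F₀)))) = T.red (T.e₀ (b : T.F₀))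
    rw [T.εb_ι₁, e₀_apply]
  · refine eq_of_thru_of_comap hI (i := 2) (fun b => chartIncl₂ T.j (chartIncl₁ T.j b))
      ((qExpand T.k q).comp (qExpand T.k q)) 2 (fun c => ?_) (fun c hc => ?_) (fun b => ?_) h h'
      hcomap
    · simp [algebraMap_laurentSeries_eq_single]
    · show qExpand T.k q (qExpand T.k q (T.red₀ c)) = _
      rw [hc.2, map_pow, hc.2, ← pow_mul, sq]
    · show T.red (T.εc (T.ι₁ (T.ι₀ (b : T.F₀)))) = qExpand T.k q (qExpand T.k q _)
      have hb := (T.chartParam_j hI).e₀_mem_gaussInt b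
      rw [T.εc_ι₁, T.w₁_ι₀, T.e₁_β₀,
        meet_red_qExpand (qExpand_mem_gaussInt q hb).1, meet_red_qExpand hb]

/-- **Two branches meet only at the points which are alone over their two images, and then all
three pass** (given that every point of the special fibre is on a branch). -/
theorem branches_meet_of_exists_thru
    (hthru : ∀ (x : Ideal (T.chart₂ T.j)) [x.IsMaximal], (q : T.chart₂ T.j) ∈ x → ∃ i, Thru i x)
    (x : Ideal (T.chart₂ T.j)) [x.IsMaximal]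
    (hx : (q : T.chart₂ T.j) ∈ x) (i k : Fin 3) (hik : i ≠ k) (hi : Thru i x) (hk : Thru k x) :
    (∀ l, Thru l x) ∧
      (∀ x' : Ideal (T.chart₂ T.j), x'.IsMaximal →
        x'.comap (chartIncl₂ T.j) = x.comap (chartIncl₂ T.j) → x' = x) ∧
      (∀ x' : Ideal (T.chart₂ T.j), x'.IsMaximal →
        x'.comap (chartBeta₂ hI) = x.comap (chartBeta₂ hI) → x' = x) := by
  have hall := thru_all_of_two hI hik hi hk
  set ht := T.chartParam_j hI
  refine ⟨hall, fun x' hx' he => ?_, fun x' hx' he => ?_⟩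
  all_goals haveI := hx'
  · have hqx : (q : T.chart₂ T.j) ∈ x' := by
      have h : (q : T.chart₁ T.j) ∈ x'.comap (chartIncl₂ T.j) := by
        rw [he, Ideal.mem_comap, map_natCast]; exact hx
      rwa [Ideal.mem_comap, map_natCast] at h
    obtain ⟨l, hl⟩ := hthru x' hqx
    have hcomap : ∀ b, chartIncl₂ T.j (chartIncl₁ T.j b) ∈ x' →
        chartIncl₂ T.j (chartIncl₁ T.j b) ∈ x := fun b hb => by
      have h : chartIncl₁ T.j b ∈ x'.comap (chartIncl₂ T.j) := hb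
      rw [he] at h
      exact h
    exact eq_of_thru_ι hI (hall l) hl hcomap
  · have hqx : (q : T.chart₂ T.j) ∈ x' := by
      have h : (q : T.chart₁ T.j) ∈ x'.comap (chartBeta₂ hI) := by
        rw [he, Ideal.mem_comap, map_natCast]; exact hx
      rwa [Ideal.mem_comap, map_natCast] at h
    obtain ⟨l, hl⟩ := hthru x' hqx
    refine eq_of_thru_of_comap hI (fun b => chartBeta₂ hI (chartIncl₁ T.j b)) (qExpand T.k q) 1
      (fun c => by simp [algebraMap_laurentSeries_eq_single])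
      (fun c hc => by rw [pow_one]; exact hc.2) (fun b => ?_) (hall l) hl (fun b hb => ?_)
    · show T.red₂ l (T.β₁ (T.ι₀ (b : T.F₀))) = _
      rw [T.comm]
      exact red₂_ι₁β₀ hI l b
    · have h : chartIncl₁ T.j b ∈ x'.comap (chartBeta₂ hI) := hb
      rw [he] at h
      exact h

include hI in
/-- **The branches do not meet at the cusps.** -/
theorem branches_meet_inf_aux (x : Ideal (T.chart₂ T.j⁻¹)) [hxm : x.IsMaximal]
    (v : T.chart₂ T.j⁻¹) (hv : (v : T.F₂) = T.ι₁ (T.ι₀ T.j⁻¹)) (hvx : v ∈ x) (i k : Fin 3)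
    (hi : Thru i x) (hk : Thru k x) : i = k := by
  set ht := T.chartParam_jinv hI
  have hj0 : T.j ≠ 0 := fun h => T.transcendental_j (h ▸ isAlgebraic_zero)
  have hne : T.red₀ T.j ≠ 0 := fun h => T.transcendental_red_j
    (by rw [show T.red (T.e₀ T.j) = 0 from h]; exact isAlgebraic_zero)
  have hJ := T.e₀_j_int.1
  have hV := ht.int
  have hJV : T.red₀ T.j * T.red₀ T.j⁻¹ = 1 := by
    rw [red₀, red₀, ← meet_red_mul hJ hV, ← map_mul, mul_inv_cancel₀ hj0, map_one, meet_red_one]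
  have hVq : qExpand T.k q (T.red₀ T.j⁻¹) = T.red₀ T.j⁻¹ ^ q := by
    rw [eq_inv_of_mul_eq_one_right hJV, map_inv₀, T.red_j_qExpand, inv_pow]
  obtain ⟨Φ, hΦ, hdeg, hev, hbd, -⟩ := hI.modular
  -- `j(q τ) / j(τ) ^ q`
  set r : T.F₁ := T.β₀ T.j * T.ι₀ T.j⁻¹ ^ q with hr
  let S₁ := integralClosure (Algebra.adjoin T.W {T.ι₀ T.j⁻¹}) T.F₁
  have hv₁ : T.ι₀ T.j⁻¹ ∈ S₁ := isIntegral_algebraMap
    (x := (⟨_, Algebra.self_mem_adjoin_singleton _ _⟩ : Algebra.adjoin T.W {T.ι₀ T.j⁻¹}))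
  have hr₁ : r ∈ T.chart₁ T.j⁻¹ := by
    have h := isIntegral_mul_pow_of_modular S₁ hΦ hdeg hbd hv₁ (one_mem _) (m := 1)
      (J := T.ι₀ T.j) (by rw [pow_one, ← map_mul, mul_inv_cancel₀ hj0, map_one]) hev
    rw [mul_one] at h
    exact isIntegral_trans (A := S₁) _ h
  -- `j(q² τ) / j(τ) ^ (q ^ 2)`
  let S₂ := integralClosure (Algebra.adjoin T.W {T.ι₁ (T.ι₀ T.j⁻¹)}) T.F₂
  have hv₂ : T.ι₁ (T.ι₀ T.j⁻¹) ∈ S₂ := ι₁_mem_chart₂ hv₁
  have ha₂ : T.β₁ (T.β₀ T.j) * T.ι₁ (T.ι₀ T.j⁻¹) ^ (q * q) ∈ T.chart₂ T.j⁻¹ := by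
    have hev' : (Φ.map (Polynomial.aeval (T.ι₁ (T.β₀ T.j))).toRingHom).eval
        (T.β₁ (T.β₀ T.j)) = 0 := by
      have h := congrArg T.β₁.toRingHom hev
      rw [Polynomial.eval_map, Polynomial.hom_eval₂, map_zero] at h
      rw [Polynomial.eval_map, ← h]
      refine congrArg₂ (fun f z => Polynomial.eval₂ f z Φ) (Polynomial.ringHom_ext
        (fun a => by simp) ?_) rfl
      simp [T.comm]
    have h := isIntegral_mul_pow_of_modular S₂ hΦ hdeg hbd hv₂ (ι₁_mem_chart₂ hr₁) (m := q)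
      (J := T.ι₁ (T.β₀ T.j)) (by rw [hr, map_mul, map_pow]) hev'
    exact isIntegral_trans (A := S₂) _ h
  set a : T.chart₂ T.j⁻¹ := ⟨_, ha₂⟩
  set R : T.chart₂ T.j⁻¹ := ⟨T.ι₁ r, ι₁_mem_chart₂ hr₁⟩
  have hb : ∀ l, T.branch l (T.ι₁ (T.ι₀ T.j⁻¹)) ∈ gaussInt T.π := fun l => by
    rw [← hv]; exact branch_mem_gaussInt ht l v
  have hb0 : T.red₂ 0 (T.ι₁ (T.ι₀ T.j⁻¹)) = T.red₀ T.j⁻¹ := rfl
  have hb1 : T.red₂ 1 (T.ι₁ (T.ι₀ T.j⁻¹)) = T.red₀ T.j⁻¹ := congrArg T.red (T.εb_ι₁ _)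
  have hb2 : T.red₂ 2 (T.ι₁ (T.ι₀ T.j⁻¹)) = T.red₀ T.j⁻¹ ^ (q * q) := by
    show T.red (T.εc _) = _
    rw [T.εc_ι₁, T.w₁_ι₀, T.e₁_β₀,
      meet_red_qExpand (qExpand_mem_gaussInt q hV).1, meet_red_qExpand hV, hVq, map_pow, hVq,
      ← pow_mul]
  have hmul : ∀ (l : Fin 3) (y : T.F₂) (n : ℕ), T.branch l y ∈ gaussInt T.π →
      T.red₂ l (y * T.ι₁ (T.ι₀ T.j⁻¹) ^ n) =
        T.red₂ l y * T.red₂ l (T.ι₁ (T.ι₀ T.j⁻¹)) ^ n := fun l y n hy => by
    rw [red₂, map_mul, map_pow, meet_red_mul hy (pow_mem (hb l) n), meet_red_pow (hb l)]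
  have hJq := qExpand_mem_gaussInt q hJ
  have hJq' := qExpand_mem_gaussInt q hJq.1
  have hs1 := T.scaleζ_mem 1 hJ
  rw [pow_one] at hs1
  -- values on the branches
  have ea : T.red₂ 0 (a : T.F₂) = T.red₂ 0 ((1 : T.chart₂ T.j⁻¹) : T.F₂) := by
    have e : T.branch 0 (T.β₁ (T.β₀ T.j)) = qExpand T.L q (qExpand T.L q (T.e₀ T.j)) :=
      (T.ε_β₁' _).trans (congrArg _ (T.e₁_β₀ _))
    show T.red₂ 0 (T.β₁ (T.β₀ T.j) * _) = T.red (T.branch 0 1)
    rw [map_one, meet_red_one, hmul 0 _ _ (by rw [e]; exact hJq'.1), hb0]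
    show T.red (T.branch 0 _) * _ = _
    rw [e, meet_red_qExpand hJq.1, meet_red_qExpand hJ, T.red_j_qExpand_sq,
      sq, ← mul_pow, hJV, one_pow]
  have ea1 : T.red₂ 1 (a : T.F₂) = T.red₂ 1 ((v ^ (q * q - 1) : T.chart₂ T.j⁻¹) : T.F₂) := by
    have e : T.branch 1 (T.β₁ (T.β₀ T.j)) = monoNewScale T.toBase.ζL (T.e₀ T.j) := by
      show T.εb _ = _
      rw [T.εb_β₁, w₁_β₀, T.e₁_ι₀]
    obtain ⟨d, hd⟩ : ∃ d, q * q = d + 1 := ⟨q * q - 1, by
      have := Nat.mul_pos T.prime.pos T.prime.pos; omega⟩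
    rw [← redBranch_apply ht 1 (v ^ (q * q - 1)), map_pow, redBranch_apply, hv]
    show T.red₂ 1 (T.β₁ (T.β₀ T.j) * _) = _
    rw [hmul 1 _ _ (by rw [e]; exact hs1.1), hb1]
    show T.red (T.branch 1 _) * _ = _
    rw [e, show T.red (monoNewScale T.toBase.ζL (T.e₀ T.j)) = T.red₀ T.j from hs1.2, hd,
      Nat.add_sub_cancel, pow_succ', ← mul_assoc, hJV, one_mul]
  have eR : ∀ l : Fin 3, l ≠ 2 →
      T.red₂ l (R : T.F₂) = T.red₂ l ((1 : T.chart₂ T.j⁻¹) : T.F₂) := by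
    intro l hl
    have e : T.branch l (T.ι₁ (T.β₀ T.j)) = qExpand T.L q (T.e₀ T.j) := by
      fin_cases l
      · exact T.e₁_β₀ _
      · exact (T.εb_ι₁ _).trans (T.e₁_β₀ _)
      · exact absurd rfl hl
    have hbl : T.red₂ l (T.ι₁ (T.ι₀ T.j⁻¹)) = T.red₀ T.j⁻¹ := by
      fin_cases l
      exacts [hb0, hb1, absurd rfl hl]
    show T.red₂ l (T.ι₁ r) = T.red (T.branch l 1)
    rw [map_one, meet_red_one, hr, map_mul, map_pow, hmul l _ _ (by rw [e]; exact hJq.1), hbl]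
    show T.red (T.branch l _) * _ = _
    rw [e, meet_red_qExpand hJ, T.red_j_qExpand, ← mul_pow,
      hJV, one_pow]
  have eR2 : T.red₂ 2 ((R ^ q : T.chart₂ T.j⁻¹) : T.F₂) =
      T.red₂ 2 ((v ^ (q * q - 1) : T.chart₂ T.j⁻¹) : T.F₂) := by
    have e : T.branch 2 (T.ι₁ (T.β₀ T.j)) = qExpand T.L q (T.e₀ T.j) := by
      show T.εc _ = _
      rw [T.εc_ι₁, w₁_β₀, T.e₁_ι₀]
    obtain ⟨d, hd⟩ : ∃ d, q * q = d + 1 := ⟨q * q - 1, by
      have := Nat.mul_pos T.prime.pos T.prime.pos; omega⟩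
    rw [← redBranch_apply ht 2 (R ^ q), ← redBranch_apply ht 2 (v ^ (q * q - 1)), map_pow, map_pow,
      redBranch_apply, redBranch_apply, hv]
    show T.red₂ 2 (T.ι₁ r) ^ q = _
    rw [hr, map_mul, map_pow, hmul 2 _ _ (by rw [e]; exact hJq.1), hb2]
    show (T.red (T.branch 2 _) * _) ^ q = _
    rw [e, meet_red_qExpand hJ, T.red_j_qExpand, mul_pow,
      ← pow_mul, ← pow_mul, ← pow_mul, ← pow_mul, hd, Nat.add_sub_cancel]
    calc T.red₀ T.j ^ (d + 1) * T.red₀ T.j⁻¹ ^ ((d + 1) * (d + 1))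
        = (T.red₀ T.j * T.red₀ T.j⁻¹) ^ (d + 1) * T.red₀ T.j⁻¹ ^ ((d + 1) * d) := by
          rw [mul_pow, mul_assoc, ← _root_.pow_add]; congr 2; ring
      _ = _ := by rw [hJV, one_pow, one_mul]
  -- a function equal to `1` on one branch and vanishing at the point on another
  have key : ∀ {l l' : Fin 3} (z : T.chart₂ T.j⁻¹) (n m : ℕ), 0 < m →
      T.red₂ l (z : T.F₂) = T.red₂ l ((1 : T.chart₂ T.j⁻¹) : T.F₂) →
      T.red₂ l' ((z ^ n : T.chart₂ T.j⁻¹) : T.F₂) =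
        T.red₂ l' ((v ^ m : T.chart₂ T.j⁻¹) : T.F₂) → Thru l x → Thru l' x → False := by
    intro l l' z n m hm e e' hl hl'
    have h1 : z ^ n ∈ x :=
      (mem_iff_of_thru ht hl' e').mpr (Ideal.pow_mem_of_mem x hvx m hm)
    have h2 : z ∈ x := (Ideal.IsMaximal.isPrime hxm).mem_of_pow_mem n h1
    exact hxm.ne_top ((Ideal.eq_top_iff_one x).mpr ((mem_iff_of_thru ht hl e).mp h2))
  have hpos : 0 < q * q - 1 := by
    have h4 := Nat.mul_le_mul T.prime.two_le T.prime.two_le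
    omega
  have ea1' : T.red₂ 1 ((a ^ 1 : T.chart₂ T.j⁻¹) : T.F₂) =
      T.red₂ 1 ((v ^ (q * q - 1) : T.chart₂ T.j⁻¹) : T.F₂) := by rw [pow_one]; exact ea1
  fin_cases i <;> fin_cases k
  · rfl
  · exact (key a 1 _ hpos ea ea1' hi hk).elim
  · exact (key R q _ hpos (eR 0 (by decide)) eR2 hi hk).elim
  · exact (key a 1 _ hpos ea ea1' hk hi).elim
  · rfl
  · exact (key R q _ hpos (eR 1 (by decide)) eR2 hi hk).elim
  · exact (key R q _ hpos (eR 0 (by decide)) eR2 hk hi).elim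
  · exact (key R q _ hpos (eR 1 (by decide)) eR2 hk hi).elim
  · rfl

end finiteChart

end Tower

end FermatLib.Igusa.Carayol
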