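import Mathlib
import Fermat.Agent.Igusa.Carayol.LevelOne
import Fermat.Agent.Igusa.Carayol.LevelTwoReduced

/-!
The branches of level `N q²`: functions vanishing on all three of them, points of the special
fibre, and the field of the reductions.
-/

set_option autoImplicit false
set_option linter.style.haveILetI false
set_option maxHeartbeats 800000

noncomputable section

open ModularCurve HahnSeries FermatLib.Igusa

namespace FermatLib.Igusa.Carayol

namespace Tower

variable {q : ℕ} [NeZero q] {T : Tower q}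

/-- The `(q-1)`-th power of a series with reduction zero is divisible by `q`. -/
theorem exists_pow_eq_natCast_mul {g : LaurentSeries T.L} (hg : g ∈ gaussInt T.π)
    (h0 : T.red g = 0) : ∃ c ∈ gaussInt T.π, g ^ (q - 1) = (q : LaurentSeries T.L) * c := by
  obtain ⟨ϖ, hϖ⟩ := IsDiscreteValuationRing.exists_irreducible T.A
  obtain ⟨g', hg', rfl⟩ := exists_eq_irreducible_mul T.π_eq_zero hϖ hg h0
  obtain ⟨d, hd⟩ := T.ram ϖ hϖ.not_isUnit
  refine ⟨algebraMap T.L (LaurentSeries T.L) (d : T.L) * g' ^ (q - 1),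
    mul_mem (algebraMap_mem_gaussInt d) (pow_mem hg' _), ?_⟩
  rw [mul_pow, ← map_pow, ← SubmonoidClass.coe_pow, hd, MulMemClass.coe_mul, map_mul, mul_assoc]
  congr 1
  rw [show ((q : T.A) : T.L) = (q : T.L) from map_natCast T.A.subtype q, map_natCast]

/-- **The chart of level `N q²` is read on the three branches.** -/
theorem mem_chart₂_of_branches {t : T.F₀} (ht : T.ChartParam t) (b : T.F₂)
    (hb : IsIntegral (Algebra.adjoin T.K {T.ι₁ (T.ι₀ t)}) b)
    (h : ∀ i, T.branch i b ∈ gaussInt T.π) : b ∈ T.chart₂ t := by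
  letI := T.ι₁.toRingHom.toAlgebra
  haveI := T.finrank_pos₂
  haveI : CharZero T.F₁ := charZero_of_injective_algebraMap (algebraMap T.K T.F₁).injective
  set P := minpoly T.F₁ b with hP
  have hPm : P.Monic := minpoly.monic (IsIntegral.of_finite T.F₁ b)
  have hcoef : ∀ n, T.e₁ (P.coeff n) ∈ gaussInt T.π ∧
      T.e₁ (T.w₁ (P.coeff n)) ∈ gaussInt T.π := by
    intro n
    refine ⟨?_, mem_gaussInt_of_qExpand T.π_eq_zero q (T.ε_bounded _) ?_⟩
    · refine map_minpoly_coeff_mem (e := T.e₁) (σ := T.emb₂) (fun i x => ?_) T.emb₂_injective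
        (by rw [Fintype.card_fin, T.finrank₁]) (gaussInt T.π) (a := b) (fun i => ?_) n
      · show T.emb₂ i (T.ι₁ x) = T.e₁ x
        rw [emb₂]
        split_ifs with hi
        · rfl
        · exact T.εbI_ι₁ _ _
      · rw [emb₂]
        split_ifs with hi
        · exact h 0
        · exact (T.conj_series_mem i (h 1)).1
    · refine map_minpoly_coeff_mem
        (e := (qExpand T.L q).comp (T.e₁.comp T.w₁.toRingEquiv.toRingHom))
        (σ := fun i : Fin q => (monoNewScale (T.toBase.ζL ^ (i : ℕ))).comp T.εc)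
        (fun i x => ?_) T.embZero_injective
        (by rw [Fintype.card_fin, T.finrank₁]) (gaussInt T.π) (a := b) (fun i => ?_) n
      · show monoNewScale _ (T.εc (T.ι₁ x)) = qExpand T.L q (T.e₁ (T.w₁ x))
        rw [T.εc_ι₁, T.scale_qExpand]
      · exact (T.scaleζ_mem _ (h 2)).1
  set R := Algebra.adjoin T.K {T.ι₀ t} with hR
  haveI : IsScalarTower R T.F₁ T.F₂ := IsScalarTower.of_algebraMap_eq fun _ => rfl
  obtain ⟨p, hp, hpb⟩ : IsIntegral R b := by
    obtain ⟨p, hp, hpb⟩ := hb
    have hrange : ∀ r ∈ Algebra.adjoin T.K {T.ι₁ (T.ι₀ t)}, ∃ s : R, T.ι₁ s = r := by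
      intro r hr
      have hr' : r ∈ R.map T.ι₁ := by rwa [hR, AlgHom.map_adjoin, Set.image_singleton]
      obtain ⟨s, hs, hsr⟩ := hr'
      exact ⟨⟨s, hs⟩, hsr⟩
    obtain ⟨p', hp', -, hp'm⟩ := Polynomial.lifts_and_natDegree_eq_and_monic
      (f := algebraMap R T.F₂) ((Polynomial.lifts_iff_coeff_lifts
        (p.map (algebraMap _ T.F₂))).mpr fun n => by
          rw [Polynomial.coeff_map]
          exact hrange _ (p.coeff n).2) (hp.map _)
    refine ⟨p', hp'm, ?_⟩
    rw [Polynomial.eval₂_eq_eval_map, hp', Polynomial.eval_map]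
    exact hpb
  have hdvd : P ∣ p.map (algebraMap R T.F₁) := minpoly.dvd _ _ (by
    rw [Polynomial.aeval_map_algebraMap]; exact hpb)
  have hchart : ∀ n, P.coeff n ∈ T.chart₁ t := fun n =>
    gauss_mem₁ ht _ (Polynomial.isIntegral_coeff_of_dvd p P hp hPm hdvd n) (hcoef n).1 (hcoef n).2
  -- back to `W[t]`
  show IsIntegral (Algebra.adjoin T.W {T.ι₁ (T.ι₀ t)}) b
  set C := integralClosure (Algebra.adjoin T.W {T.ι₁ (T.ι₀ t)}) T.F₂
  obtain ⟨Q, hQ, -, hQm⟩ := Polynomial.lifts_and_natDegree_eq_and_monic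
    (f := algebraMap C T.F₂) ((Polynomial.lifts_iff_coeff_lifts
      (P.map (algebraMap T.F₁ T.F₂))).mpr fun n => by
        rw [Polynomial.coeff_map]
        exact ⟨⟨_, ι₁_mem_chart₂ (hchart n)⟩, rfl⟩) (hPm.map _)
  refine isIntegral_trans (A := C) b ⟨Q, hQm, ?_⟩
  rw [Polynomial.eval₂_eq_eval_map, hQ, Polynomial.eval_map]
  exact minpoly.aeval T.F₁ b

/-- A function vanishing on the three branches has `(q-1)`-th power divisible by `q`. -/
theorem exists_pow_eq_mul₂ {t : T.F₀} (ht : T.ChartParam t) (a : T.chart₂ t)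
    (h : ∀ i, T.red₂ i (a : T.F₂) = 0) : ∃ b : T.chart₂ t, a ^ (q - 1) = q * b := by
  haveI : CharZero T.F₂ := charZero_of_injective_algebraMap (algebraMap T.K T.F₂).injective
  haveI : CharZero T.L := charZero_of_injective_algebraMap (algebraMap T.K T.L).injective
  haveI : CharZero (LaurentSeries T.L) :=
    charZero_of_injective_algebraMap (algebraMap T.L (LaurentSeries T.L)).injective
  have hq0 : (q : T.F₂) ≠ 0 := Nat.cast_ne_zero.mpr T.prime.ne_zero
  set b : T.F₂ := (a : T.F₂) ^ (q - 1) / q with hb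
  have hbr : ∀ i, T.branch i b ∈ gaussInt T.π := by
    intro i
    obtain ⟨c, hc, he⟩ := exists_pow_eq_natCast_mul (branch_mem_gaussInt ht i a) (h i)
    rw [hb, map_div₀, map_pow, map_natCast, he,
      mul_div_cancel_left₀ c (Nat.cast_ne_zero.mpr T.prime.ne_zero)]
    exact hc
  suffices hbm : b ∈ T.chart₂ t by
    refine ⟨⟨b, hbm⟩, Subtype.ext ?_⟩
    push_cast
    rw [hb, mul_div_cancel₀ _ hq0]
  set R := Algebra.adjoin T.K {T.ι₁ (T.ι₀ t)}
  have hint : IsIntegral R (a : T.F₂) := by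
    obtain ⟨p, hp, hpa⟩ := a.2
    have hmem : ∀ r ∈ Algebra.adjoin T.W {T.ι₁ (T.ι₀ t)}, r ∈ R := fun r hr => by
      induction hr using Algebra.adjoin_induction with
      | mem z hz => exact Algebra.subset_adjoin hz
      | algebraMap w =>
        rw [IsScalarTower.algebraMap_apply T.W T.K T.F₂]
        exact R.algebraMap_mem _
      | add x y _ _ hx hy => exact add_mem hx hy
      | mul x y _ _ hx hy => exact mul_mem hx hy
    refine ⟨p.map ((Algebra.adjoin T.W {T.ι₁ (T.ι₀ t)}).val.toRingHom.codRestrict R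
      fun r => hmem _ r.2), hp.map _, ?_⟩
    rw [Polynomial.eval₂_map]
    exact hpa
  refine mem_chart₂_of_branches ht b ?_ hbr
  rw [hb, div_eq_mul_inv]
  refine (hint.pow _).mul ?_
  rw [← map_natCast (algebraMap T.K T.F₂), ← map_inv₀]
  exact isIntegral_algebraMap (R := R) (x := algebraMap T.K R (q : T.K)⁻¹)

theorem exists_thru {t : T.F₀} (ht : T.ChartParam t) (x : Ideal (T.chart₂ t)) [x.IsMaximal]
    (hx : (q : T.chart₂ t) ∈ x) : ∃ i, Thru i x := by
  by_contra hne
  simp only [not_exists, Thru, not_forall] at hne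
  choose f hf hfx using hne
  obtain ⟨b, hb⟩ := exists_pow_eq_mul₂ ht (∏ i, f i) fun i => by
    classical
    show gred T.π (T.branch i _) = 0
    rw [← Finset.mul_prod_erase Finset.univ f (Finset.mem_univ i), MulMemClass.coe_mul, map_mul,
      gred_mul (branch_mem_gaussInt ht i _) (branch_mem_gaussInt ht i _),
      show gred T.π (T.branch i (f i : T.F₂)) = 0 from hf i, zero_mul]
  have h1 : (∏ i, f i) ^ (q - 1) ∈ x := hb ▸ x.mul_mem_right b hx
  obtain ⟨i, -, hi⟩ := Ideal.IsPrime.prod_mem_iff.mp (‹x.IsMaximal›.isPrime.mem_of_pow_mem _ h1)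
  exact hfx i hi

/-- The reductions along the three branches lie in the reduced field of level `N`. -/
theorem red₂_mem_reduced (_hI : T.Inputs) (i : Fin 3) (a : T.F₂)
    (ha : T.branch i a ∈ gaussInt T.π) :
    ∃ b d : T.F₀, T.e₀ b ∈ gaussInt T.π ∧ T.e₀ d ∈ gaussInt T.π ∧ T.red₀ d ≠ 0 ∧
      T.red₂ i a * T.red₀ d = T.red₀ b :=
  T.inReduced_red₂ i a ha

end Tower

end FermatLib.Igusa.Carayol
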