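import Mathlib
import Fermat.Agent.Igusa.Carayol.TowerChart
import Fermat.Agent.Igusa.Carayol.LevelZeroPoints
import Fermat.Agent.Igusa.Carayol.LevelTwoReduced

/-!
Lifting the reduced chart of level `N` to the charts of level `N q²` along each of the three
branches, locally at a point of the special fibre.
-/

set_option autoImplicit false
set_option linter.style.haveILetI false
set_option maxHeartbeats 400000

noncomputable section

open ModularCurve HahnSeries FermatLib.Igusa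

namespace FermatLib.Igusa.Carayol

section clearing

variable {R F : Type*} [CommRing R] [Field F] [Algebra R F]

/-- Denominators of `u` are cleared by powers of `v` on all of `R[u]` and its closure. -/
theorem exists_pow_mul_isIntegral_closure {x u v : F}
    (hv : IsIntegral (Algebra.adjoin R {x}) v) (hvu : IsIntegral (Algebra.adjoin R {x}) (v * u))
    {b : F} (hb : IsIntegral (Algebra.adjoin R {u}) b) :
    ∃ D : ℕ, ∀ m, D ≤ m → IsIntegral (Algebra.adjoin R {x}) (v ^ m * b) := by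
  classical
  have hle : ∀ r ∈ Algebra.adjoin R {u}, ∃ D : ℕ, ∀ m, D ≤ m →
      IsIntegral (Algebra.adjoin R {x}) (v ^ m * r) := by
    intro r hr
    induction hr using Algebra.adjoin_induction with
    | mem z hz =>
      rw [Set.mem_singleton_iff] at hz
      subst hz
      refine ⟨1, fun m hm => ?_⟩
      obtain ⟨m, rfl⟩ := Nat.exists_eq_add_of_le hm
      rw [_root_.pow_add, pow_one, mul_right_comm]
      exact hvu.mul (hv.pow m)
    | algebraMap w =>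
      refine ⟨0, fun m _ => (hv.pow m).mul ?_⟩
      rw [IsScalarTower.algebraMap_apply R (Algebra.adjoin R {x}) F]
      exact isIntegral_algebraMap
    | add a b _ _ ha hb =>
      obtain ⟨D, hD⟩ := ha
      obtain ⟨E, hE⟩ := hb
      exact ⟨max D E, fun m hm => by
        rw [mul_add]
        exact (hD m (le_trans (le_max_left _ _) hm)).add
          (hE m (le_trans (le_max_right _ _) hm))⟩
    | mul a b _ _ ha hb =>
      obtain ⟨D, hD⟩ := ha
      obtain ⟨E, hE⟩ := hb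
      refine ⟨D + E, fun m hm => ?_⟩
      obtain ⟨e, rfl⟩ := Nat.exists_eq_add_of_le hm
      have h : v ^ (D + E + e) * (a * b) = v ^ D * a * (v ^ (E + e) * b) := by ring
      rw [h]
      exact (hD D le_rfl).mul (hE (E + e) (Nat.le_add_right _ _))
  obtain ⟨P, hP, hPb⟩ := hb
  choose D hD using fun i : ℕ => hle _ (P.coeff i).2
  set N := (Finset.range (P.natDegree + 1)).sup D
  refine ⟨N, fun m hm => ?_⟩
  set C := integralClosure (Algebra.adjoin R {x}) F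
  set Q := (P.map (algebraMap (Algebra.adjoin R {u}) F)).scaleRoots (v ^ m) with hQ
  have hQm : Q.Monic := (Polynomial.monic_scaleRoots_iff _).mpr (hP.map _)
  have hQc : ∀ i, Q.coeff i ∈ C := by
    intro i
    rw [hQ, Polynomial.coeff_scaleRoots, hP.natDegree_map, Polynomial.coeff_map]
    rcases lt_trichotomy i P.natDegree with hi | rfl | hi
    · rw [mul_comm, ← pow_mul]
      refine hD i _ (le_trans ?_ (Nat.le_mul_of_pos_right m (Nat.sub_pos_of_lt hi)))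
      exact le_trans (Finset.le_sup (Finset.mem_range.mpr (by omega))) hm
    · rw [hP.coeff_natDegree, map_one, Nat.sub_self, pow_zero, mul_one]
      exact one_mem C
    · rw [Polynomial.coeff_eq_zero_of_natDegree_lt hi, map_zero, zero_mul]
      exact zero_mem C
  obtain ⟨Q', hQ', -, hQ'm⟩ := Polynomial.lifts_and_degree_eq_and_monic
    ((Polynomial.lifts_iff_coeff_lifts (f := algebraMap C F) Q).mpr fun i =>
      ⟨⟨_, hQc i⟩, rfl⟩) hQm
  refine isIntegral_trans (A := C) _ ⟨Q', hQ'm, ?_⟩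
  rw [← Polynomial.eval_map, hQ', hQ, Polynomial.eval]
  exact Polynomial.scaleRoots_eval₂_eq_zero (RingHom.id F)
    (by rw [Polynomial.eval₂_map, RingHom.id_comp]; exact hPb)

end clearing

namespace Tower

variable {q : ℕ} [NeZero q] {T : Tower q} {t : T.F₀}

theorem red₀_jinv : T.red₀ T.j⁻¹ = (T.red₀ T.j)⁻¹ := by
  show gred T.π (T.e₀ T.j⁻¹) = _
  rw [map_inv₀]
  exact gred_inv (T.e₀_j_int).1 fun h => T.transcendental_red_j (by
    rw [show T.red (T.e₀ T.j) = 0 from h]; exact isAlgebraic_zero)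

theorem red₀_j_ne_zero : T.red₀ T.j ≠ 0 := fun h =>
  T.transcendental_red_j (by rw [show T.red (T.e₀ T.j) = 0 from h]; exact isAlgebraic_zero)

theorem red_qExpand_of_eq (ht : t = T.j ∨ t = T.j⁻¹) :
    qExpand T.k q (T.red₀ t) = T.red₀ t ^ q := by
  rcases ht with rfl | rfl
  · exact T.red_j_qExpand
  · rw [red₀_jinv, map_inv₀, T.red_j_qExpand, inv_pow]

/-- The reduction of the chart of level `N q²` along a branch. -/
def ChartParam.redHom₂ (ht : T.ChartParam t) (i : Fin 3) :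
    T.chart₂ t →+* LaurentSeries T.k :=
  (gaussIntRed T.π).comp
    (((T.branch i).comp (T.chart₂ t).val.toRingHom).codRestrict (gaussInt T.π)
      (branch_mem_gaussInt ht i))

@[simp] theorem ChartParam.redHom₂_apply (ht : T.ChartParam t) (i : Fin 3) (a : T.chart₂ t) :
    ht.redHom₂ i a = T.red₂ i (a : T.F₂) := rfl

theorem ChartParam.redHom₂_W (ht : T.ChartParam t) (i : Fin 3) (w : T.W) :
    ht.redHom₂ i (algebraMap T.W (T.chart₂ t) w) =
      algebraMap T.k (LaurentSeries T.k) (T.πW w) := by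
  show gred T.π (T.branch i (algebraMap T.W T.F₂ w)) = _
  rw [IsScalarTower.algebraMap_apply T.W T.K T.F₂, branch_algebraMap]
  exact gred_algebraMap (π := T.π) ⟨algebraMap T.K T.L (w : T.K), T.coe_mem_A w⟩

theorem branch_two_ι₁β₀ (c : T.F₀) :
    T.branch 2 (T.ι₁ (T.β₀ c)) = qExpand T.L q (T.e₀ c) := by
  show T.εc _ = _
  rw [T.εc_ι₁, w₁_β₀, T.e₁_ι₀]

theorem branch_two_β₁β₀ (c : T.F₀) : T.branch 2 (T.β₁ (T.β₀ c)) = T.e₀ c := by
  show T.ε (T.w₂ _) = _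
  rw [w₂_β₁, w₁_β₀]
  rfl

theorem branch_two_ι₁ι₀ (c : T.F₀) :
    T.branch 2 (T.ι₁ (T.ι₀ c)) = qExpand T.L q (qExpand T.L q (T.e₀ c)) := by
  show T.εc _ = _
  rw [T.εc_ι₁, T.w₁_ι₀, T.e₁_β₀]

/-- The reduction of the coordinate on a branch. -/
theorem ChartParam.red₂_coord (ht : T.ChartParam t) (h : t = T.j ∨ t = T.j⁻¹) (i : Fin 3) :
    T.red₂ i (T.ι₁ (T.ι₀ t)) = T.red₀ t ∨ T.red₂ i (T.ι₁ (T.ι₀ t)) = T.red₀ t ^ q ^ 2 := by
  rcases branch_ι₁ι₀ i t with hb | hb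
  · exact Or.inl (congrArg (gred T.π) hb)
  · refine Or.inr ?_
    show gred T.π (T.branch i _) = _
    obtain ⟨h₁, h₂⟩ := qExpand_mem_gaussInt (π := T.π) q ht.int
    rw [hb, (qExpand_mem_gaussInt (π := T.π) q h₁).2, h₂]
    show qExpand T.k q (qExpand T.k q (T.red₀ t)) = _
    rw [red_qExpand_of_eq h, map_pow, red_qExpand_of_eq h, ← pow_mul, sq]

/-- **Every branch reduces into the reduced chart of level `N`.** -/
theorem ChartParam.exists_red₂_eq (ht : T.ChartParam t) (h : t = T.j ∨ t = T.j⁻¹) (i : Fin 3)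
    (a : T.chart₂ t) : ∃ c : T.chart₀ t, T.red₂ i (a : T.F₂) = T.red₀ (c : T.F₀) := by
  obtain ⟨b, d, hb, hd, hd0, hbd⟩ :=
    T.inReduced_red₂ i (a : T.F₂) (branch_mem_gaussInt ht i a)
  have hdiv : T.red₂ i (a : T.F₂) = T.red (T.e₀ b) / T.red (T.e₀ d) :=
    (eq_div_iff hd0).mpr hbd
  set S := Algebra.adjoin T.k {T.red₀ t}
  have hT : T.red₂ i (T.ι₁ (T.ι₀ t)) ∈ S := by
    rcases ht.red₂_coord h i with e | e <;> rw [e]
    · exact Algebra.self_mem_adjoin_singleton _ _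
    · exact pow_mem (Algebra.self_mem_adjoin_singleton _ _) _
  have hle : ∀ r : Algebra.adjoin T.W {T.ι₁ (T.ι₀ t)},
      T.branch i (r : T.F₂) ∈ gaussInt T.π :=
    fun r => branch_mem_gaussInt ht i ⟨_, (isIntegral_algebraMap (x := r))⟩
  let g : Algebra.adjoin T.W {T.ι₁ (T.ι₀ t)} →+* LaurentSeries T.k :=
    (gaussIntRed T.π).comp
      (((T.branch i).comp (Algebra.adjoin T.W {T.ι₁ (T.ι₀ t)}).val.toRingHom).codRestrict
        (gaussInt T.π) hle)
  have hg : ∀ r, g r ∈ S := by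
    rintro ⟨r, hr⟩
    induction hr using Algebra.adjoin_induction with
    | mem z hz => rw [Set.mem_singleton_iff] at hz; subst hz; exact hT
    | algebraMap w =>
      show gred T.π (T.branch i (algebraMap T.W T.F₂ w)) ∈ S
      have e : gred T.π (T.branch i (algebraMap T.W T.F₂ w)) = _ := ht.redHom₂_W i w
      rw [e]
      exact S.algebraMap_mem _
    | add a b ha' hb' iha ihb =>
      have e : (⟨a + b, add_mem ha' hb'⟩ : Algebra.adjoin T.W {T.ι₁ (T.ι₀ t)}) =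
          ⟨a, ha'⟩ + ⟨b, hb'⟩ := rfl
      rw [e, map_add]; exact add_mem iha ihb
    | mul a b ha' hb' iha ihb =>
      have e : (⟨a * b, mul_mem ha' hb'⟩ : Algebra.adjoin T.W {T.ι₁ (T.ι₀ t)}) =
          ⟨a, ha'⟩ * ⟨b, hb'⟩ := rfl
      rw [e, map_mul]; exact mul_mem iha ihb
  have hint : IsIntegral S (T.red₂ i (a : T.F₂)) := by
    obtain ⟨P, hP, hPa⟩ := (a.2 : IsIntegral (Algebra.adjoin T.W {T.ι₁ (T.ι₀ t)}) (a : T.F₂))
    refine ⟨P.map (g.codRestrict S.toSubring hg), hP.map _, ?_⟩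
    rw [Polynomial.eval₂_map]
    have hPa' : Polynomial.eval₂ (RingHom.id (T.chart₂ t)) a
        (P.map (algebraMap (Algebra.adjoin T.W {T.ι₁ (T.ι₀ t)})
          (integralClosure (Algebra.adjoin T.W {T.ι₁ (T.ι₀ t)}) T.F₂))) = 0 := by
      refine Subtype.ext ?_
      rw [Polynomial.eval₂_map]
      show (T.chart₂ t).val.toRingHom (Polynomial.eval₂ _ _ P) = 0
      rw [Polynomial.hom_eval₂]
      exact hPa
    have h1 := congrArg (ht.redHom₂ i) hPa'
    rw [map_zero, Polynomial.eval₂_map, Polynomial.hom_eval₂] at h1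
    exact h1
  rw [hdiv] at hint
  obtain ⟨c, hc⟩ := ht.span_rat_le_redRing (ht.smooth b d hb hd hd0 hint)
  exact ⟨c, hdiv.trans hc.symm⟩

/-- `1 / j(qτ)` times a polynomial in `1 / j(τ)` with constant term `1` is integral over
`W[1/j]`. -/
theorem exists_poly_mul_β₀_jinv (hI : T.Inputs) : ∃ P : Polynomial T.W, P.coeff 0 = 1 ∧
    Polynomial.aeval (T.ι₀ T.j⁻¹) P * T.β₀ T.j⁻¹ ∈ T.chart₁ T.j⁻¹ := by
  obtain ⟨Φ, -, hΦd, hev, -, hdeg, hd0, hm0, -⟩ := hI.modular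
  have hj0 : T.j ≠ 0 := fun h => T.transcendental_j (h ▸ isAlgebraic_zero)
  have hJ0 : T.ι₀ T.j ≠ 0 := (map_ne_zero T.ι₀).mpr hj0
  have hB0 : T.β₀ T.j ≠ 0 := (map_ne_zero T.β₀).mpr hj0
  set v : T.F₁ := T.ι₀ T.j⁻¹ with hv
  set b : T.F₁ := T.β₀ T.j⁻¹ with hb
  let r : ℕ → Polynomial ℤ := fun i => Polynomial.reflect (q + 1) (Φ.coeff i)
  have hr : ∀ i, Polynomial.aeval v (r i) * T.ι₀ T.j ^ (q + 1) =
      Polynomial.aeval (T.ι₀ T.j) (Φ.coeff i) := fun i => by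
    haveI := invertibleOfNonzero hJ0
    have h := Polynomial.eval₂_reflect_mul_pow (algebraMap ℤ T.F₁) (T.ι₀ T.j) (q + 1)
      (Φ.coeff i) (hdeg i)
    rw [invOf_eq_inv] at h
    rw [Polynomial.aeval_def, Polynomial.aeval_def, hv, map_inv₀]
    exact h
  set ℓ : T.F₁ := Polynomial.aeval v (r 0) with hℓ
  have hsum : ∑ i ∈ Finset.range (q + 2),
      Polynomial.aeval v (r i) * b ^ (q + 1 - i) = 0 := by
    rw [Polynomial.eval_map, Polynomial.eval₂_eq_sum_range, hΦd] at hev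
    refine mul_right_cancel₀ (mul_ne_zero (pow_ne_zero (q + 1) hJ0)
      (pow_ne_zero (q + 1) hB0)) ?_
    rw [zero_mul, ← hev, Finset.sum_mul]
    refine Finset.sum_congr rfl fun i hi => ?_
    have hi' : i ≤ q + 1 := Nat.lt_succ_iff.mp (Finset.mem_range.mp hi)
    have hbB : b ^ (q + 1 - i) * T.β₀ T.j ^ (q + 1) = T.β₀ T.j ^ i := by
      conv_lhs => rw [← Nat.sub_add_cancel hi', _root_.pow_add, Nat.add_sub_cancel]
      rw [hb, map_inv₀, ← mul_assoc, inv_pow, inv_mul_cancel₀ (pow_ne_zero _ hB0), one_mul]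
    show _ = (Polynomial.aeval (T.ι₀ T.j)) (Φ.coeff i) * _
    rw [← hr i, ← hbB]
    ring
  let x₁ : Algebra.adjoin T.W {v} := ⟨v, Algebra.self_mem_adjoin_singleton _ _⟩
  let c : ℕ → Algebra.adjoin T.W {v} := fun i =>
    Polynomial.aeval x₁ (r (i + 1)) * Polynomial.aeval x₁ (r 0) ^ i
  let G : Polynomial (Algebra.adjoin T.W {v}) :=
    ∑ i ∈ Finset.range (q + 1), Polynomial.C (c i) * Polynomial.X ^ (q - i)
  have hG : G.degree < ((q + 1 : ℕ) : WithBot ℕ) := by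
    refine lt_of_le_of_lt (Polynomial.degree_sum_le _ _) ?_
    refine (Finset.sup_lt_iff (WithBot.bot_lt_coe _)).mpr fun i _ => ?_
    refine lt_of_le_of_lt (Polynomial.degree_C_mul_X_pow_le _ _) ?_
    exact Nat.cast_lt.mpr (Nat.lt_succ_of_le (Nat.sub_le q i))
  have hcoe : ∀ p : Polynomial ℤ, ((Polynomial.aeval x₁ p : Algebra.adjoin T.W {v}) : T.F₁) =
      Polynomial.aeval v p := fun p =>
    (Polynomial.aeval_algHom_apply
      ((Algebra.adjoin T.W {v}).val.restrictScalars ℤ) x₁ p).symm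
  refine ⟨(r 0).map (Int.castRingHom T.W), ?_, ⟨Polynomial.X ^ (q + 1) + G,
    Polynomial.monic_X_pow_add hG, ?_⟩⟩
  · rw [Polynomial.coeff_map, Polynomial.coeff_reflect, Polynomial.revAt_le (Nat.zero_le _),
      Nat.sub_zero, ← hd0, hm0.coeff_natDegree, map_one]
  · have hP : Polynomial.aeval v ((r 0).map (Int.castRingHom T.W)) = ℓ := by
      rw [hℓ, Polynomial.aeval_def, Polynomial.aeval_def, Polynomial.eval₂_map]
      exact congrArg (fun f => Polynomial.eval₂ f v (r 0)) (RingHom.ext_int _ _)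
    rw [hP, Polynomial.eval₂_add, Polynomial.eval₂_X_pow, Polynomial.eval₂_finsetSum]
    rw [Finset.sum_range_succ'] at hsum
    have key : ∀ i ∈ Finset.range (q + 1), Polynomial.eval₂
        (algebraMap (Algebra.adjoin T.W {v}) T.F₁) (ℓ * b)
        (Polynomial.C (c i) * Polynomial.X ^ (q - i)) =
          ℓ ^ q * (Polynomial.aeval v (r (i + 1)) * b ^ (q + 1 - (i + 1))) := fun i hi => by
      have hi' : i ≤ q := Nat.lt_succ_iff.mp (Finset.mem_range.mp hi)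
      rw [Polynomial.eval₂_mul, Polynomial.eval₂_C, Polynomial.eval₂_X_pow]
      show ((c i : Algebra.adjoin T.W {v}) : T.F₁) * _ = _
      rw [show ((c i : Algebra.adjoin T.W {v}) : T.F₁) =
        Polynomial.aeval v (r (i + 1)) * ℓ ^ i by
          simp only [c, MulMemClass.coe_mul, SubmonoidClass.coe_pow, hcoe]; rfl]
      rw [mul_pow, Nat.succ_sub_succ_eq_sub]
      conv_rhs => rw [show ℓ ^ q = ℓ ^ i * ℓ ^ (q - i) by rw [← _root_.pow_add, Nat.add_sub_cancel' hi']]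
      ring
    rw [Finset.sum_congr rfl key, ← Finset.mul_sum]
    have hs := eq_neg_of_add_eq_zero_left hsum
    rw [hs, Nat.sub_zero, mul_neg, mul_pow, pow_succ ℓ q]
    ring

/-- At a cusp on the branch at `0`, `1 / j(q² τ)` is regular. -/
theorem exists_mul_β₁β₀_mem (hI : T.Inputs) (x : Ideal (T.chart₂ T.j⁻¹)) [x.IsMaximal]
    (V : T.chart₂ T.j⁻¹) (hV : (V : T.F₂) = T.ι₁ (T.ι₀ T.j⁻¹)) (hVx : V ∈ x)
    (h2 : Thru 2 x) :
    ∃ s : T.chart₂ T.j⁻¹, s ∉ x ∧ (s : T.F₂) * T.β₁ (T.β₀ T.j⁻¹) ∈ T.chart₂ T.j⁻¹ := by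
  have ht := T.chartParam_jinv hI
  obtain ⟨P, hP0, hu₁⟩ := exists_poly_mul_β₀_jinv hI
  set X₀ := T.ι₁ (T.ι₀ T.j⁻¹) with hX₀
  set b₁ := T.ι₁ (T.β₀ T.j⁻¹) with hb₁
  set b₂ := T.β₁ (T.β₀ T.j⁻¹) with hb₂
  set Ls := Polynomial.aeval X₀ P with hLs
  have hmap : T.ι₁ (Polynomial.aeval (T.ι₀ T.j⁻¹) P) = Ls :=
    (Polynomial.aeval_algHom_apply (T.ι₁.restrictScalars T.W) _ P).symm
  have hmap' : T.β₁ (Polynomial.aeval (T.ι₀ T.j⁻¹) P) = Polynomial.aeval b₁ P := by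
    rw [hb₁, ← T.comm]
    exact (Polynomial.aeval_algHom_apply (T.β₁.restrictScalars T.W) _ P).symm
  let LsC : T.chart₂ T.j⁻¹ := Polynomial.aeval V P
  have hLsC : (LsC : T.F₂) = Ls := by
    rw [hLs, ← hV]
    exact (Polynomial.aeval_algHom_apply (T.chart₂ T.j⁻¹).val V P).symm
  have hLs_mem : IsIntegral (Algebra.adjoin T.W {X₀}) Ls := hLsC ▸ LsC.2
  have hu : Ls * b₁ ∈ T.chart₂ T.j⁻¹ := by
    have h := ι₁_mem_chart₂ hu₁
    rwa [map_mul, hmap] at h
  let uC : T.chart₂ T.j⁻¹ := ⟨_, hu⟩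
  have hLsx : LsC ∉ x := by
    intro h
    have hd : LsC = V * Polynomial.aeval V P.divX + 1 := by
      show Polynomial.aeval V P = _
      conv_lhs => rw [← Polynomial.X_mul_divX_add P]
      rw [hP0, map_add, map_mul, Polynomial.aeval_X, map_one, map_one]
    rw [hd] at h
    exact Ideal.IsMaximal.ne_top ‹_› ((Ideal.eq_top_iff_one _).mpr
      ((x.add_mem_iff_right (x.mul_mem_right _ hVx)).mp h))
  have hux : uC ∈ x := by
    refine (Ideal.IsMaximal.isPrime ‹x.IsMaximal›).mem_of_pow_mem q ?_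
    have hrel : uC ^ q - LsC ^ q * V ∈ x := by
      refine h2 _ ?_
      show ht.redHom₂ 2 (uC ^ q - LsC ^ q * V) = 0
      rw [map_sub, map_mul, map_pow, map_pow]
      have hbm : T.branch 2 b₁ ∈ gaussInt T.π ∧ T.red₂ 2 b₁ = T.red₀ T.j⁻¹ ^ q := by
        obtain ⟨h₁, h₃⟩ := qExpand_mem_gaussInt (π := T.π) q ht.int
        show T.branch 2 b₁ ∈ _ ∧ gred T.π (T.branch 2 b₁) = _
        rw [hb₁, branch_two_ι₁β₀]
        exact ⟨h₁, h₃.trans (red_qExpand_of_eq (Or.inr rfl))⟩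
      have hV2 : T.red₂ 2 (V : T.F₂) = T.red₀ T.j⁻¹ ^ q ^ 2 := by
        obtain ⟨h₁, h₃⟩ := qExpand_mem_gaussInt (π := T.π) q ht.int
        show gred T.π (T.branch 2 _) = _
        rw [hV, branch_two_ι₁ι₀, (qExpand_mem_gaussInt (π := T.π) q h₁).2, h₃]
        show qExpand T.k q (qExpand T.k q (T.red₀ T.j⁻¹)) = _
        rw [red_qExpand_of_eq (Or.inr rfl), map_pow, red_qExpand_of_eq (Or.inr rfl), ← pow_mul,
          sq]
      have huC : ht.redHom₂ 2 uC = ht.redHom₂ 2 LsC * T.red₂ 2 b₁ := by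
        show gred T.π (T.branch 2 (Ls * b₁)) = gred T.π (T.branch 2 (LsC : T.F₂)) * _
        rw [map_mul, gred_mul (hLsC ▸ branch_mem_gaussInt ht 2 LsC) hbm.1, hLsC]
      rw [huC, hbm.2, ht.redHom₂_apply 2 V, hV2, mul_pow, ← pow_mul, ← sq, sub_self]
    have h3 := x.add_mem hrel (x.mul_mem_left (LsC ^ q) hVx)
    rwa [sub_add_cancel] at h3
  obtain ⟨D₁, hD₁⟩ := exists_pow_mul_isIntegral_closure (R := T.W) (x := X₀) (u := b₁) hLs_mem hu
    (b := Polynomial.aeval b₁ P.divX)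
    (isIntegral_algebraMap (R := Algebra.adjoin T.W {b₁})
      (x := ⟨_, Polynomial.aeval_mem_adjoin_singleton _ _⟩))
  obtain ⟨D₂, hD₂⟩ := exists_pow_mul_isIntegral_closure (R := T.W) (x := X₀) (u := b₁) hLs_mem hu
    (b := T.β₁ (Polynomial.aeval (T.ι₀ T.j⁻¹) P * T.β₀ T.j⁻¹))
    (map_isIntegral_adjoin (T.β₁.restrictScalars T.W)
      (by
        show IsIntegral _ (T.β₁ (T.ι₀ T.j⁻¹))
        rw [T.comm]
        exact isIntegral_algebraMap (R := Algebra.adjoin T.W {b₁})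
          (x := ⟨b₁, Algebra.self_mem_adjoin_singleton _ _⟩)) hu₁)
  set M := max D₁ D₂ with hM
  have hd : Polynomial.aeval b₁ P = b₁ * Polynomial.aeval b₁ P.divX + 1 := by
    conv_lhs => rw [← Polynomial.X_mul_divX_add P]
    rw [hP0, map_add, map_mul, Polynomial.aeval_X, map_one, map_one]
  let dC : T.chart₂ T.j⁻¹ := ⟨_, hD₁ M (le_max_left _ _)⟩
  refine ⟨uC * dC + LsC ^ (M + 1), ?_, ?_⟩
  · intro h
    exact hLsx ((Ideal.IsMaximal.isPrime ‹x.IsMaximal›).mem_of_pow_mem _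
      ((x.add_mem_iff_right (x.mul_mem_right _ hux)).mp h))
  · have e : ((uC * dC + LsC ^ (M + 1) : T.chart₂ T.j⁻¹) : T.F₂) * b₂ =
        Ls ^ (M + 1) * T.β₁ (Polynomial.aeval (T.ι₀ T.j⁻¹) P * T.β₀ T.j⁻¹) := by
      rw [map_mul, hmap', hd, AddMemClass.coe_add, MulMemClass.coe_mul, SubmonoidClass.coe_pow,
        hLsC]
      show (Ls * b₁ * (Ls ^ M * Polynomial.aeval b₁ P.divX) + Ls ^ (M + 1)) * b₂ = _
      ring
    rw [e]
    exact hD₂ (M + 1) ((le_max_right _ _).trans M.le_succ)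

/-- **Lifting**: the reduced chart of level `N` lifts to each branch, locally at the point. -/
theorem exists_lift₂ (hI : T.Inputs) (ht : t = T.j ∨ t = T.j⁻¹) (x : Ideal (T.chart₂ t))
    [x.IsMaximal] (i : Fin 3) (hi : Thru i x) (c : T.chart₀ t) :
    ∃ a s : T.chart₂ t, s ∉ x ∧
      T.red₂ i (a : T.F₂) = T.red₂ i (s : T.F₂) * T.red₀ (c : T.F₀) := by
  have hp := chartParam_of_eq hI ht
  have hone : (1 : T.chart₂ t) ∉ x := fun h =>
    Ideal.IsMaximal.ne_top ‹x.IsMaximal› ((Ideal.eq_top_iff_one x).mpr h)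
  have hred1 : T.red₂ i ((1 : T.chart₂ t) : T.F₂) = 1 := map_one (hp.redHom₂ i)
  by_cases hi2 : i = 2
  swap
  · refine ⟨⟨_, ι₁_mem_chart₂ (ι₀_mem_chart₁ c.2)⟩, 1, hone, ?_⟩
    rw [hred1, one_mul]
    show gred T.π (T.branch i (T.ι₁ (T.ι₀ (c : T.F₀)))) = _
    fin_cases i
    · rfl
    · exact congrArg (gred T.π) (T.εb_ι₁ _)
    · exact absurd rfl hi2
  subst hi2
  rcases ht with rfl | rfl
  · refine ⟨⟨_, β₁_mem_chart₂ hI (β₀_mem_chart₁ hI c.2)⟩, 1, hone, ?_⟩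
    rw [hred1, one_mul]
    exact congrArg (gred T.π) (branch_two_β₁β₀ _)
  let V : T.chart₂ T.j⁻¹ := ⟨T.ι₁ (T.ι₀ T.j⁻¹), isIntegral_algebraMap
    (R := Algebra.adjoin T.W {T.ι₁ (T.ι₀ T.j⁻¹)})
    (x := ⟨_, Algebra.self_mem_adjoin_singleton _ _⟩)⟩
  by_cases hVx : V ∈ x
  · obtain ⟨s, hs, hsb⟩ := exists_mul_β₁β₀_mem hI x V rfl hVx hi
    obtain ⟨D, hD⟩ := exists_pow_mul_isIntegral_closure (R := T.W) (u := T.β₁ (T.β₀ T.j⁻¹)) s.2 hsb
      (b := T.β₁ (T.β₀ (c : T.F₀)))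
      (map_isIntegral_adjoin ((T.β₁.comp T.β₀).restrictScalars T.W)
        (isIntegral_algebraMap (R := Algebra.adjoin T.W {T.β₁ (T.β₀ T.j⁻¹)})
          (x := ⟨_, Algebra.self_mem_adjoin_singleton _ _⟩)) c.2)
    refine ⟨⟨_, hD D le_rfl⟩, s ^ D,
      fun h => hs ((Ideal.IsMaximal.isPrime ‹x.IsMaximal›).mem_of_pow_mem D h), ?_⟩
    show gred T.π (T.branch 2 ((s : T.F₂) ^ D * T.β₁ (T.β₀ (c : T.F₀)))) =
      gred T.π (T.branch 2 ((s : T.F₂) ^ D)) * _
    have hs' := branch_mem_gaussInt hp 2 (s ^ D)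
    rw [SubmonoidClass.coe_pow] at hs'
    rw [map_mul, branch_two_β₁β₀]
    exact gred_mul hs' (hp.e₀_mem_gaussInt c)
  · have hj0 : T.j ≠ 0 := fun h => T.transcendental_j (h ▸ isAlgebraic_zero)
    obtain ⟨D, hD⟩ := exists_pow_mul_isIntegral_closure (R := T.W) (x := T.j) (u := T.j⁻¹) (v := T.j)
      (isIntegral_algebraMap (R := Algebra.adjoin T.W {T.j})
        (x := ⟨_, Algebra.self_mem_adjoin_singleton _ _⟩))
      (by rw [mul_inv_cancel₀ hj0]; exact isIntegral_one) (b := (c : T.F₀)) c.2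
    set M := q ^ 2 * D
    have hq2 : 1 ≤ q ^ 2 := Nat.one_le_pow _ _ T.prime.pos
    have hc' : T.j ^ M * (c : T.F₀) ∈ T.chart₀ T.j := hD M (Nat.le_mul_of_pos_left _ hq2)
    have hJ : T.ι₁ (T.ι₀ T.j) ≠ 0 := by simpa using hj0
    obtain ⟨E, hE⟩ := exists_pow_mul_isIntegral_closure (R := T.W) (x := T.ι₁ (T.ι₀ T.j⁻¹))
      (u := T.ι₁ (T.ι₀ T.j)) (v := T.ι₁ (T.ι₀ T.j⁻¹)) V.2
      (by rw [map_inv₀, map_inv₀, inv_mul_cancel₀ hJ]; exact isIntegral_one)
      (b := T.β₁ (T.β₀ (T.j ^ M * (c : T.F₀)))) (β₁_mem_chart₂ hI (β₀_mem_chart₁ hI hc'))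
    refine ⟨⟨_, hE (D + E) (Nat.le_add_left _ _)⟩, V ^ E,
      fun h => hVx ((Ideal.IsMaximal.isPrime ‹x.IsMaximal›).mem_of_pow_mem E h), ?_⟩
    show gred T.π (T.branch 2 ((T.ι₁ (T.ι₀ T.j⁻¹)) ^ (D + E) *
      T.β₁ (T.β₀ (T.j ^ M * (c : T.F₀))))) = hp.redHom₂ 2 (V ^ E) * _
    have hVg : T.branch 2 ((V : T.F₂)) ∈ gaussInt T.π := branch_mem_gaussInt hp 2 V
    have hjm : T.e₀ T.j ^ M ∈ gaussInt T.π := pow_mem (T.e₀_j_int).1 _
    have hcm := hp.e₀_mem_gaussInt c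
    rw [map_mul, map_pow, branch_two_β₁β₀, map_mul, map_pow,
      gred_mul (pow_mem hVg _) (mul_mem hjm hcm), gred_mul hjm hcm, gred_pow hVg,
      gred_pow (T.e₀_j_int).1, map_pow (hp.redHom₂ 2), hp.redHom₂_apply 2 V]
    have hV2 : T.red₂ 2 (V : T.F₂) = ((T.red₀ T.j) ^ q ^ 2)⁻¹ := by
      rw [← inv_pow, ← red₀_jinv]
      obtain ⟨h₁, h₃⟩ := qExpand_mem_gaussInt (π := T.π) q hp.int
      show gred T.π (T.branch 2 _) = _
      rw [show T.branch 2 (V : T.F₂) = _ from branch_two_ι₁ι₀ T.j⁻¹,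
        (qExpand_mem_gaussInt (π := T.π) q h₁).2, h₃]
      show qExpand T.k q (qExpand T.k q (T.red₀ T.j⁻¹)) = _
      rw [red_qExpand_of_eq (Or.inr rfl), map_pow, red_qExpand_of_eq (Or.inr rfl), ← pow_mul, sq]
    show T.red₂ 2 (V : T.F₂) ^ (D + E) * (T.red₀ T.j ^ M * _) = T.red₂ 2 (V : T.F₂) ^ E * _
    have hne : T.red₀ T.j ^ M ≠ 0 := pow_ne_zero _ red₀_j_ne_zero
    rw [hV2, _root_.pow_add, inv_pow (T.red₀ T.j ^ q ^ 2) D, ← pow_mul, mul_mul_mul_comm,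
      inv_mul_cancel₀ hne, one_mul]

end Tower

end FermatLib.Igusa.Carayol
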