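import Mathlib
import Fermat.Agent.Igusa.Carayol.LevelTwoLift

/-!
Each branch of the special fibre of level `N q²` is nonsingular: locally it is the reduced curve of
level `N`.
-/

set_option autoImplicit false
set_option linter.style.haveILetI false

noncomputable section

open ModularCurve HahnSeries FermatLib.Igusa

namespace FermatLib.Igusa.Carayol

namespace Tower

variable {q : ℕ} [NeZero q] {T : Tower q} {t : T.F₀}

theorem isUnit_of_πW_ne_zero {w : T.W} (h : T.πW w ≠ 0) : IsUnit w := by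
  haveI := T.isDiscreteValuationRing_W
  by_contra hw
  have hm : w ∈ IsLocalRing.maximalIdeal T.W := hw
  rw [(IsDiscreteValuationRing.irreducible_iff_uniformizer _).mp T.irreducible_q,
    Ideal.mem_span_singleton] at hm
  obtain ⟨u, rfl⟩ := hm
  exact h (by rw [map_mul, T.πW_q, zero_mul])

theorem πW_eq_zero_iff_dvd {w : T.W} : T.πW w = 0 ↔ (q : T.W) ∣ w := by
  refine ⟨fun h => ?_, fun ⟨u, hu⟩ => by rw [hu, map_mul, T.πW_q, zero_mul]⟩
  haveI := T.isDiscreteValuationRing_W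
  have hw : ¬ IsUnit w := fun hu => (hu.map T.πW).ne_zero h
  have hm : w ∈ IsLocalRing.maximalIdeal T.W := hw
  rwa [(IsDiscreteValuationRing.irreducible_iff_uniformizer _).mp T.irreducible_q,
    Ideal.mem_span_singleton] at hm

theorem algebraMap_W_mem_of_πW_eq_zero {x : Ideal (T.chart₂ t)}
    (hx : (q : T.chart₂ t) ∈ x) {w : T.W} (h : T.πW w = 0) :
    algebraMap T.W (T.chart₂ t) w ∈ x := by
  obtain ⟨u, rfl⟩ := πW_eq_zero_iff_dvd.mp h
  rw [map_mul, map_natCast]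
  exact x.mul_mem_right _ hx

/-- The residue field of a point of the special fibre of level `N q²` is the reduced base. -/
theorem exists_residue₂ (hI : T.Inputs) (ht : t = T.j ∨ t = T.j⁻¹) (x : Ideal (T.chart₂ t))
    [x.IsMaximal] (hx : (q : T.chart₂ t) ∈ x) (a : T.chart₂ t) :
    ∃ w : T.W, a - algebraMap T.W (T.chart₂ t) w ∈ x := by
  letI := Ideal.Quotient.field x
  let f : T.W →+* T.chart₂ t ⧸ x := (Ideal.Quotient.mk x).comp (algebraMap T.W (T.chart₂ t))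
  have hle : RingHom.ker T.πW ≤ RingHom.ker f := fun w hw =>
    Ideal.Quotient.eq_zero_iff_mem.mpr (algebraMap_W_mem_of_πW_eq_zero hx hw)
  let ψ : T.k →+* T.chart₂ t ⧸ x := T.πW.liftOfSurjective T.πW_surjective ⟨f, hle⟩
  have hψ : ∀ w, ψ (T.πW w) = f w := fun w => RingHom.liftOfRightInverse_comp_apply _ _ _ _ w
  have hft : (ψ.comp T.πW).FiniteType := by
    rw [show ψ.comp T.πW = f from RingHom.ext hψ]
    exact (RingHom.FiniteType.of_surjective _ Ideal.Quotient.mk_surjective).comp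
      (RingHom.finiteType_algebraMap.mpr (finiteType_chart₂ hI ht))
  letI : Algebra T.k (T.chart₂ t ⧸ x) := ψ.toAlgebra
  haveI : Algebra.FiniteType T.k (T.chart₂ t ⧸ x) :=
    RingHom.finiteType_algebraMap.mp (RingHom.FiniteType.of_comp_finiteType hft)
  haveI := finite_of_finite_type_of_isJacobsonRing T.k (T.chart₂ t ⧸ x)
  obtain ⟨c, hc⟩ := (IsAlgClosed.algebraMap_bijective_of_isIntegral (k := T.k)
    (K := T.chart₂ t ⧸ x)).2 (Ideal.Quotient.mk x a)
  obtain ⟨w, rfl⟩ := T.πW_surjective c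
  exact ⟨w, Ideal.Quotient.eq.mp ((hc.symm.trans (hψ w)))⟩

/-- The point of the reduced chart of level `N` under a point of a branch. -/
theorem exists_point_below (hI : T.Inputs) (ht : t = T.j ∨ t = T.j⁻¹) (hp : T.ChartParam t)
    (x : Ideal (T.chart₂ t)) [x.IsMaximal] (hx : (q : T.chart₂ t) ∈ x) (i : Fin 3)
    (hi : Thru i x) : ∃ y : Ideal (T.chart₀ t), y.IsMaximal ∧ (q : T.chart₀ t) ∈ y ∧
      (∀ c : T.chart₀ t, ∃ a s : T.chart₂ t, s ∉ x ∧
        hp.redHom₂ i a = hp.redHom₂ i s * hp.redHom c) ∧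
      ∀ (c : T.chart₀ t) (a s : T.chart₂ t), s ∉ x →
        hp.redHom₂ i a = hp.redHom₂ i s * hp.redHom c → (a ∈ x ↔ c ∈ y) := by
  haveI hprime : x.IsPrime := Ideal.IsMaximal.isPrime ‹_›
  have hone : (1 : T.chart₂ t) ∉ x := fun h =>
    Ideal.IsMaximal.ne_top ‹x.IsMaximal› ((Ideal.eq_top_iff_one x).mpr h)
  have hmul : ∀ {s s' : T.chart₂ t}, s ∉ x → s' ∉ x → s * s' ∉ x := fun h h' h2 =>
    (hprime.mem_or_mem h2).elim h h'
  obtain ⟨H, hH⟩ : ∃ H : T.chart₂ t →+* LaurentSeries T.k, hp.redHom₂ i = H := ⟨_, rfl⟩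
  obtain ⟨r, hr⟩ : ∃ r : T.chart₀ t →+* LaurentSeries T.k, hp.redHom = r := ⟨_, rfl⟩
  have hker : ∀ a, H a = 0 → a ∈ x := fun a h => hi a (by
    rw [← hp.redHom₂_apply, hH]; exact h)
  have lift : ∀ c : T.chart₀ t, ∃ a s : T.chart₂ t, s ∉ x ∧ H a = H s * r c := fun c => by
    obtain ⟨a, s, hs, h⟩ := exists_lift₂ hI ht x i hi c
    refine ⟨a, s, hs, ?_⟩
    rw [← hH, ← hr, hp.redHom₂_apply, hp.redHom₂_apply, hp.redHom_apply]
    exact h
  have hindep : ∀ (c : T.chart₀ t) (a s a' s' : T.chart₂ t), s ∉ x → a ∈ x →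
      H a = H s * r c → H a' = H s' * r c → a' ∈ x := by
    intro c a s a' s' hs ha h h'
    have h0 : H (a' * s - a * s') = 0 := by
      rw [map_sub, map_mul, map_mul, h, h']; ring
    have h1 : a' * s ∈ x := by
      have := x.add_mem (hker _ h0) (x.mul_mem_right s' ha)
      rwa [sub_add_cancel] at this
    exact (hprime.mem_or_mem h1).resolve_right hs
  let y : Ideal (T.chart₀ t) :=
    { carrier := {c | ∃ a s : T.chart₂ t, s ∉ x ∧ a ∈ x ∧ H a = H s * r c}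
      zero_mem' := ⟨0, 1, hone, x.zero_mem, by rw [map_zero, map_zero, mul_zero]⟩
      add_mem' := by
        rintro c c' ⟨a, s, hs, ha, h⟩ ⟨a', s', hs', ha', h'⟩
        refine ⟨a * s' + a' * s, s * s', hmul hs hs',
          x.add_mem (x.mul_mem_right _ ha) (x.mul_mem_right _ ha'), ?_⟩
        rw [map_add, map_mul, map_mul, map_mul, map_add, h, h']; ring
      smul_mem' := by
        rintro d c ⟨a, s, hs, ha, h⟩
        obtain ⟨a', s', hs', h'⟩ := lift d
        refine ⟨a' * a, s' * s, hmul hs' hs, x.mul_mem_left _ ha, ?_⟩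
        rw [smul_eq_mul, map_mul, map_mul, map_mul, h, h']; ring }
  have hy1 : (1 : T.chart₀ t) ∉ y := by
    rintro ⟨a, s, hs, ha, h⟩
    exact hone (hindep 1 a s 1 1 hs ha h (by rw [map_one, map_one, mul_one]))
  have hyq : (q : T.chart₀ t) ∈ y :=
    ⟨(q : T.chart₂ t), 1, hone, hx, by rw [map_natCast, map_natCast, map_one, one_mul]⟩
  have hyres : ∀ c : T.chart₀ t, ∃ w : T.W, c - algebraMap T.W (T.chart₀ t) w ∈ y := by
    intro c
    obtain ⟨a, s, hs, h⟩ := lift c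
    obtain ⟨wa, hwa⟩ := exists_residue₂ hI ht x hx a
    obtain ⟨ws, hws⟩ := exists_residue₂ hI ht x hx s
    obtain ⟨u, hu⟩ := isUnit_of_πW_ne_zero (w := ws) fun h0 => hs (by
      have := x.add_mem hws (algebraMap_W_mem_of_πW_eq_zero hx h0)
      rwa [sub_add_cancel] at this)
    set w : T.W := wa * (↑u⁻¹ : T.W) with hw
    refine ⟨w, a - algebraMap T.W (T.chart₂ t) w * s, s, hs, ?_, ?_⟩
    · have hw' : algebraMap T.W (T.chart₂ t) w * algebraMap T.W (T.chart₂ t) ws =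
          algebraMap T.W (T.chart₂ t) wa := by
        rw [← map_mul, hw, ← hu, mul_assoc, Units.inv_mul, mul_one]
      have h2 : a - algebraMap T.W (T.chart₂ t) w * s =
          (a - algebraMap T.W (T.chart₂ t) wa) -
            algebraMap T.W (T.chart₂ t) w * (s - algebraMap T.W (T.chart₂ t) ws) := by
        rw [mul_sub, hw']; ring
      rw [h2]
      exact x.sub_mem hwa (x.mul_mem_left _ hws)
    · rw [map_sub, map_mul, map_sub, h, ← hH, ← hr, hp.redHom₂_W, hp.redHom_W]; ring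
  have hymax : y.IsMaximal := by
    refine Ideal.isMaximal_iff.mpr ⟨hy1, fun J c hJ hc hcJ => ?_⟩
    obtain ⟨w, hw⟩ := hyres c
    have hwJ : algebraMap T.W (T.chart₀ t) w ∈ J := by
      have := J.sub_mem hcJ (hJ hw)
      rwa [sub_sub_cancel] at this
    by_cases h0 : T.πW w = 0
    · obtain ⟨u, rfl⟩ := πW_eq_zero_iff_dvd.mp h0
      exfalso
      apply hc
      have h2 : algebraMap T.W (T.chart₀ t) ((q : T.W) * u) ∈ y := by
        rw [map_mul, map_natCast]; exact y.mul_mem_right _ hyq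
      have := y.add_mem hw h2
      rwa [sub_add_cancel] at this
    · exact (Ideal.eq_top_iff_one J).mp
        (J.eq_top_of_isUnit_mem hwJ ((isUnit_of_πW_ne_zero h0).map _))
  rw [hH, hr]
  exact ⟨y, hymax, hyq, lift, fun c a s hs h =>
    ⟨fun ha => ⟨a, s, hs, ha, h⟩,
      fun ⟨a₀, s₀, hs₀, ha₀, h₀⟩ => hindep c a₀ s₀ a s hs₀ ha₀ h₀ h⟩⟩

/-- **A branch is nonsingular at each of its points.** -/
theorem branch_regular (hI : T.Inputs) (ht : t = T.j ∨ t = T.j⁻¹) (x : Ideal (T.chart₂ t))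
    [x.IsMaximal] (hx : (q : T.chart₂ t) ∈ x) (i : Fin 3) (hi : Thru i x) :
    ∀ a b : T.chart₂ t, T.red₂ i (b : T.F₂) ≠ 0 → ∃ c s : T.chart₂ t, s ∉ x ∧
      (T.red₂ i (s : T.F₂) * T.red₂ i (a : T.F₂) = T.red₂ i (b : T.F₂) * T.red₂ i (c : T.F₂) ∨
        (c ∈ x ∧ T.red₂ i (s : T.F₂) * T.red₂ i (b : T.F₂) =
          T.red₂ i (a : T.F₂) * T.red₂ i (c : T.F₂))) := by
  have hp := chartParam_of_eq hI ht
  haveI hprime : x.IsPrime := Ideal.IsMaximal.isPrime ‹_›
  have hone : (1 : T.chart₂ t) ∉ x := fun h =>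
    Ideal.IsMaximal.ne_top ‹x.IsMaximal› ((Ideal.eq_top_iff_one x).mpr h)
  have hmul : ∀ {s s' : T.chart₂ t}, s ∉ x → s' ∉ x → s * s' ∉ x := fun h h' h2 =>
    (hprime.mem_or_mem h2).elim h h'
  obtain ⟨y, hymax, hyq, lift, hmem⟩ := exists_point_below hI ht hp x hx i hi
  obtain ⟨H, hH⟩ : ∃ H : T.chart₂ t →+* LaurentSeries T.k, hp.redHom₂ i = H := ⟨_, rfl⟩
  obtain ⟨r, hr⟩ : ∃ r : T.chart₀ t →+* LaurentSeries T.k, hp.redHom = r := ⟨_, rfl⟩
  rw [hH, hr] at lift hmem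
  suffices key : ∀ a b : T.chart₂ t, H b ≠ 0 → ∃ c s : T.chart₂ t, s ∉ x ∧
      (H s * H a = H b * H c ∨ (c ∈ x ∧ H s * H b = H a * H c)) by
    intro a b hb
    simp only [← hp.redHom₂_apply, hH] at hb ⊢
    exact key a b hb
  intro a b hb
  by_cases ha : H a = 0
  · refine ⟨0, 1, hone, Or.inl ?_⟩
    rw [ha, map_zero, mul_zero, mul_zero]
  obtain ⟨ca, hca⟩ := hp.exists_red₂_eq ht i a
  obtain ⟨cb, hcb⟩ := hp.exists_red₂_eq ht i b
  have ea : H a = r ca := by rw [← hH, ← hr]; exact hca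
  have eb : H b = r cb := by rw [← hH, ← hr]; exact hcb
  have hb' : r cb ≠ 0 := eb ▸ hb
  have hb0 : T.red₀ (cb : T.F₀) ≠ 0 := by
    rw [← hr] at hb'; exact hb'
  have happ : ∀ c : T.chart₀ t, T.red₀ (c : T.F₀) = r c := fun c => by rw [← hr]; rfl
  rcases hp.regAt_or_regAt_inv y hyq (ca : T.F₀) (cb : T.F₀) (hp.e₀_mem_gaussInt ca)
    (hp.e₀_mem_gaussInt cb) hb0 with ⟨n, d, hd, hnd⟩ | ⟨n, d, hd, hn, hnd⟩
  · rw [happ, happ, happ, happ] at hnd
    rw [div_mul_eq_mul_div, div_eq_iff hb'] at hnd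
    obtain ⟨An, Sn, hSn, hAn⟩ := lift n
    obtain ⟨Ad, Sd, hSd, hAd⟩ := lift d
    have hAdx : Ad ∉ x := fun h => hd ((hmem d Ad Sd hSd hAd).mp h)
    refine ⟨An * Sd, Ad * Sn, hmul hAdx hSn, Or.inl ?_⟩
    rw [map_mul, map_mul, hAn, hAd, ea, eb]
    linear_combination (H Sd * H Sn) * hnd
  · rw [happ, happ, happ, happ] at hnd
    rw [div_mul_eq_mul_div, div_eq_iff (ea ▸ ha)] at hnd
    obtain ⟨An, Sn, hSn, hAn⟩ := lift n
    obtain ⟨Ad, Sd, hSd, hAd⟩ := lift d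
    have hAdx : Ad ∉ x := fun h => hd ((hmem d Ad Sd hSd hAd).mp h)
    have hAnx : An ∈ x := (hmem n An Sn hSn hAn).mpr hn
    refine ⟨An * Sd, Ad * Sn, hmul hAdx hSn, Or.inr ⟨x.mul_mem_right _ hAnx, ?_⟩⟩
    rw [map_mul, map_mul, hAn, hAd, ea, eb]
    linear_combination (H Sd * H Sn) * hnd

/-- **Every point of every branch has a parameter**: a lift of the rational parameter below. -/
theorem exists_branch_param (hI : T.Inputs) (ht : t = T.j ∨ t = T.j⁻¹) (x : Ideal (T.chart₂ t))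
    [x.IsMaximal] (hx : (q : T.chart₂ t) ∈ x) (i : Fin 3) (hi : Thru i x) :
    ∃ w ∈ x, ∀ a ∈ x, ∃ s c : T.chart₂ t, s ∉ x ∧
      T.red₂ i (s : T.F₂) * T.red₂ i (a : T.F₂) = T.red₂ i (w : T.F₂) * T.red₂ i (c : T.F₂) := by
  have hp := chartParam_of_eq hI ht
  haveI hprime : x.IsPrime := Ideal.IsMaximal.isPrime ‹_›
  obtain ⟨y, hymax, hyq, lift, hmem⟩ := exists_point_below hI ht hp x hx i hi
  obtain ⟨z, -, hzy, hgen⟩ := hp.exists_rat_parameter y hyq
  obtain ⟨w, Sw, hSw, hw⟩ := lift z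
  refine ⟨w, (hmem z w Sw hSw hw).mpr hzy, fun a ha => ?_⟩
  obtain ⟨ca, hca⟩ := hp.exists_red₂_eq ht i a
  have hone : (1 : T.chart₂ t) ∉ x := fun h => hprime.ne_top ((Ideal.eq_top_iff_one x).mpr h)
  have hca' : hp.redHom₂ i a = hp.redHom ca := hca
  have hcay : ca ∈ y := (hmem ca a 1 hone (by rw [map_one, one_mul, hca'])).mp ha
  obtain ⟨s', hs', hspan⟩ := hgen ca hcay
  obtain ⟨c₁, c₂, hc⟩ := Ideal.mem_span_pair.mp hspan
  have hrq : hp.redHom (q : T.chart₀ t) = 0 := by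
    rw [map_natCast, ← map_natCast (algebraMap T.k (LaurentSeries T.k)), CharP.cast_eq_zero,
      map_zero]
  have h1 : hp.redHom c₂ * hp.redHom z = hp.redHom s' * hp.redHom ca := by
    have := congrArg hp.redHom hc
    rwa [map_add, map_mul, map_mul, map_mul, hrq, mul_zero, zero_add] at this
  obtain ⟨As, Ss, hSs, hAs⟩ := lift s'
  obtain ⟨Ac, Sc, hSc, hAc⟩ := lift c₂
  have hAsx : As ∉ x := fun h => hs' ((hmem s' As Ss hSs hAs).mp h)
  refine ⟨As * Sc * Sw, Ss * Ac, fun h => ?_, ?_⟩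
  · rcases hprime.mem_or_mem h with h | h
    · exact (hprime.mem_or_mem h).elim hAsx hSc
    · exact hSw h
  · simp only [← hp.redHom₂_apply, map_mul, hAs, hAc, hca', hw]
    linear_combination
      (hp.redHom₂ i Ss * hp.redHom₂ i Sc * hp.redHom₂ i Sw) * h1.symm

end Tower

end FermatLib.Igusa.Carayol
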