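import Mathlib

/-!
Gluing of roots of a unit on the branches at a point of the special fibre.
-/

set_option autoImplicit false

noncomputable section

namespace FermatLib.Igusa.Carayol

section glue

theorem exists_one_add_pow_eq {R : Type*} [CommRing R] (z : R) (m : ℕ) :
    ∃ q : R, (1 + z) ^ m = 1 + m * z + q * z ^ 2 := by
  induction m with
  | zero => exact ⟨0, by simp⟩
  | succ m ih =>
    obtain ⟨q, hq⟩ := ih
    exact ⟨q + m + q * z, by rw [pow_succ, hq]; push_cast; ring⟩

/-- One Newton step for an `m`-th root, `m` invertible. -/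
theorem exists_newton_step {R : Type*} [CommRing R] {m : ℕ} (μ : R) (hμ : (m : R) * μ = 1)
    (δ : R) : ∃ q : R, (1 + δ) * (1 - μ * δ) ^ m - 1 = δ ^ 2 * q := by
  obtain ⟨q, hq⟩ := exists_one_add_pow_eq (-(μ * δ)) m
  refine ⟨q * μ ^ 2 * (1 + δ) - 1, ?_⟩
  rw [sub_eq_add_neg 1 (μ * δ), hq]
  linear_combination (-(1 + δ) * δ) * hμ

/-- Roots of a unit on the branches with a common value at the point come from one element:
only `P i ≤ maximalIdeal` is needed. -/
theorem exists_forall_sub_mem_of_pow_eq_of_le {A : Type*} [CommRing A] [IsLocalRing A]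
    [IsNoetherianRing A] {ι : Type*} [Finite ι] (P : ι → Ideal A)
    (hP : ∀ i, P i ≤ IsLocalRing.maximalIdeal A)
    (u : A) {m : ℕ} (hm : IsUnit (m : A)) (c : ι → A) (c₀ : A)
    (hc : ∀ i, c i ^ m * u - 1 ∈ P i) (hc₀ : ∀ i, c i - c₀ ∈ IsLocalRing.maximalIdeal A) :
    ∃ e : A, ∀ i, e - c i ∈ P i := by
  classical
  rcases isEmpty_or_nonempty ι with hι | ⟨⟨i₀⟩⟩
  · exact ⟨0, fun i => isEmptyElim i⟩
  haveI := Fintype.ofFinite ι
  set 𝔪 := IsLocalRing.maximalIdeal A with h𝔪
  set res := Ideal.Quotient.mk 𝔪 with hres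
  have hm0 : m ≠ 0 := by
    rintro rfl
    simp at hm
  obtain ⟨μ, hμ⟩ := hm.exists_right_inv
  have heq : ∀ i, res (c i) = res c₀ := fun i =>
    Ideal.Quotient.mk_eq_mk_iff_sub_mem _ _ |>.mpr (hc₀ i)
  have hroot : res c₀ ^ m * res u = 1 := by
    rw [← heq i₀, ← map_pow, ← map_mul, ← map_one res]
    exact (Ideal.Quotient.mk_eq_mk_iff_sub_mem _ _).mpr (hP i₀ (hc i₀))
  have hc₀u : IsUnit c₀ := by
    haveI : IsLocalHom res := IsLocalHom.of_surjective res Ideal.Quotient.mk_surjective
    refine IsUnit.of_map res c₀ (IsUnit.of_mul_eq_one (res c₀ ^ (m - 1) * res u) ?_)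
    rw [← mul_assoc, ← pow_succ', Nat.sub_add_cancel (Nat.pos_of_ne_zero hm0), hroot]
  have hu : IsUnit u := by
    haveI : IsLocalHom res := IsLocalHom.of_surjective res Ideal.Quotient.mk_surjective
    refine IsUnit.of_map res u (IsUnit.of_mul_eq_one (res c₀ ^ m) ?_)
    rw [mul_comm, hroot]
  -- Newton iteration
  have happ : ∀ n : ℕ, ∃ e : A, e ^ m * u - 1 ∈ 𝔪 ^ n ∧ res e = res c₀ := by
    intro n
    induction n with
    | zero => exact ⟨c₀, by simp, rfl⟩
    | succ n ih =>
      obtain ⟨e, he, her⟩ := ih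
      have he1 : e ^ m * u - 1 ∈ 𝔪 := by
        rw [← Ideal.Quotient.eq_zero_iff_mem, map_sub, map_mul, map_pow, map_one]
        show res e ^ m * res u - 1 = 0
        rw [her, hroot, sub_self]
      obtain ⟨q, hq⟩ := exists_newton_step μ hμ (e ^ m * u - 1)
      refine ⟨e * (1 - μ * (e ^ m * u - 1)), ?_, ?_⟩
      · rw [mul_pow, mul_right_comm, ← add_sub_cancel (1 : A) (e ^ m * u)]
        simp only [add_sub_cancel] at hq ⊢
        rw [hq, pow_succ]
        refine Ideal.mul_mem_right _ _ ?_
        rw [sq]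
        exact Ideal.mul_mem_mul he he1
      · rw [map_mul, map_sub, map_one, map_mul]
        show res e * (1 - res μ * res (e ^ m * u - 1)) = res c₀
        rw [(Ideal.Quotient.eq_zero_iff_mem).mpr he1, mul_zero, sub_zero, mul_one, her]
  -- Krull intersection in the finite module `(∏ A / P i) / image of A`
  let φ : A →ₗ[A] ((i : ι) → A ⧸ P i) := LinearMap.pi fun i => (P i).mkQ
  let C : (i : ι) → A ⧸ P i := fun i => Ideal.Quotient.mk (P i) (c i)
  have hC : Submodule.Quotient.mk C ∈
      ⨅ n : ℕ, 𝔪 ^ n • (⊤ : Submodule A (((i : ι) → A ⧸ P i) ⧸ LinearMap.range φ)) := by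
    rw [Submodule.mem_iInf]
    intro n
    obtain ⟨e, he, her⟩ := happ n
    have hd : ∀ i, ∃ q ∈ 𝔪 ^ n, c i - e - q ∈ P i := by
      intro i
      have hS : IsUnit (∑ j ∈ Finset.range m, c i ^ j * e ^ (m - 1 - j)) := by
        haveI : IsLocalHom res := IsLocalHom.of_surjective res Ideal.Quotient.mk_surjective
        refine IsUnit.of_map res _ ?_
        have : res (∑ j ∈ Finset.range m, c i ^ j * e ^ (m - 1 - j)) = res (m * c₀ ^ (m - 1)) := by
          rw [map_sum, map_mul, map_natCast, map_pow]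
          simp only [map_mul, map_pow, heq, her]
          rw [Finset.sum_congr rfl fun j hj => show res c₀ ^ j * res c₀ ^ (m - 1 - j) =
            res c₀ ^ (m - 1) by
              rw [← pow_add, Nat.add_sub_cancel' (Nat.le_sub_one_of_lt (Finset.mem_range.mp hj))]]
          rw [Finset.sum_const, Finset.card_range, nsmul_eq_mul]
        rw [this]
        exact (hm.mul (hc₀u.pow _)).map res
      obtain ⟨v, hv⟩ := hS.exists_right_inv
      obtain ⟨w, hw⟩ := hu.exists_right_inv
      refine ⟨-((e ^ m * u - 1) * (v * w)), Submodule.neg_mem _ (Ideal.mul_mem_right _ _ he), ?_⟩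
      have key : c i - e - -((e ^ m * u - 1) * (v * w)) = (c i ^ m * u - 1) * (v * w) := by
        have hg := geom_sum₂_mul (c i) e m
        linear_combination (v * u * w) * hg + (-(c i - e) * u * w) * hv + (-(c i - e)) * hw
      rw [key]
      exact Ideal.mul_mem_right _ _ (hc i)
    choose q hq hqP using hd
    have hmk : (Submodule.Quotient.mk C : ((i : ι) → A ⧸ P i) ⧸ LinearMap.range φ) =
        ∑ i, q i • Submodule.Quotient.mk (Pi.single i (1 : A ⧸ P i)) := by
      simp only [← Submodule.mkQ_apply, ← map_smul, ← map_sum]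
      rw [Submodule.mkQ_apply, Submodule.mkQ_apply, Submodule.Quotient.eq]
      refine ⟨e, funext fun j => ?_⟩
      rw [Pi.sub_apply, Finset.sum_apply, Finset.sum_eq_single j]
      · rw [Pi.smul_apply, Pi.single_eq_same, Algebra.smul_def, mul_one]
        show Ideal.Quotient.mk (P j) e = Ideal.Quotient.mk (P j) (c j) - Ideal.Quotient.mk (P j) (q j)
        rw [← map_sub, Ideal.Quotient.mk_eq_mk_iff_sub_mem]
        have := (P j).neg_mem (hqP j)
        convert this using 1
        ring
      · intro i _ hij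
        rw [Pi.smul_apply, Pi.single_eq_of_ne' hij, smul_zero]
      · simp
    rw [hmk]
    exact Submodule.sum_mem _ fun i _ => Submodule.smul_mem_smul (hq i) Submodule.mem_top
  rw [Ideal.iInf_pow_smul_eq_bot_of_isLocalRing _
    (IsLocalRing.maximalIdeal.isMaximal A).ne_top, Submodule.mem_bot,
    Submodule.Quotient.mk_eq_zero] at hC
  obtain ⟨e, he⟩ := hC
  exact ⟨e, fun i => (Ideal.Quotient.mk_eq_mk_iff_sub_mem _ _).mp (congrFun he i)⟩

end glue

end FermatLib.Igusa.Carayol
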