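import Fermat.Agent.Igusa.Carayol.RootModule

/-!
Local rings of dimension two with a two-generated maximal ideal:
the curve cut by a generator is a discrete valuation ring, the ring is normal and the
root modules are principal.
-/

set_option autoImplicit false

noncomputable section

namespace FermatLib.Igusa.Carayol

section regular

variable (A : Type*) [CommRing A] [IsDomain A] [IsLocalRing A] [IsNoetherianRing A]

theorem not_maximalIdeal_mem_minimalPrimes_span_singleton (hdim : 2 ≤ ringKrullDim A) (x : A) :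
    IsLocalRing.maximalIdeal A ∉ (Ideal.span {x}).minimalPrimes := by
  intro h
  haveI : (Ideal.span {x}).IsPrincipal := ⟨⟨x, rfl⟩⟩
  have h1 := Ideal.height_le_one_of_isPrincipal_of_mem_minimalPrimes (Ideal.span {x}) _ h
  rw [← IsLocalRing.maximalIdeal_height_eq_ringKrullDim] at hdim
  exact absurd (hdim.trans (WithBot.coe_le_coe.mpr h1)) (by decide)

/-- A two-generated maximal ideal in dimension `≥ 2`: the curve cut by a generator is a DVR. -/
theorem isDiscreteValuationRing_quotient (x y : A)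
    (hgen : IsLocalRing.maximalIdeal A = Ideal.span {x, y}) (hdim : 2 ≤ ringKrullDim A) :
    ∃ _ : IsDomain (A ⧸ Ideal.span {x}), IsDiscreteValuationRing (A ⧸ Ideal.span {x}) := by
  have hle : Ideal.span {x} ≤ IsLocalRing.maximalIdeal A := by
    rw [hgen]
    exact Ideal.span_mono (by simp)
  haveI : Nontrivial (A ⧸ Ideal.span {x}) :=
    Ideal.Quotient.nontrivial_iff.mpr
      fun h => (IsLocalRing.maximalIdeal.isMaximal A).ne_top (top_le_iff.mp (h ▸ hle))
  haveI : IsLocalRing (A ⧸ Ideal.span {x}) :=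
    IsLocalRing.of_surjective' (Ideal.Quotient.mk _) Ideal.Quotient.mk_surjective
  set π := Ideal.Quotient.mk (Ideal.span {x}) with hπ
  have hker : ∀ z : A, π z = 0 ↔ z ∈ Ideal.span {x} := fun z => Ideal.Quotient.eq_zero_iff_mem
  have hmax : IsLocalRing.maximalIdeal (A ⧸ Ideal.span {x}) = Ideal.span {π y} := by
    rw [← IsLocalRing.map_maximalIdeal_of_surjective π Ideal.Quotient.mk_surjective, hgen,
      Ideal.map_span, Set.image_pair, (hker x).mpr (Ideal.mem_span_singleton_self x),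
      Ideal.span_insert_zero]
  have hnil : ∀ n : ℕ, π y ^ n ≠ 0 := by
    intro n hn
    refine not_maximalIdeal_mem_minimalPrimes_span_singleton A hdim x
      ⟨⟨inferInstance, hle⟩, fun Q hQ _ => ?_⟩
    have hy : y ∈ Q := by
      have h1 : y ^ n ∈ Q := hQ.2 ((hker _).mp (by rw [map_pow]; exact hn))
      exact hQ.1.mem_of_pow_mem n h1
    rw [hgen, Ideal.span_le]
    intro z hz
    rcases hz with rfl | hz
    · exact hQ.2 (Ideal.mem_span_singleton_self z)
    · rw [Set.mem_singleton_iff] at hz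
      exact hz ▸ hy
  have hexp : ∀ a : A ⧸ Ideal.span {x}, a ≠ 0 → ∃ n : ℕ, ∃ u, IsUnit u ∧ a = π y ^ n * u := by
    intro a ha
    have h1 : ∃ n : ℕ, a ∉ IsLocalRing.maximalIdeal (A ⧸ Ideal.span {x}) ^ n := by
      by_contra hcon
      push Not at hcon
      apply ha
      have h2 : a ∈ ⨅ i : ℕ, IsLocalRing.maximalIdeal (A ⧸ Ideal.span {x}) ^ i :=
        Ideal.mem_iInf.mpr hcon
      rwa [Ideal.iInf_pow_eq_bot_of_isLocalRing _
        (IsLocalRing.maximalIdeal.isMaximal _).ne_top, Ideal.mem_bot] at h2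
    classical
    have hpos : Nat.find h1 ≠ 0 := fun h0 => (Nat.find_spec h1) (by rw [h0, pow_zero]; simp)
    obtain ⟨n, hn⟩ := Nat.exists_eq_succ_of_ne_zero hpos
    have h2 := Nat.find_spec h1
    have h3 := not_not.mp (Nat.find_min h1 (show n < Nat.find h1 by omega))
    rw [hn] at h2
    simp only [hmax, Ideal.span_singleton_pow, Ideal.mem_span_singleton] at h2 h3
    obtain ⟨u, rfl⟩ := h3
    refine ⟨n, u, ?_, rfl⟩
    by_contra hu
    apply h2
    rw [← mem_nonunits_iff, ← IsLocalRing.mem_maximalIdeal, hmax,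
      Ideal.mem_span_singleton] at hu
    obtain ⟨w, rfl⟩ := hu
    exact ⟨w, by rw [pow_succ, mul_assoc]⟩
  haveI : NoZeroDivisors (A ⧸ Ideal.span {x}) := by
    refine ⟨fun {a b} hab => ?_⟩
    by_contra hcon
    push Not at hcon
    obtain ⟨n, u, hu, rfl⟩ := hexp a hcon.1
    obtain ⟨k, v, hv, rfl⟩ := hexp b hcon.2
    apply hnil (n + k)
    rw [mul_mul_mul_comm, ← pow_add] at hab
    exact (IsUnit.mul_left_eq_zero (hu.mul hv)).mp hab
  have hdom : IsDomain (A ⧸ Ideal.span {x}) := NoZeroDivisors.to_isDomain _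
  haveI := hdom
  haveI : IsPrincipalIdealRing (A ⧸ Ideal.span {x}) :=
    ((tfae_of_isNoetherianRing_of_isLocalRing_of_isDomain _).out 4 0).mp
      (show (IsLocalRing.maximalIdeal (A ⧸ Ideal.span {x})).IsPrincipal from ⟨⟨π y, hmax⟩⟩)
  refine ⟨hdom, { not_a_field' := ?_ }⟩
  rw [hmax, ne_eq, Ideal.span_singleton_eq_bot]
  simpa using hnil 1

variable {A}

/-- Basic consequences of `isDiscreteValuationRing_quotient`. -/
theorem prime_and_uniformiser (x y : A)
    (hgen : IsLocalRing.maximalIdeal A = Ideal.span {x, y}) (hdim : 2 ≤ ringKrullDim A) :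
    Prime x ∧ ¬ x ∣ y ∧
      ∀ a : A, ¬ x ∣ a → ∃ n : ℕ, ∃ u : A, IsUnit u ∧ x ∣ a - u * y ^ n := by
  obtain ⟨hdom, hdvr⟩ := isDiscreteValuationRing_quotient A x y hgen hdim
  haveI := hdom
  haveI := hdvr
  set π := Ideal.Quotient.mk (Ideal.span {x}) with hπ
  have hker : ∀ z : A, π z = 0 ↔ x ∣ z := fun z => by
    rw [hπ, Ideal.Quotient.eq_zero_iff_mem, Ideal.mem_span_singleton]
  have hx0 : x ≠ 0 := by
    intro h
    apply not_maximalIdeal_mem_minimalPrimes_span_singleton A hdim y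
    have : IsLocalRing.maximalIdeal A = Ideal.span {y} := by rw [hgen, h, Ideal.span_insert_zero]
    rw [← this, Ideal.minimalPrimes_eq_subsingleton_self]
    exact Set.mem_singleton _
  have hx : Prime x :=
    (Ideal.span_singleton_prime hx0).mp (Ideal.Quotient.isDomain_iff_prime _ |>.mp hdom)
  have hmax : IsLocalRing.maximalIdeal (A ⧸ Ideal.span {x}) = Ideal.span {π y} := by
    rw [← IsLocalRing.map_maximalIdeal_of_surjective π Ideal.Quotient.mk_surjective, hgen,
      Ideal.map_span, Set.image_pair, (hker x).mpr dvd_rfl, Ideal.span_insert_zero]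
  have hirr : Irreducible (π y) := (IsDiscreteValuationRing.irreducible_iff_uniformizer _).mpr hmax
  refine ⟨hx, fun h => hirr.ne_zero ((hker y).mpr h), fun a ha => ?_⟩
  obtain ⟨n, u, hu⟩ := IsDiscreteValuationRing.eq_unit_mul_pow_irreducible
    (fun h => ha ((hker a).mp h)) hirr
  obtain ⟨v, hv⟩ := Ideal.Quotient.mk_surjective (I := Ideal.span {x}) (u : A ⧸ Ideal.span {x})
  refine ⟨n, v, ?_, (hker _).mp ?_⟩
  · haveI : IsLocalHom π := IsLocalHom.of_surjective π Ideal.Quotient.mk_surjective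
    exact IsUnit.of_map π v (hv ▸ u.isUnit)
  · rw [map_sub, map_mul, map_pow, hu, sub_eq_zero]
    exact congrArg (· * π y ^ n) hv.symm

/-- Almost integral quotients are integral: one step of the `x`-adic approximation. -/
theorem exists_dvd_pow_mul_sub (x : A) (hx : Prime x)
    (hdiv : ∀ a b c : A, ¬ x ∣ a → ¬ x ∣ b → ¬ x ∣ c → (∀ k : ℕ, ∃ d, x ∣ c * a ^ k - b ^ k * d) →
      ∃ t, x ∣ a - b * t)
    {a b c : A} (hb : b ≠ 0) (hc : c ≠ 0) (h : ∀ k : ℕ, b ^ k ∣ c * a ^ k) (n : ℕ)
    (ha : x ^ n ∣ a) : ∃ t : A, x ^ (n + 1) ∣ a - b * t := by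
  by_cases hn : x ^ (n + 1) ∣ a
  · exact ⟨0, by simpa using hn⟩
  obtain ⟨a₁, rfl⟩ := ha
  have ha₁ : ¬ x ∣ a₁ := fun hh => hn (by rw [pow_succ]; exact mul_dvd_mul_left _ hh)
  obtain ⟨s, b₁, hb₁, rfl⟩ := WfDvdMonoid.max_power_factor hb hx.irreducible
  obtain ⟨r, c₁, hc₁, rfl⟩ := WfDvdMonoid.max_power_factor hc hx.irreducible
  have hpow : ∀ k : ℕ, s * k ≤ r + n * k ∧ ∃ d, x ^ (r + n * k - s * k) * (c₁ * a₁ ^ k) =
      b₁ ^ k * d := by
    intro k
    obtain ⟨d, hd⟩ := h k
    have e : x ^ (r + n * k) * (c₁ * a₁ ^ k) = x ^ (s * k) * (b₁ ^ k * d) := by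
      calc x ^ (r + n * k) * (c₁ * a₁ ^ k) = x ^ r * c₁ * (x ^ n * a₁) ^ k := by
            rw [mul_pow, ← pow_mul, pow_add]; ring
        _ = (x ^ s * b₁) ^ k * d := hd
        _ = x ^ (s * k) * (b₁ ^ k * d) := by rw [mul_pow, ← pow_mul]; ring
    have hle : s * k ≤ r + n * k := by
      by_contra hlt
      push Not at hlt
      obtain ⟨j, hj⟩ := Nat.exists_eq_add_of_lt hlt
      have e' : x ^ (r + n * k) * (c₁ * a₁ ^ k) =
          x ^ (r + n * k) * (x * (x ^ j * (b₁ ^ k * d))) := by rw [e, hj]; ring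
      have hdvd : x ∣ c₁ * a₁ ^ k :=
        ⟨x ^ j * (b₁ ^ k * d), mul_left_cancel₀ (pow_ne_zero _ hx.ne_zero) e'⟩
      rcases hx.dvd_or_dvd hdvd with h1 | h1
      · exact hc₁ h1
      · exact ha₁ (hx.dvd_of_dvd_pow h1)
    refine ⟨hle, d, ?_⟩
    obtain ⟨j, hj⟩ := Nat.exists_eq_add_of_le hle
    rw [hj, Nat.add_sub_cancel_left]
    rw [hj, pow_add, mul_assoc] at e
    exact mul_left_cancel₀ (pow_ne_zero _ hx.ne_zero) e
  have hsn : s ≤ n := by
    by_contra hlt
    push Not at hlt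
    have h1 := (hpow (r + 1)).1
    have h2 : (n + 1) * (r + 1) ≤ s * (r + 1) := Nat.mul_le_mul_right _ hlt
    nlinarith
  have hd : ∀ k : ℕ, ∃ d, x ∣ c₁ * a₁ ^ k - b₁ ^ k * d := by
    intro k
    obtain ⟨hle, d, hd⟩ := hpow k
    generalize r + n * k - s * k = j at hd
    have hj : x ^ j ∣ d := by
      refine hx.pow_dvd_of_dvd_mul_left j (a := b₁ ^ k) ?_ ⟨_, hd.symm⟩
      exact fun h1 => hb₁ (hx.dvd_of_dvd_pow h1)
    obtain ⟨d', rfl⟩ := hj
    refine ⟨d', 0, ?_⟩
    rw [mul_zero, sub_eq_zero]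
    refine mul_left_cancel₀ (pow_ne_zero j hx.ne_zero) ?_
    rw [hd]; ring
  obtain ⟨t, w, hw⟩ := hdiv a₁ b₁ c₁ ha₁ hb₁ hc₁ hd
  obtain ⟨j, rfl⟩ := Nat.exists_eq_add_of_le hsn
  refine ⟨x ^ j * t, w, ?_⟩
  rw [pow_add, pow_succ, pow_add]
  linear_combination x ^ s * x ^ j * hw

variable (A) in
theorem isIntegrallyClosed_of_two_generators (x y : A)
    (hgen : IsLocalRing.maximalIdeal A = Ideal.span {x, y}) (hdim : 2 ≤ ringKrullDim A) :
    IsIntegrallyClosed A := by
  obtain ⟨hx, hxy, hfac⟩ := prime_and_uniformiser x y hgen hdim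
  have hdiv : ∀ a b c : A, ¬ x ∣ a → ¬ x ∣ b → ¬ x ∣ c →
      (∀ k : ℕ, ∃ d, x ∣ c * a ^ k - b ^ k * d) → ∃ t, x ∣ a - b * t := by
    intro a b c ha hb hc hk
    obtain ⟨i, u, hu, hau⟩ := hfac a ha
    obtain ⟨j, v, hv, hbv⟩ := hfac b hb
    obtain ⟨l, w, hw, hcw⟩ := hfac c hc
    set π := Ideal.Quotient.mk (Ideal.span {x}) with hπ
    have hker : ∀ z : A, π z = 0 ↔ x ∣ z := fun z => by
      rw [hπ, Ideal.Quotient.eq_zero_iff_mem, Ideal.mem_span_singleton]
    have ea : π a = π (u * y ^ i) := sub_eq_zero.mp (by rw [← map_sub]; exact (hker _).mpr hau)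
    have eb : π b = π (v * y ^ j) := sub_eq_zero.mp (by rw [← map_sub]; exact (hker _).mpr hbv)
    have ec : π c = π (w * y ^ l) := sub_eq_zero.mp (by rw [← map_sub]; exact (hker _).mpr hcw)
    have hji : j ≤ i := by
      by_contra hlt
      push Not at hlt
      obtain ⟨d, hd⟩ := hk (l + 1)
      have hle : l + i * (l + 1) < j * (l + 1) := by nlinarith
      obtain ⟨g, hg⟩ := Nat.exists_eq_add_of_lt hle
      have e : x ∣ y ^ (l + i * (l + 1)) *
          (w * u ^ (l + 1) - v ^ (l + 1) * (y ^ g * y) * d) := by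
        rw [← hker]
        have h0 : π (c * a ^ (l + 1) - b ^ (l + 1) * d) = 0 := (hker _).mpr hd
        rw [← h0]
        simp only [map_sub, map_mul, map_pow, ea, eb, ec]
        have hy : (π y ^ j) ^ (l + 1) = π y ^ (l + i * (l + 1)) * (π y ^ g * π y) := by
          rw [← pow_mul, hg, pow_succ, pow_add, mul_assoc]
        simp only [mul_pow, hy]
        ring
      rcases hx.dvd_or_dvd e with h1 | h1
      · exact hxy (hx.dvd_of_dvd_pow h1)
      · have h2 : x ∣ w * u ^ (l + 1) - v ^ (l + 1) * (y ^ g * y) * d := h1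
        have hmem : w * u ^ (l + 1) ∈ IsLocalRing.maximalIdeal A := by
          have hxm : x ∈ IsLocalRing.maximalIdeal A := hgen ▸ Ideal.subset_span (by simp)
          have hym : y ∈ IsLocalRing.maximalIdeal A := hgen ▸ Ideal.subset_span (by simp)
          obtain ⟨q, hq⟩ := h2
          rw [sub_eq_iff_eq_add.mp hq]
          refine Ideal.add_mem _ (Ideal.mul_mem_right _ _ hxm) ?_
          exact Ideal.mul_mem_right _ _ (Ideal.mul_mem_left _ _ (Ideal.mul_mem_left _ _ hym))
        exact (IsLocalRing.mem_maximalIdeal _).mp hmem (hw.mul (hu.pow _))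
    obtain ⟨g, rfl⟩ := Nat.exists_eq_add_of_le hji
    obtain ⟨v', hv'⟩ := hv.exists_right_inv
    refine ⟨v' * u * y ^ g, (hker _).mp ?_⟩
    rw [map_sub, map_mul π b, ea, eb, ← map_mul, ← map_sub]
    rw [show u * y ^ (j + g) - v * y ^ j * (v' * u * y ^ g) = (1 - v * v') * (u * y ^ (j + g)) by
      rw [pow_add]; ring, hv', sub_self, zero_mul, map_zero]
  refine (isIntegrallyClosed_iff (FractionRing A)).mpr fun {z} hz => ?_
  obtain ⟨c, hc, hcz⟩ : IsAlmostIntegral A z := hz.isAlmostIntegral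
  obtain ⟨a, b, hb, rfl⟩ := IsFractionRing.div_surjective (A := A) z
  have hb0 : b ≠ 0 := nonZeroDivisors.ne_zero hb
  have hc0 : c ≠ 0 := nonZeroDivisors.ne_zero hc
  have hbF : algebraMap A (FractionRing A) b ≠ 0 := by
    rwa [ne_eq, FaithfulSMul.algebraMap_eq_zero_iff]
  have hdvd : ∀ k : ℕ, b ^ k ∣ c * a ^ k := by
    intro k
    obtain ⟨d, hd⟩ := hcz k
    refine ⟨d, IsFractionRing.injective A (FractionRing A) ?_⟩
    rw [Algebra.smul_def, div_pow, mul_div_assoc', eq_div_iff (pow_ne_zero _ hbF)] at hd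
    rw [map_mul, map_mul, map_pow, map_pow, ← hd]
    ring
  have happ : ∀ n : ℕ, ∃ t, x ^ n ∣ a - b * t := by
    intro n
    induction n with
    | zero => exact ⟨0, by simp⟩
    | succ n ih =>
      obtain ⟨t, ht⟩ := ih
      have hk : ∀ k : ℕ, b ^ k ∣ c * (a - b * t) ^ k := by
        intro k
        rw [sub_eq_add_neg, add_pow, Finset.mul_sum]
        refine Finset.dvd_sum fun i hi => ?_
        obtain ⟨d, hd⟩ := hdvd i
        have hik : i ≤ k := Nat.lt_succ_iff.mp (Finset.mem_range.mp hi)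
        refine ⟨d * (-t) ^ (k - i) * (k.choose i), ?_⟩
        calc c * (a ^ i * (-(b * t)) ^ (k - i) * (k.choose i : A))
            = (c * a ^ i) * (b ^ (k - i) * (-t) ^ (k - i)) * (k.choose i : A) := by
              rw [← mul_neg, mul_pow]; ring
          _ = b ^ k * (d * (-t) ^ (k - i) * (k.choose i : A)) := by
              rw [hd, ← Nat.add_sub_cancel' hik, pow_add, Nat.add_sub_cancel_left]; ring
      obtain ⟨t', ht'⟩ := exists_dvd_pow_mul_sub x hx hdiv hb0 hc0 hk n ht
      exact ⟨t + t', by rwa [mul_add, ← sub_sub]⟩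
  have hmemI : a ∈ Ideal.span {b} := by
    by_cases hbu : IsUnit b
    · rw [Ideal.span_singleton_eq_top.mpr hbu]
      exact Submodule.mem_top
    haveI : Nontrivial (A ⧸ Ideal.span {b}) :=
      Ideal.Quotient.nontrivial_iff.mpr (by rwa [ne_eq, Ideal.span_singleton_eq_top])
    haveI : IsLocalRing (A ⧸ Ideal.span {b}) :=
      IsLocalRing.of_surjective' (Ideal.Quotient.mk _) Ideal.Quotient.mk_surjective
    rw [← Ideal.Quotient.eq_zero_iff_mem, ← Ideal.mem_bot,
      ← Ideal.iInf_pow_eq_bot_of_isLocalRing _ (IsLocalRing.maximalIdeal.isMaximal _).ne_top,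
      Ideal.mem_iInf]
    intro n
    rw [← IsLocalRing.map_maximalIdeal_of_surjective (Ideal.Quotient.mk (Ideal.span {b}))
      Ideal.Quotient.mk_surjective, ← Ideal.map_pow]
    obtain ⟨t, q, hq⟩ := happ n
    have e : Ideal.Quotient.mk (Ideal.span {b}) a = Ideal.Quotient.mk _ (x ^ n * q) := by
      rw [Ideal.Quotient.mk_eq_mk_iff_sub_mem, Ideal.mem_span_singleton]
      exact ⟨t, by rw [← hq]; ring⟩
    rw [e]
    exact Ideal.mem_map_of_mem _ (Ideal.mul_mem_right _ _
      (Ideal.pow_mem_pow (hgen ▸ Ideal.subset_span (by simp)) n))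
  obtain ⟨d, rfl⟩ := Ideal.mem_span_singleton.mp hmemI
  exact ⟨d, by rw [map_mul, mul_div_cancel_left₀ _ hbF]⟩

variable (A) in
/-- At a regular point of dimension two every nonzero element is a unit times a perfect power
as soon as this holds in codimension one: the root module is principal. -/
theorem exists_rootModule_eq_span [IsIntegrallyClosed A] {F : Type*} [Field F] [Algebra A F]
    [IsFractionRing A F] (x y : A)
    (hgen : IsLocalRing.maximalIdeal A = Ideal.span {x, y}) (hdim : 2 ≤ ringKrullDim A)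
    (f : F) (hf : f ≠ 0) {m : ℕ} (hm : m ≠ 0) :
    ∃ h : F, rootModule A f hm = Submodule.span A {h} := by
  obtain ⟨hx, hxy, hfac⟩ := prime_and_uniformiser x y hgen hdim
  set J := rootModule A f hm with hJ
  have hxF : algebraMap A F x ≠ 0 := by
    rw [ne_eq, map_eq_zero_iff _ (IsFractionRing.injective A F)]
    exact hx.ne_zero
  have hyF : algebraMap A F y ≠ 0 := by
    rw [ne_eq, map_eq_zero_iff _ (IsFractionRing.injective A F)]
    exact fun h => hxy (h ▸ dvd_zero x)
  let X : Submodule A F := J.map (LinearMap.lsmul A F x)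
  have hX : ∀ a, a ∈ X ↔ ∃ w ∈ J, x • w = a := fun a => Submodule.mem_map
  have hXle : X ≤ J := by
    intro a ha
    obtain ⟨w, hw, rfl⟩ := (hX a).mp ha
    exact J.smul_mem _ hw
  -- torsion-freeness of `J / x J` over `A / x`
  have htor : ∀ a ∈ J, y • a ∈ X → a ∈ X := by
    intro a ha hya
    obtain ⟨w, hw, hwa⟩ := (hX _).mp hya
    rw [Algebra.smul_def, Algebra.smul_def] at hwa
    refine (hX a).mpr ⟨a / algebraMap A F x, ?_, ?_⟩
    · obtain ⟨p, hp⟩ := (mem_rootModule A hm).mp ha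
      obtain ⟨q, hq⟩ := (mem_rootModule A hm).mp hw
      have e1 : a / algebraMap A F x = w / algebraMap A F y := by
        rw [div_eq_div_iff hxF hyF, mul_comm, ← hwa, mul_comm]
      have e2 : algebraMap A F (x ^ m * q) = algebraMap A F (y ^ m * p) := by
        rw [map_mul, map_mul, map_pow, map_pow, hp, hq, mul_div_assoc', mul_div_assoc', ← mul_pow,
          ← mul_pow, hwa]
      obtain ⟨p', rfl⟩ : x ^ m ∣ p := hx.pow_dvd_of_dvd_mul_left m
        (fun h => hxy (hx.dvd_of_dvd_pow h)) ⟨q, (IsFractionRing.injective A F e2).symm⟩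
      refine (mem_rootModule A hm).mpr ⟨p', ?_⟩
      rw [map_mul, map_pow] at hp
      rw [div_pow, div_right_comm, ← hp, mul_div_cancel_left₀ _ (pow_ne_zero _ hxF)]
    · rw [Algebra.smul_def, mul_div_cancel₀ _ hxF]
  have hunit : ∀ u : A, IsUnit u → ∀ a, u • a ∈ X → a ∈ X := by
    intro u hu a ha
    obtain ⟨v, hv⟩ := hu.exists_left_inv
    have := X.smul_mem v ha
    rwa [smul_smul, hv, one_smul] at this
  have hcancel : ∀ q : A, ¬ x ∣ q → ∀ a ∈ J, q • a ∈ X → a ∈ X := by
    intro q hq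
    obtain ⟨n, u, hu, r, hr⟩ := hfac q hq
    intro a ha hqa
    have h1 : u • (y ^ n • a) ∈ X := by
      have h2 : (x * r) • a ∈ X := (hX _).mpr ⟨r • a, J.smul_mem _ ha, by rw [smul_smul]⟩
      have h3 := X.sub_mem hqa h2
      rwa [← sub_smul, ← hr, sub_sub_cancel, ← smul_smul] at h3
    replace h1 := hunit u hu _ h1
    clear hr hu hq hqa
    induction n generalizing a with
    | zero => simpa using h1
    | succ n ih => exact htor a ha (ih (y • a) (J.smul_mem _ ha) (by rwa [smul_smul, ← pow_succ]))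
  have hdrop : ∀ q : A, x ∣ q → ∀ a ∈ J, q • a ∈ X := by
    rintro q ⟨r, rfl⟩ a ha
    exact (hX _).mpr ⟨r • a, J.smul_mem _ ha, by rw [smul_smul]⟩
  -- any two elements are comparable modulo `x J`
  have hcmp : ∀ a ∈ J, ∀ b ∈ J,
      a ∈ Submodule.span A {b} ⊔ X ∨ b ∈ Submodule.span A {a} ⊔ X := by
    intro a ha b hb
    rcases eq_or_ne b 0 with rfl | hb0
    · exact Or.inr (zero_mem _)
    obtain ⟨P, Q, hQ, hPQ⟩ := IsFractionRing.div_surjective (A := A) (a / b)
    have hQ0 : Q ≠ 0 := nonZeroDivisors.ne_zero hQ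
    have hrel : ∀ p q : A, q ≠ 0 → q • a = p • b →
        ∃ p' q' : A, ¬ (x ∣ p' ∧ x ∣ q') ∧ q' • a = p' • b := by
      intro p q hq
      induction q using (wellFounded_dvdNotUnit (α := A)).induction generalizing p with
      | h q ih =>
        intro he
        by_cases hboth : x ∣ p ∧ x ∣ q
        · obtain ⟨⟨p', rfl⟩, q', rfl⟩ := hboth
          refine ih q' ⟨right_ne_zero_of_mul hq, x, hx.not_isUnit, mul_comm _ _⟩ p'
            (right_ne_zero_of_mul hq) ?_
          rw [Algebra.smul_def, Algebra.smul_def, map_mul, map_mul, mul_assoc, mul_assoc] at he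
          rw [Algebra.smul_def, Algebra.smul_def]
          exact mul_left_cancel₀ hxF he
        · exact ⟨p, q, hboth, he⟩
    obtain ⟨p, q, hpq, he⟩ := hrel P Q hQ0 (by
      have hQF : algebraMap A F Q ≠ 0 := by
        rwa [ne_eq, map_eq_zero_iff _ (IsFractionRing.injective A F)]
      rw [Algebra.smul_def, Algebra.smul_def]
      rw [div_eq_div_iff hQF hb0] at hPQ
      rw [hPQ, mul_comm])
    by_cases hq : x ∣ q
    · right
      refine Submodule.mem_sup_right (hcancel p (fun h => hpq ⟨h, hq⟩) b hb ?_)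
      rw [← he]
      exact hdrop q hq a ha
    by_cases hp : x ∣ p
    · left
      refine Submodule.mem_sup_right (hcancel q hq a ha ?_)
      rw [he]
      exact hdrop p hp b hb
    obtain ⟨i, u, hu, hqu⟩ := hfac q hq
    obtain ⟨j, v, hv, hpv⟩ := hfac p hp
    have key : (u * y ^ i) • a - (v * y ^ j) • b ∈ X := by
      have h1 := X.sub_mem (hdrop _ hpv b hb) (hdrop _ hqu a ha)
      rwa [sub_smul, sub_smul, he, sub_sub_sub_cancel_left] at h1
    -- one of the two exponents is smaller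
    have step : ∀ (a b : F), a ∈ J → b ∈ J → ∀ (u v : A), IsUnit u → ∀ (i g : ℕ),
        (u * y ^ i) • a - (v * y ^ (i + g)) • b ∈ X → a ∈ Submodule.span A {b} ⊔ X := by
      intro a b ha hb u v hu i g h
      obtain ⟨u', hu'⟩ := hu.exists_left_inv
      have hmem : a - (u' * v * y ^ g) • b ∈ X := by
        refine hcancel (u * y ^ i) ?_ _ (J.sub_mem ha (J.smul_mem _ hb)) ?_
        · intro hd
          rcases hx.dvd_or_dvd hd with h1 | h1
          · exact hx.not_isUnit (isUnit_of_dvd_unit h1 hu)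
          · exact hxy (hx.dvd_of_dvd_pow h1)
        · rw [smul_sub, smul_smul,
            show u * y ^ i * (u' * v * y ^ g) = (u' * u) * (v * y ^ (i + g)) by rw [pow_add]; ring,
            hu', one_mul]
          exact h
      refine Submodule.mem_sup.mpr ⟨(u' * v * y ^ g) • b,
        Submodule.smul_mem _ _ (Submodule.mem_span_singleton_self b), _, hmem, ?_⟩
      abel
    rcases le_total i j with hij | hij
    · obtain ⟨g, rfl⟩ := Nat.exists_eq_add_of_le hij
      exact Or.inl (step a b ha hb u v hu i g key)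
    · obtain ⟨g, rfl⟩ := Nat.exists_eq_add_of_le hij
      refine Or.inr (step b a hb ha v u hv j g ?_)
      rw [← neg_sub]
      exact X.neg_mem key
  obtain ⟨s, hs⟩ := rootModule_fg A f hf hm
  have hmain : ∀ t : Finset F, (↑t : Set F) ⊆ J →
      ∃ h ∈ J, (↑t : Set F) ⊆ (Submodule.span A {h} ⊔ X : Submodule A F) := by
    intro t
    classical
    induction t using Finset.induction with
    | empty => exact fun _ => ⟨0, zero_mem _, by simp⟩
    | insert g t _ ih =>
      intro ht
      rw [Finset.coe_insert, Set.insert_subset_iff] at ht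
      obtain ⟨h, hh, hth⟩ := ih ht.2
      rcases hcmp g ht.1 h hh with h1 | h1
      · exact ⟨h, hh, by rw [Finset.coe_insert, Set.insert_subset_iff]; exact ⟨h1, hth⟩⟩
      · refine ⟨g, ht.1, ?_⟩
        rw [Finset.coe_insert, Set.insert_subset_iff]
        refine ⟨Submodule.mem_sup_left (Submodule.mem_span_singleton_self g), hth.trans ?_⟩
        exact sup_le (Submodule.span_le.mpr (Set.singleton_subset_iff.mpr h1)) le_sup_right
  obtain ⟨h, hh, hsh⟩ := hmain s (by rw [hJ, ← hs]; exact Submodule.subset_span)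
  refine ⟨h, le_antisymm ?_ (Submodule.span_le.mpr (Set.singleton_subset_iff.mpr hh))⟩
  refine Submodule.le_of_le_smul_of_le_jacobson_bot ⟨s, hs⟩ (I := Ideal.span {x}) ?_ ?_
  · rw [IsLocalRing.jacobson_eq_maximalIdeal ⊥ bot_ne_top, hgen]
    exact Ideal.span_mono (by simp)
  · calc J = Submodule.span A (↑s : Set F) := hs.symm
      _ ≤ Submodule.span A {h} ⊔ X := Submodule.span_le.mpr hsh
      _ ≤ _ := sup_le_sup_left (fun a ha => by
          obtain ⟨w, hw, rfl⟩ := (hX a).mp ha
          exact Submodule.smul_mem_smul (Ideal.mem_span_singleton_self x) hw) _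

end regular

end FermatLib.Igusa.Carayol
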