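import Fermat.Agent.Igusa.Carayol.RootModule
import Fermat.Agent.Igusa.Carayol.RootGlue

/-!
The two-chart vanishing argument.
-/

set_option autoImplicit false

noncomputable section

namespace FermatLib.Igusa.Carayol

section helpers

variable {W : Type*} [CommRing W] {F : Type*} [Field F] [Algebra W F]

theorem mem_range_algebraMap_subalgebra (B : Subalgebra W F) (x : F) :
    x ∈ (algebraMap B F).range ↔ x ∈ B :=
  ⟨fun ⟨b, hb⟩ => hb ▸ b.2, fun h => ⟨⟨x, h⟩, rfl⟩⟩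

/-- Newton iteration: a root of `f` modulo the radical of `p` improves to a root modulo `p ^ k`,
without changing it modulo the radical. -/
theorem exists_newton_root (B : Subalgebra W F) {m : ℕ} (hm : IsUnit (m : W)) {f e p : F}
    {N : ℕ} {b : F} (hb : b ∈ B) (he : e ^ m / f ∈ B) (hN : (e ^ m / f - 1) ^ N = p * b) (k : ℕ) :
    ∃ β ∈ B, ∃ b' ∈ B, (e * (1 + (e ^ m / f - 1) * β)) ^ m / f - 1 = p ^ k * b' := by
  obtain ⟨μW, hμW⟩ := hm.exists_right_inv
  obtain ⟨ε, hε⟩ : ∃ ε : B, (ε : F) = e ^ m / f - 1 :=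
    ⟨⟨e ^ m / f - 1, sub_mem he (one_mem B)⟩, rfl⟩
  have hμ : (m : B) * algebraMap W B μW = 1 := by
    rw [← map_natCast (algebraMap W B) m, ← map_mul, hμW, map_one]
  -- everything happens inside `B`
  have main : ∀ n : ℕ, ∃ β q : B, (1 + ε) * (1 + ε * β) ^ m - 1 = ε ^ (n + 1) * q := by
    intro n
    induction n with
    | zero => exact ⟨0, 1, by simp⟩
    | succ n ih =>
      obtain ⟨β, q, hβ⟩ := ih
      obtain ⟨r, hr⟩ := exists_newton_step (algebraMap W B μW) hμ (ε ^ (n + 1) * q)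
      refine ⟨β - (1 + ε * β) * (algebraMap W B μW * (ε ^ n * q)), ε ^ n * q ^ 2 * r, ?_⟩
      rw [show ε ^ (n + 1 + 1) * (ε ^ n * q ^ 2 * r) = (ε ^ (n + 1) * q) ^ 2 * r by ring, ← hr]
      rw [show (1 : B) + ε * (β - (1 + ε * β) * (algebraMap W B μW * (ε ^ n * q))) =
          (1 + ε * β) * (1 - algebraMap W B μW * (ε ^ (n + 1) * q)) by ring, mul_pow]
      linear_combination ((1 - algebraMap W B μW * (ε ^ (n + 1) * q)) ^ m) * hβ
  obtain ⟨β, q, hβ⟩ := main (N * k)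
  refine ⟨β, β.2, b ^ k * (ε : F) * q, mul_mem (mul_mem (pow_mem hb k) ε.2) q.2, ?_⟩
  have e1 := congrArg Subtype.val hβ
  push_cast at e1
  rw [pow_succ, pow_mul, hε, hN, mul_pow] at e1
  rw [hε, mul_pow, ← div_mul_eq_mul_div]
  linear_combination e1

theorem isNilpotent_mul_sub_one {R : Type*} [CommRing R] {a b : R}
    (ha : IsNilpotent (a - 1)) (hb : IsNilpotent (b - 1)) : IsNilpotent (a * b - 1) := by
  have h : a * b - 1 = (a - 1) * b + (b - 1) := by ring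
  rw [h]
  exact (Commute.all _ _).isNilpotent_add ((Commute.all _ b).isNilpotent_mul_right ha) hb

theorem isNilpotent_pow_sub_one {R : Type*} [CommRing R] {a : R}
    (ha : IsNilpotent (a - 1)) (n : ℕ) : IsNilpotent (a ^ n - 1) := by
  induction n with
  | zero => simp
  | succ n ih => rw [pow_succ]; exact isNilpotent_mul_sub_one ih ha

end helpers

section twoCharts

/-- The vanishing argument. `B₀`, `B₁` are the two normal charts of a curve over a DVR `W` with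
uniformiser `π`, glued in `B₂` by inverting `t`. An `m`-th root of `f` on both charts modulo the
radical of `π`, agreeing on the overlap, forces a global nonzero `a` with `a ^ m / f` integral. -/
theorem exists_global_root {W : Type*} [CommRing W] [IsDomain W] [IsDiscreteValuationRing W]
    {F : Type*} [Field F] [Algebra W F] {π : W} (hπ : Irreducible π)
    (t : F) (ht : t ≠ 0) (B₀ B₁ B₂ : Subalgebra W F)
    [IsIntegrallyClosed B₀] [IsIntegrallyClosed B₁] [IsIntegrallyClosed B₂]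
    [IsFractionRing B₀ F] [IsFractionRing B₁ F] [IsFractionRing B₂ F]
    (h₀ : B₀ ≤ B₂) (h₁ : B₁ ≤ B₂) (ht₀ : t ∈ B₀) (ht₁ : t⁻¹ ∈ B₁)
    (hloc₀ : ∀ b ∈ B₂, ∃ n : ℕ, t ^ n * b ∈ B₀) (hloc₁ : ∀ b ∈ B₂, ∃ n : ℕ, t⁻¹ ^ n * b ∈ B₁)
    (hfin : ∃ s : Finset F, ∀ b ∈ B₀,
      b ∈ Submodule.span W {x : F | ∃ i : ℕ, ∃ y ∈ s, x = t ^ i * y})
    (hπ₀ : ∀ b ∈ B₀, algebraMap W F π * b ≠ 1)
    (f : F) (hf : f ≠ 0) {m : ℕ} (hm : IsUnit (m : W))
    (e₀ e₁ : F) (hJ₀ : e₀ ^ m / f ∈ B₀) (hJ₁ : e₁ ^ m / f ∈ B₁)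
    (he₀ : ∃ N : ℕ, ∃ b ∈ B₀, (e₀ ^ m / f - 1) ^ N = algebraMap W F π * b)
    (he₁ : ∃ N : ℕ, ∃ b ∈ B₁, (e₁ ^ m / f - 1) ^ N = algebraMap W F π * b)
    (hglue : ∃ N : ℕ, ∃ b ∈ B₂, (e₁ * e₀ ^ (m - 1) / f - 1) ^ N = algebraMap W F π * b) :
    ∃ a : F, a ≠ 0 ∧ a ^ m / f ∈ B₀ ∧ a ^ m / f ∈ B₁ := by
  classical
  have hm0 : m ≠ 0 := by
    rintro rfl
    simp at hm
  obtain ⟨N₀, b₀, hb₀, hN₀⟩ := he₀
  obtain ⟨N₁, b₁, hb₁, hN₁⟩ := he₁
  obtain ⟨N₂, b₂, hb₂, hN₂⟩ := hglue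
  set p := algebraMap W F π with hp
  have he₀0 : e₀ ≠ 0 := by
    rintro rfl
    rw [zero_pow hm0, zero_div, zero_sub] at hN₀
    refine hπ₀ (b₀ * (-1) ^ N₀) (mul_mem hb₀ (pow_mem (neg_mem (one_mem _)) _)) ?_
    rw [← mul_assoc, ← hN₀, ← mul_pow]
    simp
  by_cases hp0 : p = 0
  · rw [hp0, zero_mul] at hN₀
    have h1 : e₀ ^ m / f = 1 := sub_eq_zero.mp (eq_zero_of_pow_eq_zero hN₀)
    exact ⟨e₀, he₀0, hJ₀, h1 ▸ one_mem B₁⟩
  -- the root modules as `W`-modules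
  set J₀ := (rootModule B₀ f hm0).restrictScalars W with hJ₀def
  set J₁ := (rootModule B₁ f hm0).restrictScalars W with hJ₁def
  have hmem₀ : ∀ a : F, a ∈ J₀ ↔ a ^ m / f ∈ B₀ := fun a => mem_range_algebraMap_subalgebra B₀ _
  have hmem₁ : ∀ a : F, a ∈ J₁ ↔ a ^ m / f ∈ B₁ := fun a => mem_range_algebraMap_subalgebra B₁ _
  -- `J₀` is finite over `W[t]`
  set P := Algebra.adjoin W ({t} : Set F) with hPdef
  have hPle : P ≤ B₀ := Algebra.adjoin_le (Set.singleton_subset_iff.mpr ht₀)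
  haveI : IsNoetherianRing P := isNoetherianRing_of_fg ⟨{t}, by rw [hPdef, Finset.coe_singleton]⟩
  obtain ⟨s, hs⟩ := hfin
  let J₀P : Submodule P F :=
    { carrier := J₀
      add_mem' := fun ha hb => J₀.add_mem ha hb
      zero_mem' := J₀.zero_mem
      smul_mem' := fun c a ha => by
        exact (rootModule B₀ f hm0).smul_mem ⟨(c : F), hPle c.2⟩ ha }
  obtain ⟨T, hT⟩ : J₀P.FG := by
    refine Submodule.FG.of_le (T := Submodule.span P ((fun y => y * (f / e₀ ^ (m - 1))) '' ↑s))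
      (Submodule.fg_span (s.finite_toSet.image _)) ?_
    intro a ha
    obtain ⟨b, hb⟩ := Submodule.mem_span_singleton.mp
      (rootModule_le_span_singleton B₀ f hf hm0 ((hmem₀ e₀).mpr hJ₀) he₀0 ha)
    rw [← hb]
    have key : ∀ x ∈ Submodule.span W {x : F | ∃ i : ℕ, ∃ y ∈ s, x = t ^ i * y},
        x * (f / e₀ ^ (m - 1)) ∈
          Submodule.span P ((fun y => y * (f / e₀ ^ (m - 1))) '' ↑s) := by
      intro x hx
      induction hx using Submodule.span_induction with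
      | mem x hx =>
        obtain ⟨i, y, hy, rfl⟩ := hx
        rw [mul_assoc]
        exact Submodule.smul_mem _ (⟨t ^ i, pow_mem (Algebra.self_mem_adjoin_singleton W t) i⟩ : P)
          (Submodule.subset_span ⟨y, hy, rfl⟩)
      | zero => rw [zero_mul]; exact zero_mem _
      | add x y _ _ hx hy => rw [add_mul]; exact add_mem hx hy
      | smul w x _ hx =>
        rw [Algebra.smul_def, mul_assoc]
        exact Submodule.smul_mem _ (⟨algebraMap W F w, P.algebraMap_mem w⟩ : P) hx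
    exact key _ (hs _ b.2)
  have hTJ : ∀ y ∈ T, y ∈ J₀ := fun y hy => show y ∈ J₀P from hT ▸ Submodule.subset_span hy
  -- all of `J₂` lies in the `W`-span of `t ^ i • T`, `i : ℤ`
  set V := Submodule.span W {x : F | ∃ i : ℤ, ∃ y ∈ T, x = t ^ i * y} with hV
  have hVt : ∀ (i : ℤ) (x : F), x ∈ V → t ^ i * x ∈ V := by
    intro i x hx
    induction hx using Submodule.span_induction with
    | mem x hx =>
      obtain ⟨j, y, hy, rfl⟩ := hx
      exact Submodule.subset_span ⟨i + j, y, hy, by rw [zpow_add₀ ht, mul_assoc]⟩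
    | zero => rw [mul_zero]; exact zero_mem _
    | add x y _ _ hx hy => rw [mul_add]; exact add_mem hx hy
    | smul w x _ hx => rw [mul_smul_comm]; exact V.smul_mem _ hx
  have hVP : ∀ c ∈ P, ∀ x ∈ V, c * x ∈ V := by
    intro c hc
    induction hc using Algebra.adjoin_induction with
    | mem c hc =>
      rw [Set.mem_singleton_iff] at hc
      subst hc
      intro x hx
      simpa using hVt 1 x hx
    | algebraMap w => intro x hx; rw [← Algebra.smul_def]; exact V.smul_mem _ hx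
    | add c d _ _ hc hd => intro x hx; rw [add_mul]; exact add_mem (hc x hx) (hd x hx)
    | mul c d _ _ hc hd => intro x hx; rw [mul_assoc]; exact hc _ (hd x hx)
  have hJ₀V : ∀ x ∈ J₀, x ∈ V := by
    intro x hx
    have hx' : x ∈ Submodule.span P (↑T : Set F) := by rw [hT]; exact hx
    clear hx
    induction hx' using Submodule.span_induction with
    | mem x hx => exact Submodule.subset_span ⟨0, x, hx, by simp⟩
    | zero => exact zero_mem _
    | add x y hx' hy' hx hy =>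
      exact add_mem hx hy
    | smul c x hx' hx => exact hVP c c.2 x hx
  have hJ₂V : ∀ g : F, g ^ m / f ∈ B₂ → g ∈ V := by
    intro g hg
    obtain ⟨n, hn⟩ := hloc₀ _ hg
    have h1 : t ^ n * g ∈ J₀ := by
      rw [hmem₀, mul_pow, mul_div_assoc, ← Nat.sub_add_cancel (Nat.pos_of_ne_zero hm0),
        pow_succ, mul_assoc]
      rw [Nat.sub_add_cancel (Nat.pos_of_ne_zero hm0)]
      exact mul_mem (pow_mem (pow_mem ht₀ _) _) hn
    have h2 := hVt (-(n : ℤ)) _ (hJ₀V _ h1)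
    rwa [zpow_neg, zpow_natCast, inv_mul_cancel_left₀ (pow_ne_zero _ ht)] at h2
  -- finitely many monomials are outside `J₀ + J₁`
  have hbd : ∀ y ∈ T, ∃ n : ℕ, ∀ j : ℕ, n ≤ j → t⁻¹ ^ j * y ∈ J₁ := by
    intro y hy
    obtain ⟨n, hn⟩ := hloc₁ _ (h₀ ((hmem₀ y).mp (hTJ y hy)))
    refine ⟨n, fun j hj => (hmem₁ _).mpr ?_⟩
    rw [mul_pow, ← pow_mul, mul_div_assoc]
    have hle : n ≤ j * m := hj.trans (Nat.le_mul_of_pos_right j (Nat.pos_of_ne_zero hm0))
    rw [← Nat.sub_add_cancel hle, pow_add, mul_assoc]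
    exact mul_mem (pow_mem ht₁ _) hn
  choose! n hn using hbd
  set n₀ := T.sup n
  set G := Submodule.span W
    (↑((Finset.Icc (-(n₀ : ℤ)) 0 ×ˢ T).image fun iy => t ^ iy.1 * iy.2) : Set F) with hG
  have hVLG : V ≤ (J₀ ⊔ J₁) ⊔ G := by
    rw [hV, Submodule.span_le]
    rintro _ ⟨i, y, hy, rfl⟩
    by_cases hi : 0 ≤ i
    · obtain ⟨i, rfl⟩ := Int.eq_ofNat_of_zero_le hi
      rw [zpow_natCast]
      exact Submodule.mem_sup_left (Submodule.mem_sup_left
        ((rootModule B₀ f hm0).smul_mem ⟨t ^ i, pow_mem ht₀ i⟩ (hTJ y hy)))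
    by_cases hi' : i ≤ -(n₀ : ℤ)
    · obtain ⟨j, hj⟩ := Int.eq_ofNat_of_zero_le (show 0 ≤ -i by omega)
      have hi2 : i = -(j : ℤ) := by omega
      rw [hi2, zpow_neg, zpow_natCast, ← inv_pow]
      refine Submodule.mem_sup_left (Submodule.mem_sup_right (hn y hy j ?_))
      have : n y ≤ n₀ := Finset.le_sup hy
      omega
    · refine Submodule.mem_sup_right (Submodule.subset_span ?_)
      rw [Finset.coe_image]
      refine ⟨(i, y), ?_, rfl⟩
      simp only [Finset.mem_coe, Finset.mem_product, Finset.mem_Icc]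
      exact ⟨⟨by omega, by omega⟩, hy⟩
  -- hence the `π`-power torsion of `J₂ / (J₀ + J₁)` is bounded
  haveI : Module.Finite W G := Module.Finite.iff_fg.mpr ⟨_, rfl⟩
  haveI : IsNoetherian W G := isNoetherian_of_isNoetherianRing_of_finite W G
  let chain : ℕ →o Submodule W G :=
    ⟨fun c => (J₀ ⊔ J₁).comap (π ^ c • G.subtype), monotone_nat_of_le_succ fun c g hg => by
      simp only [Submodule.mem_comap, LinearMap.smul_apply] at hg ⊢
      rw [pow_succ', mul_smul]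
      exact Submodule.smul_mem _ _ hg⟩
  obtain ⟨c, hc⟩ := monotone_stabilizes_iff_noetherian.mpr inferInstance chain
  have hbound : ∀ (k : ℕ) (g : F), g ^ m / f ∈ B₂ → p ^ k * g ∈ J₀ ⊔ J₁ →
      p ^ c * g ∈ J₀ ⊔ J₁ := by
    intro k g hg hk
    obtain ⟨l, hl, g', hg', rfl⟩ := Submodule.mem_sup.mp (hVLG (hJ₂V g hg))
    have key : ∀ (i : ℕ) (x : F), π ^ i • x = p ^ i * x := fun i x => by
      rw [Algebra.smul_def, map_pow]
    have h1 : (⟨g', hg'⟩ : G) ∈ chain k := by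
      show π ^ k • g' ∈ J₀ ⊔ J₁
      have := Submodule.sub_mem _ hk ((key k l) ▸ Submodule.smul_mem _ (π ^ k) hl)
      rwa [mul_add, add_sub_cancel_left, ← key] at this
    have h2 : (⟨g', hg'⟩ : G) ∈ chain c := by
      rcases le_total k c with h | h
      · exact chain.mono h h1
      · exact (hc k h).symm ▸ h1
    rw [mul_add, ← key, ← key]
    exact Submodule.add_mem _ (Submodule.smul_mem _ _ hl) h2
  -- improved roots
  set k := c + 1 with hk
  obtain ⟨β₀, hβ₀, d₀, hd₀, hE₀⟩ := exists_newton_root B₀ hm hb₀ hJ₀ hN₀ k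
  obtain ⟨β₁, hβ₁, d₁, hd₁, hE₁⟩ := exists_newton_root B₁ hm hb₁ hJ₁ hN₁ k
  set E₀ := e₀ * (1 + (e₀ ^ m / f - 1) * β₀) with hE₀def
  set E₁ := e₁ * (1 + (e₁ ^ m / f - 1) * β₁) with hE₁def
  have hE₀J : E₀ ^ m / f ∈ B₀ := by
    rw [show E₀ ^ m / f = p ^ k * d₀ + 1 by rw [← hE₀]; ring]
    exact add_mem (mul_mem (pow_mem (B₀.algebraMap_mem π) _) hd₀) (one_mem _)
  have hE₁J : E₁ ^ m / f ∈ B₁ := by
    rw [show E₁ ^ m / f = p ^ k * d₁ + 1 by rw [← hE₁]; ring]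
    exact add_mem (mul_mem (pow_mem (B₁.algebraMap_mem π) _) hd₁) (one_mem _)
  have hmix : ∀ {a b : F}, a ^ m / f ∈ B₂ → b ^ m / f ∈ B₂ → a * b ^ (m - 1) / f ∈ B₂ := by
    intro a b ha hb
    have := mul_pow_div_mem_range B₂ f hm0 ((mem_range_algebraMap_subalgebra B₂ _).mpr ha)
      ((mem_range_algebraMap_subalgebra B₂ _).mpr hb) (i := 1) (Nat.pos_of_ne_zero hm0)
    rwa [pow_one, mem_range_algebraMap_subalgebra] at this
  -- work in `B₂ / p ^ k`
  obtain ⟨C, hC⟩ : ∃ C : B₂, (C : F) = E₁ * E₀ ^ (m - 1) / f :=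
    ⟨⟨_, hmix (h₁ hE₁J) (h₀ hE₀J)⟩, rfl⟩
  let P₂ : B₂ := algebraMap W B₂ π
  let Q := B₂ ⧸ Ideal.span {P₂ ^ k}
  let r : B₂ →+* Q := Ideal.Quotient.mk _
  have hrp : r P₂ ^ k = 0 := by
    rw [← map_pow]
    exact Ideal.Quotient.eq_zero_iff_mem.mpr (Ideal.mem_span_singleton_self _)
  have hnil : ∀ (x : B₂) (N : ℕ) (b : F), b ∈ B₂ → (x : F) ^ N = p * b → IsNilpotent (r x) := by
    intro x N b hb hxb
    refine ⟨N * k, ?_⟩
    have : x ^ N = P₂ * ⟨b, hb⟩ := Subtype.ext (by push_cast; exact hxb)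
    have h2 : r x ^ N = r P₂ * r ⟨b, hb⟩ := by rw [← map_mul, ← this, map_pow]
    rw [pow_mul, h2, mul_pow, hrp, zero_mul]
  have hc1 : IsNilpotent (r C - 1) := by
    obtain ⟨C', hC'⟩ : ∃ C' : B₂, (C' : F) = e₁ * e₀ ^ (m - 1) / f :=
      ⟨⟨_, hmix (h₁ hJ₁) (h₀ hJ₀)⟩, rfl⟩
    obtain ⟨U₀, hU₀⟩ : ∃ U₀ : B₂, (U₀ : F) = e₀ ^ m / f - 1 :=
      ⟨⟨_, sub_mem (h₀ hJ₀) (one_mem _)⟩, rfl⟩
    obtain ⟨U₁, hU₁⟩ : ∃ U₁ : B₂, (U₁ : F) = e₁ ^ m / f - 1 :=
      ⟨⟨_, sub_mem (h₁ hJ₁) (one_mem _)⟩, rfl⟩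
    have hCC : C = C' * ((1 + U₁ * ⟨β₁, h₁ hβ₁⟩) * (1 + U₀ * ⟨β₀, h₀ hβ₀⟩) ^ (m - 1)) := by
      apply Subtype.ext
      push_cast
      rw [hC, hC', hU₀, hU₁, hE₀def, hE₁def, mul_pow]
      ring
    have hC'1 : IsNilpotent (r C' - 1) := by
      rw [← map_one r, ← map_sub]
      exact hnil _ N₂ b₂ hb₂ (by push_cast; rw [hC']; exact hN₂)
    have hU₀n : IsNilpotent (r U₀) := hnil _ N₀ b₀ (h₀ hb₀) (by rw [hU₀]; exact hN₀)
    have hU₁n : IsNilpotent (r U₁) := hnil _ N₁ b₁ (h₁ hb₁) (by rw [hU₁]; exact hN₁)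
    rw [hCC, map_mul, map_mul, map_pow, map_add, map_add, map_mul, map_mul, map_one]
    refine isNilpotent_mul_sub_one hC'1 (isNilpotent_mul_sub_one ?_ (isNilpotent_pow_sub_one ?_ _))
    · rw [add_sub_cancel_left]
      exact (Commute.all _ _).isNilpotent_mul_right hU₁n
    · rw [add_sub_cancel_left]
      exact (Commute.all _ _).isNilpotent_mul_right hU₀n
  have hCm : r C ^ m = 1 := by
    have h1 : C ^ m = (1 + P₂ ^ k * ⟨d₁, h₁ hd₁⟩) * (1 + P₂ ^ k * ⟨d₀, h₀ hd₀⟩) ^ (m - 1) := by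
      apply Subtype.ext
      push_cast
      show (C : F) ^ m = (1 + p ^ k * d₁) * (1 + p ^ k * d₀) ^ (m - 1)
      rw [hC, ← hE₀, ← hE₁, add_sub_cancel, add_sub_cancel, div_pow, div_pow, div_mul_div_comm,
        mul_pow, ← pow_mul, ← pow_mul, mul_comm (m - 1) m, ← pow_succ',
        Nat.sub_add_cancel (Nat.pos_of_ne_zero hm0)]
    rw [← map_pow, h1]
    simp [hrp]
  have hC0 : r C - 1 = 0 := by
    have hS : IsUnit (∑ i ∈ Finset.range m, r C ^ i) := by
      have h1 : (∑ i ∈ Finset.range m, r C ^ i) = (m : Q) + ∑ i ∈ Finset.range m, (r C ^ i - 1) := by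
        simp [Finset.sum_sub_distrib]
      rw [h1]
      refine IsNilpotent.isUnit_add_left_of_commute
        (isNilpotent_sum fun i _ => isNilpotent_pow_sub_one hc1 i) ?_ (Commute.all _ _)
      have := hm.map (r.comp (algebraMap W B₂))
      rwa [map_natCast] at this
    have h2 := geom_sum_mul (r C) m
    rw [hCm, sub_self] at h2
    exact hS.mul_right_eq_zero.mp h2
  obtain ⟨D, hD⟩ := Ideal.mem_span_singleton'.mp
    (Ideal.Quotient.eq_zero_iff_mem.mp (show r (C - 1) = 0 by rw [map_sub, map_one, hC0]))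
  have hD' : E₁ * E₀ ^ (m - 1) / f - 1 = p ^ k * (D : F) := by
    have := congrArg Subtype.val hD
    push_cast at this
    rw [← hC, ← this, mul_comm]
    rfl
  set g := (D : F) * E₀ - d₀ * E₁ with hg
  have hgE : E₁ - E₀ = p ^ k * g := by
    have h1 : E₁ * E₀ ^ (m - 1) / f * E₀ = E₁ * (E₀ ^ m / f) := by
      rw [div_mul_eq_mul_div, mul_assoc, ← pow_succ,
        Nat.sub_add_cancel (Nat.pos_of_ne_zero hm0), mul_div_assoc]
    rw [hg]
    linear_combination E₀ * hD' - h1 - E₁ * hE₀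
  have hgJ : g ^ m / f ∈ B₂ := by
    rw [← mem_range_algebraMap_subalgebra, ← mem_rootModule B₂ hm0]
    refine Submodule.sub_mem _ ?_ ?_
    · exact (rootModule B₂ f hm0).smul_mem D
        ((mem_range_algebraMap_subalgebra B₂ _).mpr (h₀ hE₀J))
    · exact (rootModule B₂ f hm0).smul_mem ⟨d₀, h₀ hd₀⟩
        ((mem_range_algebraMap_subalgebra B₂ _).mpr (h₁ hE₁J))
  have hgL : p ^ k * g ∈ J₀ ⊔ J₁ := by
    rw [← hgE]
    exact Submodule.sub_mem _ (Submodule.mem_sup_right ((hmem₁ _).mpr hE₁J))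
      (Submodule.mem_sup_left ((hmem₀ _).mpr hE₀J))
  obtain ⟨u₀, hu₀, u₁, hu₁, hu⟩ := Submodule.mem_sup.mp (hbound k g hgJ hgL)
  refine ⟨p ^ c * E₀ + p ^ k * u₀, ?_, ?_, ?_⟩
  · intro h
    have h1 : E₀ = p * -u₀ := by
      apply mul_left_cancel₀ (pow_ne_zero c hp0)
      rw [hk, pow_succ] at h
      linear_combination h
    refine hπ₀ (p ^ (m - 1) * ((-u₀) ^ m / f) - p ^ c * d₀) ?_ ?_
    · exact sub_mem (mul_mem (pow_mem (B₀.algebraMap_mem π) _)
        ((hmem₀ _).mp (J₀.neg_mem hu₀))) (mul_mem (pow_mem (B₀.algebraMap_mem π) _) hd₀)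
    · have h2 := hE₀
      rw [h1, mul_pow, mul_div_assoc, hk, pow_succ] at h2
      have h3 : p ^ (m - 1) * p = p ^ m := by
        rw [← pow_succ, Nat.sub_add_cancel (Nat.pos_of_ne_zero hm0)]
      linear_combination h2 + ((-u₀) ^ m / f) * h3
  · rw [← hmem₀]
    refine J₀.add_mem ?_ ?_
    · rw [hp, ← map_pow, ← Algebra.smul_def]
      exact J₀.smul_mem _ ((hmem₀ _).mpr hE₀J)
    · rw [hp, ← map_pow, ← Algebra.smul_def]
      exact J₀.smul_mem _ hu₀
  · have h1 : p ^ c * E₀ + p ^ k * u₀ = p ^ c * E₁ - p ^ k * u₁ := by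
      linear_combination p ^ k * hu - p ^ c * hgE
    rw [← hmem₁, h1]
    refine J₁.sub_mem ?_ ?_
    · rw [hp, ← map_pow, ← Algebra.smul_def]
      exact J₁.smul_mem _ ((hmem₁ _).mpr hE₁J)
    · rw [hp, ← map_pow, ← Algebra.smul_def]
      exact J₁.smul_mem _ hu₁

end twoCharts

end FermatLib.Igusa.Carayol
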