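import Fermat.Agent.Igusa.Carayol.RootModule
import Fermat.Agent.Igusa.Carayol.RootRegular
import Fermat.Agent.Igusa.Carayol.RootGlue
import Fermat.Agent.Igusa.Carayol.RootVanishing

/-!
Commutative algebra of the `q²` Kummer argument:
root modules, their freeness at regular points of dimension two, gluing of roots on the
reduced special fibre, Newton iteration and the two-chart vanishing argument, norms modulo
prime powers.
-/
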