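import Mathlib
import Fermat.Agent.Igusa.Carayol.LevelOne
import Fermat.Agent.Igusa.Carayol.RootAlgebra
import Fermat.Agent.Igusa.Carayol.LevelTwoBranches
import Fermat.Agent.Igusa.Carayol.LevelTwoMeet
import Fermat.Agent.Igusa.Carayol.LevelTwoRegular

/-!
Local shapes of the special fibre of level `N q²`: regular points, branches with a parameter, and
how to recognise them at a point lying on one branch only.
-/

set_option autoImplicit false
set_option linter.style.haveILetI false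
set_option maxHeartbeats 400000
set_option synthInstance.maxHeartbeats 100000

noncomputable section

open ModularCurve HahnSeries FermatLib.Igusa

namespace FermatLib.Igusa.Carayol

namespace Tower

variable {q : ℕ} [NeZero q] {T : Tower q} {t : T.F₀}

/-- The functions whose `m`-th power is divisible by `f` at a point form a principal module. -/
def RootPrincipalAt {t : T.F₀} (x : Ideal (T.chart₂ t)) : Prop :=
  ∀ (m : ℕ), (m : T.k) ≠ 0 → ∀ f : T.F₂, f ≠ 0 → ∃ h : T.F₂, h ≠ 0 ∧ ∀ a : T.F₂,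
    (∃ s : T.chart₂ t, s ∉ x ∧ (s : T.F₂) * (a ^ m / f) ∈ T.chart₂ t) ↔
      ∃ s c : T.chart₂ t, s ∉ x ∧ (s : T.F₂) * a = c * h

/-- A branch is nonsingular at a point. -/
def BranchRegularAt {t : T.F₀} (i : Fin 3) (x : Ideal (T.chart₂ t)) : Prop :=
  ∀ a b : T.chart₂ t, T.red₂ i b ≠ 0 → ∃ c s : T.chart₂ t, s ∉ x ∧
    (T.red₂ i s * T.red₂ i a = T.red₂ i b * T.red₂ i c ∨
      (c ∈ x ∧ T.red₂ i s * T.red₂ i b = T.red₂ i a * T.red₂ i c))

/-- The point is cut out locally by two functions. -/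
def RegularPoint {t : T.F₀} (x : Ideal (T.chart₂ t)) : Prop :=
  ∃ p r : T.chart₂ t, p ∈ x ∧ r ∈ x ∧ ∀ a ∈ x, ∃ s ∉ x, s * a ∈ Ideal.span {p, r}

/-- On the branch the point is cut out by one function. -/
def BranchParam {t : T.F₀} (i : Fin 3) (x : Ideal (T.chart₂ t)) : Prop :=
  ∃ w ∈ x, ∀ a ∈ x, ∃ s c : T.chart₂ t, s ∉ x ∧
    T.red₂ i s * T.red₂ i a = T.red₂ i w * T.red₂ i c

/-- A local equation of the middle branch: it divides `q` and is not divisible by `(ζ - 1)²` on
that branch. -/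
def MiddleEquation {t : T.F₀} (x : Ideal (T.chart₂ t)) : Prop :=
  ∃ w : T.chart₂ t, T.red₂ 1 (w : T.F₂) = 0 ∧
    (∃ s c : T.chart₂ t, s ∉ x ∧ s * (q : T.chart₂ t) = w * c) ∧
    T.red (T.εb (w : T.F₂) /
      algebraMap T.L (LaurentSeries T.L) (((T.ζ : T.A) : T.L) - 1)) ≠ 0

section shape

variable (ht : T.ChartParam t)

include ht in
/-- On each branch the parameter of the chart stays transcendental after reduction. -/
theorem transcendental_red₂_param (i : Fin 3) :
    Transcendental T.k (T.red₂ i (T.ι₁ (T.ι₀ t))) := by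
  rcases branch_ι₁ι₀ i t with h | h <;> show Transcendental T.k (T.red (T.branch i _)) <;> rw [h]
  · exact ht.red_transcendental
  · show Transcendental T.k (gred T.π _)
    rw [(qExpand_mem_gaussInt (π := T.π) q (qExpand_mem_gaussInt (π := T.π) q ht.int).1).2,
      (qExpand_mem_gaussInt (π := T.π) q ht.int).2]
    let f : LaurentSeries T.k →ₐ[T.k] LaurentSeries T.k :=
      { (qExpand T.k q).comp (qExpand T.k q) with
        commutes' := fun c => by simp [algebraMap_laurentSeries_eq_single] }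
    exact fun hA => ht.red_transcendental
      ((isAlgebraic_algHom_iff f f.toRingHom.injective).mp hA)

/-- `W[X]` to the chart of level `N q²`. -/
def shapePoly (t : T.F₀) : Polynomial T.W →+* T.chart₂ t :=
  (Polynomial.aeval (⟨T.ι₁ (T.ι₀ t), ι₁_mem_chart₂ (ι₀_mem_chart₁ mem_chart₀_self)⟩ :
    T.chart₂ t)).toRingHom

include ht in
theorem shapePoly_isIntegral : (shapePoly t : Polynomial T.W →+* T.chart₂ t).IsIntegral := by
  intro c
  obtain ⟨p, hp, hpc⟩ :=
    (c.2 : IsIntegral (Algebra.adjoin T.W {T.ι₁ (T.ι₀ t)}) (c : T.F₂))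
  let e : Algebra.adjoin T.W {T.ι₁ (T.ι₀ t)} →+* Polynomial T.W :=
    (T.adjoinPolyEquiv (transcendental_ι₁ι₀ ht)).symm.toAlgHom.toRingHom
  have hge : ∀ r, (shapePoly t (e r) : T.F₂) = r := fun r => by
    show (((Polynomial.aeval (R := T.W) (⟨T.ι₁ (T.ι₀ t),
      ι₁_mem_chart₂ (ι₀_mem_chart₁ mem_chart₀_self)⟩ : T.chart₂ t))
      ((T.adjoinPolyEquiv (transcendental_ι₁ι₀ ht)).symm r) : T.chart₂ t) : T.F₂) = r
    rw [← Subalgebra.coe_val, ← Polynomial.aeval_algHom_apply]
    exact congrArg Subtype.val ((T.adjoinPolyEquiv (transcendental_ι₁ι₀ ht)).apply_symm_apply r)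
  refine ⟨p.map e, hp.map _, Subtype.ext ?_⟩
  show (T.chart₂ t).val.toRingHom _ = _
  rw [Polynomial.hom_eval₂, Polynomial.eval₂_map,
    show ((T.chart₂ t).val.toRingHom.comp (shapePoly t)).comp e =
      algebraMap (Algebra.adjoin T.W {T.ι₁ (T.ι₀ t)}) T.F₂ from RingHom.ext hge]
  exact hpc

include ht in
theorem redBranch_shapePoly (i : Fin 3) :
    (redBranch ht i).comp (shapePoly t) =
      (Polynomial.aeval (T.red₂ i (T.ι₁ (T.ι₀ t)))).toRingHom.comp
        (Polynomial.mapRingHom T.πW) := by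
  refine Polynomial.ringHom_ext (fun w => ?_) ?_
  · show redBranch ht i (Polynomial.aeval _ (Polynomial.C w)) =
      Polynomial.aeval _ ((Polynomial.C w).map T.πW)
    rw [Polynomial.aeval_C, Polynomial.map_C, Polynomial.aeval_C, redBranch_apply]
    show T.red (T.branch i (algebraMap T.W T.F₂ w)) = _
    rw [IsScalarTower.algebraMap_apply T.W T.K T.F₂, branch_algebraMap]
    exact gred_algebraMap (π := T.π) ⟨algebraMap T.K T.L (w : T.K), T.coe_mem_A w⟩
  · show redBranch ht i (Polynomial.aeval _ (Polynomial.X : Polynomial T.W)) =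
      Polynomial.aeval _ ((Polynomial.X : Polynomial T.W).map T.πW)
    rw [Polynomial.aeval_X, Polynomial.map_X, Polynomial.aeval_X, redBranch_apply]

include ht in
/-- A point of the special fibre is not a generic point of a branch. -/
theorem ker_redBranch_ne (i : Fin 3) (x : Ideal (T.chart₂ t)) [x.IsMaximal] :
    RingHom.ker (redBranch ht i) ≠ x := by
  intro h
  haveI hm : (x.comap (shapePoly t)).IsMaximal :=
    Ideal.isMaximal_comap_of_isIntegral_of_isMaximal' _ (shapePoly_isIntegral ht) x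
  have h1 : x.comap (shapePoly t) = RingHom.ker (Polynomial.mapRingHom T.πW) := by
    rw [← h, RingHom.comap_ker, redBranch_shapePoly ht i, RingHom.ker_comp_of_injective _
      (transcendental_iff_injective.mp (transcendental_red₂_param ht i))]
  rw [h1] at hm
  have hsurj : Function.Surjective (Polynomial.mapRingHom T.πW) :=
    Polynomial.map_surjective T.πW T.πW_surjective
  exact Polynomial.not_isField T.k (MulEquiv.isField
    ((Ideal.Quotient.maximal_ideal_iff_isField_quotient _).mp hm)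
    (RingHom.quotientKerEquivOfSurjective hsurj).symm.toMulEquiv)

include ht in
theorem two_le_height (x : Ideal (T.chart₂ t)) [x.IsMaximal] (i : Fin 3) (hi : Thru i x) :
    2 ≤ x.height := by
  haveI : Algebra.FiniteType T.W (T.chart₂ t) :=
    T.closure_finiteType (transcendental_ι₁ι₀ ht) (finite_adjoin₂ ht)
  haveI := T.isDiscreteValuationRing_W
  haveI : IsNoetherianRing (T.chart₂ t) := Algebra.FiniteType.isNoetherianRing T.W _
  haveI : (RingHom.ker (redBranch ht i)).IsPrime := RingHom.ker_isPrime _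
  have hle : RingHom.ker (redBranch ht i) ≤ x := fun a ha => hi a (RingHom.mem_ker.mp ha)
  have h1 := Ideal.height_strict_mono_of_isPrime_of_isPrime
    (lt_of_le_of_ne hle (ker_redBranch_ne ht i x))
  have hq : (q : T.chart₂ t) ≠ 0 := fun h => by
    haveI := T.charZeroK
    haveI : CharZero T.F₂ := charZero_of_injective_algebraMap (algebraMap T.K T.F₂).injective
    exact NeZero.ne q (by exact_mod_cast (congrArg Subtype.val h : ((q : T.chart₂ t) : T.F₂) = 0))
  have h2 : RingHom.ker (redBranch ht i) ≠ ⊥ := fun hb => hq (Ideal.mem_bot.mp (hb ▸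
    RingHom.mem_ker.mpr (by
      rw [map_natCast, ← map_natCast (algebraMap T.k (LaurentSeries T.k)), CharP.cast_eq_zero,
        map_zero])))
  have h3 : (RingHom.ker (redBranch ht i)).height ≠ 0 := by
    rw [ne_eq, Ideal.height_eq_zero_iff_eq_bot]
    exact h2
  have h4 : (1 : ℕ∞) < x.height := lt_of_le_of_lt (Order.one_le_iff_pos.mpr h3.bot_lt) h1
  simpa [one_add_one_eq_two] using Order.add_one_le_of_lt h4

/-- `ζ - 1`. -/
abbrev zmOne (T : Tower q) : T.L := ((T.ζ : T.A) : T.L) - 1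

theorem exists_q_eq_zmOne_pow : ∃ c ∈ T.A, (q : T.L) = zmOne T ^ (q - 1) * c := by
  obtain ⟨d, hd⟩ : ∃ d, q = d + 1 := ⟨q - 1, (Nat.succ_pred T.prime.ne_zero).symm⟩
  have hζ : IsPrimitiveRoot (((T.ζ : T.A) : T.L)) (d + 1) := hd ▸ T.ζ_primitive
  have h := hζ.prod_one_sub_pow_eq_order
  refine ⟨∏ l ∈ Finset.range d,
    (-1 : T.L) * ∑ i ∈ Finset.range (l + 1), ((T.ζ : T.A) : T.L) ^ i, ?_, ?_⟩
  · exact prod_mem fun l _ => mul_mem (neg_mem (one_mem _)) (sum_mem fun i _ =>
      pow_mem (T.ζ : T.A).2 _)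
  · have hqc : (q : T.L) = ((d + 1 : ℕ) : T.L) := congrArg Nat.cast hd
    rw [show q - 1 = d by omega, hqc, Nat.cast_succ, ← h,
      show zmOne T ^ d = ∏ _l ∈ Finset.range d, zmOne T by
        rw [Finset.prod_const, Finset.card_range], ← Finset.prod_mul_distrib]
    refine Finset.prod_congr rfl fun l _ => ?_
    rw [zmOne, neg_one_mul, mul_neg, mul_comm, geom_sum_mul, neg_sub]

theorem zmOne_ne_zero : zmOne T ≠ 0 := fun h => by
  haveI : CharZero T.L := charZero_of_injective_algebraMap (algebraMap T.K T.L).injective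
  obtain ⟨c, -, hc⟩ := exists_q_eq_zmOne_pow (T := T)
  rw [h, zero_pow (Nat.sub_ne_zero_of_lt T.prime.one_lt), zero_mul] at hc
  exact Nat.cast_ne_zero.mpr T.prime.ne_zero hc

/-- A series reducing to zero is divisible by `ζ - 1`. -/
theorem div_zmOne_mem_gaussInt {g : LaurentSeries T.L} (hg : g ∈ gaussInt T.π)
    (h0 : T.red g = 0) : g / algebraMap T.L (LaurentSeries T.L) (zmOne T) ∈ gaussInt T.π := by
  obtain ⟨ϖ, hϖ⟩ := IsDiscreteValuationRing.exists_irreducible T.A
  obtain ⟨g', hg', rfl⟩ := exists_eq_irreducible_mul T.π_eq_zero hϖ hg h0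
  obtain ⟨d, hd⟩ := T.ram ϖ hϖ.not_isUnit
  obtain ⟨c, hc, hqc⟩ := exists_q_eq_zmOne_pow (T := T)
  have hu : (ϖ : T.L) / zmOne T ∈ T.A := by
    have hpow : ((ϖ : T.L) / zmOne T) ^ (q - 1) ∈ T.A := by
      have h := congrArg (fun a : T.A => (a : T.L)) hd
      simp only [SubmonoidClass.coe_pow, MulMemClass.coe_mul] at h
      rw [div_pow, h, show ((q : T.A) : T.L) = (q : T.L) from map_natCast T.A.subtype q, hqc,
        mul_assoc, mul_div_cancel_left₀ _ (pow_ne_zero _ (zmOne_ne_zero (T := T)))]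
      exact mul_mem hc d.2
    rcases T.A.mem_or_inv_mem ((ϖ : T.L) / zmOne T) with h | h
    · exact h
    · by_contra hn
      rw [← T.A.valuation_le_one_iff, map_pow, ] at hpow
      exact hn ((T.A.valuation_le_one_iff _).mp
        ((pow_le_one_iff (Nat.sub_ne_zero_of_lt T.prime.one_lt)).mp hpow))
  rw [mul_div_right_comm, ← map_div₀]
  exact mul_mem (algebraMap_mem_gaussInt ⟨_, hu⟩) hg'

/-- Division by `q` on the rational branches. -/
theorem div_q_outer {i : Fin 3} (hi : i ≠ 1) {b : T.F₂} (hb : T.branch i b ∈ gaussInt T.π)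
    (h0 : T.red₂ i b = 0) : T.branch i (b / (q : T.F₂)) ∈ gaussInt T.π := by
  rcases eq_or_ne b 0 with rfl | hb0
  · rw [zero_div, map_zero]; exact zero_mem _
  have key : ∀ c : T.F₂, c ≠ 0 → T.ε c ∈ gaussInt T.π → T.red (T.ε c) = 0 →
      T.ε c / (q : LaurentSeries T.L) ∈ gaussInt T.π := fun c hc h hz => by
    obtain ⟨n, hn, hn0⟩ := T.ε_content c hc
    have := div_q_mem_gaussInt h hz hn hn0
    rwa [map_inv₀, map_natCast, ← div_eq_inv_mul] at this
  rw [map_div₀, map_natCast]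
  fin_cases i
  · exact key b hb0 hb h0
  · exact absurd rfl hi
  · exact key (T.w₂ b) (by simpa using hb0) hb h0

include ht in
theorem isIntegral_adjoin_K₂ (a : T.chart₂ t) :
    IsIntegral (Algebra.adjoin T.K {T.ι₁ (T.ι₀ t)}) (a : T.F₂) := by
  obtain ⟨p, hp, hpa⟩ := a.2
  have hmem : ∀ r ∈ Algebra.adjoin T.W {T.ι₁ (T.ι₀ t)},
      r ∈ Algebra.adjoin T.K {T.ι₁ (T.ι₀ t)} := fun r hr => by
    induction hr using Algebra.adjoin_induction with
    | mem z hz => exact Algebra.subset_adjoin hz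
    | algebraMap w =>
      rw [IsScalarTower.algebraMap_apply T.W T.K T.F₂]
      exact Subalgebra.algebraMap_mem _ _
    | add x y _ _ hx hy => exact add_mem hx hy
    | mul x y _ _ hx hy => exact mul_mem hx hy
  refine ⟨p.map ((Algebra.adjoin T.W {T.ι₁ (T.ι₀ t)}).val.toRingHom.codRestrict _
    fun r => hmem _ r.2), hp.map _, ?_⟩
  rw [Polynomial.eval₂_map]
  exact hpa

include ht in
/-- An element `c / q` integral on the only branch through the point is integral at the point. -/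
theorem exists_mul_div_q_mem (x : Ideal (T.chart₂ t)) [x.IsMaximal] (i : Fin 3)
    (honly : ∀ l, Thru l x → l = i) (c : T.chart₂ t)
    (hi : T.branch i ((c : T.F₂) / (q : T.F₂)) ∈ gaussInt T.π) :
    ∃ s : T.chart₂ t, s ∉ x ∧ ∃ d : T.chart₂ t, s * c = (q : T.chart₂ t) * d := by
  classical
  haveI := T.charZeroK
  haveI : CharZero T.F₂ := charZero_of_injective_algebraMap (algebraMap T.K T.F₂).injective
  have hsep : ∀ l, ∃ g : T.chart₂ t, g ∉ x ∧ (l ≠ i → T.red₂ l (g : T.F₂) = 0) := by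
    intro l
    by_cases hl : l = i
    · exact ⟨1, fun h => Ideal.IsMaximal.ne_top ‹_› ((Ideal.eq_top_iff_one x).mpr h),
        fun h => absurd hl h⟩
    · have hn : ¬ Thru l x := fun h => hl (honly l h)
      simp only [Thru, not_forall] at hn
      obtain ⟨g, hg, hgx⟩ := hn
      exact ⟨g, hgx, fun _ => hg⟩
  choose g hgx hg0 using hsep
  set S : T.chart₂ t := ∏ l, g l with hS
  have hSx : S ∉ x := fun h => by
    obtain ⟨l, -, hl⟩ := Ideal.IsPrime.prod_mem_iff.mp h
    exact hgx l hl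
  have hS0 : ∀ l, l ≠ i → T.red₂ l (S : T.F₂) = 0 := fun l hl => by
    rw [← redBranch_apply ht, hS, map_prod]
    exact Finset.prod_eq_zero (Finset.mem_univ l) (by rw [redBranch_apply]; exact hg0 l hl)
  have habs : ∀ l, ∃ N₀ : ℕ, ∀ N, N₀ ≤ N →
      T.branch l ((c : T.F₂) / (q : T.F₂) * (S : T.F₂) ^ N) ∈ gaussInt T.π := by
    intro l
    by_cases hl : l = i
    · refine ⟨0, fun N _ => ?_⟩
      rw [hl, map_mul, map_pow]
      exact mul_mem hi (pow_mem (branch_mem_gaussInt ht i S) N)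
    · obtain ⟨N₀, hN⟩ := exists_pow_absorb T.π_eq_zero (T.branch_bounded l ((c : T.F₂) / q))
        (branch_mem_gaussInt ht l S) (hS0 l hl)
      exact ⟨N₀, fun N h => by rw [map_mul, map_pow]; exact (hN N h).1⟩
  choose N₀ hN₀ using habs
  set N := Finset.univ.sup N₀
  have hmem : (c : T.F₂) / (q : T.F₂) * (S : T.F₂) ^ N ∈ T.chart₂ t := by
    refine mem_chart₂_of_branches ht _ ?_ fun l => hN₀ l N (Finset.le_sup (Finset.mem_univ l))
    rw [div_eq_mul_inv]
    refine ((isIntegral_adjoin_K₂ ht c).mul ?_).mul ((isIntegral_adjoin_K₂ ht S).pow _)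
    rw [← map_natCast (algebraMap T.K T.F₂), ← map_inv₀]
    exact isIntegral_algebraMap (R := Algebra.adjoin T.K {T.ι₁ (T.ι₀ t)})
      (x := algebraMap T.K _ (q : T.K)⁻¹)
  refine ⟨S ^ N, fun h => hSx (Ideal.IsMaximal.isPrime ‹_› |>.mem_of_pow_mem N h), ⟨_, hmem⟩,
    Subtype.ext ?_⟩
  push_cast
  have hq0 : (q : T.F₂) ≠ 0 := Nat.cast_ne_zero.mpr T.prime.ne_zero
  field_simp

end shape

theorem rootPrincipalAt_of_regular (ht : T.ChartParam t) (x : Ideal (T.chart₂ t))
    [x.IsMaximal] (hx : (q : T.chart₂ t) ∈ x) (i : Fin 3) (hi : Thru i x) (h : RegularPoint x) :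
    RootPrincipalAt x := by
  intro m hm f hf
  obtain ⟨p, r, hp, hr, hgen⟩ := h
  have hm0 : m ≠ 0 := by rintro rfl; simp at hm
  haveI := isFractionRing_chart₂ ht
  haveI := isIntegrallyClosed_chart₂ ht
  haveI : IsNoetherianRing (T.chart₂ t) := by
    haveI := T.isDiscreteValuationRing_W
    haveI : Algebra.FiniteType T.W (T.chart₂ t) :=
      T.closure_finiteType (transcendental_ι₁ι₀ ht) (finite_adjoin₂ ht)
    exact Algebra.FiniteType.isNoetherianRing T.W (T.chart₂ t)
  let A := Localization.subalgebra.ofField T.F₂ x.primeCompl x.primeCompl_le_nonZeroDivisors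
  haveI : IsLocalization.AtPrime A x :=
    Localization.subalgebra.isLocalization_ofField T.F₂ x.primeCompl x.primeCompl_le_nonZeroDivisors
  haveI : IsLocalRing A := IsLocalization.AtPrime.isLocalRing A x
  haveI : IsNoetherianRing A := IsLocalization.isNoetherianRing x.primeCompl A inferInstance
  haveI : IsIntegrallyClosed A :=
    isIntegrallyClosed_of_isLocalization A x.primeCompl x.primeCompl_le_nonZeroDivisors
  have hmemA : ∀ z : T.F₂,
      z ∈ A ↔ ∃ s : T.chart₂ t, s ∉ x ∧ (s : T.F₂) * z ∈ T.chart₂ t := fun z => by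
    constructor
    · intro hz
      obtain ⟨⟨c, s, hs⟩, hcs⟩ := IsLocalization.surj x.primeCompl (⟨z, hz⟩ : A)
      have h1 := congrArg (fun a : A => (a : T.F₂)) hcs
      exact ⟨s, hs, by rw [mul_comm]; exact (show z * (s : T.F₂) = (c : T.F₂) from h1) ▸ c.2⟩
    · rintro ⟨s, hs, hsz⟩
      have h0 : (s : T.F₂) ≠ 0 := fun h0 => hs ((Subtype.ext h0 : s = 0) ▸ x.zero_mem)
      obtain ⟨u, hu⟩ := IsLocalization.map_units A (⟨s, hs⟩ : x.primeCompl)
      have h2 : z = ((algebraMap (T.chart₂ t) A ⟨_, hsz⟩ * ↑u⁻¹ : A) : T.F₂) := by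
        have h3 := congrArg (fun a : A => (a : T.F₂)) u.mul_inv
        simp only [hu] at h3
        have h4 : (s : T.F₂) * ((↑u⁻¹ : A) : T.F₂) = 1 := h3
        show z = (s : T.F₂) * z * ((↑u⁻¹ : A) : T.F₂)
        rw [mul_right_comm, h4, one_mul]
      exact h2 ▸ SetLike.coe_mem _
  have hmax : IsLocalRing.maximalIdeal A =
      Ideal.span {algebraMap (T.chart₂ t) A p, algebraMap (T.chart₂ t) A r} := by
    rw [← IsLocalization.AtPrime.map_eq_maximalIdeal x A]
    refine le_antisymm (Ideal.map_le_iff_le_comap.mpr fun a ha => ?_) ?_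
    · obtain ⟨s, hs, hsa⟩ := hgen a ha
      have h1 := Ideal.mem_map_of_mem (algebraMap (T.chart₂ t) A) hsa
      rw [Ideal.map_span, Set.image_pair, map_mul] at h1
      exact (Ideal.unit_mul_mem_iff_mem _
        (IsLocalization.map_units A (⟨s, hs⟩ : x.primeCompl))).mp h1
    · rw [Ideal.span_le]
      intro z hz
      rcases hz with rfl | rfl
      · exact Ideal.mem_map_of_mem _ hp
      · exact Ideal.mem_map_of_mem _ hr
  have hdim : 2 ≤ ringKrullDim A := by
    rw [IsLocalization.AtPrime.ringKrullDim_eq_height x A]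
    exact WithBot.coe_le_coe.mpr (two_le_height ht x i hi)
  obtain ⟨g, hg⟩ := exists_rootModule_eq_span A _ _ hmax hdim f hf hm0 (F := T.F₂)
  have hiff : ∀ a : T.F₂, a ^ m / f ∈ A ↔ ∃ e ∈ A, a = e * g := fun a => by
    have h1 : a ∈ rootModule A f hm0 ↔ a ^ m / f ∈ A := by
      rw [mem_rootModule, RingHom.mem_range]
      exact ⟨fun ⟨e, he⟩ => he ▸ e.2, fun he => ⟨⟨_, he⟩, rfl⟩⟩
    rw [← h1, hg, Submodule.mem_span_singleton]
    exact ⟨fun ⟨e, he⟩ => ⟨e, e.2, he.symm⟩, fun ⟨e, he, hae⟩ => ⟨⟨e, he⟩, hae.symm⟩⟩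
  have hg0 : g ≠ 0 := by
    rintro rfl
    obtain ⟨a, ha, hain⟩ := exists_ne_zero_mem_rootModule A f hf hm0
    rw [hg, Submodule.span_singleton_eq_bot.mpr rfl, Submodule.mem_bot] at hain
    exact ha hain
  refine ⟨g, hg0, fun a => ?_⟩
  rw [← hmemA, hiff]
  constructor
  · rintro ⟨e, he, rfl⟩
    obtain ⟨s, hs, hse⟩ := (hmemA e).mp he
    exact ⟨s, ⟨_, hse⟩, hs, (mul_assoc _ _ _).symm⟩
  · rintro ⟨s, c, hs, hsc⟩
    have hs0 : (s : T.F₂) ≠ 0 := fun h0 => hs ((Subtype.ext h0 : s = 0) ▸ x.zero_mem)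
    refine ⟨a / g, (hmemA _).mpr ⟨s, hs, ?_⟩, (div_mul_cancel₀ a hg0).symm⟩
    rw [mul_div_assoc', hsc, mul_div_cancel_right₀ _ hg0]
    exact c.2

/-- A point of one outer branch only. -/
theorem regular_of_outer (ht : T.ChartParam t) (x : Ideal (T.chart₂ t)) [x.IsMaximal]
    (hx : (q : T.chart₂ t) ∈ x) (i : Fin 3) (hi1 : i ≠ 1) (hi : Thru i x)
    (honly : ∀ l, Thru l x → l = i) (h : BranchParam i x) : RegularPoint x := by
  obtain ⟨w, hw, hgen⟩ := h
  refine ⟨(q : T.chart₂ t), w, hx, hw, fun a ha => ?_⟩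
  obtain ⟨s, c, hs, he⟩ := hgen a ha
  have hb0 : T.red₂ i ((s * a - w * c : T.chart₂ t) : T.F₂) = 0 := by
    rw [← redBranch_apply ht, map_sub, map_mul, map_mul, redBranch_apply, redBranch_apply,
      redBranch_apply, redBranch_apply, he, sub_self]
  obtain ⟨s', hs', d, hd⟩ := exists_mul_div_q_mem ht x i honly (s * a - w * c)
    (div_q_outer hi1 (branch_mem_gaussInt ht i _) hb0)
  refine ⟨s' * s, fun hss => (Ideal.IsMaximal.isPrime ‹_› |>.mem_or_mem hss).elim hs' hs,
    Ideal.mem_span_pair.mpr ⟨d, s' * c, ?_⟩⟩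
  linear_combination -hd

/-- A point of the middle branch only, given its equation. -/
theorem regular_of_middle (ht : T.ChartParam t) (x : Ideal (T.chart₂ t)) [x.IsMaximal]
    (hx : (q : T.chart₂ t) ∈ x) (hi : Thru 1 x) (honly : ∀ l, Thru l x → l = 1)
    (h : BranchParam 1 x) (hw : MiddleEquation x) : RegularPoint x := by
  haveI := T.charZeroK
  haveI : CharZero T.F₂ := charZero_of_injective_algebraMap (algebraMap T.K T.F₂).injective
  obtain ⟨r, hr, hgen⟩ := h
  obtain ⟨w, hw0, ⟨s₁, c₁, hs₁, hsw⟩, hwz⟩ := hw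
  refine ⟨w, r, hi w hw0, hr, fun a ha => ?_⟩
  obtain ⟨s, c, hs, he⟩ := hgen a ha
  set b := s * a - r * c with hb
  have hb0 : T.red₂ 1 (b : T.F₂) = 0 := by
    rw [← redBranch_apply ht, hb, map_sub, map_mul, map_mul, redBranch_apply, redBranch_apply,
      redBranch_apply, redBranch_apply, he, sub_self]
  set z := algebraMap T.L (LaurentSeries T.L) (zmOne T) with hz
  have hz0 : z ≠ 0 := (map_ne_zero _).mpr (zmOne_ne_zero (T := T))
  have hwi : T.εb (w : T.F₂) / z ∈ gaussInt T.π :=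
    div_zmOne_mem_gaussInt (branch_mem_gaussInt ht 1 w) hw0
  have hwF : (w : T.F₂) ≠ 0 := fun h0 => hwz (by
    rw [h0, map_zero, zero_div]; exact gred_zero)
  have hq0 : (q : T.F₂) ≠ 0 := Nat.cast_ne_zero.mpr T.prime.ne_zero
  have hsw' : (s₁ : T.F₂) * (q : T.F₂) = w * c₁ := by
    have := congrArg (fun a : T.chart₂ t => (a : T.F₂)) hsw
    simpa using this
  have hint : T.branch 1 (((b * c₁ : T.chart₂ t) : T.F₂) / (q : T.F₂)) ∈ gaussInt T.π := by
    have e : ((b * c₁ : T.chart₂ t) : T.F₂) / (q : T.F₂) = (b : T.F₂) / w * s₁ := by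
      push_cast
      field_simp
      linear_combination -(b : T.F₂) * hsw'
    show T.εb _ ∈ _
    rw [e, map_mul, map_div₀, ← div_div_div_cancel_right₀ hz0 (T.εb (b : T.F₂)), div_eq_mul_inv]
    exact mul_mem (mul_mem (div_zmOne_mem_gaussInt (branch_mem_gaussInt ht 1 b) hb0)
      (inv_mem_gaussInt hwi hwz)) (branch_mem_gaussInt ht 1 s₁)
  obtain ⟨s', hs', d, hd⟩ := exists_mul_div_q_mem ht x 1 honly (b * c₁) hint
  have hpr := Ideal.IsMaximal.isPrime ‹x.IsMaximal›
  refine ⟨s' * s₁ * s,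
    fun hss => (hpr.mem_or_mem hss).elim (fun h1 => (hpr.mem_or_mem h1).elim hs' hs₁) hs,
    Ideal.mem_span_pair.mpr ⟨d, s' * s₁ * c, ?_⟩⟩
  have hqC : (q : T.chart₂ t) ≠ 0 := fun h0 => hq0 (by
    simpa using congrArg (fun a : T.chart₂ t => (a : T.F₂)) h0)
  refine mul_left_cancel₀ hqC ?_
  linear_combination -(w : T.chart₂ t) * hd + (-(s' * b)) * hsw

end Tower

end FermatLib.Igusa.Carayol
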