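import Mathlib
import Fermat.Agent.Igusa.Carayol.LevelOne
import Fermat.Agent.Igusa.Carayol.LevelTwoShape
import Fermat.Agent.Igusa.Carayol.LevelTwoMeet
import Fermat.Agent.Igusa.Carayol.LevelTwoCuspLocal
import Fermat.Agent.Igusa.Carayol.RegularLemmas

/-!
The cusps of level `N q²`: the three images of `1/j` vanish there, every branch is uniformised by
a parameter of level `N`, and on the middle branch `q` is a multiple of `w = j(τ)/j(q²τ) - 1`
(read along the tower as the ratio of the two outer images of `1/j`).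
-/

set_option autoImplicit false
set_option linter.style.haveILetI false
set_option maxHeartbeats 400000
set_option synthInstance.maxHeartbeats 100000

noncomputable section

open ModularCurve HahnSeries FermatLib.Igusa

namespace FermatLib.Igusa.Carayol

/-- `(1 + X) ^ p - 1 = X ^ p + p X T` with `T ≡ 1` modulo `X`. -/
theorem exists_one_add_pow_prime {R : Type*} [CommRing R] {p : ℕ} (hp : p.Prime) (w : R) :
    ∃ c : R, (w + 1) ^ p - 1 = w ^ p + (p : R) * w * (1 + w * c) := by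
  obtain ⟨T, hT⟩ := exists_add_pow_prime_eq hp (Polynomial.X : Polynomial ℤ) 1
  have h1 := congrArg (fun f : Polynomial ℤ => f.coeff 1) hT
  have hp1 : p ≠ 1 := hp.ne_one
  simp only [Polynomial.coeff_X_add_one_pow, Nat.choose_one_right, mul_one, one_pow,
    Polynomial.coeff_add, Polynomial.coeff_X_pow, if_neg hp1.symm, Polynomial.coeff_one,
    if_neg one_ne_zero, zero_add] at h1
  rw [mul_assoc, Polynomial.coeff_natCast_mul, Polynomial.coeff_X_mul] at h1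
  have hT0 : T.coeff 0 = 1 :=
    (mul_left_cancel₀ (Nat.cast_ne_zero.mpr hp.ne_zero) (h1.symm.trans (mul_one _).symm))
  obtain ⟨c, hc⟩ : Polynomial.X ∣ T - Polynomial.C (T.coeff 0) := Polynomial.X_dvd_sub_C
  rw [hT0, Polynomial.C_1, sub_eq_iff_eq_add] at hc
  refine ⟨Polynomial.aeval w c, ?_⟩
  have h2 := congrArg (Polynomial.aeval w) hT
  rw [hc] at h2
  simp only [map_add, map_mul, map_pow, map_one, Polynomial.aeval_X, map_natCast, one_pow,
    mul_one] at h2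
  rw [h2]
  ring

namespace Tower

variable {q : ℕ} [NeZero q] {T : Tower q}

section series

/-- `(ζ^n - 1)/(ζ - 1)` is integral and reduces to `n`. -/
theorem exists_zeta_zpow_sub (n : ℤ) : ∃ e : T.A,
    (((T.ζ : T.A) - 1 : T.A) : T.L) * e = ((T.toBase.ζL ^ n : T.Lˣ) : T.L) - 1 ∧
      T.π e = (n : T.k) := by
  have hq : (0 : ℤ) < q := by exact_mod_cast T.prime.pos
  obtain ⟨m, hm⟩ : ∃ m : ℕ, (m : ℤ) = n % q :=
    ⟨(n % q).toNat, Int.toNat_of_nonneg (Int.emod_nonneg _ hq.ne')⟩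
  refine ⟨∑ i ∈ Finset.range m, (T.ζ : T.A) ^ i, ?_, ?_⟩
  · have hz : T.toBase.ζL ^ n = T.toBase.ζL ^ m := by
      rw [← zpow_natCast, hm]
      conv_lhs => rw [← Int.emod_add_mul_ediv n q, zpow_add, zpow_mul, zpow_natCast, T.ζL_pow,
        one_zpow, mul_one]
    rw [hz, ← MulMemClass.coe_mul, mul_comm, geom_sum_mul, Units.val_pow_eq_pow_val]
    push_cast
    rfl
  · rw [map_sum, Finset.sum_congr rfl fun i _ => by rw [map_pow, T.π_ζ, one_pow],
      Finset.sum_const, Finset.card_range, nsmul_one]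
    haveI := T.charP
    rw [← Int.cast_natCast, (CharP.intCast_eq_intCast T.k q).mpr]
    rw [hm]
    exact Int.mod_modEq n q

/-- Scaling by `ζ` moves an integral series by `(ζ - 1) θ`. -/
theorem exists_scale_sub_self (y : LaurentSeries T.A) : ∃ d : LaurentSeries T.A,
    monoNewScale T.toBase.ζL (latVal T.A y) - latVal T.A y =
      algebraMap T.L (LaurentSeries T.L) (((T.ζ : T.A) - 1 : T.A) : T.L) * latVal T.A d ∧
    latRed T.π d = thetaSeries (latRed T.π y) := by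
  choose e he hπ using exists_zeta_zpow_sub (T := T)
  refine ⟨⟨fun n => e n * y.coeff n, y.isPWO_support.mono fun n hn h => hn (by simp [h])⟩, ?_, ?_⟩
  · ext n
    rw [algebraMap_laurentSeries_eq_single, HahnSeries.coeff_sub, monoNewScale_coeff]
    show _ = (HahnSeries.single (0 : ℤ) _ * latVal T.A _).coeff n
    rw [HahnSeries.coeff_single_mul, sub_zero]
    show _ * (y.coeff n : T.L) - (y.coeff n : T.L) = _ * ((e n * y.coeff n : T.A) : T.L)
    rw [MulMemClass.coe_mul, ← mul_assoc, he]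
    ring
  · ext n
    show T.π (e n * y.coeff n) = (n : T.k) * T.π (y.coeff n)
    rw [map_mul, hπ]

theorem exists_lattice_j : ∃ y : LaurentSeries T.A, latVal T.A y = T.e₀ T.j ∧
    (latRed T.π y).coeff (-1) = 1 := by
  haveI : CharZero T.L := charZero_of_injective_algebraMap (algebraMap T.K T.L).injective
  choose z hz using T.j_int
  have hsupp : (Function.support z).IsPWO := (T.e₀ T.j).isPWO_support.mono fun i hi h => hi (by
    rw [e₀_apply, ← hz] at h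
    exact Int.cast_eq_zero.mp h)
  obtain ⟨h1, h2⟩ := latVal_intCast (A := T.A) (π := T.π) (⟨z, hsupp⟩ : LaurentSeries ℤ)
  refine ⟨_, h1.trans ?_, ?_⟩
  · ext i
    rw [e₀_apply, ← hz, coeffMap_coeff]
    rfl
  · rw [h2, coeffMap_coeff]
    have : z (-1) = 1 := by exact_mod_cast (hz (-1)).trans T.j_coeff
    show (Int.castRingHom T.k) (z (-1)) = 1
    rw [this, map_one]

end series

section point

variable (x : Ideal (T.chart₂ T.j⁻¹)) [x.IsMaximal]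

/-- The composite `β₁ ∘ w₁`. -/
def betaW : T.F₁ →ₐ[T.K] T.F₂ := T.β₁.comp (T.w₁ : T.F₁ →ₐ[T.K] T.F₁)

@[simp] theorem betaW_apply (y : T.F₁) : betaW (T := T) y = T.β₁ (T.w₁ y) := rfl

/-- Where `1/j` vanishes, so does `1/j(qτ)`. -/
theorem beta_inv_mem_maximalIdeal (hI : T.Inputs) (hx : (q : T.chart₂ T.j⁻¹) ∈ x)
    (η : T.F₁ →ₐ[T.K] T.F₂) (hη : η (T.ι₀ T.j⁻¹) ∈ locAt x)
    (hv : (⟨_, hη⟩ : locAt x) ∈ IsLocalRing.maximalIdeal (locAt x)) :
    ∃ h : η (T.β₀ T.j⁻¹) ∈ locAt x,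
      (⟨_, h⟩ : locAt x) ∈ IsLocalRing.maximalIdeal (locAt x) := by
  have ht := T.chartParam_jinv hI
  haveI := isMaximal_pullPoint ht η hη hx hv
  obtain ⟨r, -, -, ⟨u, s, hs, hu, hsu⟩, -⟩ :=
    cusp_point hI (pullPoint ht η hη) (q_mem_pullPoint ht η hη hx) vInf rfl hv
  obtain ⟨⟨e, e', he, -⟩, rfl⟩ := IsLocalRing.notMem_maximalIdeal.mp hs
  have h2 : η (T.β₀ T.j⁻¹) = (e' : T.F₂) * (pullHom ht η hη u : T.F₂) := by
    have h3 : (pullHom ht η hη s : T.F₂) * η (T.β₀ T.j⁻¹) = (pullHom ht η hη u : T.F₂) := by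
      rw [coe_pullHom, coe_pullHom, ← map_mul, hsu]
    rw [← h3, ← mul_assoc, mul_comm (e' : T.F₂), ← MulMemClass.coe_mul, he, OneMemClass.coe_one,
      one_mul]
  refine ⟨h2 ▸ mul_mem e'.2 (pullHom ht η hη u).2, ?_⟩
  rw [show (⟨η (T.β₀ T.j⁻¹), _⟩ : locAt x) = e' * pullHom ht η hη u from Subtype.ext h2]
  exact Ideal.mul_mem_left _ _ hu

variable {x}

theorem ι₁ι₀_inv_mem_maximalIdeal (v : T.chart₂ T.j⁻¹)
    (hv : (v : T.F₂) = T.ι₁ (T.ι₀ T.j⁻¹)) (hvx : v ∈ x) :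
    ∃ h : T.ι₁ (T.ι₀ T.j⁻¹) ∈ locAt x,
      (⟨_, h⟩ : locAt x) ∈ IsLocalRing.maximalIdeal (locAt x) :=
  ⟨hv ▸ coe_mem_locAt v, mem_maximalIdeal_locAt.mpr
    ⟨1, v, fun h => Ideal.IsMaximal.ne_top ‹x.IsMaximal› ((Ideal.eq_top_iff_one x).mpr h), hvx,
      by rw [OneMemClass.coe_one, one_mul]; exact hv.symm⟩⟩

/-- All three images of `1/j` vanish at a cusp. -/
theorem cusp_values (hI : T.Inputs) (hx : (q : T.chart₂ T.j⁻¹) ∈ x) (v : T.chart₂ T.j⁻¹)
    (hv : (v : T.F₂) = T.ι₁ (T.ι₀ T.j⁻¹)) (hvx : v ∈ x) :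
    (∃ h : T.ι₁ (T.β₀ T.j⁻¹) ∈ locAt x,
      (⟨_, h⟩ : locAt x) ∈ IsLocalRing.maximalIdeal (locAt x)) ∧
    ∃ h : T.β₁ (T.β₀ T.j⁻¹) ∈ locAt x,
      (⟨_, h⟩ : locAt x) ∈ IsLocalRing.maximalIdeal (locAt x) := by
  obtain ⟨h1, h1'⟩ := ι₁ι₀_inv_mem_maximalIdeal v hv hvx
  obtain ⟨h2, h2'⟩ := beta_inv_mem_maximalIdeal x hI hx T.ι₁ h1 h1'
  refine ⟨⟨h2, h2'⟩, ?_⟩
  have h : T.β₁ (T.ι₀ T.j⁻¹) ∈ locAt x := by rw [T.comm]; exact h2
  refine beta_inv_mem_maximalIdeal x hI hx T.β₁ h ?_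
  convert h2' using 1
  exact Subtype.ext (T.comm _)

/-- On the middle branch `w = β₁β₀(1/j)/ι₁ι₀(1/j) - 1` has valuation one. -/
theorem branch_one_ratio_sub_one :
    ∃ f : LaurentSeries T.L, f ∈ gaussInt T.π ∧ T.red f ≠ 0 ∧
      T.branch 1 (T.β₁ (T.β₀ T.j⁻¹) / T.ι₁ (T.ι₀ T.j⁻¹) - 1) =
        algebraMap T.L (LaurentSeries T.L) (((T.ζ : T.A) - 1 : T.A) : T.L) * f := by
  obtain ⟨y, hy, hy1⟩ := exists_lattice_j (T := T)
  obtain ⟨d, hd, hd'⟩ := exists_scale_sub_self y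
  rw [hy] at hd
  obtain ⟨hJ, hJ'⟩ := T.scaleζ_mem 1 T.e₀_j_int.1
  rw [pow_one] at hJ hJ'
  have hred : T.red₀ T.j = latRed T.π y := by rw [red₀, ← hy]; exact gred_latVal y
  have hy0 : latRed T.π y ≠ 0 := fun h => by rw [h] at hy1; simp at hy1
  have hθ : latRed T.π d ≠ 0 := fun h => by
    have := congrArg (fun f : LaurentSeries T.k => f.coeff (-1)) h
    rw [hd', thetaSeries_coeff, hy1] at this
    simp at this
  have hne : T.red (monoNewScale T.toBase.ζL (T.e₀ T.j)) ≠ 0 := by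
    rw [show T.red (monoNewScale T.toBase.ζL (T.e₀ T.j)) = _ from hJ',
      show T.red (T.e₀ T.j) = _ from hred]
    exact hy0
  have hinv := inv_mem_gaussInt hJ hne
  refine ⟨-latVal T.A d * (monoNewScale T.toBase.ζL (T.e₀ T.j))⁻¹,
    mul_mem (neg_mem (latVal_mem_gaussInt d)) hinv, ?_, ?_⟩
  · show gred T.π _ ≠ 0
    rw [gred_mul (neg_mem (latVal_mem_gaussInt d)) hinv, gred_inv hJ hne]
    refine mul_ne_zero ?_ (inv_ne_zero hne)
    show gaussIntRed T.π (-⟨_, latVal_mem_gaussInt d⟩) ≠ 0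
    rw [map_neg, neg_ne_zero, gaussIntRed_apply, gred_latVal]
    exact hθ
  · show T.εb _ = _
    rw [map_sub, map_one, map_div₀, T.εb_β₁, w₁_β₀, T.e₁_ι₀, T.εb_ι₁,
      show T.ε (T.ι₁ (T.ι₀ T.j⁻¹)) = T.e₀ T.j⁻¹ from rfl, map_inv₀, map_inv₀, inv_div_inv,
      neg_mul, mul_neg, ← mul_assoc, ← hd,
      div_sub_one (fun h => hne (by rw [h]; exact meet_red_zero)), div_eq_mul_inv, ← neg_mul,
      neg_sub]

theorem ratio_sub_one_ne_zero :
    T.β₁ (T.β₀ T.j⁻¹) / T.ι₁ (T.ι₀ T.j⁻¹) - 1 ≠ 0 := fun h => by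
  obtain ⟨f, hf, hf0, he⟩ := branch_one_ratio_sub_one (T := T)
  rw [h, map_zero, eq_comm, mul_eq_zero] at he
  rcases he with he | he
  · rw [_root_.map_eq_zero] at he
    refine T.ζ_primitive.ne_one T.prime.one_lt ?_
    rwa [AddSubgroupClass.coe_sub, OneMemClass.coe_one, sub_eq_zero] at he
  · exact hf0 (by rw [he]; exact meet_red_zero)

/-- **On the middle branch at a cusp `q` is a multiple of `w`.** -/
theorem middle_cusp (hI : T.Inputs) (hx : (q : T.chart₂ T.j⁻¹) ∈ x) (v : T.chart₂ T.j⁻¹)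
    (hv : (v : T.F₂) = T.ι₁ (T.ι₀ T.j⁻¹)) (hvx : v ∈ x) (hb : Thru 1 x) :
    (∃ s c : T.chart₂ T.j⁻¹, s ∉ x ∧ c ∈ x ∧
      (s : T.F₂) * (T.β₁ (T.β₀ T.j⁻¹) / T.ι₁ (T.ι₀ T.j⁻¹) - 1) = c) ∧
    ∃ s c : T.chart₂ T.j⁻¹, s ∉ x ∧
      (s : T.F₂) * q = c * (T.β₁ (T.β₀ T.j⁻¹) / T.ι₁ (T.ι₀ T.j⁻¹) - 1) := by
  have ht := T.chartParam_jinv hI
  haveI := isNoetherianRing_locAt (x := x) hI (Or.inr rfl)
  haveI := Fact.mk T.prime
  set m := IsLocalRing.maximalIdeal (locAt x) with hm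
  obtain ⟨h1, h1'⟩ := ι₁ι₀_inv_mem_maximalIdeal v hv hvx
  obtain ⟨h3, h3'⟩ := (cusp_values hI hx v hv hvx).2
  have h3w : betaW (T := T) (T.ι₀ T.j⁻¹) ∈ locAt x := by rwa [betaW_apply, T.w₁_ι₀]
  set η₁ := pullHom ht T.ι₁ h1 with hη₁
  set η₃ := pullHom ht betaW h3w with hη₃
  haveI := isMaximal_pullPoint ht T.ι₁ h1 hx h1'
  set y := pullPoint ht T.ι₁ h1 with hy
  have hsame : ∀ a, η₁ a - η₃ a ∈ m := fun a => by
    obtain ⟨hae, -⟩ := e₁_mem_gaussInt ht a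
    obtain ⟨hs, hs'⟩ := T.scaleζ_mem 1 hae
    rw [pow_one] at hs hs'
    have e : T.branch 1 ((η₁ a - η₃ a : locAt x) : T.F₂) =
        T.e₁ a - monoNewScale T.toBase.ζL (T.e₁ a) := by
      show T.εb _ = _
      rw [AddSubgroupClass.coe_sub, map_sub, hη₁, hη₃, coe_pullHom, coe_pullHom, betaW_apply,
        T.εb_ι₁, T.εb_β₁, T.w₁_w₁]
      rfl
    refine mem_maximalIdeal_of_red₂ ht hb _ (e ▸ sub_mem hae hs) ?_
    show T.red (T.branch 1 _) = 0
    rw [e]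
    show gaussIntRed T.π (⟨_, hae⟩ - ⟨_, hs⟩) = 0
    rw [map_sub, gaussIntRed_apply, gaussIntRed_apply, sub_eq_zero]
    exact hs'.symm
  have hy3 : ∀ a, a ∈ y → η₃ a ∈ m := fun a ha => by
    have h : η₁ a - (η₁ a - η₃ a) ∈ m := sub_mem (show η₁ a ∈ m from ha) (hsame a)
    rwa [sub_sub_cancel] at h
  have hInf : ThruInf y := fun a ha => by
    obtain ⟨hae, -⟩ := e₁_mem_gaussInt ht a
    refine mem_maximalIdeal_of_red₂ ht hb _ ?_ ?_
    · show T.εb (T.ι₁ (a : T.F₁)) ∈ _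
      rw [T.εb_ι₁]; exact hae
    · show T.red (T.εb (T.ι₁ (a : T.F₁))) = 0
      rw [T.εb_ι₁]; exact ha
  obtain ⟨r, hr, -, -, hT⟩ := cusp_point hI y (q_mem_pullPoint ht _ h1 hx) vInf rfl h1'
  obtain ⟨hr1, happ⟩ := hT hInf
  set R₁ := η₁ r
  set R₃ := η₃ r
  have hR₁ : R₁ - 1 ∈ m := by
    have := hr1
    rw [hy, pullPoint, Ideal.mem_comap, map_sub, map_one] at this
    exact this
  have hR₃ : R₃ - 1 ∈ m := by
    have := hy3 _ hr1
    rwa [map_sub, map_one] at this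
  have hR₁u : IsUnit R₁ := IsLocalRing.notMem_maximalIdeal.mp fun h =>
    (IsLocalRing.maximalIdeal.isMaximal (locAt x)).ne_top
      ((Ideal.eq_top_iff_one _).mpr (sub_sub_cancel R₁ 1 ▸ sub_mem h hR₁))
  -- `Y ^ q = R₃ / R₁`
  have hj : T.j ≠ 0 := fun h => T.transcendental_j (by rw [h]; exact isAlgebraic_zero)
  set Y : T.F₂ := T.β₁ (T.β₀ T.j⁻¹) / T.ι₁ (T.ι₀ T.j⁻¹) with hY
  have hYq : (R₁ : T.F₂) * Y ^ q = R₃ := by
    have e1 : (R₁ : T.F₂) * T.ι₁ (T.ι₀ T.j) ^ q = T.ι₁ (T.β₀ T.j) := by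
      rw [show (R₁ : T.F₂) = T.ι₁ (r : T.F₁) from rfl, ← map_pow, ← map_mul, hr]
    have e3 : (R₃ : T.F₂) * T.β₁ (T.β₀ T.j) ^ q = T.ι₁ (T.β₀ T.j) := by
      have h := congrArg (fun z => T.β₁ (T.w₁ z)) hr
      simp only [map_mul, map_pow, T.w₁_ι₀, w₁_β₀, T.comm] at h
      exact h
    have hne : T.ι₁ (T.ι₀ T.j) ≠ 0 := (_root_.map_ne_zero _).mpr ((_root_.map_ne_zero _).mpr hj)
    have hne' : T.β₁ (T.β₀ T.j) ≠ 0 := (_root_.map_ne_zero _).mpr ((_root_.map_ne_zero _).mpr hj)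
    rw [hY, map_inv₀, map_inv₀, map_inv₀, map_inv₀, inv_div_inv, div_pow, ← mul_div_assoc, e1,
      ← e3, mul_div_assoc, div_self (pow_ne_zero q hne'), mul_one]
  obtain ⟨⟨u, u', huv, hvu⟩, hu⟩ := id hR₁u
  have hu' : (u' : T.F₂) * (R₁ : T.F₂) = 1 := by
    rw [← hu]; exact congrArg (fun z : locAt x => (z : T.F₂)) hvu
  have hYL : Y ∈ locAt x := by
    refine mem_locAt_of_isIntegral ht (IsIntegral.of_pow T.prime.pos ?_)
    have e : Y ^ q = ((u' * R₃ : locAt x) : T.F₂) := by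
      rw [MulMemClass.coe_mul, ← hYq, ← mul_assoc, hu', one_mul]
    rw [e]
    exact isIntegral_algebraMap (x := (u' * R₃ : locAt x))
  set w : locAt x := ⟨Y, hYL⟩ - 1 with hw
  have hYw : (⟨Y, hYL⟩ : locAt x) = w + 1 := by rw [hw, sub_add_cancel]
  have hRY : R₁ * (w + 1) ^ q = R₃ := by
    rw [← hYw]
    exact Subtype.ext hYq
  obtain ⟨c, hc⟩ := exists_one_add_pow_prime T.prime w
  have hqm : (q : locAt x) ∈ m := natCast_q_mem_maximalIdeal hx
  have hpow : R₁ * ((w + 1) ^ q - 1) ∈ m := by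
    rw [mul_sub, hRY, mul_one, show R₃ - R₁ = (R₃ - 1) - (R₁ - 1) by ring]
    exact m.sub_mem hR₃ hR₁
  have hwm : w ∈ m := by
    refine (IsLocalRing.maximalIdeal.isMaximal (locAt x)).isPrime.mem_of_pow_mem q ?_
    have h := (Ideal.unit_mul_mem_iff_mem _ hR₁u).mp hpow
    rw [hc] at h
    have h' := m.sub_mem h (m.mul_mem_right (1 + w * c) (m.mul_mem_right w hqm))
    rwa [add_sub_cancel_right] at h'
  have hw0 : w ≠ 0 := fun h => ratio_sub_one_ne_zero (T := T)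
    (congrArg (fun z : locAt x => (z : T.F₂)) h)
  obtain ⟨c₀, hc₀⟩ := exists_mem_pow_of_mul_mem m hw0
  set V₁ : locAt x := ⟨_, h1⟩ with hV₁
  set V₃ : locAt x := ⟨_, h3⟩ with hV₃
  have hV : V₃ - V₁ = V₁ * w := by
    apply Subtype.ext
    have hne : T.ι₁ (T.ι₀ T.j⁻¹) ≠ 0 :=
      (_root_.map_ne_zero _).mpr ((_root_.map_ne_zero _).mpr (inv_ne_zero hj))
    show T.β₁ (T.β₀ T.j⁻¹) - T.ι₁ (T.ι₀ T.j⁻¹) = T.ι₁ (T.ι₀ T.j⁻¹) * (Y - 1)
    rw [mul_sub, mul_one, hY, mul_div_cancel₀ _ hne]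
  have hq : (q : locAt x) ∈ Ideal.span {w} := by
    refine mem_of_forall_mem_sup_pow fun M => ?_
    obtain ⟨g, ⟨h, hg⟩, s, hs, hmem⟩ := happ (M + c₀)
    have key : ∀ (η : T.F₁ →ₐ[T.K] T.F₂) (hη : η (T.ι₀ T.j⁻¹) ∈ locAt x),
        (⟨_, hη⟩ : locAt x) ∈ m → pullHom ht η hη s ∉ m →
        pullHom ht η hη r - Polynomial.aeval (⟨_, hη⟩ : locAt x) g ∈ m ^ (M + c₀) := by
      intro η hη hvm hsm
      have hle : (Ideal.span {(q : T.chart₁ T.j⁻¹), vInf}).map (pullHom ht η hη) ≤ m := by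
        rw [Ideal.map_span, Set.image_pair, map_natCast, Ideal.span_le, Set.insert_subset_iff,
          Set.singleton_subset_iff]
        exact ⟨hqm, hvm⟩
      have h' := Ideal.pow_right_mono hle _
        (Ideal.map_pow (pullHom ht η hη) _ _ ▸ Ideal.mem_map_of_mem _ hmem)
      rw [map_mul, Ideal.unit_mul_mem_iff_mem _ (IsLocalRing.notMem_maximalIdeal.mp hsm), map_sub,
        ← (pullHom ht η hη).toIntAlgHom_apply (Polynomial.aeval vInf g),
        ← Polynomial.aeval_algHom_apply] at h'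
      exact h'
    have k₁ := key T.ι₁ h1 h1' hs
    have hev3 : (⟨_, h3w⟩ : locAt x) = V₃ := Subtype.ext (show betaW (T := T) (T.ι₀ T.j⁻¹) = T.β₁ (T.β₀ T.j⁻¹) by rw [betaW_apply, T.w₁_ι₀])
    have k₃ := key betaW h3w (hev3 ▸ h3')
      (fun h => hs (show η₁ s ∈ m by
        have h' := m.add_mem (hsame s) h
        rwa [hη₃, sub_add_cancel] at h'))
    rw [hev3] at k₃
    obtain ⟨H, hH⟩ := Polynomial.sub_dvd_eval_sub V₃ V₁ (h.map (Int.castRingHom (locAt x)))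
    rw [hV, Polynomial.eval_map, Polynomial.eval_map] at hH
    have hgev : Polynomial.aeval V₃ g - Polynomial.aeval V₁ g = (q : locAt x) * (V₁ * w * H) := by
      rw [sub_eq_iff_eq_add.mp hg, map_add, map_add, map_one, map_one, map_mul, map_mul,
        Polynomial.aeval_C, Polynomial.aeval_C, map_natCast, add_sub_add_right_eq_sub, ← mul_sub,
        ← hH]
      rfl
    set U := R₁ * (1 + w * c) - V₁ * H with hU
    have hUu : IsUnit U := IsLocalRing.notMem_maximalIdeal.mp fun hUm => by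
      refine hR₁u.map (Ideal.Quotient.mk m) |>.ne_zero (Ideal.Quotient.eq_zero_iff_mem.mpr ?_)
      rw [show R₁ = U + (V₁ * H - R₁ * (w * c)) by rw [hU]; ring]
      exact m.add_mem hUm (m.sub_mem (m.mul_mem_right H h1')
        (m.mul_mem_left _ (m.mul_mem_right c hwm)))
    have h2 : w * (R₁ * w ^ (q - 1) + (q : locAt x) * U) ∈ m ^ (M + c₀) := by
      have e : R₃ - R₁ = R₁ * (w ^ q + (q : locAt x) * w * (1 + w * c)) := by
        rw [← hc, mul_sub, hRY, mul_one]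
      have hwq : w ^ q = w * w ^ (q - 1) := by
        rw [← pow_succ', Nat.sub_add_cancel T.prime.pos]
      rw [show w * (R₁ * w ^ (q - 1) + (q : locAt x) * U) =
        (R₃ - Polynomial.aeval V₃ g) - (R₁ - Polynomial.aeval V₁ g) by
          rw [hU]
          linear_combination hgev - e - R₁ * hwq]
      exact Ideal.sub_mem _ k₃ k₁
    have h4 := hc₀ _ _ h2
    rw [Nat.add_sub_cancel] at h4
    rw [← Ideal.mul_unit_mem_iff_mem _ hUu,
      show (q : locAt x) * U = (R₁ * w ^ (q - 1) + (q : locAt x) * U) - R₁ * w ^ (q - 1) by ring]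
    exact sub_mem (Submodule.mem_sup_right h4) (Submodule.mem_sup_left
      (Ideal.mul_mem_left _ _ (Ideal.pow_mem_of_mem _ (Ideal.mem_span_singleton_self w) _
        (Nat.sub_pos_of_lt T.prime.one_lt))))
  refine ⟨mem_maximalIdeal_locAt.mp hwm, ?_⟩
  obtain ⟨b, hqb⟩ := Ideal.mem_span_singleton.mp hq
  obtain ⟨s, hs, hsb⟩ := b.2
  refine ⟨s, ⟨_, hsb⟩, hs, ?_⟩
  have he := congrArg (fun z : locAt x => (z : T.F₂)) hqb
  simp only [MulMemClass.coe_mul] at he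
  push_cast at he
  show (s : T.F₂) * q = (s : T.F₂) * (b : T.F₂) * (Y - 1)
  rw [he, show ((w : locAt x) : T.F₂) = Y - 1 from rfl]
  ring

/-- One branch through each cusp. -/
theorem cusp_only (hI : T.Inputs) (x : Ideal (T.chart₂ T.j⁻¹)) [x.IsMaximal]
    (hx : (q : T.chart₂ T.j⁻¹) ∈ x) (v : T.chart₂ T.j⁻¹)
    (hv : (v : T.F₂) = T.ι₁ (T.ι₀ T.j⁻¹)) (hvx : v ∈ x) (i k : Fin 3) (hi : Thru i x)
    (hk : Thru k x) : i = k :=
  branches_meet_inf_aux hI x v hv hvx i k hi hk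

/-- At a cusp of the middle branch, `Y - 1` divides `q` and vanishes simply. -/
theorem middleEquation_cusp (hI : T.Inputs) (x : Ideal (T.chart₂ T.j⁻¹)) [x.IsMaximal]
    (hx : (q : T.chart₂ T.j⁻¹) ∈ x) (v : T.chart₂ T.j⁻¹)
    (hv : (v : T.F₂) = T.ι₁ (T.ι₀ T.j⁻¹)) (hvx : v ∈ x) (hb : Thru 1 x) :
    MiddleEquation x := by
  obtain ⟨⟨s, w, hs, -, hsw⟩, s', c', hs', hq⟩ := middle_cusp hI hx v hv hvx hb
  obtain ⟨f, hf, hf0, he⟩ := branch_one_ratio_sub_one (T := T)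
  have ht := T.chartParam_jinv hI
  have hζ : (((T.ζ : T.A) - 1 : T.A) : T.L) = ((T.ζ : T.A) : T.L) - 1 := by push_cast; rfl
  rw [hζ] at he
  have hne : algebraMap T.L (LaurentSeries T.L) (((T.ζ : T.A) : T.L) - 1) ≠ 0 :=
    (_root_.map_ne_zero _).mpr (sub_ne_zero.mpr (T.ζ_primitive.ne_one T.prime.one_lt))
  have hw : T.εb (w : T.F₂) = algebraMap T.L (LaurentSeries T.L) (((T.ζ : T.A) : T.L) - 1) *
      (T.εb (s : T.F₂) * f) := by
    rw [← hsw, map_mul, show T.εb (_ : T.F₂) = _ from he]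
    ring
  have hsi := branch_mem_gaussInt ht 1 s
  refine ⟨w, ?_, ⟨s * s', c', fun h => (Ideal.IsMaximal.isPrime ‹_›).mem_or_mem h |>.elim hs hs',
    Subtype.ext ?_⟩, ?_⟩
  · show gred T.π (T.εb (w : T.F₂)) = 0
    rw [hw, ← hζ]
    refine gred_algebraMap_mul_eq_zero ?_ (mul_mem hsi hf)
    rw [map_sub, map_one, T.π_ζ, sub_self]
  · push_cast
    rw [← hsw]
    linear_combination (s : T.F₂) * hq
  · rw [hw, mul_div_cancel_left₀ _ hne]
    show gred T.π _ ≠ 0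
    rw [show T.εb (s : T.F₂) = T.branch 1 (s : T.F₂) from rfl, gred_mul hsi hf]
    exact mul_ne_zero (fun h => hs (hb s h)) hf0

end point

end Tower

end FermatLib.Igusa.Carayol
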