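import Mathlib
import Fermat.Agent.Igusa.Carayol.LevelTwoShape
import Fermat.Agent.Igusa.Carayol.LevelTwoRegular
import Fermat.Agent.Igusa.Carayol.LevelTwoCusp

/-!
The middle branch at an ordinary point of the finite chart of level `N q²`: the difference `w` of
the two outer copies of a parameter divides `q` and vanishes simply.

The two maps `ι₁`, `β₁ w₁` from level `N q` agree modulo `w` at the point (approximate by
polynomials in the parameter, then intersect powers of the maximal ideal). Applying both to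
`s (z₂ - z₁ ^ q) = q u` gives `σ w ^ (q - 1) = q U`, and `U` reduces to a multiple of
`(θ z) ^ (q - 1)`, a unit at an ordinary point.
-/

set_option autoImplicit false
set_option linter.style.haveILetI false
set_option maxHeartbeats 400000
set_option synthInstance.maxHeartbeats 100000

noncomputable section

open ModularCurve HahnSeries FermatLib.Igusa

namespace FermatLib.Igusa.Carayol

namespace Tower

variable {q : ℕ} [NeZero q] {T : Tower q}

/-- `(f(ζ u) - f(u)) / (ζ - 1)` is integral and reduces to `θ f`. -/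
theorem exists_scale_sub_eq {f : LaurentSeries T.L} (hf : f ∈ gaussInt T.π) :
    ∃ g : LaurentSeries T.L, g ∈ gaussInt T.π ∧ T.red g = thetaSeries (T.red f) ∧
      monoNewScale T.toBase.ζL f - f =
        algebraMap T.L (LaurentSeries T.L) (((T.ζ : T.A) - 1 : T.A) : T.L) * g := by
  obtain ⟨y, z, hz, h⟩ := hf
  obtain ⟨dy, hdy, hdy'⟩ := exists_scale_sub_self (T := T) y
  obtain ⟨dz, hdz, hdz'⟩ := exists_scale_sub_self (T := T) z
  have hs := (T.scaleζ_mem 1 (latVal_mem_gaussInt (π := T.π) z))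
  rw [pow_one] at hs
  have hzg : T.red (latVal T.A z) = latRed T.π z := gred_latVal z
  have hden : T.red (latVal T.A z) * T.red (monoNewScale T.toBase.ζL (latVal T.A z)) ≠ 0 := by
    rw [hs.2, hzg]
    exact mul_ne_zero hz hz
  have hdmem := mul_mem (latVal_mem_gaussInt (π := T.π) z) hs.1
  have hdred : T.red (latVal T.A z * monoNewScale T.toBase.ζL (latVal T.A z)) =
      latRed T.π z * latRed T.π z := by
    show gred T.π _ = _
    rw [gred_mul (latVal_mem_gaussInt z) hs.1, show gred T.π (latVal T.A z) = _ from hzg,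
      show gred T.π (monoNewScale T.toBase.ζL (latVal T.A z)) = _ from hs.2.trans hzg]
  have hdne : latVal T.A z * monoNewScale T.toBase.ζL (latVal T.A z) ≠ 0 := fun h0 => by
    rw [h0] at hdred
    exact mul_ne_zero hz hz (hdred.symm.trans gred_zero)
  set num := latVal T.A dy * latVal T.A z - latVal T.A y * latVal T.A dz with hnum
  have hn1 : num = latVal T.A (dy * z - y * dz) := by rw [hnum, map_sub, map_mul, map_mul]
  have hnmem : num ∈ gaussInt T.π := hn1 ▸ latVal_mem_gaussInt _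
  have hdne' : T.red (latVal T.A z * monoNewScale T.toBase.ζL (latVal T.A z)) ≠ 0 := by
    rw [hdred]; exact mul_ne_zero hz hz
  have hinv := inv_mem_gaussInt hdmem hdne'
  refine ⟨num * (latVal T.A z * monoNewScale T.toBase.ζL (latVal T.A z))⁻¹, mul_mem hnmem hinv,
    ?_, ?_⟩
  · show gred T.π _ = _
    rw [gred_mul hnmem hinv, gred_inv hdmem hdne',
      show gred T.π (latVal T.A z * monoNewScale T.toBase.ζL (latVal T.A z)) = _ from hdred,
      hn1, gred_latVal, show T.red f = _ from gred_eq hz h, map_sub, map_mul, map_mul, hdy', hdz',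
      thetaSeries_div _ _ hz, pow_two, div_eq_mul_inv]
  · have hS := congrArg (monoNewScale T.toBase.ζL) h
    rw [map_mul] at hS
    rw [← mul_assoc, eq_mul_inv_iff_mul_eq₀ hdne, hnum]
    linear_combination latVal T.A z * hS - monoNewScale T.toBase.ζL (latVal T.A z) * h +
      latVal T.A z * hdy - latVal T.A y * hdz

/-- The second map from level `N q` to the finite chart of level `N q²`, `β₁ ∘ w₁`. -/
def outerHom (hI : T.Inputs) : T.chart₁ T.j →+* T.chart₂ T.j :=
  (chartBeta₂ hI).toRingHom.comp (w₁Hom hI)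

theorem coe_outerHom (hI : T.Inputs) (a : T.chart₁ T.j) :
    (outerHom hI a : T.F₂) = T.β₁ (T.w₁ (a : T.F₁)) := rfl

theorem outerHom_algebraMap (hI : T.Inputs) (v : T.W) :
    outerHom hI (algebraMap T.W (T.chart₁ T.j) v) = algebraMap T.W (T.chart₂ T.j) v := by
  apply Subtype.ext
  show T.β₁ (T.w₁ (algebraMap T.W T.F₁ v)) = algebraMap T.W T.F₂ v
  rw [IsScalarTower.algebraMap_apply T.W T.K T.F₁, AlgEquiv.commutes, AlgHom.commutes,
    ← IsScalarTower.algebraMap_apply]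

theorem εb_chartIncl₂ (a : T.chart₁ T.j) :
    T.branch 1 ((chartIncl₂ T.j a : T.chart₂ T.j) : T.F₂) = T.e₁ (a : T.F₁) := T.εb_ι₁ _

theorem εb_outerHom (hI : T.Inputs) (a : T.chart₁ T.j) :
    T.branch 1 ((outerHom hI a : T.chart₂ T.j) : T.F₂) =
      monoNewScale T.toBase.ζL (T.e₁ (a : T.F₁)) := by
  show T.εb _ = _
  rw [coe_outerHom, T.εb_β₁, T.w₁_w₁]

theorem red_outerHom (hI : T.Inputs) (a : T.chart₁ T.j) :
    T.red₂ 1 ((outerHom hI a : T.chart₂ T.j) : T.F₂) =
      T.red₂ 1 ((chartIncl₂ T.j a : T.chart₂ T.j) : T.F₂) := by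
  have h := (T.scaleζ_mem 1 (e₁_mem_gaussInt (T.chartParam_j hI) a).1).2
  rw [pow_one] at h
  show T.red (T.branch 1 _) = T.red (T.branch 1 _)
  rw [εb_outerHom, εb_chartIncl₂]
  exact h

theorem isMaximal_comap_chartIncl₂ (hI : T.Inputs) (x : Ideal (T.chart₂ T.j)) [x.IsMaximal]
    (hx : (q : T.chart₂ T.j) ∈ x) : (x.comap (chartIncl₂ T.j)).IsMaximal := by
  refine Ideal.isMaximal_iff.mpr ⟨fun h1 => ?_, fun J a hJ ha haJ => ?_⟩
  · rw [Ideal.mem_comap, map_one] at h1
    exact Ideal.IsMaximal.ne_top ‹x.IsMaximal› ((Ideal.eq_top_iff_one x).mpr h1)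
  · obtain ⟨w, hw⟩ := exists_residue₂ hI (Or.inl rfl) x hx (chartIncl₂ T.j a)
    rw [← AlgHom.commutes (chartIncl₂ T.j) w, ← map_sub, ← Ideal.mem_comap] at hw
    have hwJ : algebraMap T.W (T.chart₁ T.j) w ∈ J := by
      have := J.sub_mem haJ (hJ hw)
      rwa [sub_sub_cancel] at this
    by_cases h0 : T.πW w = 0
    · exfalso
      apply ha
      have h2 : algebraMap T.W (T.chart₁ T.j) w ∈ x.comap (chartIncl₂ T.j) := by
        rw [Ideal.mem_comap, AlgHom.commutes]
        exact algebraMap_W_mem_of_πW_eq_zero hx h0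
      have := Ideal.add_mem _ hw h2
      rwa [sub_add_cancel] at this
    · exact (Ideal.eq_top_iff_one J).mp
        (J.eq_top_of_isUnit_mem hwJ ((isUnit_of_πW_ne_zero h0).map _))

section approx

variable {x : Ideal (T.chart₂ T.j)} [x.IsMaximal]

theorem to_locAt_mem {c : T.chart₂ T.j} (hc : c ∈ x) :
    algebraMap (T.chart₂ T.j) (locAt x) c ∈ IsLocalRing.maximalIdeal (locAt x) :=
  (IsLocalization.AtPrime.to_map_mem_maximal_iff (locAt x) x c).mpr hc

/-- Polynomial approximation in the parameter, uniformly in the map to the top level. -/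
theorem exists_poly_approx (hx : (q : T.chart₂ T.j) ∈ x) (y : Ideal (T.chart₁ T.j)) [y.IsMaximal]
    (z₁ : T.chart₁ T.j) (hzy : z₁ ∈ y) (hqy : (q : T.chart₁ T.j) ∈ y)
    (hres : ∀ a, ∃ v : T.W, a - algebraMap T.W (T.chart₁ T.j) v ∈ y)
    (hgen : ∀ a ∈ y, ∃ s ∉ y, s * a ∈ Ideal.span {(q : T.chart₁ T.j), z₁}) (N : ℕ)
    (a : T.chart₁ T.j) :
    ∃ P : Polynomial T.W, ∀ g : T.chart₁ T.j →+* T.chart₂ T.j,
      (∀ v, g (algebraMap T.W (T.chart₁ T.j) v) = algebraMap T.W (T.chart₂ T.j) v) →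
      (∀ b ∈ y, g b ∈ x) →
      algebraMap (T.chart₂ T.j) (locAt x) (g a - Polynomial.aeval (g z₁) P) ∈
        IsLocalRing.maximalIdeal (locAt x) ^ N := by
  induction N generalizing a with
  | zero => exact ⟨0, fun g _ _ => by simp⟩
  | succ N ih =>
    obtain ⟨w₀, hw₀⟩ := hres a
    obtain ⟨s, hs, hsa⟩ := hgen _ hw₀
    obtain ⟨c₁, c₂, hc⟩ := Ideal.mem_span_pair.mp hsa
    obtain ⟨ws, hws⟩ := hres s
    obtain ⟨u, hu⟩ := isUnit_of_πW_ne_zero (w := ws) fun h0 => hs (by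
      obtain ⟨r, hr⟩ := πW_eq_zero_iff_dvd.mp h0
      have h2 : algebraMap T.W (T.chart₁ T.j) ws ∈ y := by
        rw [hr, map_mul, map_natCast]; exact y.mul_mem_right _ hqy
      have := y.add_mem hws h2
      rwa [sub_add_cancel] at this)
    obtain ⟨P₁, hP₁⟩ := ih c₁
    obtain ⟨P₂, hP₂⟩ := ih c₂
    obtain ⟨Ps, hPs⟩ := ih s
    set R : Polynomial T.W := 1 - Polynomial.C (↑u⁻¹ : T.W) * Ps with hR
    set Q : Polynomial T.W := Polynomial.C (↑u⁻¹ : T.W) * ∑ i ∈ Finset.range N, R ^ i with hQ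
    have hPQ : 1 - Ps * Q = R ^ N := by
      rw [← sub_sub_cancel 1 (R ^ N), ← mul_neg_geom_sum R N, hQ, hR]; ring
    refine ⟨Polynomial.C w₀ + Q * (Polynomial.C (q : T.W) * P₁ + Polynomial.X * P₂),
      fun g hgW hgy => ?_⟩
    set ι := algebraMap (T.chart₂ T.j) (locAt x)
    set m := IsLocalRing.maximalIdeal (locAt x) with hm
    set e : Polynomial T.W → T.chart₂ T.j := fun P => Polynomial.aeval (g z₁) P with he
    have hqm : ι (q : T.chart₂ T.j) ∈ m := to_locAt_mem hx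
    have hzm : ι (g z₁) ∈ m := to_locAt_mem (hgy _ hzy)
    have hgsu : IsUnit (ι (g s)) := IsLocalRing.notMem_maximalIdeal.mp fun h => hs (by
      have h1 := (IsLocalization.AtPrime.to_map_mem_maximal_iff (locAt x) x (g s)).mp h
      by_contra hsy
      obtain ⟨b, c, hbc, h1'⟩ : ∃ b c, c ∈ y ∧ b * s + c = 1 := by
        obtain ⟨b, c, hc', h2⟩ := Ideal.IsMaximal.exists_inv ‹y.IsMaximal› hsy
        exact ⟨b, c, hc', h2⟩
      refine Ideal.IsMaximal.ne_top ‹x.IsMaximal› ((Ideal.eq_top_iff_one x).mpr ?_)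
      rw [← map_one g, ← h1', map_add, map_mul]
      exact x.add_mem (x.mul_mem_left _ h1) (hgy _ hbc))
    have hRm : ι (e R) ∈ m ^ 1 ⊔ m ^ N := by
      have h1 : ι (g s - algebraMap T.W (T.chart₂ T.j) ws) ∈ m := to_locAt_mem (by
        rw [← hgW, ← map_sub]; exact hgy _ hws)
      have h2 := hPs g hgW hgy
      have : ι (e R) = ι (algebraMap T.W (T.chart₂ T.j) (↑u⁻¹ : T.W)) *
          (ι (g s - e Ps) - ι (g s - algebraMap T.W (T.chart₂ T.j) ws)) := by
        rw [← map_sub, ← map_mul, he, hR]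
        congr 1
        simp only [map_sub, map_one, map_mul, Polynomial.aeval_C]
        rw [sub_sub_sub_cancel_left, mul_sub, ← map_mul, ← hu, Units.inv_mul, map_one]
      rw [this]
      exact Ideal.mul_mem_left _ _ (sub_mem (Submodule.mem_sup_right h2)
        (Submodule.mem_sup_left (by rwa [pow_one])))
    have hRN : ι (e R) ^ N ∈ m ^ N := by
      rcases Nat.eq_zero_or_pos N with rfl | hN
      · simp
      · refine Ideal.pow_mem_pow ?_ N
        rw [pow_one] at hRm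
        exact (sup_le (le_refl m) (Ideal.pow_le_self hN.ne') : m ⊔ m ^ N ≤ m) hRm
    have hinv : 1 - ι (g s) * ι (e Q) ∈ m ^ N := by
      have h2 := hPs g hgW hgy
      have : 1 - ι (g s) * ι (e Q) = ι (e R) ^ N - ι (g s - e Ps) * ι (e Q) := by
        rw [← map_pow, show e R ^ N = e (R ^ N) from (map_pow (Polynomial.aeval (g z₁)) R N).symm,
          ← hPQ]
        simp only [he, map_sub, map_mul, map_one]
        ring
      rw [this]
      exact sub_mem hRN (Ideal.mul_mem_right _ _ h2)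
    rw [← Ideal.unit_mul_mem_iff_mem _ hgsu]
    have hrel : g s * (g a - algebraMap T.W (T.chart₂ T.j) w₀) =
        g c₁ * (q : T.chart₂ T.j) + g c₂ * g z₁ := by
      rw [← hgW, ← map_sub, ← map_mul, ← hc, map_add, map_mul, map_mul, map_natCast]
    have key : ι (g s) * ι (g a - Polynomial.aeval (g z₁) (Polynomial.C w₀ +
          Q * (Polynomial.C (q : T.W) * P₁ + Polynomial.X * P₂))) =
        ι (q : T.chart₂ T.j) * ι (g c₁ - e P₁) + ι (g z₁) * ι (g c₂ - e P₂) +
          (ι (q : T.chart₂ T.j) * ι (e P₁) + ι (g z₁) * ι (e P₂)) *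
            (1 - ι (g s) * ι (e Q)) := by
      have hrel' := congrArg ι hrel
      simp only [map_mul, map_sub, map_add] at hrel'
      simp only [he, map_add, map_mul, map_sub, Polynomial.aeval_C, Polynomial.aeval_X,
        map_natCast]
      simp only [map_natCast] at hrel'
      linear_combination hrel'
    rw [key, pow_succ']
    refine add_mem (add_mem (Ideal.mul_mem_mul hqm (hP₁ g hgW hgy))
      (Ideal.mul_mem_mul hzm (hP₂ g hgW hgy))) (Ideal.mul_mem_mul ?_ hinv)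
    exact add_mem (Ideal.mul_mem_right _ _ hqm) (Ideal.mul_mem_right _ _ hzm)

end approx

/-- At an ordinary point of the middle branch, `z₃ - z₁` divides `q` and vanishes simply. -/
theorem middleEquation_ordinary (hI : T.Inputs) (x : Ideal (T.chart₂ T.j)) [x.IsMaximal]
    (hx : (q : T.chart₂ T.j) ∈ x) (hb : Thru 1 x)
    (hs : ¬ T.IsSpecial ((x.comap (chartIncl₂ T.j)).comap (chartIncl₁ T.j))) :
    MiddleEquation x := by
  have ht := T.chartParam_j hI
  haveI := isNoetherianRing_locAt (x := x) hI (Or.inl rfl)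
  have hxp : x.IsPrime := Ideal.IsMaximal.isPrime ‹_›
  set y := x.comap (chartIncl₂ T.j) with hy
  haveI := isMaximal_comap_chartIncl₂ hI x hx
  haveI := isMaximal_comap_chartIncl₁ y
  set x₀ := y.comap (chartIncl₁ T.j) with hx₀
  have hyq : (q : T.chart₁ T.j) ∈ y := by rw [hy, Ideal.mem_comap, map_natCast]; exact hx
  have hx₀q := q_mem_comap hyq
  obtain ⟨z, hz, hzx, hgen⟩ := ht.exists_rat_parameter x₀ hx₀q
  have hInf : ThruInf y := fun a ha => hb _ (by
    show T.red (T.branch 1 _) = 0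
    rw [εb_chartIncl₂]; exact ha)
  set z₁ := chartIncl₁ T.j z with hz₁
  set z₂ := betaIncl₁ hI z with hz₂
  obtain ⟨-, -, hord⟩ := ordinary_point hI y hyq hs z hz hzx hgen z₁ z₂ rfl rfl
  obtain ⟨hgen₁, u, s, hsy, hsu, hred⟩ := hord hInf
  -- the parameter is unramified
  obtain ⟨bs, hbs⟩ := exists_red₁Hom_eq hI (Or.inl rfl) s
  obtain ⟨bu, hbu⟩ := exists_red₁Hom_eq hI (Or.inl rfl) u
  have hbsx : bs ∉ x₀ := fun h => hsy
    ((mem_iff_of_red₁_eq ht hInf (hbs.trans (red₁_chartIncl₁ ht bs).symm)).mpr h)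
  have hreg : T.RegAt x₀ (T.frobQuot (z : T.F₀)) :=
    ⟨bu, bs, hbsx, by rw [← red₀Hom_apply ht, ← red₀Hom_apply ht, ← hbs, ← hbu]; exact hred.symm⟩
  obtain ⟨-, hnv⟩ := thetaPow_unit hI x₀ hx₀q z hz hzx hgen hs hreg
  have hone₀ : (1 : T.chart₀ T.j) ∉ x₀ := fun h =>
    (Ideal.IsPrime.ne_top inferInstance : x₀ ≠ ⊤) ((Ideal.eq_top_iff_one _).mpr h)
  have hθ : thetaSeries (T.red₀ (z : T.F₀)) ≠ 0 := fun h0 => hnv ⟨0, 1, hone₀, x₀.zero_mem, by
    rw [h0, zero_pow (Nat.sub_ne_zero_of_lt T.prime.one_lt), zero_mul]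
    exact (map_zero ht.redHom).symm⟩
  -- the two copies of level `N q`
  set g₁ : T.chart₁ T.j →+* T.chart₂ T.j := (chartIncl₂ T.j).toRingHom with hg₁
  set g₃ := outerHom hI with hg₃
  have hg₁W : ∀ v, g₁ (algebraMap T.W (T.chart₁ T.j) v) = algebraMap T.W (T.chart₂ T.j) v :=
    (chartIncl₂ T.j).commutes
  have hg₁y : ∀ b ∈ y, g₁ b ∈ x := fun b hb' => hb'
  have hg₃y : ∀ b ∈ y, g₃ b ∈ x := fun b hb' =>
    (mem_iff_of_thru ht hb (red_outerHom hI b)).mpr hb'
  obtain ⟨w, hw⟩ : ∃ w : T.chart₂ T.j, w = g₃ z₁ - g₁ z₁ := ⟨_, rfl⟩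
  set m := IsLocalRing.maximalIdeal (locAt x)
  set ι := algebraMap (T.chart₂ T.j) (locAt x) with hι
  have hres : ∀ a, ∃ v : T.W, a - algebraMap T.W (T.chart₁ T.j) v ∈ y := fun a => by
    obtain ⟨v, hv⟩ := exists_residue₂ hI (Or.inl rfl) x hx (chartIncl₂ T.j a)
    exact ⟨v, by rwa [hy, Ideal.mem_comap, map_sub, AlgHom.commutes]⟩
  have hdiag : ∀ a, ι (g₃ a - g₁ a) ∈ Ideal.span {ι w} := fun a => by
    refine mem_of_forall_mem_sup_pow fun N => ?_
    obtain ⟨P, hP⟩ := exists_poly_approx hx y z₁ hzx hyq hres hgen₁ N a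
    have h1 := hP g₁ hg₁W hg₁y
    have h3 := hP g₃ (outerHom_algebraMap hI) hg₃y
    obtain ⟨H, hH⟩ := Polynomial.sub_dvd_eval_sub (g₃ z₁) (g₁ z₁)
      (P.map (algebraMap T.W (T.chart₂ T.j)))
    rw [Polynomial.eval_map, Polynomial.eval_map, ← Polynomial.aeval_def, ← Polynomial.aeval_def]
      at hH
    have e : g₃ a - g₁ a = w * H + ((g₃ a - Polynomial.aeval (g₃ z₁) P) -
        (g₁ a - Polynomial.aeval (g₁ z₁) P)) := by rw [hw, ← hH]; ring
    rw [e, map_add, map_mul]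
    refine add_mem (Submodule.mem_sup_left (Ideal.mul_mem_right _ _
      (Ideal.mem_span_singleton_self _))) (Submodule.mem_sup_right ?_)
    rw [map_sub]
    exact sub_mem h3 h1
  -- the equation
  have hE : ι (g₁ u * g₃ s - g₃ u * g₁ s) ∈ Ideal.span {ι w} := by
    rw [show g₁ u * g₃ s - g₃ u * g₁ s =
      g₁ u * (g₃ s - g₁ s) - g₁ s * (g₃ u - g₁ u) by ring, map_sub, map_mul, map_mul]
    exact sub_mem (Ideal.mul_mem_left _ _ (hdiag s)) (Ideal.mul_mem_left _ _ (hdiag u))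
  obtain ⟨E, hE'⟩ := Ideal.mem_span_singleton.mp hE
  obtain ⟨sE, hsE, hsEE⟩ := E.2
  set eC : T.chart₂ T.j := ⟨_, hsEE⟩ with heC
  have hEeq : sE * (g₁ u * g₃ s - g₃ u * g₁ s) = w * eC := by
    apply Subtype.ext
    have h := congrArg (fun a : locAt x => (a : T.F₂)) hE'
    simp only [MulMemClass.coe_mul] at h
    rw [MulMemClass.coe_mul, MulMemClass.coe_mul]
    show (sE : T.F₂) * _ = _ * ((sE : T.F₂) * (E : T.F₂))
    rw [show ((g₁ u * g₃ s - g₃ u * g₁ s : T.chart₂ T.j) : T.F₂) = _ from h]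
    show _ * ((w : T.F₂) * _) = _
    ring
  have hZ : g₁ z₂ = g₃ z₂ := Subtype.ext (by
    show T.ι₁ (T.β₀ (z : T.F₀)) = T.β₁ (T.w₁ (T.β₀ (z : T.F₀)))
    rw [w₁_β₀, T.comm])
  have r₁ := congrArg g₁ hsu
  have r₃ := congrArg g₃ hsu
  rw [map_mul, map_mul, map_sub, map_pow, map_natCast] at r₁ r₃
  rw [← hZ] at r₃
  obtain ⟨r, hr⟩ := exists_add_pow_prime_eq T.prime (g₁ z₁) w
  have hadd : g₁ z₁ + w = g₃ z₁ := by rw [hw, add_sub_cancel]
  rw [hadd] at hr
  set σ := sE * g₁ s * g₃ s with hσ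
  set U := eC - σ * g₁ z₁ * r with hU
  -- the series on the middle branch
  obtain ⟨f, hf, hfred, hfe⟩ := exists_scale_sub_eq (T := T) (e₁_mem_gaussInt ht z₁).1
  have hwb : T.branch 1 (w : T.F₂) =
      algebraMap T.L (LaurentSeries T.L) (((T.ζ : T.A) - 1 : T.A) : T.L) * f := by
    rw [← hfe, hw, AddSubgroupClass.coe_sub, map_sub, hg₃, εb_outerHom]
    exact congrArg (_ - ·) (εb_chartIncl₂ z₁)
  have hfθ : T.red f = thetaSeries (T.red₀ (z : T.F₀)) := hfred
  have hζ1 : (((T.ζ : T.A) - 1 : T.A) : T.L) = zmOne T := by push_cast; rfl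
  have hz0 : algebraMap T.L (LaurentSeries T.L) (zmOne T) ≠ 0 :=
    (_root_.map_ne_zero _).mpr (zmOne_ne_zero (T := T))
  have hw0 : (w : T.F₂) ≠ 0 := fun h0 => by
    rw [h0, map_zero, eq_comm, mul_eq_zero, hζ1] at hwb
    rcases hwb with h | h
    · exact hz0 h
    · exact hθ (by rw [← hfθ, h]; exact gred_zero)
  have hrel : σ * w ^ (q - 1) = (q : T.chart₂ T.j) * U := by
    have hwC : w ≠ 0 := fun h => hw0 (by rw [h]; rfl)
    refine mul_left_cancel₀ hwC ?_
    have hwq : w * w ^ (q - 1) = w ^ q := by rw [← pow_succ', Nat.sub_add_cancel T.prime.pos]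
    rw [hU, hσ]
    linear_combination (q : T.chart₂ T.j) * hEeq + (sE * g₁ s * g₃ s) * hwq -
      (sE * g₁ s * g₃ s) * hr + (sE * g₃ s) * r₁ - (sE * g₁ s) * r₃
  have hσx : σ ∉ x := by
    intro h
    rcases hxp.mem_or_mem h with h | h
    · exact (hxp.mem_or_mem h).elim hsE hsy
    · exact hsy ((mem_iff_of_thru ht hb (red_outerHom hI s)).mp h)
  have hUx : U ∉ x := by
    intro hUx
    obtain ⟨c, hc, hqc⟩ := exists_q_eq_zmOne_pow (T := T)
    have hσi := branch_mem_gaussInt ht 1 σ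
    have hUi := branch_mem_gaussInt ht 1 U
    have hser : T.branch 1 (σ : T.F₂) * f ^ (q - 1) =
        algebraMap T.L (LaurentSeries T.L) c * T.branch 1 (U : T.F₂) := by
      have h := congrArg (fun a : T.chart₂ T.j => T.branch 1 (a : T.F₂)) hrel
      simp only [MulMemClass.coe_mul, SubmonoidClass.coe_pow, map_mul, map_pow] at h
      rw [hwb, hζ1, show ((q : T.chart₂ T.j) : T.F₂) = (q : T.F₂) from by push_cast; rfl,
        map_natCast, mul_pow, ← map_natCast (algebraMap T.L (LaurentSeries T.L)), hqc, map_mul,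
        map_pow] at h
      refine mul_left_cancel₀ (pow_ne_zero (q - 1) hz0) ?_
      linear_combination h
    have hred' : T.red₂ 1 (σ : T.F₂) * thetaSeries (T.red₀ (z : T.F₀)) ^ (q - 1) =
        algebraMap T.k (LaurentSeries T.k) (T.π ⟨c, hc⟩) * T.red₂ 1 (U : T.F₂) := by
      have h := congrArg (gred T.π) hser
      rw [gred_mul hσi (pow_mem hf _), gred_pow hf,
        gred_mul (algebraMap_mem_gaussInt (π := T.π) ⟨c, hc⟩) hUi,
        gred_algebraMap (π := T.π) ⟨c, hc⟩] at h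
      rw [show gred T.π f = _ from hfθ] at h
      exact h
    obtain ⟨bσ, hbσ⟩ := ht.exists_red₂_eq (Or.inl rfl) 1 σ
    obtain ⟨bU, hbU⟩ := ht.exists_red₂_eq (Or.inl rfl) 1 U
    have hlift : ∀ b : T.chart₀ T.j,
        T.red₂ 1 ((chartIncl₂ T.j (chartIncl₁ T.j b) : T.chart₂ T.j) : T.F₂) =
          T.red₀ (b : T.F₀) := fun b => congrArg (gred T.π) (εb_chartIncl₂ _)
    have hbσx : bσ ∉ x₀ := fun h =>
      hσx ((mem_iff_of_thru ht hb (hbσ.trans (hlift bσ).symm)).mpr h)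
    have hbUx : bU ∈ x₀ := (mem_iff_of_thru ht hb (hbU.trans (hlift bU).symm)).mp hUx
    obtain ⟨v, hv⟩ := T.πW_surjective (T.π ⟨c, hc⟩)
    refine hnv ⟨algebraMap T.W (T.chart₀ T.j) v * bU, bσ, hbσx, x₀.mul_mem_left _ hbUx, ?_⟩
    rw [← ht.redHom_apply (algebraMap T.W _ v * bU), map_mul, ht.redHom_W, hv, ht.redHom_apply,
      ← hbσ, ← hbU, ← hred', mul_comm]
  obtain ⟨d, hd⟩ : ∃ d, q - 1 = d + 1 := ⟨q - 2, by have := T.prime.two_le; omega⟩
  refine ⟨w, ?_, ⟨U, σ * w ^ d, hUx, ?_⟩, ?_⟩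
  · show gred T.π (T.branch 1 (w : T.F₂)) = 0
    rw [hwb]
    refine gred_algebraMap_mul_eq_zero ?_ hf
    rw [map_sub, map_one, T.π_ζ, sub_self]
  · rw [mul_comm U, ← hrel, hd, pow_succ]; ring
  · show gred T.π (T.branch 1 (w : T.F₂) / _) ≠ 0
    rw [hwb, hζ1, mul_div_cancel_left₀ _ hz0, show gred T.π f = _ from hfθ]
    exact hθ

end Tower

end FermatLib.Igusa.Carayol
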