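import Mathlib
import Fermat.Agent.Igusa.Carayol.LevelTwoShape

/-!
The supersingular points of level `N q²`: the three branches pass, and the point is cut out by
`z` and its translate by the Atkin–Lehner involution.
-/

set_option autoImplicit false
set_option linter.style.haveILetI false
set_option maxHeartbeats 400000
set_option synthInstance.maxHeartbeats 100000

noncomputable section

open ModularCurve HahnSeries FermatLib.Igusa

namespace FermatLib.Igusa.Carayol

section local_algebra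

variable {R C : Type*} [CommRing R] [CommRing C] [IsLocalRing C]

/-- Two homomorphisms agreeing modulo `I` on parameters of a point with residues in their
equaliser agree modulo `I`. -/
theorem sub_mem_of_parameters [IsNoetherianRing C] (f g : R →+* C) (y : Ideal R) (G : Set R)
    (I : Ideal C) (hf : ∀ a ∉ y, IsUnit (f a))
    (hg : ∀ a ∈ y, g a ∈ IsLocalRing.maximalIdeal C)
    (hres : ∀ a, ∃ w, f w = g w ∧ a - w ∈ y) (hG : ∀ u ∈ G, u ∈ y ∧ f u - g u ∈ I)
    (hgen : ∀ a ∈ y, ∃ s ∉ y, s * a ∈ Ideal.span G) (a : R) : f a - g a ∈ I := by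
  refine mem_of_forall_mem_sup_pow fun N => ?_
  induction N generalizing a with
  | zero => simp
  | succ N ih =>
    obtain ⟨w, hw, haw⟩ := hres a
    suffices h : f (a - w) - g (a - w) ∈ I ⊔ IsLocalRing.maximalIdeal C ^ (N + 1) by
      rwa [map_sub, map_sub, hw, sub_sub_sub_cancel_right] at h
    obtain ⟨s, hs, hsb⟩ := hgen _ haw
    have hstep : ∀ r u : R, g u ∈ IsLocalRing.maximalIdeal C →
        (f r - g r) * g u ∈ I ⊔ IsLocalRing.maximalIdeal C ^ (N + 1) := fun r u hu => by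
      have h := Ideal.mul_mem_mul (ih r) hu
      rw [Ideal.sup_mul, ← pow_succ] at h
      have hle : I * IsLocalRing.maximalIdeal C ≤ I := Ideal.mul_le_left
      exact SetLike.le_def.mp (sup_le_sup_right hle _) h
    have hall : f (s * (a - w)) - g (s * (a - w)) ∈ I ⊔ IsLocalRing.maximalIdeal C ^ (N + 1) ∧
        g (s * (a - w)) ∈ IsLocalRing.maximalIdeal C := by
      generalize s * (a - w) = c at hsb
      induction hsb using Submodule.span_induction with
      | mem u hu => exact ⟨Ideal.mem_sup_left (hG u hu).2, hg u (hG u hu).1⟩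
      | zero => exact ⟨by simp, by simp⟩
      | add u v _ _ hu hv =>
        refine ⟨?_, by rw [map_add]; exact add_mem hu.2 hv.2⟩
        rw [map_add, map_add, add_sub_add_comm]
        exact add_mem hu.1 hv.1
      | smul r u _ hu =>
        rw [smul_eq_mul, map_mul, map_mul]
        refine ⟨?_, Ideal.mul_mem_left _ _ hu.2⟩
        rw [show f r * f u - g r * g u = f r * (f u - g u) + (f r - g r) * g u by ring]
        exact add_mem (Ideal.mul_mem_left _ _ hu.1) (hstep r u hu.2)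
    refine (Ideal.unit_mul_mem_iff_mem _ (hf s hs)).mp ?_
    rw [show f s * (f (a - w) - g (a - w)) =
      f (s * (a - w)) - g (s * (a - w)) - (f s - g s) * g (a - w) by
        rw [map_mul, map_mul]; ring]
    exact sub_mem hall.1 (hstep s _ (hg _ haw))

/-- Two copies of the equation of a supersingular point, glued along `b`: the middle variable and
`q` lie in the ideal of the outer variables. -/
theorem mem_span_of_two_equations [IsDomain C] {n : ℕ} (hn : 2 ≤ n) {a b a' Q S S' U U' : C}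
    (hb : b ∈ IsLocalRing.maximalIdeal C) (hS : IsUnit S) (hU : IsUnit U) (hU' : IsUnit U')
    (hne : a ≠ a') (e : S * ((b - a ^ n) * (a - b ^ n)) = Q * U)
    (e' : S' * ((b - a' ^ n) * (a' - b ^ n)) = Q * U') (hd : a - a' ∣ S * U' - S' * U) :
    b ∈ Ideal.span {a, a'} ∧ Q ∈ Ideal.span {a, a'} := by
  set J := Ideal.span {a, a'}
  have ha : a ∈ J := Ideal.subset_span (by simp)
  have ha' : a' ∈ J := Ideal.subset_span (by simp)
  obtain ⟨c, hc⟩ := hd
  have hG : ∀ m, 2 ≤ m →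
      ∑ i ∈ Finset.range m, a ^ i * a' ^ (m - 1 - i) ∈ J := fun m hm =>
    sum_mem fun i _ => by
      rcases Nat.eq_zero_or_pos i with rfl | hi
      · exact J.mul_mem_left _ (J.pow_mem_of_mem ha' _ (by omega))
      · exact J.mul_mem_right _ (J.pow_mem_of_mem ha _ hi)
  have hG1 := geom_sum₂_mul a a' (n + 1)
  have hG2 := geom_sum₂_mul a a' n
  set G1 := ∑ i ∈ Finset.range (n + 1), a ^ i * a' ^ (n + 1 - 1 - i)
  set G2 := ∑ i ∈ Finset.range n, a ^ i * a' ^ (n - 1 - i)
  obtain ⟨A, hA⟩ : ∃ A, a' ^ n = A := ⟨_, rfl⟩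
  have hAJ : A ∈ J := hA ▸ J.pow_mem_of_mem ha' n (by omega)
  have key : S * U' * (b - G1 + b ^ n * G2) + c * ((b - A) * (a' - b ^ n)) = 0 := by
    refine mul_left_cancel₀ (sub_ne_zero.mpr hne) ?_
    rw [mul_zero]
    rw [pow_succ a n, pow_succ a' n, hA] at hG1
    rw [hA] at hG2 e'
    linear_combination U' * e - U * e' - (b - A) * (a' - b ^ n) * hc
      - S * U' * hG1 + S * U' * b ^ n * hG2
  have hbJ : b ∈ J := by
    have hu : IsUnit (S * U' - c * b ^ n) := IsLocalRing.notMem_maximalIdeal.mp fun h => by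
      have h1 := add_mem h (Ideal.mul_mem_left _ c (Ideal.pow_mem_of_mem _ hb n (by omega)))
      rw [sub_add_cancel] at h1
      exact IsLocalRing.notMem_maximalIdeal.mpr (hS.mul hU') h1
    refine (Ideal.unit_mul_mem_iff_mem J hu).mp ?_
    rw [show (S * U' - c * b ^ n) * b =
        S * U' * G1 - S * U' * b ^ n * G2 - c * b * a' + c * (a' - b ^ n) * A by
      linear_combination key]
    exact add_mem (sub_mem (sub_mem (J.mul_mem_left _ (hG _ (by omega)))
      (J.mul_mem_left _ (hG _ hn))) (J.mul_mem_left _ ha')) (J.mul_mem_left _ hAJ)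
  refine ⟨hbJ, (Ideal.mul_unit_mem_iff_mem J hU).mp (e ▸ J.mul_mem_left _ ?_)⟩
  exact J.mul_mem_left _ (sub_mem ha (J.pow_mem_of_mem hbJ n (by omega)))

/-- Two images of a supersingular point with the same middle variable: they lie in the ideal of
the outer variables, as does `q`. -/
theorem mem_span_of_two_images [IsDomain C] [IsNoetherianRing C] {n : ℕ} (hn : n.Prime)
    (f g : R →+* C) (y : Ideal R) [y.IsPrime] (hf : ∀ a ∈ y, f a ∈ IsLocalRing.maximalIdeal C)
    (hg : ∀ a ∈ y, g a ∈ IsLocalRing.maximalIdeal C) (hfu : ∀ a ∉ y, IsUnit (f a))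
    (hgu : ∀ a ∉ y, IsUnit (g a)) (hres : ∀ a, ∃ w, f w = g w ∧ a - w ∈ y) {z₁ z₂ S U : R}
    (hq : (n : R) ∈ y) (h₁ : z₁ ∈ y) (h₂ : z₂ ∈ y) (hmid : f z₂ = g z₂) (hne : f z₁ ≠ g z₁)
    (hS : S ∉ y) (hU : U ∉ y) (e : S * ((z₂ - z₁ ^ n) * (z₁ - z₂ ^ n)) = n * U)
    (hgen : ∀ a ∈ y, ∃ s ∉ y, s * a ∈ Ideal.span {(n : R), z₁, z₂}) :
    (n : C) ∈ Ideal.span {f z₁, g z₁} ∧
      ∀ a ∈ y, f a ∈ Ideal.span {f z₁, g z₁} ∧ g a ∈ Ideal.span {f z₁, g z₁} := by
  have hdiv : ∀ a, f a - g a ∈ Ideal.span {f z₁ - g z₁} :=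
    sub_mem_of_parameters f g y {(n : R), z₁, z₂} _ hfu hg hres (by
      rintro u (rfl | rfl | rfl)
      · exact ⟨hq, by rw [map_natCast, map_natCast, sub_self]; exact zero_mem _⟩
      · exact ⟨h₁, Ideal.mem_span_singleton_self _⟩
      · exact ⟨h₂, by rw [hmid, sub_self]; exact zero_mem _⟩) hgen
  have ef := congrArg f e
  have eg := congrArg g e
  simp only [map_mul, map_sub, map_pow, map_natCast, ← hmid] at ef eg
  obtain ⟨hb, hQ⟩ := mem_span_of_two_equations hn.two_le (hf _ h₂) (hfu S hS) (hfu U hU)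
    (hgu U hU) hne ef eg (Ideal.mem_span_singleton.mp (by
      rw [show f S * g U - g S * f U = g U * (f S - g S) - g S * (f U - g U) by ring]
      exact sub_mem (Ideal.mul_mem_left _ _ (hdiv S)) (Ideal.mul_mem_left _ _ (hdiv U))))
  refine ⟨hQ, fun a ha => ?_⟩
  obtain ⟨s, hs, hsa⟩ := hgen a ha
  set J := Ideal.span {f z₁, g z₁}
  have hmap : ∀ h : R →+* C, h z₁ ∈ J → h z₂ ∈ J → IsUnit (h s) → h a ∈ J := by
    intro h h1 h2 hu
    refine (Ideal.unit_mul_mem_iff_mem J hu).mp ?_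
    rw [← map_mul]
    refine (?_ : Ideal.span {(n : R), z₁, z₂} ≤ J.comap h) hsa
    rw [Ideal.span_le]
    rintro u (rfl | rfl | rfl)
    · rw [SetLike.mem_coe, Ideal.mem_comap, map_natCast]; exact hQ
    · exact h1
    · exact h2
  exact ⟨hmap f (Ideal.subset_span (Or.inl rfl)) hb (hfu s hs),
    hmap g (Ideal.subset_span (Or.inr rfl)) (hmid ▸ hb) (hgu s hs)⟩

omit [IsLocalRing C] in
/-- Constants modulo an ideal propagate from generators to the algebra they generate. -/
theorem exists_const_of_adjoin {W F : Type*} [CommRing W] [CommRing F] [Algebra W F] {s : Set F}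
    (f : Algebra.adjoin W s →+* C) (J : Ideal C)
    (h : ∀ u (hu : u ∈ s), ∃ w : W,
      f (⟨u, Algebra.subset_adjoin hu⟩ - algebraMap W _ w) ∈ J)
    (b : Algebra.adjoin W s) : ∃ w : W, f (b - algebraMap W _ w) ∈ J := by
  obtain ⟨b, hb⟩ := b
  induction hb using Algebra.adjoin_induction with
  | mem u hu => exact h u hu
  | algebraMap w =>
    refine ⟨w, ?_⟩
    rw [show (⟨algebraMap W F w, _⟩ : Algebra.adjoin W s) - algebraMap W _ w = 0 from
      Subtype.ext (sub_self _), map_zero]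
    exact zero_mem _
  | add u v hu hv iu iv =>
    obtain ⟨w, hw⟩ := iu
    obtain ⟨w', hw'⟩ := iv
    refine ⟨w + w', ?_⟩
    rw [show (⟨u + v, add_mem hu hv⟩ : Algebra.adjoin W s) = ⟨u, hu⟩ + ⟨v, hv⟩ from rfl, map_add,
      add_sub_add_comm, map_add]
    exact add_mem hw hw'
  | mul u v hu hv iu iv =>
    obtain ⟨w, hw⟩ := iu
    obtain ⟨w', hw'⟩ := iv
    refine ⟨w * w', ?_⟩
    have hsplit : (⟨u * v, mul_mem hu hv⟩ : Algebra.adjoin W s) - algebraMap W _ (w * w') =
        (⟨u, hu⟩ - algebraMap W _ w) * ⟨v, hv⟩ +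
          algebraMap W _ w * (⟨v, hv⟩ - algebraMap W _ w') := by
      rw [show (⟨u * v, mul_mem hu hv⟩ : Algebra.adjoin W s) = ⟨u, hu⟩ * ⟨v, hv⟩ from rfl, map_mul]
      ring
    rw [hsplit, map_add, map_mul, map_mul]
    exact add_mem (Ideal.mul_mem_right _ _ hw) (Ideal.mul_mem_left _ _ hw')

/-- An element of the point lies in an ideal with the same constants, given that every element is
a constant modulo the ideal. -/
theorem mem_of_const {B : Type*} [CommRing B] (f : B →+* C) (J : Ideal C)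
    (hJ : J ≤ IsLocalRing.maximalIdeal C) {b c : B} (hb : f b ∈ IsLocalRing.maximalIdeal C)
    (hbc : f (b - c) ∈ J) (hc : f c ∈ IsLocalRing.maximalIdeal C → f c ∈ J) : f b ∈ J := by
  have h : f c ∈ IsLocalRing.maximalIdeal C := by
    have h' := sub_mem hb (hJ hbc)
    rwa [← map_sub, sub_sub_cancel] at h'
  have h' := add_mem hbc (hc h)
  rwa [← map_add, sub_add_cancel] at h'

omit [IsLocalRing C] in
/-- Elements integral over a noetherian domain are, near a point of dimension two cut out by two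
functions, in the ring; those vanishing at the point lie in the ideal of the two functions. -/
theorem exists_mul_mem_span_of_generators {B F : Type*} [CommRing B] [IsDomain B]
    [IsNoetherianRing B] [Field F] [Algebra B F] [IsFractionRing B F] (p : Ideal B) [p.IsPrime]
    (u v : B) (hu : u ∈ p) (hv : v ∈ p) (hh : 2 ≤ p.height)
    (hgen : ∀ b ∈ p, algebraMap B (Localization.AtPrime p) b ∈
      Ideal.span {algebraMap B (Localization.AtPrime p) u,
        algebraMap B (Localization.AtPrime p) v})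
    (a : F) (ha : IsIntegral B a) :
    ∃ s b : B, s ∉ p ∧ algebraMap B F s * a = algebraMap B F b ∧
      (b ∈ p → ∃ m ∉ p, m * b ∈ Ideal.span {u, v}) := by
  let C₁ := Localization.AtPrime p
  have hmax : IsLocalRing.maximalIdeal C₁ =
      Ideal.span {algebraMap B C₁ u, algebraMap B C₁ v} := by
    refine le_antisymm ?_ (Ideal.span_le.mpr ?_)
    · rw [← IsLocalization.AtPrime.map_eq_maximalIdeal p C₁, Ideal.map_le_iff_le_comap]
      exact fun b hb => hgen b hb
    · rintro z (rfl | rfl)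
      exacts [(IsLocalization.AtPrime.to_map_mem_maximal_iff C₁ p u).mpr hu,
        (IsLocalization.AtPrime.to_map_mem_maximal_iff C₁ p v).mpr hv]
  haveI : IsDomain C₁ := IsLocalization.isDomain_localization p.primeCompl_le_nonZeroDivisors
  haveI : IsNoetherianRing C₁ := IsLocalization.isNoetherianRing p.primeCompl C₁ inferInstance
  have hdim : 2 ≤ ringKrullDim C₁ := by
    rw [IsLocalization.AtPrime.ringKrullDim_eq_height p C₁]
    exact WithBot.coe_le_coe.mpr hh
  haveI := isIntegrallyClosed_of_two_generators C₁ _ _ hmax hdim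
  have hunit : ∀ s : p.primeCompl, IsUnit (algebraMap B F s) := fun s =>
    IsUnit.mk0 _ (by
      rw [ne_eq, map_eq_zero_iff _ (IsFractionRing.injective B F)]
      exact fun h => s.2 (show (s : B) ∈ p by rw [h]; exact zero_mem p))
  letI : Algebra C₁ F := (IsLocalization.lift (S := C₁) hunit).toAlgebra
  haveI : IsScalarTower B C₁ F :=
    IsScalarTower.of_algebraMap_eq fun b => (IsLocalization.lift_eq (S := C₁) hunit b).symm
  haveI : IsFractionRing C₁ F :=
    IsFractionRing.isFractionRing_of_isDomain_of_isLocalization p.primeCompl C₁ F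
  obtain ⟨c, hc⟩ := IsIntegrallyClosed.isIntegral_iff.mp (ha.tower_top (A := C₁))
  obtain ⟨⟨b, s, hs⟩, hbs⟩ := IsLocalization.surj p.primeCompl c
  refine ⟨s, b, hs, ?_, fun hb => ?_⟩
  · have h := congrArg (algebraMap C₁ F) hbs
    rwa [map_mul, hc, ← IsScalarTower.algebraMap_apply, ← IsScalarTower.algebraMap_apply,
      mul_comm] at h
  · have h := hgen b hb
    rw [← Set.image_pair (algebraMap B C₁), ← Ideal.map_span] at h
    exact (IsLocalization.algebraMap_mem_map_algebraMap_iff p.primeCompl C₁ _ _).mp h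

end local_algebra

namespace Tower

variable {q : ℕ} [NeZero q] {T : Tower q}

theorem isMaximal_comap_chartIncl₂_special {t : T.F₀} (ht : T.ChartParam t) (x : Ideal (T.chart₂ t))
    [x.IsMaximal] : (x.comap (chartIncl₂ t)).IsMaximal := by
  let g : Polynomial T.W →+* T.chart₁ t := (Polynomial.aeval (R := T.W)
    (⟨T.ι₀ t, ι₀_mem_chart₁ mem_chart₀_self⟩ : T.chart₁ t)).toRingHom
  have hfg : (chartIncl₂ t).toRingHom.comp g = shapePoly t :=
    congrArg AlgHom.toRingHom (Polynomial.algHom_ext (R := T.W)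
      (f := (chartIncl₂ t).comp (Polynomial.aeval
        (⟨T.ι₀ t, ι₀_mem_chart₁ mem_chart₀_self⟩ : T.chart₁ t)))
      (g := Polynomial.aeval (⟨T.ι₁ (T.ι₀ t), ι₁_mem_chart₂ (ι₀_mem_chart₁ mem_chart₀_self)⟩ :
        T.chart₂ t))
      (by simp only [AlgHom.comp_apply, Polynomial.aeval_X]; rfl))
  exact Ideal.isMaximal_comap_of_isIntegral_of_isMaximal' (chartIncl₂ t).toRingHom
    (RingHom.IsIntegral.tower_top g _ (hfg ▸ shapePoly_isIntegral ht)) x

/-- The Atkin–Lehner involution of the finite chart of level `N q²`. -/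
def w₂ChartHom (hI : T.Inputs) : T.chart₂ T.j →ₐ[T.W] T.chart₂ T.j :=
  (((T.w₂ : T.F₂ →ₐ[T.K] T.F₂).restrictScalars T.W).comp (T.chart₂ T.j).val).codRestrict _
    fun a => w₂_mem_chart₂ hI a.2

theorem w₂ChartHom_w₂ChartHom (hI : T.Inputs) (a : T.chart₂ T.j) :
    w₂ChartHom hI (w₂ChartHom hI a) = a := Subtype.ext (T.w₂_w₂ _)

theorem red₂_w₂ChartHom (hI : T.Inputs) (a : T.chart₂ T.j) :
    T.red₂ 0 (w₂ChartHom hI a : T.F₂) = T.red₂ 2 (a : T.F₂) ∧
      T.red₂ 1 (w₂ChartHom hI a : T.F₂) = T.red₂ 1 (a : T.F₂) ∧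
      T.red₂ 2 (w₂ChartHom hI a : T.F₂) = T.red₂ 0 (a : T.F₂) := by
  have hc := T.conj_series_mem (q - 1) (branch_mem_gaussInt (T.chartParam_j hI) 1 a)
  have hs := T.scaleζ_mem 1 hc.1
  rw [pow_one] at hs
  refine ⟨rfl, ?_, congrArg (fun y => T.red (T.ε y)) (T.w₂_w₂ _)⟩
  show T.red (T.εb (T.w₂ (a : T.F₂))) = _
  rw [T.εb_w₂]
  exact hs.2.trans hc.2

theorem thru_comap_w₂ChartHom (hI : T.Inputs) (x : Ideal (T.chart₂ T.j)) {l l' : Fin 3}
    (h : ∀ a : T.chart₂ T.j, T.red₂ l (w₂ChartHom hI a : T.F₂) = T.red₂ l' (a : T.F₂)) :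
    Thru l (x.comap (w₂ChartHom hI)) ↔ Thru l' x := by
  constructor
  · intro hl a ha
    have h1 := hl (w₂ChartHom hI a) (by rw [h]; exact ha)
    rwa [Ideal.mem_comap, w₂ChartHom_w₂ChartHom] at h1
  · intro hl a ha
    rw [Ideal.mem_comap]
    refine hl _ ?_
    rw [← h, w₂ChartHom_w₂ChartHom]
    exact ha

/-- Over a point of level `N q` of the branch at `0`, the two branches above the one at `∞` meet. -/
theorem thru_zero_iff_one {t : T.F₀} (ht : T.ChartParam t) (x : Ideal (T.chart₂ t))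
    (hy : ThruZero (x.comap (chartIncl₂ t))) : Thru 0 x ↔ Thru 1 x := by
  have key : ∀ a : T.chart₂ t, ∃ b : T.chart₂ t, b ∈ x ∧
      T.red₂ 0 (b : T.F₂) = T.red₂ 0 (a : T.F₂) - T.red₂ 1 (a : T.F₂) ∧
      T.red₂ 1 (b : T.F₂) = T.red₂ 0 (a : T.F₂) - T.red₂ 1 (a : T.F₂) := fun a => by
    obtain ⟨b, hb, hb'⟩ := red_trace₂ ht a
    refine ⟨chartIncl₂ t b, hy b hb', hb, ?_⟩
    show T.red (T.εb (T.ι₁ b)) = _
    rw [T.εb_ι₁]
    exact hb
  constructor <;> intro h a ha <;> obtain ⟨b, hbx, hb0, hb1⟩ := key a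
  · rw [ha, sub_zero] at hb0
    exact (mem_iff_of_thru ht h hb0).mp hbx
  · rw [ha, zero_sub] at hb1
    have : b + a ∈ x := h _ (by
      rw [← redBranch_apply ht, map_add, redBranch_apply, redBranch_apply, hb1, neg_add_cancel])
    simpa using x.sub_mem this hbx

/-- A special point of level `N q` lies on both branches. -/
theorem thru_both_of_isSpecial (hI : T.Inputs) (y : Ideal (T.chart₁ T.j)) [y.IsMaximal]
    (hy : (q : T.chart₁ T.j) ∈ y) (hs : T.IsSpecial (y.comap (chartIncl₁ T.j))) :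
    ThruInf y ∧ ThruZero y := by
  haveI := isMaximal_comap_chartIncl₁ y
  obtain ⟨z, hz, hzy, hgen⟩ :=
    (T.chartParam_j hI).exists_rat_parameter (y.comap (chartIncl₁ T.j)) (q_mem_comap hy)
  exact thruInf_and_thruZero_of_isSpecial hI y hy hs z hz hzy hgen

/-- At a special point the three branches pass, and the two projections have the same image. -/
theorem thru_all_of_isSpecial (hI : T.Inputs) (x : Ideal (T.chart₂ T.j)) [x.IsMaximal]
    (hx : (q : T.chart₂ T.j) ∈ x)
    (hs : T.IsSpecial ((x.comap (chartIncl₂ T.j)).comap (chartIncl₁ T.j))) :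
    (∀ l, Thru l x) ∧
      (x.comap (w₂ChartHom hI)).comap (chartIncl₂ T.j) = x.comap (chartIncl₂ T.j) := by
  have ht := T.chartParam_j hI
  set x' := x.comap (w₂ChartHom hI) with hx'
  haveI : x'.IsMaximal := Ideal.comap_isMaximal_of_surjective _
    fun a => ⟨w₂ChartHom hI a, w₂ChartHom_w₂ChartHom hI a⟩
  set y := x.comap (chartIncl₂ T.j) with hy
  set y₂ := x'.comap (chartIncl₂ T.j) with hy₂
  haveI : y.IsMaximal := isMaximal_comap_chartIncl₂_special ht x
  haveI : y₂.IsMaximal := isMaximal_comap_chartIncl₂_special ht x'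
  haveI := isMaximal_comap_chartIncl₁ y
  haveI := isMaximal_comap_chartIncl₁ y₂
  have hyq : (q : T.chart₁ T.j) ∈ y := by rw [hy, Ideal.mem_comap, map_natCast]; exact hx
  have hy₂q : (q : T.chart₁ T.j) ∈ y₂ := by
    rw [hy₂, Ideal.mem_comap, map_natCast, hx', Ideal.mem_comap, map_natCast]; exact hx
  have hb : ∀ b, w₂ChartHom hI (chartIncl₂ T.j (chartIncl₁ T.j b)) =
      chartBeta₂ hI (betaIncl₁ hI b) := fun b => Subtype.ext (by
    show T.w₂ (T.ι₁ (T.ι₀ (b : T.F₀))) = T.β₁ (T.β₀ b)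
    rw [T.w₂_ι₁, T.w₁_ι₀])
  have hs₂ : T.IsSpecial (y₂.comap (chartIncl₁ T.j)) := by
    obtain ⟨a₀, ha₀, ha₀'⟩ := exists_phiBar_lift hI
    set y' := y₂.comap (w₁Hom hI) with hy'
    haveI : y'.IsMaximal := isMaximal_comap_w₁Hom hI y₂
    have hy'q : (q : T.chart₁ T.j) ∈ y' := by rw [hy', Ideal.mem_comap, map_natCast]; exact hy₂q
    have hmem : ∀ c, c ∈ y' ↔ chartBeta₂ hI c ∈ x := fun c => by
      rw [hy', Ideal.mem_comap, hy₂, Ideal.mem_comap, hx', Ideal.mem_comap,
        show w₂ChartHom hI (chartIncl₂ T.j (w₁Hom hI c)) = chartBeta₂ hI c from Subtype.ext (by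
          show T.w₂ (T.ι₁ (T.w₁ (c : T.F₁))) = T.β₁ c
          rw [T.w₂_ι₁, T.w₁_w₁])]
    have hβι : chartBeta₂ hI (chartIncl₁ T.j a₀) = chartIncl₂ T.j (betaIncl₁ hI a₀) :=
      Subtype.ext (T.comm _)
    rw [isSpecial_iff hI _ (q_mem_comap hy₂q) a₀ ha₀', Ideal.mem_comap, hy₂, Ideal.mem_comap, hx',
      Ideal.mem_comap, hb, ← hmem, betaIncl₁_mem_iff hI y' hy'q a₀ ha₀, hmem, hβι,
      ← Ideal.mem_comap (f := chartIncl₂ T.j), ← hy, betaIncl₁_mem_iff hI y hyq a₀ ha₀,
      ← Ideal.mem_comap (f := chartIncl₁ T.j), ← isSpecial_iff hI _ (q_mem_comap hyq) a₀ ha₀']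
    exact hs
  obtain ⟨hInf, hZero⟩ := thru_both_of_isSpecial hI y hyq hs
  obtain ⟨hInf₂, hZero₂⟩ := thru_both_of_isSpecial hI y₂ hy₂q hs₂
  have h01 : Thru 0 x ↔ Thru 1 x := thru_zero_iff_one ht x hZero
  have h21 : Thru 2 x ↔ Thru 1 x := by
    have h := thru_zero_iff_one ht x' hZero₂
    rwa [thru_comap_w₂ChartHom hI x (fun a => (red₂_w₂ChartHom hI a).1),
      thru_comap_w₂ChartHom hI x (fun a => (red₂_w₂ChartHom hI a).2.1)] at h
  have h1 : Thru 1 x := by
    obtain ⟨i, hi⟩ := exists_thru ht x hx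
    fin_cases i
    exacts [h01.mp hi, hi, h21.mp hi]
  refine ⟨fun l => by fin_cases l; exacts [h01.mpr h1, h1, h21.mpr h1],
    eq_of_thruInf hI (Or.inl rfl) y₂ y hInf₂ hInf (Ideal.ext fun b => ?_)⟩
  rw [Ideal.mem_comap, hy₂, Ideal.mem_comap, hx', Ideal.mem_comap, hb, hy, Ideal.mem_comap,
    Ideal.mem_comap]
  refine mem_iff_of_thru ht h1 ?_
  show T.red (T.εb (T.β₁ (T.β₀ (b : T.F₀)))) = T.red (T.εb (T.ι₁ (T.ι₀ (b : T.F₀))))
  have hs1 := T.scaleζ_mem 1 (ht.e₀_mem_gaussInt b)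
  rw [pow_one] at hs1
  rw [T.εb_β₁, w₁_β₀, T.e₁_ι₀, T.εb_ι₁]
  exact hs1.2

/-- The two images of level `N q` in the chart of level `N q²`. -/
abbrev leftHom (T : Tower q) : T.chart₁ T.j →ₐ[T.W] T.F₂ :=
  (T.chart₂ T.j).val.comp (chartIncl₂ T.j)

/-- The second image. -/
abbrev rightHom (hI : T.Inputs) : T.chart₁ T.j →ₐ[T.W] T.F₂ :=
  (T.chart₂ T.j).val.comp ((w₂ChartHom hI).comp (chartIncl₂ T.j))

/-- The ring generated by the two images. -/
abbrev jointRing (hI : T.Inputs) : Subalgebra T.W T.F₂ :=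
  Algebra.adjoin T.W (Set.range (leftHom T) ∪ Set.range (rightHom hI))

theorem jointRing_le (hI : T.Inputs) : jointRing hI ≤ T.chart₂ T.j := Algebra.adjoin_le (by
  rintro f (⟨a, rfl⟩ | ⟨a, rfl⟩)
  exacts [(chartIncl₂ T.j a).2, (w₂ChartHom hI (chartIncl₂ T.j a)).2])

theorem finiteType_jointRing (hI : T.Inputs) : Algebra.FiniteType T.W (jointRing hI) := by
  haveI := finiteType_chart₁ hI (t := T.j) (Or.inl rfl)
  refine (Subalgebra.fg_iff_finiteType _).mp ?_
  show Subalgebra.FG (Algebra.adjoin T.W (Set.range (leftHom T) ∪ Set.range (rightHom hI)))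
  rw [Algebra.adjoin_union, ← AlgHom.coe_range, ← AlgHom.coe_range, Algebra.adjoin_eq,
    Algebra.adjoin_eq, ← Algebra.map_top, ← Algebra.map_top]
  exact Subalgebra.FG.sup (Algebra.FiniteType.out.map _) (Algebra.FiniteType.out.map _)

theorem isFractionRing_jointRing (hI : T.Inputs) : IsFractionRing (jointRing hI) T.F₂ := by
  haveI := isFractionRing_chart₁ (T.chartParam_j hI)
  set B := jointRing hI
  let F : Subfield T.F₂ := Subfield.closure (B : Set T.F₂)
  have hsub : ∀ {f : T.F₂}, f ∈ B → f ∈ F := fun h => Subfield.subset_closure h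
  have hl : ∀ a, leftHom T a ∈ F := fun a => hsub (Algebra.subset_adjoin (Or.inl ⟨a, rfl⟩))
  have hr : ∀ a, rightHom hI a ∈ F := fun a => hsub (Algebra.subset_adjoin (Or.inr ⟨a, rfl⟩))
  have hF : ∀ f, f ∈ F := by
    intro f
    have hf : f ∈ IntermediateField.adjoin T.K (Set.range T.ι₁ ∪ Set.range T.β₁) := by
      rw [T.adjoin₂]; trivial
    induction hf using IntermediateField.adjoin_induction with
    | mem g hg =>
      rcases hg with ⟨u, rfl⟩ | ⟨u, rfl⟩
      · obtain ⟨a, b, -, rfl⟩ := IsFractionRing.div_surjective (A := T.chart₁ T.j) u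
        rw [map_div₀]
        exact div_mem (hl a) (hl b)
      · obtain ⟨a, b, -, he⟩ := IsFractionRing.div_surjective (A := T.chart₁ T.j) (T.w₁ u)
        rw [← T.w₁_w₁ u, ← T.w₂_ι₁, ← he, map_div₀, map_div₀]
        exact div_mem (hr a) (hr b)
    | algebraMap c =>
      rcases T.W.mem_or_inv_mem c with hc | hc
      · exact hsub (B.algebraMap_mem ⟨c, hc⟩)
      · rw [← inv_inv c, map_inv₀]
        exact inv_mem (hsub (B.algebraMap_mem ⟨c⁻¹, hc⟩))
    | add u v _ _ hu hv => exact add_mem hu hv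
    | inv u _ hu => exact inv_mem hu
    | mul u v _ _ hu hv => exact mul_mem hu hv
  have hclB : ∀ a ∈ Subring.closure (B : Set T.F₂), a ∈ B := fun a ha =>
    (Subring.closure_le (t := B.toSubring)).mpr subset_rfl ha
  exact IsFractionRing.of_field B T.F₂ fun f => by
    obtain ⟨a, ha, b, hb, he⟩ := Subfield.mem_closure_iff.mp (hF f)
    exact ⟨⟨a, hclB a ha⟩, ⟨b, hclB b hb⟩, he.symm⟩

/-- A parameter differs from its translate by the involution. -/
theorem parameter_ne_translate (hI : T.Inputs) (x₀ : Ideal (T.chart₀ T.j)) [x₀.IsMaximal]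
    (hx₀ : (q : T.chart₀ T.j) ∈ x₀) (z : T.chart₀ T.j) (hz : T.IsRat (z : T.F₀)) (hzx : z ∈ x₀)
    (hgen : ∀ a ∈ x₀, ∃ s ∉ x₀, s * a ∈ Ideal.span {(q : T.chart₀ T.j), z}) :
    T.ι₁ (T.ι₀ (z : T.F₀)) ≠ T.w₂ (T.ι₁ (T.ι₀ (z : T.F₀))) := by
  intro h'
  have ht := T.chartParam_j hI
  have h0 := red₀_parameter_ne_zero hI x₀ hx₀ z hgen
  have hint := ht.e₀_mem_gaussInt z
  have e : T.red₀ (z : T.F₀) = T.red₀ (z : T.F₀) ^ (q * q) := by
    conv_lhs => rw [show T.red₀ (z : T.F₀) = T.red (T.ε (T.ι₁ (T.ι₀ (z : T.F₀)))) from rfl, h']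
    show T.red (T.εc (T.ι₁ (T.ι₀ (z : T.F₀)))) = _
    rw [T.εc_ι₁, T.w₁_ι₀, T.e₁_β₀, meet_red_qExpand (qExpand_mem_gaussInt q hint).1,
      meet_red_qExpand hint]
    show qExpand T.k q (qExpand T.k q (T.red₀ (z : T.F₀))) = _
    rw [hz.2, map_pow, hz.2, ← pow_mul]
  have hq2 := one_lt_q_sq T
  obtain ⟨k, hk⟩ : ∃ k, q * q = k + 1 := ⟨q * q - 1, by omega⟩
  have h1 : red₀Hom ht (z ^ k - 1) = 0 := by
    refine (mul_eq_zero.mp (?_ : red₀Hom ht z * red₀Hom ht (z ^ k - 1) = 0)).resolve_left h0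
    rw [map_sub, map_pow, map_one, mul_sub, mul_one, ← pow_succ', sub_eq_zero, ← hk]
    exact e.symm
  have h2 := ht.ker_redHom_le hx₀ (RingHom.mem_ker.mpr h1)
  refine (Ideal.IsMaximal.ne_top ‹x₀.IsMaximal›) ((Ideal.eq_top_iff_one _).mpr ?_)
  simpa using sub_mem (Ideal.pow_mem_of_mem _ hzx k (by omega)) h2

/-- A special point is cut out by a parameter of level `N` and its translate. -/
theorem regularPoint_of_isSpecial (hI : T.Inputs) (x : Ideal (T.chart₂ T.j)) [x.IsMaximal]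
    (hx : (q : T.chart₂ T.j) ∈ x)
    (hs : T.IsSpecial ((x.comap (chartIncl₂ T.j)).comap (chartIncl₁ T.j))) : RegularPoint x := by
  have ht := T.chartParam_j hI
  haveI := T.isDiscreteValuationRing_W
  haveI := T.charZeroK
  haveI : CharZero T.F₂ := charZero_of_injective_algebraMap (algebraMap T.K T.F₂).injective
  obtain ⟨hall, hcomap⟩ := thru_all_of_isSpecial hI x hx hs
  set y := x.comap (chartIncl₂ T.j) with hy
  haveI : y.IsMaximal := isMaximal_comap_chartIncl₂_special ht x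
  have hyp : y.IsPrime := Ideal.IsMaximal.isPrime ‹_›
  have hxp : x.IsPrime := Ideal.IsMaximal.isPrime ‹_›
  haveI := isMaximal_comap_chartIncl₁ y
  have hyq : (q : T.chart₁ T.j) ∈ y := by rw [hy, Ideal.mem_comap, map_natCast]; exact hx
  obtain ⟨z, hz, hzy, hgen⟩ := ht.exists_rat_parameter (y.comap (chartIncl₁ T.j)) (q_mem_comap hyq)
  obtain ⟨hInf, -, hz2y, ⟨R, S, hR, hS, hRS⟩, hygen⟩ := special_point hI y hyq hs z hz hzy hgen
    (chartIncl₁ T.j z) (betaIncl₁ hI z) rfl rfl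
  have hres : ∀ a : T.chart₁ T.j, ∃ w : T.W, a - algebraMap T.W (T.chart₁ T.j) w ∈ y := by
    intro a
    obtain ⟨b, hb⟩ := exists_red₁Hom_eq hI (Or.inl rfl) a
    obtain ⟨w, hw⟩ := ht.exists_residue (y.comap (chartIncl₁ T.j)) (q_mem_comap hyq) b
    refine ⟨w, ?_⟩
    rw [Ideal.mem_comap, map_sub, AlgHom.commutes] at hw
    have h1 := hInf (a - chartIncl₁ T.j b) (by
      rw [← red₁Hom_apply ht, map_sub, hb, red₁_chartIncl₁, sub_self])
    simpa using add_mem h1 hw
  -- the subring generated by the two images and its local ring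
  haveI := finiteType_jointRing hI
  haveI := isFractionRing_jointRing hI
  let incl : jointRing hI →ₐ[T.W] T.chart₂ T.j := Subalgebra.inclusion (jointRing_le hI)
  haveI : IsNoetherianRing (jointRing hI) := Algebra.FiniteType.isNoetherianRing T.W _
  let p : Ideal (jointRing hI) := x.comap incl
  haveI hp : p.IsPrime := Ideal.comap_isPrime incl x
  haveI : IsDomain (Localization.AtPrime p) :=
    IsLocalization.isDomain_localization p.primeCompl_le_nonZeroDivisors
  haveI : IsNoetherianRing (Localization.AtPrime p) :=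
    IsLocalization.isNoetherianRing p.primeCompl _ inferInstance
  obtain ⟨ι, hι⟩ : ∃ ι : jointRing hI →+* Localization.AtPrime p,
      algebraMap (jointRing hI) (Localization.AtPrime p) = ι := ⟨_, rfl⟩
  have hιm : ∀ b, ι b ∈ IsLocalRing.maximalIdeal (Localization.AtPrime p) ↔ b ∈ p := fun b =>
    hι ▸ IsLocalization.AtPrime.to_map_mem_maximal_iff (Localization.AtPrime p) p b
  have hιu : ∀ b ∉ p, IsUnit (ι b) := fun b hb =>
    hι ▸ (IsLocalization.AtPrime.isUnit_to_map_iff (Localization.AtPrime p) p b).mpr hb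
  have hιinj : Function.Injective ι :=
    hι ▸ IsLocalization.injective (Localization.AtPrime p) p.primeCompl_le_nonZeroDivisors
  let Φ : T.chart₁ T.j →+* jointRing hI := (leftHom T).toRingHom.codRestrict _
    fun a => Algebra.subset_adjoin (Or.inl ⟨a, rfl⟩)
  let Ψ : T.chart₁ T.j →+* jointRing hI := (rightHom hI).toRingHom.codRestrict _
    fun a => Algebra.subset_adjoin (Or.inr ⟨a, rfl⟩)
  have hΦp : ∀ a, Φ a ∈ p ↔ a ∈ y := fun a => Iff.rfl
  have hΨp : ∀ a, Ψ a ∈ p ↔ a ∈ y := fun a => by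
    rw [← hcomap]
    exact Iff.rfl
  have hW : ∀ w : T.W, Φ (algebraMap T.W _ w) = Ψ (algebraMap T.W _ w) := fun w =>
    Subtype.ext (((leftHom T).commutes w).trans ((rightHom hI).commutes w).symm)
  set z₁ := chartIncl₁ T.j z with hz₁
  set z₂ := betaIncl₁ hI z with hz₂
  obtain ⟨f, hf⟩ : ∃ f : T.chart₁ T.j →+* Localization.AtPrime p, ι.comp Φ = f := ⟨_, rfl⟩
  obtain ⟨g, hg⟩ : ∃ g : T.chart₁ T.j →+* Localization.AtPrime p, ι.comp Ψ = g := ⟨_, rfl⟩
  have hf' : ∀ a, f a = ι (Φ a) := fun a => hf ▸ RingHom.comp_apply ι Φ a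
  have hg' : ∀ a, g a = ι (Ψ a) := fun a => hg ▸ RingHom.comp_apply ι Ψ a
  have hfm : ∀ a ∈ y, f a ∈ IsLocalRing.maximalIdeal _ := fun a ha => by
    rw [hf']; exact (hιm _).mpr ((hΦp a).mpr ha)
  have hgm : ∀ a ∈ y, g a ∈ IsLocalRing.maximalIdeal _ := fun a ha => by
    rw [hg']; exact (hιm _).mpr ((hΨp a).mpr ha)
  have hfu : ∀ a ∉ y, IsUnit (f a) := fun a ha => by
    rw [hf']; exact hιu _ fun h => ha ((hΦp a).mp h)
  have hgu : ∀ a ∉ y, IsUnit (g a) := fun a ha => by
    rw [hg']; exact hιu _ fun h => ha ((hΨp a).mp h)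
  have hres' : ∀ a, ∃ w, f w = g w ∧ a - w ∈ y := fun a => (hres a).elim fun w hw =>
    ⟨algebraMap T.W _ w, by rw [hf', hg', hW], hw⟩
  have hmid : f z₂ = g z₂ := by
    rw [hf', hg', show Φ z₂ = Ψ z₂ from Subtype.ext (by
      show T.ι₁ (T.β₀ (z : T.F₀)) = T.w₂ (T.ι₁ (T.β₀ (z : T.F₀)))
      rw [T.w₂_ι₁, T.w₁_β₀, T.comm])]
  have hne : f z₁ ≠ g z₁ := by
    rw [hf', hg']
    intro h
    exact parameter_ne_translate hI _ (q_mem_comap hyq) z hz hzy hgen
      (congrArg (fun b : jointRing hI => (b : T.F₂)) (hιinj h))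
  obtain ⟨hqJ, hgenJ⟩ := mem_span_of_two_images (R := T.chart₁ T.j) (C := Localization.AtPrime p) (z₁ := z₁) (z₂ := z₂) T.prime f g y hfm hgm hfu hgu hres' hyq hzy hz2y
    hmid hne hS hR hRS hygen
  simp only [hf', hg'] at hgenJ hqJ
  set J : Ideal (Localization.AtPrime p) := Ideal.span {ι (Φ z₁), ι (Ψ z₁)} with hJ
  have hJp : J ≤ IsLocalRing.maximalIdeal (Localization.AtPrime p) := Ideal.span_le.mpr (by
    rintro z' (rfl | rfl)
    exacts [(hιm _).mpr ((hΦp _).mpr hzy), (hιm _).mpr ((hΨp _).mpr hzy)])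
  have hgenp : ∀ b ∈ p, ι b ∈ J := by
    intro b hb
    obtain ⟨w, hw⟩ : ∃ w : T.W, ι (b - algebraMap T.W _ w) ∈ J := by
      refine exists_const_of_adjoin (C := Localization.AtPrime p) ι J ?_ b
      rintro u (⟨a, rfl⟩ | ⟨a, rfl⟩) <;> obtain ⟨w, hw⟩ := hres a <;> refine ⟨w, ?_⟩
      · convert (hgenJ _ hw).1 using 2
        exact Subtype.ext (((map_sub (leftHom T) a _).trans
          (congrArg _ ((leftHom T).commutes w))).symm)
      · convert (hgenJ _ hw).2 using 2
        exact Subtype.ext (((map_sub (rightHom hI) a _).trans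
          (congrArg _ ((rightHom hI).commutes w))).symm)
    refine mem_of_const (B := jointRing hI) (C := Localization.AtPrime p) (b := b)
      (c := algebraMap T.W _ w) ι J hJp ((hιm b).mpr hb) hw fun hwp => ?_
    have hwu : ¬ IsUnit w := fun hu =>
      (IsLocalRing.mem_maximalIdeal _).mp hwp ((hu.map _).map _)
    have hwm : w ∈ IsLocalRing.maximalIdeal T.W := hwu
    rw [(IsDiscreteValuationRing.irreducible_iff_uniformizer _).mp T.irreducible_q,
      Ideal.mem_span_singleton] at hwm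
    obtain ⟨u, rfl⟩ := hwm
    rw [map_mul, map_mul, map_natCast, map_natCast]
    exact J.mul_mem_right _ hqJ
  have hh : 2 ≤ p.height := by
    let H : jointRing hI →+* LaurentSeries T.k := (redBranch ht 0).comp incl.toRingHom
    haveI : (RingHom.ker H).IsPrime := RingHom.ker_isPrime _
    have hle' : RingHom.ker H ≤ p := fun a ha => hall 0 _ (RingHom.mem_ker.mp ha)
    have hlt : RingHom.ker H ≠ p := fun he => by
      have hz1 : Φ z₁ ∈ RingHom.ker H := he ▸ (hΦp _).mpr hzy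
      exact red₀_parameter_ne_zero hI _ (q_mem_comap hyq) z hgen (RingHom.mem_ker.mp hz1)
    have h1 := Ideal.height_strict_mono_of_isPrime_of_isPrime (lt_of_le_of_ne hle' hlt)
    have hq : (q : jointRing hI) ≠ 0 := fun h => Nat.cast_ne_zero.mpr T.prime.ne_zero
      (by simpa using congrArg (fun b : jointRing hI => (b : T.F₂)) h : (q : T.F₂) = 0)
    have h2 : RingHom.ker H ≠ ⊥ := fun hb => hq (Ideal.mem_bot.mp (hb ▸
      RingHom.mem_ker.mpr (by
        rw [map_natCast, ← map_natCast (algebraMap T.k (LaurentSeries T.k)), CharP.cast_eq_zero,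
          map_zero])))
    have h3 : (RingHom.ker H).height ≠ 0 := by
      rw [ne_eq, Ideal.height_eq_zero_iff_eq_bot]
      exact h2
    have h4 : (1 : ℕ∞) < p.height := lt_of_le_of_lt (Order.one_le_iff_pos.mpr h3.bot_lt) h1
    simpa [one_add_one_eq_two] using Order.add_one_le_of_lt h4
  subst hι
  -- back to the normal chart
  refine ⟨incl (Φ z₁), incl (Ψ z₁), (hΦp _).mpr hzy, (hΨp _).mpr hzy, fun a ha => ?_⟩
  have hint : IsIntegral (jointRing hI) (a : T.F₂) := by
    obtain ⟨P, hP, hPa⟩ := (a.2 : IsIntegral (Algebra.adjoin T.W {T.ι₁ (T.ι₀ T.j)}) (a : T.F₂))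
    have hadj : Algebra.adjoin T.W {T.ι₁ (T.ι₀ T.j)} ≤ jointRing hI := Algebra.adjoin_le (by
      rintro _ rfl
      exact Algebra.subset_adjoin (Or.inl ⟨⟨_, ι₀_mem_chart₁ mem_chart₀_self⟩, rfl⟩))
    refine ⟨P.map (Subalgebra.inclusion hadj).toRingHom, hP.map _, ?_⟩
    rw [Polynomial.eval₂_map]
    exact hPa
  obtain ⟨s, b, hs', hsab, hbgen⟩ := exists_mul_mem_span_of_generators p (Φ z₁) (Ψ z₁)
    ((hΦp _).mpr hzy) ((hΨp _).mpr hzy) hh hgenp (a : T.F₂) hint
  have hab : incl s * a = incl b := Subtype.ext hsab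
  obtain ⟨m, hm, hmb⟩ := hbgen (show incl b ∈ x from hab ▸ x.mul_mem_left _ ha)
  refine ⟨incl (m * s), fun h => (hp.mem_or_mem (x := m) (y := s) h).elim hm hs', ?_⟩
  obtain ⟨c₁, c₂, hc'⟩ := Ideal.mem_span_pair.mp hmb
  refine Ideal.mem_span_pair.mpr ⟨incl c₁, incl c₂, ?_⟩
  rw [map_mul, mul_assoc, hab, ← map_mul, ← map_mul, ← map_mul, ← map_add, hc']

/-- A special point is regular, lies on the three branches and is alone over its two images. -/
theorem special_point₂ (hI : T.Inputs) (x : Ideal (T.chart₂ T.j)) [x.IsMaximal]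
    (hx : (q : T.chart₂ T.j) ∈ x)
    (hs : T.IsSpecial ((x.comap (chartIncl₂ T.j)).comap (chartIncl₁ T.j))) :
    RegularPoint x ∧ (∀ l, Thru l x) ∧
      (∀ x' : Ideal (T.chart₂ T.j), x'.IsMaximal →
        x'.comap (chartIncl₂ T.j) = x.comap (chartIncl₂ T.j) → x' = x) ∧
      (∀ x' : Ideal (T.chart₂ T.j), x'.IsMaximal →
        x'.comap (chartBeta₂ hI) = x.comap (chartBeta₂ hI) → x' = x) := by
  have hall := (thru_all_of_isSpecial hI x hx hs).1
  exact ⟨regularPoint_of_isSpecial hI x hx hs,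
    branches_meet_of_exists_thru hI (fun y _ hy => exists_thru (T.chartParam_j hI) y hy) x hx 0 1
      (by decide) (hall 0) (hall 1)⟩

/-- Two branches meet only at special points. -/
theorem isSpecial_of_thru (hI : T.Inputs) (x : Ideal (T.chart₂ T.j)) [x.IsMaximal]
    (hx : (q : T.chart₂ T.j) ∈ x) (i k : Fin 3) (hik : i ≠ k) (hi : Thru i x) (hk : Thru k x) :
    T.IsSpecial ((x.comap (chartIncl₂ T.j)).comap (chartIncl₁ T.j)) := by
  have ht := T.chartParam_j hI
  have hall := thru_all_of_two hI hik hi hk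
  set y := x.comap (chartIncl₂ T.j) with hy
  haveI : y.IsMaximal := isMaximal_comap_chartIncl₂_special ht x
  haveI := isMaximal_comap_chartIncl₁ y
  have hyq : (q : T.chart₁ T.j) ∈ y := by rw [hy, Ideal.mem_comap, map_natCast]; exact hx
  have hInf : ThruInf y := fun a ha => hall 0 (chartIncl₂ T.j a) ha
  have hZero : ThruZero y := fun a ha => hall 2 (chartIncl₂ T.j a) (by
    show T.red (T.εc (T.ι₁ a)) = 0
    rw [T.εc_ι₁, meet_red_qExpand (e₁_mem_gaussInt ht a).2,
      show T.red (T.e₁ (T.w₁ (a : T.F₁))) = 0 from ha, map_zero])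
  by_contra hs
  obtain ⟨z, hz, hzy, hgen⟩ := ht.exists_rat_parameter (y.comap (chartIncl₁ T.j)) (q_mem_comap hyq)
  exact (ordinary_point hI y hyq hs z hz hzy hgen (chartIncl₁ T.j z) (betaIncl₁ hI z) rfl rfl).1
    ⟨hInf, hZero⟩

end Tower

end FermatLib.Igusa.Carayol
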