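import Mathlib

/-!
# Algebra for the main statement about the tower

Denominators outside the kernel of a valuation-like map, clearing powers in integral dependence,
units outside a prime from integrality.
-/

set_option autoImplicit false
set_option linter.style.haveILetI false

noncomputable section

open Polynomial

namespace FermatLib.Igusa.Carayol

/-- A root of a polynomial over an integrally closed ring, not vanishing identically under `φ`,
is a quotient with denominator not vanishing under `φ`. -/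
theorem exists_denominator_of_root {F R : Type*} [Field F] [CommRing R] [IsDomain R] (B : Subring F)
    (hB : ∀ x : F, IsIntegral B x → x ∈ B) (O : Subring F) (hBO : B ≤ O) (φ : O →+* R)
    {a : F} (ha : a ∈ O) (p : Polynomial B) (hpa : aeval a p = 0)
    (hne : ∃ l, φ ⟨p.coeff l, hBO (p.coeff l).2⟩ ≠ 0) :
    ∃ d : B, φ ⟨d, hBO d.2⟩ ≠ 0 ∧ (d : F) * a ∈ B := by
  classical
  induction hn : p.natDegree using Nat.strong_induction_on generalizing p with
  | _ n ih =>
    subst hn
    obtain ⟨l, hl⟩ := hne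
    rcases Nat.eq_zero_or_pos p.natDegree with h0 | hpos
    · exfalso
      rw [eq_C_of_natDegree_eq_zero h0, aeval_C] at hpa
      rcases Nat.eq_zero_or_pos l with rfl | hl0
      · exact hl ((congrArg φ (Subtype.ext hpa : (⟨p.coeff 0, hBO (p.coeff 0).2⟩ : O) = 0)).trans
          (map_zero φ))
      · exact hl ((congrArg φ (Subtype.ext (by
          rw [coeff_eq_zero_of_natDegree_lt (h0 ▸ hl0)]; rfl) :
            (⟨p.coeff l, hBO (p.coeff l).2⟩ : O) = 0)).trans (map_zero φ))
    set b := p.leadingCoeff with hb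
    have hba : (b : F) * a ∈ B := hB _ (isIntegral_leadingCoeff_smul p a hpa)
    by_cases hφb : φ ⟨b, hBO b.2⟩ = 0
    swap
    · exact ⟨b, hφb, hba⟩
    obtain ⟨k, hk⟩ : ∃ k, p.natDegree = k + 1 := ⟨p.natDegree - 1, by omega⟩
    set p' : Polynomial B := p.eraseLead + monomial k ⟨(b : F) * a, hba⟩ with hp'
    have hdeg : p'.natDegree < p.natDegree := by
      have h1 : p'.natDegree ≤ k := natDegree_add_le_of_degree_le
        (by have := p.eraseLead_natDegree_le; omega) (natDegree_monomial_le _)
      omega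
    have heval : aeval a p' = 0 := by
      rw [← hpa]
      conv_rhs => rw [← p.eraseLead_add_monomial_natDegree_leadingCoeff]
      rw [hp', map_add, map_add, aeval_monomial, aeval_monomial, hk, pow_succ]
      show _ + ((b : F) * a) * a ^ k = _ + (b : F) * (a ^ k * a)
      ring
    refine ih _ hdeg p' heval ⟨l, ?_⟩ rfl
    have hlk : l ≠ k + 1 := by
      rintro rfl
      refine hl ?_
      have : p.coeff (k + 1) = b := by rw [hb, leadingCoeff, hk]
      rw [← hφb]
      congr 1
      exact Subtype.ext (congrArg Subtype.val this :)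
    have hcoef : (p'.coeff l : F) = p.coeff l + if k = l then (b : F) * a else 0 := by
      rw [hp', coeff_add, eraseLead_coeff, if_neg (hk ▸ hlk), coeff_monomial]
      split_ifs <;> simp
    have h0 : φ ⟨(b : F) * a, hBO hba⟩ = 0 := by
      have := φ.map_mul ⟨b, hBO b.2⟩ ⟨a, ha⟩
      rw [hφb, zero_mul] at this
      exact this
    intro h
    refine hl ?_
    rw [← h]
    by_cases hkl : k = l
    · rw [← add_zero (φ ⟨p.coeff l, _⟩), ← h0, ← map_add]
      exact congrArg φ (Subtype.ext (by rw [if_pos hkl] at hcoef; exact hcoef.symm))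
    · exact congrArg φ (Subtype.ext (by rw [if_neg hkl, add_zero] at hcoef; exact hcoef.symm))

/-- Clearing powers of `t` in integral dependence. -/
theorem exists_pow_mul_isIntegral {F : Type*} [Field F] (S S' : Subring F) {t : F} (htS : t ∈ S)
    (h : ∀ x ∈ S', ∃ n : ℕ, t ^ n * x ∈ S) {b : F} (hb : IsIntegral S' b) :
    ∃ n : ℕ, IsIntegral S (t ^ n * b) := by
  classical
  obtain ⟨p, hp, hpb⟩ := hb
  choose! e he using h
  refine ⟨(Finset.range (p.natDegree + 1)).sup fun i => e (p.coeff i), ?_⟩
  set n := (Finset.range (p.natDegree + 1)).sup fun i => e (p.coeff i)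
  set P : F[X] := (p.map S'.subtype).scaleRoots (t ^ n) with hP
  have hPm : P.Monic := (monic_scaleRoots_iff _).mpr (hp.map _)
  have hdeg : (p.map S'.subtype).natDegree = p.natDegree :=
    natDegree_map_eq_of_injective Subtype.val_injective p
  have hlift : P ∈ Polynomial.lifts (algebraMap S F) := by
    rw [lifts_iff_coeff_lifts]
    intro i
    refine ⟨⟨P.coeff i, ?_⟩, rfl⟩
    rw [hP, coeff_scaleRoots, coeff_map, hdeg]
    rcases lt_trichotomy i p.natDegree with hi | rfl | hi
    · obtain ⟨d, hd⟩ : ∃ d, p.natDegree - i = d + 1 := ⟨p.natDegree - i - 1, by omega⟩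
      have hle : e (p.coeff i) ≤ n :=
        Finset.le_sup (f := fun i => e (p.coeff i)) (Finset.mem_range.mpr (by omega))
      obtain ⟨c, hc⟩ := Nat.exists_eq_add_of_le hle
      rw [hd, ← pow_mul, show n * (d + 1) = e (p.coeff i) + (c + n * d) by rw [Nat.mul_succ]; omega,
        pow_add, ← mul_assoc, mul_comm (S'.subtype _)]
      exact mul_mem (he _ (p.coeff i).2) (pow_mem htS _)
    · rw [hp.coeff_natDegree, map_one, Nat.sub_self, pow_zero, one_mul]
      exact one_mem S
    · rw [coeff_eq_zero_of_natDegree_lt hi, map_zero, zero_mul]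
      exact zero_mem S
  obtain ⟨P', hP', -, hP'm⟩ := lifts_and_natDegree_eq_and_monic hlift hPm
  refine ⟨P', hP'm, ?_⟩
  rw [eval₂_eq_eval_map, hP', hP]
  have h0 : (p.map S'.subtype).eval₂ (RingHom.id F) b = 0 := by
    rw [eval₂_map]; exact hpb
  exact scaleRoots_eval₂_eq_zero (RingHom.id F) h0

/-- In `W[t, 1/t]` powers of `t` clear the denominators. -/
theorem exists_pow_mul_mem_adjoin {W F : Type*} [CommRing W] [Field F] [Algebra W F] {t : F}
    (ht : t ≠ 0) {x : F} (hx : x ∈ Algebra.adjoin W {t, t⁻¹}) :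
    ∃ n : ℕ, t ^ n * x ∈ Algebra.adjoin W {t} := by
  have up : ∀ {x : F} {n m : ℕ}, n ≤ m → t ^ n * x ∈ Algebra.adjoin W {t} →
      t ^ m * x ∈ Algebra.adjoin W {t} := by
    intro x n m hnm hn
    obtain ⟨c, rfl⟩ := Nat.exists_eq_add_of_le' hnm
    rw [pow_add, mul_assoc]
    exact mul_mem (pow_mem (Algebra.self_mem_adjoin_singleton W t) _) hn
  induction hx using Algebra.adjoin_induction with
  | mem z hz =>
    rcases hz with rfl | rfl
    · exact ⟨0, by simpa using Algebra.self_mem_adjoin_singleton W _⟩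
    · exact ⟨1, by rw [pow_one, mul_inv_cancel₀ ht]; exact one_mem _⟩
  | algebraMap w => exact ⟨0, by simp⟩
  | add a b _ _ ha hb =>
    obtain ⟨n, hn⟩ := ha
    obtain ⟨m, hm⟩ := hb
    exact ⟨max n m, by
      rw [mul_add]; exact add_mem (up (le_max_left _ _) hn) (up (le_max_right _ _) hm)⟩
  | mul a b _ _ ha hb =>
    obtain ⟨n, hn⟩ := ha
    obtain ⟨m, hm⟩ := hb
    exact ⟨n + m, by rw [pow_add, mul_mul_mul_comm]; exact mul_mem hn hm⟩

/-- If `x` is the only prime over its image, elements outside `x` divide elements outside the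
image. -/
theorem exists_mul_eq_of_alone {R S : Type*} [CommRing R] [CommRing S] [Algebra R S]
    [Algebra.IsIntegral R S] (x : Ideal S) [x.IsMaximal]
    (h : ∀ x' : Ideal S, x'.IsMaximal →
      x'.comap (algebraMap R S) = x.comap (algebraMap R S) → x' = x)
    {s : S} (hs : s ∉ x) :
    ∃ (r : R) (s' : S), r ∉ x.comap (algebraMap R S) ∧ s * s' = algebraMap R S r := by
  set y := x.comap (algebraMap R S) with hy
  haveI : y.IsMaximal := Ideal.isMaximal_comap_of_isIntegral_of_isMaximal x
  by_contra hcon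
  push Not at hcon
  have hdisj : Disjoint (Ideal.span {s} : Set S)
      (Submonoid.map (algebraMap R S : R →* S) y.primeCompl) := by
    rw [Set.disjoint_left]
    rintro z hz ⟨r, hr, rfl⟩
    obtain ⟨s', hs'⟩ := Ideal.mem_span_singleton'.mp hz
    exact hcon r s' hr (by rw [mul_comm]; exact hs')
  obtain ⟨p, hp, hsp, hpd⟩ := Ideal.exists_le_prime_disjoint _ _ hdisj
  haveI := hp
  have hple : p.comap (algebraMap R S) ≤ y := by
    intro r hr
    by_contra hry
    exact Set.disjoint_left.mp hpd hr ⟨r, hry, rfl⟩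
  obtain ⟨x', hpx', hx'prime, hx'y⟩ := Ideal.exists_ideal_over_prime_of_isIntegral y p hple
  haveI := hx'prime
  have hmax : x'.IsMaximal :=
    Ideal.isMaximal_of_isIntegral_of_isMaximal_comap x' (by rw [hx'y]; infer_instance)
  exact hs ((h x' hmax hx'y) ▸ hpx' (hsp (Ideal.mem_span_singleton_self s)))

/-- An element with an invertible positive power in a valuation subring is invertible there. -/
theorem isUnit_of_pow {L : Type*} [Field L] (A : ValuationSubring L) {x : L} {d : ℕ} (hd : d ≠ 0)
    {u : Aˣ} (h : x ^ d = (u : A)) : ∃ u' : Aˣ, x = (u' : A) := by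
  have hx : x ≠ 0 := fun hx => by
    rw [hx, zero_pow hd] at h
    exact u.ne_zero (Subtype.ext h.symm)
  have key : ∀ y : L, y ^ d ∈ A → y ∈ A := fun y hy => by
    rcases eq_or_ne y 0 with rfl | hy0
    · exact A.zero_mem
    rcases A.mem_or_inv_mem y with hy' | hy'
    · exact hy'
    · obtain ⟨d', rfl⟩ := Nat.exists_eq_succ_of_ne_zero hd
      have := A.mul_mem _ _ hy (pow_mem hy' d')
      rwa [pow_succ', mul_assoc, ← mul_pow, mul_inv_cancel₀ hy0, one_pow, mul_one] at this
  have h1 : x ∈ A := key x (h ▸ (u : A).2)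
  have h2 : x⁻¹ ∈ A := key _ (by
    rw [inv_pow, h]
    have h3 : (((u : A) * (↑u⁻¹ : A) : A) : L) = 1 := by rw [u.mul_inv]; rfl
    rw [MulMemClass.coe_mul] at h3
    exact (inv_eq_of_mul_eq_one_right h3).symm ▸ (↑u⁻¹ : A).2)
  exact ⟨⟨⟨x, h1⟩, ⟨x⁻¹, h2⟩, Subtype.ext (mul_inv_cancel₀ hx),
    Subtype.ext (inv_mul_cancel₀ hx)⟩, rfl⟩

end FermatLib.Igusa.Carayol
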