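import Mathlib
import Fermat.Agent.Igusa.Carayol.LevelTwoShape
import Fermat.Agent.Igusa.Carayol.MainAlg

/-!
Points of the chart at infinity away from the cusps are points of the finite chart.
-/

set_option autoImplicit false
set_option maxHeartbeats 800000
set_option synthInstance.maxHeartbeats 200000
set_option linter.style.haveILetI false

noncomputable section

open ModularCurve HahnSeries FermatLib.Igusa

namespace FermatLib.Igusa.Carayol

namespace Tower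

variable {q : ℕ} [NeZero q] {T : Tower q}

/-- Every class at a point of a chart of level `N q²` is a constant. -/
theorem exists_residue_chart₂ (hI : T.Inputs) {t : T.F₀} (ht : t = T.j ∨ t = T.j⁻¹)
    (x : Ideal (T.chart₂ t)) [x.IsMaximal] (hx : (q : T.chart₂ t) ∈ x) (a : T.chart₂ t) :
    ∃ w : T.W, a - algebraMap T.W (T.chart₂ t) w ∈ x := by
  haveI := T.isDiscreteValuationRing_W
  letI := Ideal.Quotient.field x
  let f : T.W →+* T.chart₂ t ⧸ x := (Ideal.Quotient.mk x).comp (algebraMap T.W (T.chart₂ t))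
  have hle : RingHom.ker T.πW ≤ RingHom.ker f := fun w hw => by
    have h : w ∈ IsLocalRing.maximalIdeal T.W :=
      (IsLocalRing.mem_maximalIdeal _).mpr fun hu => (hu.map T.πW).ne_zero (RingHom.mem_ker.mp hw)
    rw [Irreducible.maximalIdeal_eq T.irreducible_q, Ideal.mem_span_singleton] at h
    obtain ⟨w', rfl⟩ := h
    refine Ideal.Quotient.eq_zero_iff_mem.mpr ?_
    rw [map_mul, map_natCast]
    exact x.mul_mem_right _ hx
  let ψ : T.k →+* T.chart₂ t ⧸ x := T.πW.liftOfSurjective T.πW_surjective ⟨f, hle⟩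
  have hψ : ∀ w, ψ (T.πW w) = f w := fun w => RingHom.liftOfRightInverse_comp_apply _ _ _ _ w
  have hft : (ψ.comp T.πW).FiniteType := by
    rw [show ψ.comp T.πW = f from RingHom.ext hψ]
    exact (RingHom.FiniteType.of_surjective _ Ideal.Quotient.mk_surjective).comp
      (RingHom.finiteType_algebraMap.mpr (finiteType_chart₂ hI ht))
  letI : Algebra T.k (T.chart₂ t ⧸ x) := ψ.toAlgebra
  haveI : Algebra.FiniteType T.k (T.chart₂ t ⧸ x) :=
    RingHom.finiteType_algebraMap.mp (RingHom.FiniteType.of_comp_finiteType hft)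
  haveI := finite_of_finite_type_of_isJacobsonRing T.k (T.chart₂ t ⧸ x)
  obtain ⟨c, hc⟩ := (IsAlgClosed.algebraMap_bijective_of_isIntegral (k := T.k)
    (K := T.chart₂ t ⧸ x)).2 (Ideal.Quotient.mk x a)
  obtain ⟨w, rfl⟩ := T.πW_surjective c
  exact ⟨w, Ideal.Quotient.eq.mp ((hc.symm.trans (hψ w)))⟩

theorem ι₁ι₀_jinv : T.ι₁ (T.ι₀ T.j⁻¹) = (T.ι₁ (T.ι₀ T.j))⁻¹ := by rw [map_inv₀, map_inv₀]

theorem ι₁ι₀_j_ne_zero : T.ι₁ (T.ι₀ T.j) ≠ 0 := fun h =>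
  T.transcendental_j (by
    rw [(_root_.map_eq_zero _).mp ((_root_.map_eq_zero _).mp h)]
    exact isAlgebraic_zero)

theorem ι₁ι₀_self_mem (t : T.F₀) : T.ι₁ (T.ι₀ t) ∈ T.chart₂ t :=
  ι₁_mem_chart₂ (ι₀_mem_chart₁ mem_chart₀_self)

/-- A power of `j` carries the chart at infinity into the finite chart, and conversely. -/
theorem exists_pow_chart_mul_mem (t t' : T.F₀) (h : T.ι₁ (T.ι₀ t') = (T.ι₁ (T.ι₀ t))⁻¹)
    (h0 : T.ι₁ (T.ι₀ t) ≠ 0) {b : T.F₂} (hb : b ∈ T.chart₂ t') :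
    ∃ n : ℕ, T.ι₁ (T.ι₀ t) ^ n * b ∈ T.chart₂ t := by
  refine exists_pow_mul_isIntegral (Algebra.adjoin T.W {T.ι₁ (T.ι₀ t)}).toSubring
    (Algebra.adjoin T.W {T.ι₁ (T.ι₀ t')}).toSubring (Algebra.self_mem_adjoin_singleton T.W _)
    (fun x hx => exists_pow_mul_mem_adjoin h0 (Algebra.adjoin_mono ?_ hx)) hb
  rw [h]
  exact Set.singleton_subset_iff.mpr (Set.mem_insert_of_mem _ rfl)

theorem mem_iff_pow_mul_mem {R : Type*} [CommRing R] {x : Ideal R} (hx : x.IsPrime) {v a : R}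
    (hv : v ∉ x) (n : ℕ) : v ^ n * a ∈ x ↔ a ∈ x :=
  ⟨fun h => (hx.mem_or_mem h).resolve_left fun h' => hv (hx.mem_of_pow_mem n h'),
    fun h => x.mul_mem_left _ h⟩

/-- Off the cusps a point of the chart at infinity has the local ring of a point of the finite
chart. -/
theorem exists_transfer (hI : T.Inputs) (x : Ideal (T.chart₂ T.j⁻¹)) [x.IsMaximal]
    (hx : (q : T.chart₂ T.j⁻¹) ∈ x) (v : T.chart₂ T.j⁻¹)
    (hv : (v : T.F₂) = T.ι₁ (T.ι₀ T.j⁻¹)) (hvx : v ∉ x) :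
    ∃ x' : Ideal (T.chart₂ T.j), x'.IsMaximal ∧ (q : T.chart₂ T.j) ∈ x' ∧
      (∀ a : T.F₂, (∃ s : T.chart₂ T.j⁻¹, s ∉ x ∧ (s : T.F₂) * a ∈ T.chart₂ T.j⁻¹) ↔
        ∃ s : T.chart₂ T.j, s ∉ x' ∧ (s : T.F₂) * a ∈ T.chart₂ T.j) ∧
      (∀ (b : T.chart₂ T.j) (n : ℕ) (c : T.chart₂ T.j⁻¹),
        (c : T.F₂) = (v : T.F₂) ^ n * b → (c ∈ x ↔ b ∈ x')) ∧
      ∀ i, Thru i x → Thru i x' := by
  haveI := T.isDiscreteValuationRing_W
  have hp : x.IsPrime := Ideal.IsMaximal.isPrime inferInstance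
  set J := T.ι₁ (T.ι₀ T.j) with hJ
  have hvJ : (v : T.F₂) = J⁻¹ := by rw [hv, ι₁ι₀_jinv]
  have hJ0 : J ≠ 0 := ι₁ι₀_j_ne_zero
  have hJv : ∀ n : ℕ, J ^ n * (v : T.F₂) ^ n = 1 := fun n => by
    rw [← mul_pow, hvJ, mul_inv_cancel₀ hJ0, one_pow]
  have down : ∀ b : T.F₂, b ∈ T.chart₂ T.j → ∃ n : ℕ, (v : T.F₂) ^ n * b ∈ T.chart₂ T.j⁻¹ :=
    fun b hb => by
      obtain ⟨n, hn⟩ := exists_pow_chart_mul_mem (T := T) T.j⁻¹ T.j (by rw [ι₁ι₀_jinv, inv_inv])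
        (by rw [ι₁ι₀_jinv]; exact inv_ne_zero hJ0) hb
      exact ⟨n, by rwa [hv]⟩
  have up : ∀ b : T.F₂, b ∈ T.chart₂ T.j⁻¹ → ∃ n : ℕ, J ^ n * b ∈ T.chart₂ T.j :=
    fun b hb => exists_pow_chart_mul_mem (T := T) T.j T.j⁻¹ ι₁ι₀_jinv hJ0 hb
  have hJmem : ∀ n : ℕ, J ^ n ∈ T.chart₂ T.j := fun n => pow_mem (ι₁ι₀_self_mem T.j) n
  have indep : ∀ (b : T.F₂) (n n' : ℕ) (c c' : T.chart₂ T.j⁻¹), (c : T.F₂) = (v : T.F₂) ^ n * b →
      (c' : T.F₂) = (v : T.F₂) ^ n' * b → (c ∈ x ↔ c' ∈ x) := by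
    intro b n n' c c' hc hc'
    have e : v ^ n' * c = v ^ n * c' := Subtype.ext (by
      rw [MulMemClass.coe_mul, MulMemClass.coe_mul, SubmonoidClass.coe_pow,
        SubmonoidClass.coe_pow, hc, hc']
      ring)
    rw [← mem_iff_pow_mul_mem hp hvx n', e, mem_iff_pow_mul_mem hp hvx n]
  -- the point
  let x' : Ideal (T.chart₂ T.j) :=
    { carrier := {b | ∀ (n : ℕ) (c : T.chart₂ T.j⁻¹), (c : T.F₂) = (v : T.F₂) ^ n * b → c ∈ x}
      zero_mem' := fun n c hc => by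
        rw [show c = 0 from Subtype.ext (by rw [hc, ZeroMemClass.coe_zero, mul_zero]; rfl)]
        exact x.zero_mem
      add_mem' := fun {a b} ha hb n c hc => by
        obtain ⟨N, hN⟩ := down a a.2
        obtain ⟨M, hM⟩ := down b b.2
        have e : v ^ (N + M) * c = v ^ (n + M) * ⟨_, hN⟩ + v ^ (n + N) * ⟨_, hM⟩ := Subtype.ext (by
          rw [MulMemClass.coe_mul, SubmonoidClass.coe_pow, hc, AddMemClass.coe_add,
            AddMemClass.coe_add, MulMemClass.coe_mul, MulMemClass.coe_mul, SubmonoidClass.coe_pow,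
            SubmonoidClass.coe_pow]
          ring)
        rw [← mem_iff_pow_mul_mem hp hvx (N + M), e]
        exact add_mem (x.mul_mem_left _ (ha N _ rfl)) (x.mul_mem_left _ (hb M _ rfl))
      smul_mem' := fun r a ha n c hc => by
        obtain ⟨N, hN⟩ := down r r.2
        obtain ⟨M, hM⟩ := down a a.2
        have e : v ^ (N + M) * c = v ^ n * ⟨_, hN⟩ * ⟨_, hM⟩ := Subtype.ext (by
          rw [MulMemClass.coe_mul, SubmonoidClass.coe_pow, hc, smul_eq_mul, MulMemClass.coe_mul,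
            MulMemClass.coe_mul, MulMemClass.coe_mul, SubmonoidClass.coe_pow]
          ring)
        rw [← mem_iff_pow_mul_mem hp hvx (N + M), e]
        exact x.mul_mem_left _ (ha M _ rfl) }
  have crit : ∀ (b : T.chart₂ T.j) (n : ℕ) (c : T.chart₂ T.j⁻¹),
      (c : T.F₂) = (v : T.F₂) ^ n * b → (c ∈ x ↔ b ∈ x') := fun b n c hc =>
    ⟨fun h n' c' hc' => (indep _ n n' c c' hc hc').mp h, fun h => h n c hc⟩
  have hone : (1 : T.chart₂ T.j) ∉ x' := fun h =>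
    hp.ne_top (x.eq_top_iff_one.mpr ((crit 1 0 1 (by simp)).mpr h))
  have hq' : (q : T.chart₂ T.j) ∈ x' := (crit _ 0 (q : T.chart₂ T.j⁻¹) (by simp)).mp hx
  have hmax : x'.IsMaximal := by
    refine Ideal.isMaximal_iff.mpr ⟨hone, fun I a hle hax haI => ?_⟩
    obtain ⟨n, hn⟩ := down a a.2
    have hA : (⟨_, hn⟩ : T.chart₂ T.j⁻¹) ∉ x := fun h => hax ((crit a n _ rfl).mp h)
    obtain ⟨c, i, hi, hci⟩ := Ideal.IsMaximal.exists_inv inferInstance hA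
    obtain ⟨w, hw⟩ := exists_residue_chart₂ hI (Or.inr rfl) x hx v
    obtain ⟨k, hk⟩ := up ((v : T.F₂) ^ n * c) (mul_mem (pow_mem v.2 n) c.2)
    set b : T.chart₂ T.j := algebraMap T.W _ w ^ k * ⟨_, hk⟩ with hb
    suffices h : 1 - a * b ∈ x' by
      have := I.add_mem (hle h) (I.mul_mem_right b haI)
      rwa [sub_add_cancel] at this
    refine (crit _ k (v ^ k - algebraMap T.W _ w ^ k * ((⟨_, hn⟩ : T.chart₂ T.j⁻¹) * c)) ?_).mp ?_
    · push_cast [hb]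
      linear_combination (algebraMap T.W T.F₂ w ^ k * (v : T.F₂) ^ n * (a : T.F₂) * (c : T.F₂)) *
        (hJv k)
    · rw [← Ideal.Quotient.eq_zero_iff_mem, map_sub, map_mul, map_pow, map_pow,
        Ideal.Quotient.eq.mpr hw,
        show (⟨_, hn⟩ : T.chart₂ T.j⁻¹) * c = 1 - i by rw [mul_comm, ← hci, add_sub_cancel_right],
        map_sub, map_one, Ideal.Quotient.eq_zero_iff_mem.mpr hi, sub_zero, mul_one, sub_self]
  refine ⟨x', hmax, hq', fun a => ⟨?_, ?_⟩, crit, fun i hi b hb n c hc => hi c ?_⟩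
  · rintro ⟨s, hs, hsa⟩
    obtain ⟨N, hN⟩ := up s s.2
    obtain ⟨M, hM⟩ := up _ hsa
    refine ⟨⟨J ^ M, hJmem M⟩ * ⟨_, hN⟩, fun h => hs ((crit _ (M + N) s ?_).mpr h), ?_⟩
    · show (s : T.F₂) = _ * (J ^ M * (J ^ N * s))
      rw [← mul_assoc (J ^ M), ← _root_.pow_add, ← mul_assoc, mul_comm (_ ^ _) (J ^ _), hJv, one_mul]
    · show J ^ M * (J ^ N * s) * a ∈ T.chart₂ T.j
      rw [show J ^ M * (J ^ N * s) * a = J ^ N * (J ^ M * (s * a)) by ring]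
      exact mul_mem (hJmem N) hM
  · rintro ⟨s, hs, hsa⟩
    obtain ⟨N, hN⟩ := down s s.2
    obtain ⟨M, hM⟩ := down _ hsa
    refine ⟨v ^ M * ⟨_, hN⟩,
      fun h => hs ((crit s N ⟨_, hN⟩ rfl).mp ((mem_iff_pow_mul_mem hp hvx M).mp h)), ?_⟩
    show (v : T.F₂) ^ M * ((v : T.F₂) ^ N * s) * a ∈ T.chart₂ T.j⁻¹
    rw [show (v : T.F₂) ^ M * ((v : T.F₂) ^ N * s) * a = (v : T.F₂) ^ N * ((v : T.F₂) ^ M * (s * a))
      by ring]
    exact mul_mem (pow_mem v.2 N) hM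
  · show gred T.π (T.branch i (c : T.F₂)) = 0
    rw [hc, map_mul, gred_mul (branch_mem_gaussInt (T.chartParam_jinv hI) i ⟨_, pow_mem v.2 n⟩)
      (branch_mem_gaussInt (T.chartParam_j hI) i b), show gred T.π (T.branch i b) = 0 from hb,
      mul_zero]

/-- Root principality only depends on the local ring. -/
theorem rootPrincipalAt_transfer {t t' : T.F₀} {x : Ideal (T.chart₂ t)} {x' : Ideal (T.chart₂ t')}
    (hloc : ∀ a : T.F₂, (∃ s : T.chart₂ t, s ∉ x ∧ (s : T.F₂) * a ∈ T.chart₂ t) ↔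
      ∃ s : T.chart₂ t', s ∉ x' ∧ (s : T.F₂) * a ∈ T.chart₂ t')
    (h' : RootPrincipalAt x') : RootPrincipalAt x := by
  intro m hm f hf
  obtain ⟨h, h0, H⟩ := h' m hm f hf
  refine ⟨h, h0, fun a => (hloc _).trans ((H a).trans ?_)⟩
  have e : ∀ (t : T.F₀) (x : Ideal (T.chart₂ t)),
      (∃ s c : T.chart₂ t, s ∉ x ∧ (s : T.F₂) * a = c * h) ↔
        ∃ s : T.chart₂ t, s ∉ x ∧ (s : T.F₂) * (a / h) ∈ T.chart₂ t := fun t x => by
    refine ⟨fun ⟨s, c, hs, hsc⟩ => ⟨s, hs, ?_⟩, fun ⟨s, hs, hc⟩ => ⟨s, ⟨_, hc⟩, hs, ?_⟩⟩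
    · rw [← mul_div_assoc, hsc, mul_div_cancel_right₀ _ h0]
      exact c.2
    · rw [mul_assoc, div_mul_cancel₀ _ h0]
  rw [e, e]
  exact (hloc _).symm

end Tower

end FermatLib.Igusa.Carayol
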