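import Mathlib
import Fermat.Agent.Igusa.Carayol.LevelTwoMeet
import Fermat.Agent.Igusa.Carayol.LevelTwoOrdinary
import Fermat.Agent.Igusa.Carayol.LevelTwoSpecial
import Fermat.Agent.Igusa.Carayol.LevelTwoCusp
import Fermat.Agent.Igusa.Carayol.LevelTwoRegular
import Fermat.Agent.Igusa.Carayol.LevelTwoTransfer

/-!
The special fibre of level `N q²`: three branches, every point regular, meeting only at the
supersingular points.
-/

set_option autoImplicit false
set_option maxHeartbeats 400000

noncomputable section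

open ModularCurve HahnSeries FermatLib.Igusa

namespace FermatLib.Igusa.Carayol

namespace Tower

variable {q : ℕ} [NeZero q] {T : Tower q}

theorem branchRegularAt (hI : T.Inputs) {t : T.F₀} (ht : t = T.j ∨ t = T.j⁻¹)
    (x : Ideal (T.chart₂ t)) [x.IsMaximal] (hx : (q : T.chart₂ t) ∈ x) (i : Fin 3)
    (hi : Thru i x) : BranchRegularAt i x :=
  branch_regular hI ht x hx i hi

/-- The image of a point on a branch is a principal ideal locally. -/
theorem branchParam (hI : T.Inputs) {t : T.F₀} (ht : t = T.j ∨ t = T.j⁻¹)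
    (x : Ideal (T.chart₂ t)) [x.IsMaximal] (hx : (q : T.chart₂ t) ∈ x) (i : Fin 3)
    (hi : Thru i x) : BranchParam i x :=
  exists_branch_param hI ht x hx i hi

/-- Regularity on the finite chart. -/
theorem rootPrincipalAt_j (hI : T.Inputs) (x : Ideal (T.chart₂ T.j)) [x.IsMaximal]
    (hx : (q : T.chart₂ T.j) ∈ x) : RootPrincipalAt x := by
  have hp := T.chartParam_j hI
  obtain ⟨i, hi⟩ := exists_thru hp x hx
  refine rootPrincipalAt_of_regular hp x hx i hi ?_
  by_cases hs : T.IsSpecial ((x.comap (chartIncl₂ T.j)).comap (chartIncl₁ T.j))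
  · exact (special_point₂ hI x hx hs).1
  have honly : ∀ l, Thru l x → l = i := fun l hl => by
    by_contra h
    exact hs (isSpecial_of_thru hI x hx l i h hl hi)
  by_cases hi1 : i = 1
  · subst hi1
    exact regular_of_middle hp x hx hi honly (branchParam hI (Or.inl rfl) x hx 1 hi)
      (middleEquation_ordinary hI x hx hi hs)
  · exact regular_of_outer hp x hx i hi1 hi honly (branchParam hI (Or.inl rfl) x hx i hi)

/-- **All points are regular.** -/
theorem rootPrincipalAt (hI : T.Inputs) {t : T.F₀} (ht : t = T.j ∨ t = T.j⁻¹)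
    (x : Ideal (T.chart₂ t)) [x.IsMaximal] (hx : (q : T.chart₂ t) ∈ x) :
    RootPrincipalAt x := by
  rcases ht with rfl | rfl
  · exact rootPrincipalAt_j hI x hx
  let v : T.chart₂ T.j⁻¹ :=
    ⟨T.ι₁ (T.ι₀ T.j⁻¹), ι₁_mem_chart₂ (ι₀_mem_chart₁ mem_chart₀_self)⟩
  by_cases hvx : v ∈ x
  · have hp := T.chartParam_jinv hI
    obtain ⟨i, hi⟩ := exists_thru hp x hx
    refine rootPrincipalAt_of_regular hp x hx i hi ?_
    have honly : ∀ l, Thru l x → l = i := fun l hl =>
      cusp_only hI x hx v rfl hvx l i hl hi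
    by_cases hi1 : i = 1
    · subst hi1
      exact regular_of_middle hp x hx hi honly (branchParam hI (Or.inr rfl) x hx 1 hi)
        (middleEquation_cusp hI x hx v rfl hvx hi)
    · exact regular_of_outer hp x hx i hi1 hi honly (branchParam hI (Or.inr rfl) x hx i hi)
  · obtain ⟨x', hx'm, hx', hloc, -⟩ := exists_transfer hI x hx v rfl hvx
    haveI := hx'm
    exact rootPrincipalAt_transfer hloc (rootPrincipalAt_j hI x' hx')

/-- Two branches meet only at the points which are alone over their two images, and then all three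
pass. -/
theorem branches_meet (hI : T.Inputs) (x : Ideal (T.chart₂ T.j)) [x.IsMaximal]
    (hx : (q : T.chart₂ T.j) ∈ x) (i k : Fin 3) (hik : i ≠ k) (hi : Thru i x) (hk : Thru k x) :
    (∀ l, Thru l x) ∧
      (∀ x' : Ideal (T.chart₂ T.j), x'.IsMaximal →
        x'.comap (chartIncl₂ T.j) = x.comap (chartIncl₂ T.j) → x' = x) ∧
      (∀ x' : Ideal (T.chart₂ T.j), x'.IsMaximal →
        x'.comap (chartBeta₂ hI) = x.comap (chartBeta₂ hI) → x' = x) :=
  branches_meet_of_exists_thru hI (fun y _ hy => exists_thru (T.chartParam_j hI) y hy) x hx i k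
    hik hi hk

/-- The branches do not meet at the cusps. -/
theorem branches_meet_inf (hI : T.Inputs) (x : Ideal (T.chart₂ T.j⁻¹)) [x.IsMaximal]
    (hx : (q : T.chart₂ T.j⁻¹) ∈ x) (v : T.chart₂ T.j⁻¹)
    (hv : (v : T.F₂) = T.ι₁ (T.ι₀ T.j⁻¹)) (hvx : v ∈ x) (i k : Fin 3) (hi : Thru i x)
    (hk : Thru k x) : i = k :=
  branches_meet_inf_aux hI x v hv hvx i k hi hk

end Tower

end FermatLib.Igusa.Carayol
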