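import Fermat.Agent.Igusa.Carayol.MainContent
import Fermat.Agent.Igusa.Carayol.LevelTwo

/-!
# The chart of level `N q²` inside the Gauss rings of the branches and inside valuation rings

An element integral for a branch, or for a valuation ring over the base in which `q` is a unit,
is a quotient of elements of the chart with denominator a unit there.
-/

set_option autoImplicit false
set_option maxHeartbeats 800000
set_option synthInstance.maxHeartbeats 200000
set_option linter.style.haveILetI false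

noncomputable section

open ModularCurve FermatLib.Igusa
open Polynomial hiding C

namespace FermatLib.Igusa.Carayol

namespace Tower

variable {q : ℕ} [NeZero q] {T : Tower q} {t : T.F₀}

theorem ι₁ι₀_mem_chart₂ (t : T.F₀) : T.ι₁ (T.ι₀ t) ∈ T.chart₂ t :=
  ι₁_mem_chart₂ (ι₀_mem_chart₁ mem_chart₀_self)

theorem ChartParam.transcendental_red₂ (ht : T.ChartParam t) (i : Fin 3) :
    Transcendental T.k (T.red₂ i (T.ι₁ (T.ι₀ t))) := by
  rcases branch_ι₁ι₀ (T := T) i t with h | h
  · show Transcendental T.k (gred T.π _)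
    rw [h]
    exact ht.red_transcendental
  · show Transcendental T.k (gred T.π _)
    have h1 := qExpand_mem_gaussInt q ht.int
    rw [h, (qExpand_mem_gaussInt q h1.1).2, h1.2]
    let σ : LaurentSeries T.k →ₐ[T.k] LaurentSeries T.k :=
      { ((qExpand T.k q).comp (qExpand T.k q) : LaurentSeries T.k →+* LaurentSeries T.k) with
        commutes' := fun c => by
          show qExpand T.k q (qExpand T.k q _) = _
          simp only [algebraMap_laurentSeries_eq_single, qExpand_single, mul_zero] }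
    exact fun halg => ht.red_transcendental
      ((isAlgebraic_algHom_iff σ σ.toRingHom.injective).mp halg)

theorem ChartParam.mem_chart₂_of_isIntegral (ht : T.ChartParam t) {x : T.F₂}
    (hx : IsIntegral (T.chart₂ t).toSubring x) : x ∈ (T.chart₂ t).toSubring := by
  haveI := isIntegrallyClosed_chart₂ ht
  haveI := isFractionRing_chart₂ ht
  have hx' : IsIntegral (T.chart₂ t) x := hx
  obtain ⟨z, rfl⟩ := IsIntegrallyClosed.isIntegral_iff.mp hx'
  exact z.2

/-- Every function satisfies a nonzero equation over `W[t]`. -/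
theorem ChartParam.exists_relation (ht : T.ChartParam t) (a : T.F₂) :
    ∃ P : Polynomial (Polynomial T.W), P ≠ 0 ∧
      eval₂ (aeval (T.ι₁ (T.ι₀ t))).toRingHom a P = 0 := by
  set τ := T.ι₁ (T.ι₀ t)
  set R := Algebra.adjoin T.W {τ} with hR
  haveI := isFractionRing_chart₂ ht
  obtain ⟨b, d, -, rfl⟩ := IsFractionRing.div_surjective (A := T.chart₂ t) a
  have halg : ∀ c : T.chart₂ t, IsAlgebraic R (algebraMap (T.chart₂ t) T.F₂ c) := fun c =>
    (c.2 : IsIntegral R (c : T.F₂)).isAlgebraic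
  have h : IsAlgebraic R (algebraMap (T.chart₂ t) T.F₂ b / algebraMap (T.chart₂ t) T.F₂ d) := by
    rw [div_eq_mul_inv]
    exact (halg b).mul (halg d).inv
  obtain ⟨p, hp0, hp⟩ := h
  let g : Polynomial T.W →+* R :=
    (aeval (⟨τ, Algebra.self_mem_adjoin_singleton T.W τ⟩ : R)).toRingHom
  have hg : Function.Surjective g := by
    rintro ⟨r, hr⟩
    obtain ⟨c, rfl⟩ := (AlgHom.mem_range _).mp
      ((Algebra.adjoin_singleton_eq_range_aeval T.W τ).le hr)
    refine ⟨c, Subtype.ext ?_⟩
    show R.val (aeval _ c) = _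
    rw [← aeval_algHom_apply]
    rfl
  obtain ⟨P, rfl⟩ := Polynomial.map_surjective g hg p
  refine ⟨P, fun h0 => hp0 (by rw [h0, Polynomial.map_zero]), ?_⟩
  rw [aeval_def, eval₂_map] at hp
  rw [← hp]
  congr 1
  refine RingHom.ext fun c => ?_
  show aeval τ c = R.val (aeval _ c)
  rw [← aeval_algHom_apply]
  rfl

/-- An element Gauss integral on a branch is a quotient from the chart with denominator of
nonzero reduction on that branch. -/
theorem ChartParam.exists_branch_fraction (ht : T.ChartParam t) (i : Fin 3) {a : T.F₂}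
    (ha : T.branch i a ∈ gaussInt T.π) :
    ∃ d b : T.chart₂ t, T.red₂ i (d : T.F₂) ≠ 0 ∧ (d : T.F₂) * a = b := by
  haveI := T.isDiscreteValuationRing_W
  haveI := T.charZeroK
  set τ := T.ι₁ (T.ι₀ t) with hτ
  obtain ⟨P, hP0, hP⟩ := ht.exists_relation a
  have hq : Irreducible (Polynomial.C (Polynomial.C (q : T.W))) :=
    ((prime_C_iff.mpr (prime_C_iff.mpr (T.irreducible_q : Irreducible (q : T.W)).prime))).irreducible
  obtain ⟨n, P', hndvd, rfl⟩ := WfDvdMonoid.max_power_factor hP0 hq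
  rw [eval₂_mul, eval₂_pow, eval₂_C] at hP
  have hq0 : (aeval τ).toRingHom (Polynomial.C (q : T.W)) ≠ 0 := by
    show aeval τ (Polynomial.C (q : T.W)) ≠ 0
    rw [aeval_C, map_natCast]
    haveI : CharZero T.F₂ := charZero_of_injective_algebraMap (algebraMap T.K T.F₂).injective
    exact Nat.cast_ne_zero.mpr (NeZero.ne q)
  have hP' : eval₂ (aeval τ).toRingHom a P' = 0 :=
    (mul_eq_zero.mp hP).resolve_left (pow_ne_zero _ hq0)
  let g : Polynomial T.W →+* (T.chart₂ t).toSubring :=
    (aeval (⟨τ, ι₁ι₀_mem_chart₂ t⟩ : T.chart₂ t)).toRingHom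
  have hg : ∀ c, (g c : T.F₂) = aeval τ c := fun c => by
    show (T.chart₂ t).val (aeval _ c) = _
    rw [← aeval_algHom_apply]
    rfl
  let φ : (gaussInt T.π).comap (T.branch i) →+* LaurentSeries T.k :=
    (gaussIntRed T.π).comp (((T.branch i).comp ((gaussInt T.π).comap (T.branch i)).subtype).codRestrict
      (gaussInt T.π) fun x => x.2)
  have key : ∃ l, φ ⟨((P'.map g).coeff l : T.F₂),
      branch_mem_gaussInt ht i ⟨_, ((P'.map g).coeff l).2⟩⟩ ≠ 0 := by
    rw [C_dvd_iff_dvd_coeff] at hndvd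
    push Not at hndvd
    obtain ⟨l, hl⟩ := hndvd
    refine ⟨l, fun h0 => ?_⟩
    rw [C_dvd_iff_dvd_coeff] at hl
    push Not at hl
    obtain ⟨e, he⟩ := hl
    have hw : T.πW ((P'.coeff l).coeff e) ≠ 0 := by
      intro h
      refine he ?_
      rw [← Ideal.mem_span_singleton, ← Irreducible.maximalIdeal_eq T.irreducible_q,
        IsLocalRing.mem_maximalIdeal]
      exact fun hu => (hu.map T.πW).ne_zero h
    have hcomp : (ht.redHom₂ i).comp (aeval (⟨τ, ι₁ι₀_mem_chart₂ t⟩ : T.chart₂ t)).toRingHom =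
        (aeval (T.red₂ i τ)).toRingHom.comp (mapRingHom T.πW) := by
      refine Polynomial.ringHom_ext (fun w => ?_) ?_
      · show ht.redHom₂ i (aeval _ (Polynomial.C w)) = aeval _ ((Polynomial.C w).map T.πW)
        rw [aeval_C, Polynomial.map_C, aeval_C, ht.redHom₂_W]
      · show ht.redHom₂ i (aeval _ (X : T.W[X])) = aeval _ ((X : T.W[X]).map T.πW)
        rw [aeval_X, Polynomial.map_X, aeval_X, ht.redHom₂_apply]
    have h1 : (aeval (T.red₂ i τ)).toRingHom ((P'.coeff l).map T.πW) = 0 := by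
      rw [show (aeval (T.red₂ i τ)).toRingHom ((P'.coeff l).map T.πW) =
        ((aeval (T.red₂ i τ)).toRingHom.comp (mapRingHom T.πW)) (P'.coeff l) from rfl, ← hcomp,
        ← h0, coeff_map]
      rfl
    have h2 : (P'.coeff l).map T.πW = 0 :=
      transcendental_iff_injective.mp (ht.transcendental_red₂ i) (h1.trans (map_zero _).symm)
    exact hw (by rw [← coeff_map, h2, coeff_zero])
  obtain ⟨d, hd, hda⟩ := exists_denominator_of_root (T.chart₂ t).toSubring
    (fun x hx => ht.mem_chart₂_of_isIntegral hx) ((gaussInt T.π).comap (T.branch i))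
    (fun x hx => branch_mem_gaussInt ht i ⟨x, hx⟩) φ ha (P'.map g)
    (by
      rw [aeval_def, eval₂_map, ← hP']
      congr 1
      exact RingHom.ext hg) key
  exact ⟨⟨d, d.2⟩, ⟨_, hda⟩, hd, rfl⟩

/-- A power of `q` clears the denominators of the constants. -/
theorem exists_pow_q_mul_mem_W (c : T.K) : ∃ (n : ℕ) (w : T.W), (q : T.K) ^ n * c = (w : T.K) := by
  haveI := T.isDiscreteValuationRing_W
  rcases eq_or_ne c 0 with rfl | hc
  · exact ⟨0, 0, by simp⟩
  rcases T.W.mem_or_inv_mem c with h | h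
  · exact ⟨0, ⟨c, h⟩, by simp⟩
  obtain ⟨n, u, hu⟩ := IsDiscreteValuationRing.eq_unit_mul_pow_irreducible
    (x := (⟨c⁻¹, h⟩ : T.W)) (fun h0 => inv_ne_zero hc (congrArg Subtype.val h0)) T.irreducible_q
  refine ⟨n, ((u⁻¹ : T.Wˣ) : T.W), ?_⟩
  have h1 : ((u⁻¹ : T.Wˣ) : T.W) * ⟨c⁻¹, h⟩ = (q : T.W) ^ n := by
    rw [hu, ← mul_assoc, u.inv_mul, one_mul]
  have h2 := congrArg (fun x : T.W => (x : T.K)) h1
  simp only [MulMemClass.coe_mul, SubmonoidClass.coe_pow] at h2
  push_cast at h2
  rw [← h2, mul_assoc, inv_mul_cancel₀ hc, mul_one]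

/-- An element integral at a valuation ring over the base in which `q` is a unit is a quotient
from the chart with denominator a unit there. -/
theorem ChartParam.exists_horizontal_fraction (ht : T.ChartParam t) (V : ValuationSubring T.F₂)
    (hK : ∀ c : T.K, algebraMap T.K T.F₂ c ∈ V) (hB : ∀ b : T.chart₂ t, (b : T.F₂) ∈ V)
    {a : T.F₂} (ha : a ∈ V) :
    ∃ d b : T.chart₂ t, (d : T.F₂) ∉ V.nonunits ∧ (d : T.F₂) * a = b := by
  haveI := T.charZeroK
  set τ := T.ι₁ (T.ι₀ t) with hτ
  obtain ⟨P, hP0, hP⟩ := ht.exists_relation a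
  let BK : Subring T.F₂ :=
    (integralClosure (Algebra.adjoin T.K {τ}) T.F₂).toSubring
  have hτV : ∀ r ∈ Algebra.adjoin T.K {τ}, r ∈ V := by
    intro r hr
    induction hr using Algebra.adjoin_induction with
    | mem z hz =>
      rw [Set.mem_singleton_iff] at hz
      exact hz ▸ hB ⟨τ, ι₁ι₀_mem_chart₂ t⟩
    | algebraMap c => exact hK c
    | add a b _ _ ha hb => exact add_mem ha hb
    | mul a b _ _ ha hb => exact mul_mem ha hb
  have hBKV : BK ≤ V.toSubring := by
    intro x hx
    obtain ⟨p, hp, hpx⟩ := (hx : IsIntegral (Algebra.adjoin T.K {τ}) x)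
    let ψ : Algebra.adjoin T.K {τ} →+* V :=
      (Algebra.adjoin T.K {τ}).val.toRingHom.codRestrict V.toSubring fun r => hτV r r.2
    have hint : IsIntegral V x := ⟨p.map ψ, hp.map _, by rw [eval₂_map]; exact hpx⟩
    obtain ⟨z, hz⟩ := IsIntegrallyClosed.isIntegral_iff.mp hint
    exact hz ▸ z.2
  have hBK : ∀ x : T.F₂, IsIntegral BK x → x ∈ BK := fun x hx =>
    isIntegral_trans (A := integralClosure (Algebra.adjoin T.K {τ}) T.F₂) x hx
  let φ : V.toSubring →+* IsLocalRing.ResidueField V := IsLocalRing.residue V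
  -- make the equation primitive at the centre of `V` on `K[t]`
  let toBK : Polynomial T.K →+* BK :=
    ((aeval τ : T.K[X] →ₐ[T.K] T.F₂).toRingHom).codRestrict BK fun c =>
      (isIntegral_algebraMap
        (x := (⟨aeval τ c, aeval_mem_adjoin_singleton T.K τ⟩ : Algebra.adjoin T.K {τ})) :
        IsIntegral (Algebra.adjoin T.K {τ}) (aeval τ c))
  let ρ : Polynomial T.K →+* IsLocalRing.ResidueField V :=
    φ.comp ((Subring.inclusion hBKV).comp toBK)
  set PK := P.map (mapRingHom (algebraMap T.W T.K)) with hPK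
  have hPK0 : PK ≠ 0 :=
    (Polynomial.map_ne_zero_iff (map_injective _ Subtype.val_injective)).mpr hP0
  have hPKa : eval₂ (aeval τ : T.K[X] →ₐ[T.K] T.F₂).toRingHom a PK = 0 := by
    rw [hPK, eval₂_map, ← hP]
    congr 1
    refine RingHom.ext fun c => ?_
    show aeval τ (c.map (algebraMap T.W T.K)) = aeval τ c
    rw [aeval_map_algebraMap]
  obtain ⟨P', hP'a, hP'ρ⟩ : ∃ P' : Polynomial (Polynomial T.K),
      eval₂ (aeval τ : T.K[X] →ₐ[T.K] T.F₂).toRingHom a P' = 0 ∧ ∃ l, ρ (P'.coeff l) ≠ 0 := by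
    by_cases hker : RingHom.ker ρ = ⊥
    · refine ⟨PK, hPKa, PK.natDegree, fun h => ?_⟩
      rw [← RingHom.mem_ker, hker, Ideal.mem_bot] at h
      exact leadingCoeff_ne_zero.mpr hPK0 h
    haveI : (RingHom.ker ρ).IsPrime := RingHom.ker_isPrime ρ
    obtain ⟨π0, hπ0⟩ : ∃ π0, RingHom.ker ρ = Ideal.span {π0} :=
      (IsPrincipalIdealRing.principal _).principal
    have hπne : π0 ≠ 0 := fun h => hker (by rw [hπ0, h, Ideal.span_singleton_eq_bot])
    have hπp : Prime π0 := (Ideal.span_singleton_prime hπne).mp (hπ0 ▸ inferInstance)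
    obtain ⟨n, P', hndvd, hfac⟩ := WfDvdMonoid.max_power_factor hPK0 (prime_C_iff.mpr hπp).irreducible
    rw [hfac, eval₂_mul, eval₂_pow, eval₂_C] at hPKa
    have hπτ : (aeval τ : T.K[X] →ₐ[T.K] T.F₂).toRingHom π0 ≠ 0 := fun h =>
      hπne (transcendental_iff_injective.mp (transcendental_ι₁ι₀ ht) (h.trans (map_zero _).symm))
    refine ⟨P', (mul_eq_zero.mp hPKa).resolve_left (pow_ne_zero _ hπτ), ?_⟩
    rw [C_dvd_iff_dvd_coeff] at hndvd
    push Not at hndvd
    obtain ⟨l, hl⟩ := hndvd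
    exact ⟨l, fun h => hl (Ideal.mem_span_singleton.mp (hπ0 ▸ RingHom.mem_ker.mpr h))⟩
  obtain ⟨l, hl⟩ := hP'ρ
  obtain ⟨d, hd, hda⟩ := exists_denominator_of_root BK hBK V.toSubring hBKV φ ha (P'.map toBK)
    (by
      rw [aeval_def, eval₂_map, ← hP'a]
      rfl)
    ⟨l, by
      have e : (⟨((P'.map toBK).coeff l : T.F₂), hBKV ((P'.map toBK).coeff l).2⟩ : V.toSubring) =
          Subring.inclusion hBKV (toBK (P'.coeff l)) :=
        Subtype.ext (congrArg Subtype.val (coeff_map toBK l (p := P')) :)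
      rw [e]
      exact hl⟩
  -- clear the powers of `q`
  have hclear : ∀ x ∈ BK, ∃ n : ℕ, (q : T.F₂) ^ n * x ∈ T.chart₂ t := fun x hx => by
    refine exists_pow_mul_isIntegral (Algebra.adjoin T.W {τ}).toSubring
      (Algebra.adjoin T.K {τ}).toSubring (natCast_mem _ q) (fun r hr => ?_) hx
    induction hr using Algebra.adjoin_induction with
    | mem z hz =>
      rw [Set.mem_singleton_iff] at hz
      exact ⟨0, by rw [pow_zero, one_mul, hz]; exact Algebra.self_mem_adjoin_singleton T.W τ⟩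
    | algebraMap c =>
      obtain ⟨n, w, hw⟩ := exists_pow_q_mul_mem_W c
      refine ⟨n, ?_⟩
      rw [← map_natCast (algebraMap T.K T.F₂), ← map_pow, ← map_mul, hw]
      exact (Algebra.adjoin T.W {τ}).algebraMap_mem w
    | add a b _ _ ha hb =>
      obtain ⟨n, hn⟩ := ha
      obtain ⟨n', hn'⟩ := hb
      refine ⟨n + n', ?_⟩
      rw [mul_add, pow_add]
      exact add_mem (by rw [mul_comm (_ ^ n), mul_assoc]; exact mul_mem (pow_mem (natCast_mem _ q) _) hn)
        (by rw [mul_assoc]; exact mul_mem (pow_mem (natCast_mem _ q) _) hn')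
    | mul a b _ _ ha hb =>
      obtain ⟨n, hn⟩ := ha
      obtain ⟨n', hn'⟩ := hb
      exact ⟨n + n', by rw [pow_add, mul_mul_mul_comm]; exact mul_mem hn hn'⟩
  obtain ⟨n, hn⟩ := hclear d d.2
  obtain ⟨n', hn'⟩ := hclear _ hda
  have hqB : (q : T.F₂) ∈ T.chart₂ t := natCast_mem _ q
  refine ⟨⟨(q : T.F₂) ^ (n + n') * d, ?_⟩, ⟨(q : T.F₂) ^ (n + n') * ((d : T.F₂) * a), ?_⟩, ?_,
    mul_assoc _ _ _⟩
  · rw [pow_add, mul_comm (_ ^ n), mul_assoc]
    exact mul_mem (pow_mem hqB _) hn
  · rw [pow_add, mul_assoc]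
    exact mul_mem (pow_mem hqB _) hn'
  · have hdu : (d : T.F₂) ∉ V.nonunits := fun h => by
      obtain ⟨_, hm⟩ := ValuationSubring.mem_nonunits_iff_exists_mem_maximalIdeal.mp h
      exact hd ((IsLocalRing.residue_eq_zero_iff (R := V) _).mpr hm)
    haveI : CharZero T.F₂ := charZero_of_injective_algebraMap (algebraMap T.K T.F₂).injective
    intro h
    rw [mem_nonunits_iff_inv] at h hdu
    push Not at hdu
    rcases h with h | h
    · exact mul_ne_zero (pow_ne_zero _ (Nat.cast_ne_zero.mpr (NeZero.ne q))) hdu.1 h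
    · refine h ?_
      rw [mul_inv]
      refine mul_mem ?_ hdu.2
      have := hK ((q : T.K) ^ (n + n'))⁻¹
      rwa [map_inv₀, map_pow, map_natCast] at this

end Tower

end FermatLib.Igusa.Carayol
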