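import Fermat.Agent.Igusa.Carayol.MainData
import Fermat.Agent.Igusa.Carayol.MainChart

/-!
# From roots on the two charts modulo the radical of `q` to a global root
-/

set_option autoImplicit false
set_option maxHeartbeats 800000
set_option synthInstance.maxHeartbeats 200000
set_option linter.style.haveILetI false

noncomputable section

open ModularCurve HahnSeries FermatLib.Igusa

namespace FermatLib.Igusa.Carayol

namespace Tower

variable {q : ℕ} [NeZero q] {T : Tower q}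

/-- An element integral over `W[x]` lies in every valuation ring over the constants containing
`x`. -/
theorem mem_valuationSubring_of_isIntegral (V : ValuationSubring T.F₂)
    (hK : ∀ c : T.K, algebraMap T.K T.F₂ c ∈ V) {x b : T.F₂} (hx : x ∈ V)
    (hb : IsIntegral (Algebra.adjoin T.W {x}) b) : b ∈ V := by
  have hle : ∀ r ∈ Algebra.adjoin T.W {x}, r ∈ V := fun r hr => by
    induction hr using Algebra.adjoin_induction with
    | mem z hz => rw [Set.mem_singleton_iff] at hz; exact hz ▸ hx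
    | algebraMap w => exact hK (w : T.K)
    | add a b _ _ ha hb => exact add_mem ha hb
    | mul a b _ _ ha hb => exact mul_mem ha hb
  let ψ : Algebra.adjoin T.W {x} →+* V :=
    (Algebra.adjoin T.W {x}).val.toRingHom.codRestrict V.toSubring fun r => hle r r.2
  obtain ⟨p, hp, hpb⟩ := hb
  have hint : IsIntegral V b := ⟨p.map ψ, hp.map _, by rw [Polynomial.eval₂_map]; exact hpb⟩
  obtain ⟨z, hz⟩ := IsIntegrallyClosed.isIntegral_iff.mp hint
  exact hz ▸ z.2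

theorem isUnit_natCast_W {m : ℕ} (hm : (m : T.k) ≠ 0) : IsUnit (m : T.W) := by
  haveI := T.isDiscreteValuationRing_W
  by_contra hu
  have h : (m : T.W) ∈ IsLocalRing.maximalIdeal T.W := (IsLocalRing.mem_maximalIdeal _).mpr hu
  rw [Irreducible.maximalIdeal_eq T.irreducible_q, Ideal.mem_span_singleton] at h
  obtain ⟨w, hw⟩ := h
  have h2 := congrArg T.πW hw
  rw [map_natCast, map_mul, T.πW_q, zero_mul] at h2
  exact hm h2

/-- Two roots with the same contents and reductions on a branch: the mixed quotient is `≡ 1`. -/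
theorem red_mixed_eq_one {h g₁ g₂ : LaurentSeries T.L} {s : ℤ} {r : LaurentSeries T.k} {m : ℕ}
    (hm : m ≠ 0) (hf : T.Cont h ((q : T.L) ^ ((m : ℤ) * s)) (r ^ m))
    (h₁ : T.Cont g₁ ((q : T.L) ^ s) r) (h₂ : T.Cont g₂ ((q : T.L) ^ s) r) :
    g₁ * g₂ ^ (m - 1) / h ∈ gaussInt T.π ∧ gred T.π (g₁ * g₂ ^ (m - 1) / h) = 1 := by
  have H := (h₁.mul (h₂.pow (m - 1))).mul hf.inv
  have e1 : ∀ {F : Type} [Field F] (x : F), x * x ^ (m - 1) = x ^ m := fun x => by
    rw [← pow_succ', Nat.sub_add_cancel (Nat.pos_of_ne_zero hm)]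
  rw [e1, e1, ← zpow_natCast ((q : T.L) ^ s), ← zpow_mul, mul_comm s,
    mul_inv_cancel₀ (zpow_ne_zero _ T.q_ne_zero),
    mul_inv_cancel₀ (pow_ne_zero _ h₁.2.2.2), ← div_eq_mul_inv] at H
  obtain ⟨hmem, hred, -⟩ := cont_one_iff.mp H
  exact ⟨hmem, hred⟩

theorem gred_sub_one {x : LaurentSeries T.L} (hx : x ∈ gaussInt T.π) (h : gred T.π x = 1) :
    x - 1 ∈ gaussInt T.π ∧ gred T.π (x - 1) = 0 := by
  refine ⟨sub_mem hx (one_mem _), ?_⟩
  have h1 := map_sub (gaussIntRed T.π) ⟨x, hx⟩ 1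
  rw [map_one] at h1
  exact h1.trans (by rw [gaussIntRed_apply, h, sub_self])

variable {m : ℕ} {f : T.F₂}

/-- **The roots on both charts give a global root.** -/
theorem Roots.exists_root (hI : T.Inputs) (hm : (m : T.k) ≠ 0) (hf : f ≠ 0) (D : T.Roots m f)
    (h0 : D.Glues T.j) (h1 : D.Glues T.j⁻¹) :
    ∃ a : T.F₂, a ≠ 0 ∧ ∀ V : ValuationSubring T.F₂,
      (∀ c : T.K, algebraMap T.K T.F₂ c ∈ V) → a ^ m / f ∈ V := by
  haveI := T.isDiscreteValuationRing_W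
  have hm0 : m ≠ 0 := by
    rintro rfl
    exact hm Nat.cast_zero
  have ht₀ : T.ChartParam T.j := chartParam_of_eq hI (Or.inl rfl)
  have ht₁ : T.ChartParam T.j⁻¹ := chartParam_of_eq hI (Or.inr rfl)
  obtain ⟨e₀, hJ₀, hc₀⟩ := h0
  obtain ⟨e₁, hJ₁, hc₁⟩ := h1
  set τ := T.ι₁ (T.ι₀ T.j) with hτ
  have hτ' : T.ι₁ (T.ι₀ T.j⁻¹) = τ⁻¹ := by rw [map_inv₀, map_inv₀]
  have hτ0 : τ ≠ 0 := fun h => transcendental_ι₁ι₀ ht₀ (by rw [← hτ, h]; exact isAlgebraic_zero)
  let R₂ := Algebra.adjoin T.W ({τ, τ⁻¹} : Set T.F₂)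
  let B₂ : Subalgebra T.W T.F₂ := (integralClosure R₂ T.F₂).restrictScalars T.W
  haveI := isIntegrallyClosed_chart₂ ht₀
  haveI := isIntegrallyClosed_chart₂ ht₁
  haveI := isFractionRing_chart₂ ht₀
  haveI := isFractionRing_chart₂ ht₁
  -- the charts in the overlap
  have hle : ∀ x ∈ ({τ, τ⁻¹} : Set T.F₂), ∀ b, IsIntegral (Algebra.adjoin T.W {x}) b → b ∈ B₂ := by
    intro x hx b hb
    have := map_isIntegral_adjoin (x' := x) (AlgHom.id T.W T.F₂)
      (isIntegral_algebraMap (x := (⟨x, Algebra.self_mem_adjoin_singleton T.W x⟩ :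
        Algebra.adjoin T.W {x}))) hb
    obtain ⟨p, hp, hpb⟩ := this
    exact ⟨p.map (Subalgebra.inclusion (Algebra.adjoin_mono (Set.singleton_subset_iff.mpr hx))).toRingHom,
      hp.map _, by rw [Polynomial.eval₂_map]; exact hpb⟩
  have h₀₂ : T.chart₂ T.j ≤ B₂ := fun b hb => hle τ (Set.mem_insert _ _) b hb
  have h₁₂ : T.chart₂ T.j⁻¹ ≤ B₂ := fun b hb => hle τ⁻¹ (Set.mem_insert_of_mem _ rfl) b (hτ' ▸ hb)
  haveI : IsFractionRing B₂ T.F₂ := IsFractionRing.of_field _ _ fun z => by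
    obtain ⟨a, b, -, rfl⟩ := IsFractionRing.div_surjective (A := T.chart₂ T.j) z
    exact ⟨⟨a, h₀₂ a.2⟩, ⟨b, h₀₂ b.2⟩, rfl⟩
  haveI : IsIntegrallyClosed B₂ := (isIntegrallyClosed_iff (R := B₂) T.F₂).mpr fun {x} hx =>
    ⟨⟨x, isIntegral_trans (A := integralClosure R₂ T.F₂) x hx⟩, rfl⟩
  have hloc₀ : ∀ b ∈ B₂, ∃ n : ℕ, τ ^ n * b ∈ T.chart₂ T.j := fun b hb =>
    exists_pow_mul_isIntegral (Algebra.adjoin T.W {τ}).toSubring R₂.toSubring
      (Algebra.self_mem_adjoin_singleton T.W τ) (fun x hx => exists_pow_mul_mem_adjoin hτ0 hx) hb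
  have hloc₁ : ∀ b ∈ B₂, ∃ n : ℕ, τ⁻¹ ^ n * b ∈ T.chart₂ T.j⁻¹ := fun b hb => by
    obtain ⟨n, hn⟩ := exists_pow_mul_isIntegral (Algebra.adjoin T.W {τ⁻¹}).toSubring R₂.toSubring
      (Algebra.self_mem_adjoin_singleton T.W τ⁻¹)
      (fun x hx => exists_pow_mul_mem_adjoin (inv_ne_zero hτ0)
        (by rw [inv_inv, Set.pair_comm]; exact hx)) hb
    refine ⟨n, ?_⟩
    show IsIntegral (Algebra.adjoin T.W {T.ι₁ (T.ι₀ T.j⁻¹)}) _
    rw [hτ']
    exact hn
  -- finiteness over `W[τ]`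
  have hfin : ∃ s : Finset T.F₂, ∀ b ∈ T.chart₂ T.j,
      b ∈ Submodule.span T.W {x : T.F₂ | ∃ i : ℕ, ∃ y ∈ s, x = τ ^ i * y} := by
    classical
    obtain ⟨s, hs⟩ := (T.closure_finite_fraction_normal (transcendental_ι₁ι₀ ht₀)
      (finite_adjoin₂ ht₀)).1.fg_top
    refine ⟨s.image Subtype.val, fun b hb => ?_⟩
    set S := Submodule.span T.W
      {x : T.F₂ | ∃ i : ℕ, ∃ y ∈ s.image Subtype.val, x = τ ^ i * y}
    have hτS : ∀ x ∈ S, τ * x ∈ S := by
      intro x hx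
      induction hx using Submodule.span_induction with
      | mem x hx =>
        obtain ⟨i, y, hy, rfl⟩ := hx
        exact Submodule.subset_span ⟨i + 1, y, hy, by rw [pow_succ', mul_assoc]⟩
      | zero => rw [mul_zero]; exact zero_mem _
      | add x y _ _ hx hy => rw [mul_add]; exact add_mem hx hy
      | smul w x _ hx => rw [mul_smul_comm]; exact S.smul_mem _ hx
    have hRS : ∀ r ∈ Algebra.adjoin T.W {τ}, ∀ x ∈ S, r * x ∈ S := by
      intro r hr
      induction hr using Algebra.adjoin_induction with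
      | mem z hz => rw [Set.mem_singleton_iff] at hz; exact hz ▸ hτS
      | algebraMap w => intro x hx; rw [← Algebra.smul_def]; exact S.smul_mem _ hx
      | add a b _ _ ha hb => intro x hx; rw [add_mul]; exact add_mem (ha x hx) (hb x hx)
      | mul a b _ _ ha hb => intro x hx; rw [mul_assoc]; exact ha _ (hb x hx)
    have key : ∀ z : integralClosure (Algebra.adjoin T.W {τ}) T.F₂, (z : T.F₂) ∈ S := by
      intro z
      have hz : z ∈ Submodule.span (Algebra.adjoin T.W {τ}) (↑s : Set _) :=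
        hs ▸ Submodule.mem_top
      induction hz using Submodule.span_induction with
      | mem x hx =>
        exact Submodule.subset_span ⟨0, x, Finset.mem_image_of_mem _ hx, by rw [pow_zero, one_mul]⟩
      | zero => exact zero_mem _
      | add x y _ _ hx hy => exact add_mem hx hy
      | smul c x _ hx => exact hRS _ c.2 _ hx
    exact key ⟨b, hb⟩
  -- `q` is not invertible on the finite chart
  have hπ₀ : ∀ b ∈ T.chart₂ T.j, algebraMap T.W T.F₂ (q : T.W) * b ≠ 1 := fun b hb h => by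
    have h1 : (q : T.chart₂ T.j) * ⟨b, hb⟩ = 1 := Subtype.ext (by
      rw [map_natCast] at h
      exact h)
    have h2 := congrArg (ht₀.redHom₂ 0) h1
    rw [map_mul, map_natCast, map_one,
      show (q : LaurentSeries T.k) = 0 by
        rw [← map_natCast (algebraMap T.k (LaurentSeries T.k)), CharP.cast_eq_zero, map_zero],
      zero_mul] at h2
    exact zero_ne_one h2
  -- congruences
  have hcong : ∀ {t : T.F₀}, T.ChartParam t → ∀ c : T.F₂, c ∈ T.chart₂ t →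
      (∀ i, gred T.π (T.branch i c) = 0) →
      ∃ b ∈ T.chart₂ t, c ^ (q - 1) = algebraMap T.W T.F₂ (q : T.W) * b := by
    intro t ht c hc h
    obtain ⟨b, hb⟩ := exists_pow_eq_mul₂ ht ⟨c, hc⟩ h
    refine ⟨b, b.2, ?_⟩
    rw [map_natCast]
    exact congrArg Subtype.val hb
  have hmix : ∀ (i : Fin 3) {x y : T.F₂}, T.Cont (T.branch i x) ((q : T.L) ^ D.s i) (D.g i) →
      T.Cont (T.branch i y) ((q : T.L) ^ D.s i) (D.g i) →
      T.branch i (x * y ^ (m - 1) / f - 1) ∈ gaussInt T.π ∧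
        gred T.π (T.branch i (x * y ^ (m - 1) / f - 1)) = 0 := fun i x y hx hy => by
    obtain ⟨h, h'⟩ := red_mixed_eq_one hm0 (D.cont i) hx hy
    rw [map_sub, map_one, map_div₀, map_mul, map_pow]
    exact gred_sub_one h h'
  have hself : ∀ x : T.F₂, x * x ^ (m - 1) = x ^ m := fun x => by
    rw [← pow_succ', Nat.sub_add_cancel (Nat.pos_of_ne_zero hm0)]
  have hjm : ∀ {B : Subalgebra T.W T.F₂} [IsIntegrallyClosed B] [IsFractionRing B T.F₂]
      {x y : T.F₂}, x ^ m / f ∈ B → y ^ m / f ∈ B → x * y ^ (m - 1) / f ∈ B := by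
    intro B _ _ x y hx hy
    have := mul_pow_div_mem_range B f hm0 ((mem_range_algebraMap_subalgebra B _).mpr hx)
      ((mem_range_algebraMap_subalgebra B _).mpr hy) (i := 1) (Nat.pos_of_ne_zero hm0)
    rwa [pow_one, mem_range_algebraMap_subalgebra] at this
  have he₀ : ∃ N : ℕ, ∃ b ∈ T.chart₂ T.j,
      (e₀ ^ m / f - 1) ^ N = algebraMap T.W T.F₂ (q : T.W) * b :=
    ⟨q - 1, hcong ht₀ _ (sub_mem hJ₀ (one_mem _))
      fun i => hself e₀ ▸ (hmix i (hc₀ i) (hc₀ i)).2⟩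
  have he₁ : ∃ N : ℕ, ∃ b ∈ T.chart₂ T.j⁻¹,
      (e₁ ^ m / f - 1) ^ N = algebraMap T.W T.F₂ (q : T.W) * b :=
    ⟨q - 1, hcong ht₁ _ (sub_mem hJ₁ (one_mem _))
      fun i => hself e₁ ▸ (hmix i (hc₁ i) (hc₁ i)).2⟩
  have hglue : ∃ N : ℕ, ∃ b ∈ B₂,
      (e₁ * e₀ ^ (m - 1) / f - 1) ^ N = algebraMap T.W T.F₂ (q : T.W) * b := by
    obtain ⟨n, hn⟩ := hloc₀ _ (sub_mem (hjm (h₁₂ hJ₁) (h₀₂ hJ₀)) (one_mem B₂))
    obtain ⟨b, hb, hbe⟩ := hcong ht₀ _ hn fun i => by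
      obtain ⟨h, h'⟩ := hmix i (hc₁ i) (hc₀ i)
      have hτi : T.branch i (τ ^ n) ∈ gaussInt T.π :=
        branch_mem_gaussInt ht₀ i ⟨_, pow_mem (ι₁ι₀_mem_chart₂ T.j) n⟩
      rw [map_mul, gred_mul hτi h, h', mul_zero]
    have hinv : (τ⁻¹ ^ n) ^ (q - 1) * b ∈ B₂ :=
      mul_mem (pow_mem (pow_mem (h₁₂ (hτ' ▸ ι₁ι₀_mem_chart₂ T.j⁻¹)) _) _) (h₀₂ hb)
    refine ⟨q - 1, _, hinv, ?_⟩
    rw [mul_left_comm, ← hbe, ← mul_pow, inv_pow, inv_mul_cancel_left₀ (pow_ne_zero _ hτ0)]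
  obtain ⟨a, ha0, haB₀, haB₁⟩ := exists_global_root (π := (q : T.W)) T.irreducible_q τ hτ0
    (T.chart₂ T.j) (T.chart₂ T.j⁻¹) B₂ h₀₂ h₁₂ (ι₁ι₀_mem_chart₂ T.j)
    (hτ' ▸ ι₁ι₀_mem_chart₂ T.j⁻¹) hloc₀ hloc₁ hfin hπ₀ f hf (isUnit_natCast_W hm)
    e₀ e₁ hJ₀ hJ₁ he₀ he₁ hglue
  refine ⟨a, ha0, fun V hV => ?_⟩
  rcases V.mem_or_inv_mem τ with h | h
  · exact mem_valuationSubring_of_isIntegral V hV h haB₀
  · exact mem_valuationSubring_of_isIntegral V hV (hτ' ▸ h) haB₁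

end Tower

end FermatLib.Igusa.Carayol
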