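import Fermat.Agent.Igusa.Carayol.MainSpecial

/-!
# The ratios of the values at meeting points are constants up to a power
-/

set_option autoImplicit false
set_option maxHeartbeats 800000
set_option synthInstance.maxHeartbeats 200000
set_option linter.style.haveILetI false

noncomputable section

open ModularCurve FermatLib.Igusa

namespace FermatLib.Igusa.Carayol

namespace Tower

variable {q : ℕ} [NeZero q] {T : Tower q} {t : T.F₀} {m : ℕ} {f : T.F₂}

/-- The Atkin–Lehner involution on the indices of the branches. -/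
def swapIdx : Fin 3 → Fin 3 := ![2, 1, 0]

theorem swapIdx_swapIdx (i : Fin 3) : swapIdx (swapIdx i) = i := by
  fin_cases i <;> rfl

theorem red₂_w₂ (i : Fin 3) {a : T.F₂} (h : T.branch (swapIdx i) a ∈ gaussInt T.π) :
    T.red₂ i (T.w₂ a) = T.red₂ (swapIdx i) a := by
  fin_cases i
  · rfl
  · show gred T.π (T.εb (T.w₂ a)) = gred T.π (T.εb a)
    have h' : T.εb a ∈ gaussInt T.π := h
    rw [T.εb_w₂, show monoNewScale T.toBase.ζL (T.εbI (q - 1) a) =
      monoNewScale (T.toBase.ζL ^ 1) (coeffMap (T.conj (q - 1)).toRingHom (T.εb a)) by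
        rw [pow_one]; rfl]
    exact ((T.scaleζ_mem 1 (T.conj_series_mem (q - 1) h').1).2).trans
      (T.conj_series_mem (q - 1) h').2
  · show gred T.π (T.εc (T.w₂ a)) = gred T.π (T.ε a)
    rw [εc_w₂]

theorem Cont.branch_w₂ (i : Fin 3) {a : T.F₂} {s : ℤ} {r : LaurentSeries T.k}
    (h : T.Cont (T.branch (swapIdx i) a) ((q : T.L) ^ s) r) :
    T.Cont (T.branch i (T.w₂ a)) ((q : T.L) ^ s) r := by
  fin_cases i
  · exact h
  · exact (Cont.εb_w₂ (f := a) h).congr (conj_q_zpow _ _)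
  · show T.Cont (T.εc (T.w₂ a)) _ _
    rw [εc_w₂]
    exact h

/-- The Atkin–Lehner involution on the finite chart of level `N q²`. -/
def w₂Chart (hI : T.Inputs) : T.chart₂ T.j →+* T.chart₂ T.j :=
  (T.w₂.toRingEquiv.toRingHom.comp (T.chart₂ T.j).val.toRingHom).codRestrict (T.chart₂ T.j)
    fun a => w₂_mem_chart₂ hI a.2

theorem coe_w₂Chart (hI : T.Inputs) (a : T.chart₂ T.j) :
    (w₂Chart hI a : T.F₂) = T.w₂ (a : T.F₂) := rfl

theorem w₂Chart_w₂Chart (hI : T.Inputs) (a : T.chart₂ T.j) : w₂Chart hI (w₂Chart hI a) = a :=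
  Subtype.ext (T.w₂_w₂ a)

theorem w₂Chart_algebraMap (hI : T.Inputs) (w : T.W) :
    w₂Chart hI (algebraMap T.W _ w) = algebraMap T.W _ w :=
  Subtype.ext (T.w₂.commutes (w : T.K))

namespace Roots

variable (D : T.Roots m f)

/-- The data of the Atkin–Lehner transform. -/
def swap : T.Roots m (T.w₂ f) where
  s i := D.s (swapIdx i)
  g i := D.g (swapIdx i)
  cont i := Cont.branch_w₂ i (D.cont (swapIdx i))
  mem i := D.mem (swapIdx i)

/-- The exponent making the ratios of the values constant. -/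
def meetExp (q : ℕ) : ℕ := (q + 1) * (q - 1)

/-- **The ratios of the values at the meeting points are constants.** -/
theorem exists_value_constants (hI : T.Inputs) (hm : (m : T.k) ≠ 0) (hf : f ≠ 0)
    (hN : T.NormRoot m f) (hN' : T.NormRoot m (T.w₂ f)) :
    ∃ c : Fin 3 → T.k, (∀ i, c i ^ m = 1) ∧
      ∀ (x : Ideal (T.chart₂ T.j)) [x.IsMaximal], (q : T.chart₂ T.j) ∈ x → (∀ l, Thru l x) →
        ∀ (h : T.F₂) (num den : T.chart₂ T.j), IsGen m f x h num den →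
        ∀ C S : Fin 3 → T.chart₂ T.j, (∀ i, D.BranchVal x i h (C i) (S i)) →
        ∀ w : Fin 3 → T.W, (∀ i, T.πW (w i) = c i) → ∀ i,
          (C i * S 0) ^ meetExp q - algebraMap T.W _ (w i) * (C 0 * S i) ^ meetExp q ∈ x := by
  have hm0 : m ≠ 0 := fun h0 => hm (by rw [h0, Nat.cast_zero])
  have hp := T.chartParam_j hI
  obtain ⟨ξ, ξ', hξ, hξ', hξm, hA⟩ := D.exists_norm_constants hI hm hf hN
  obtain ⟨η, η', hη, hη', hηm, hB⟩ :=
    D.swap.exists_norm_constants hI hm ((map_ne_zero T.w₂).mpr hf) hN'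
  refine ⟨![1, (η / η') ^ (q + 1) * (ξ * η' / (ξ' * η)), (ξ' * η / (ξ * η')) ^ (q - 1)],
    fun i => ?_, ?_⟩
  · have h1 : (η / η') ^ m = 1 := by rw [div_pow, hηm, div_self (pow_ne_zero _ hη')]
    have h2 : (ξ * η' / (ξ' * η)) ^ m = 1 := by
      rw [div_pow, mul_pow, mul_pow, hξm, hηm,
        div_self (mul_ne_zero (pow_ne_zero _ hξ') (pow_ne_zero _ hη'))]
    have h3 : (ξ' * η / (ξ * η')) ^ m = 1 := by
      rw [div_pow, mul_pow, mul_pow, hξm, hηm,
        div_self (mul_ne_zero (pow_ne_zero _ hξ') (pow_ne_zero _ hη'))]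
    fin_cases i
    · exact one_pow m
    · show ((η / η') ^ (q + 1) * (ξ * η' / (ξ' * η))) ^ m = 1
      rw [mul_pow, ← pow_mul, mul_comm (q + 1) m, pow_mul, h1, one_pow, h2, one_mul]
    · show ((ξ' * η / (ξ * η')) ^ (q - 1)) ^ m = 1
      rw [← pow_mul, mul_comm (q - 1) m, pow_mul, h3, one_pow]
  intro x _ hx hthru h num den hgen C S hv w hw i
  have hxp : x.IsPrime := Ideal.IsMaximal.isPrime ‹_›
  -- the residue field at the point and the constants in it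
  letI := Ideal.Quotient.field x
  set μ : T.chart₂ T.j →+* T.chart₂ T.j ⧸ x := Ideal.Quotient.mk x with hμ
  have hle : RingHom.ker T.πW ≤ RingHom.ker (μ.comp (algebraMap T.W (T.chart₂ T.j))) := by
    haveI := T.isDiscreteValuationRing_W
    intro a ha
    have h1 : a ∈ IsLocalRing.maximalIdeal T.W := (IsLocalRing.mem_maximalIdeal _).mpr
      fun hu => (hu.map T.πW).ne_zero ha
    rw [Irreducible.maximalIdeal_eq T.irreducible_q, Ideal.mem_span_singleton] at h1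
    obtain ⟨b, rfl⟩ := h1
    rw [RingHom.mem_ker, RingHom.comp_apply, map_mul, map_natCast, hμ]
    exact Ideal.Quotient.eq_zero_iff_mem.mpr (x.mul_mem_right _ hx)
  let ψ : T.k →+* T.chart₂ T.j ⧸ x := T.πW.liftOfSurjective T.πW_surjective ⟨_, hle⟩
  have hψ : ∀ a, ψ (T.πW a) = μ (algebraMap T.W _ a) :=
    fun a => RingHom.liftOfRightInverse_comp_apply _ _ _ _ a
  -- the two relations
  obtain ⟨wξ, hwξ⟩ := T.πW_surjective ξ
  obtain ⟨wξ', hwξ'⟩ := T.πW_surjective ξ'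
  obtain ⟨wη, hwη⟩ := T.πW_surjective η
  obtain ⟨wη', hwη'⟩ := T.πW_surjective η'
  have halone := (branches_meet hI x hx 0 1 (by decide) (hthru 0) (hthru 1)).2.1
  have rA := Ideal.Quotient.eq.mpr (hA x hx hthru halone h num den hgen C S hv wξ wξ' hwξ hwξ')
  set x' : Ideal (T.chart₂ T.j) := x.comap (w₂Chart hI) with hx'def
  haveI : x'.IsMaximal :=
    Ideal.comap_isMaximal_of_surjective _ fun a => ⟨_, w₂Chart_w₂Chart hI a⟩
  have hx' : (q : T.chart₂ T.j) ∈ x' := by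
    rw [hx'def, Ideal.mem_comap, map_natCast]; exact hx
  have hthru' : ∀ l, Thru l x' := fun l a ha => by
    rw [hx'def, Ideal.mem_comap]
    refine hthru (swapIdx l) _ ?_
    rw [coe_w₂Chart, red₂_w₂ _ (by rw [swapIdx_swapIdx]; exact branch_mem_gaussInt hp l a),
      swapIdx_swapIdx]
    exact ha
  have halone' := (branches_meet hI x' hx' 0 1 (by decide) (hthru' 0) (hthru' 1)).2.1
  have hgen' : IsGen m (T.w₂ f) x' (T.w₂ h) (w₂Chart hI num) (w₂Chart hI den) := by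
    refine ⟨fun h0 => hgen.1 ?_, fun h0 => hgen.2.1 ?_, ?_⟩
    · rwa [hx'def, Ideal.mem_comap, w₂Chart_w₂Chart] at h0
    · rwa [hx'def, Ideal.mem_comap, w₂Chart_w₂Chart] at h0
    · rw [coe_w₂Chart, coe_w₂Chart, ← hgen.2.2, map_mul, map_div₀, map_pow]
  have hv' : ∀ l, D.swap.BranchVal x' l (T.w₂ h) (w₂Chart hI (C (swapIdx l)))
      (w₂Chart hI (S (swapIdx l))) := by
    intro l
    refine ⟨fun h0 => (hv (swapIdx l)).1 ?_, fun ρ hρ => ?_⟩
    · rwa [hx'def, Ideal.mem_comap, w₂Chart_w₂Chart] at h0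
    obtain ⟨ρ₀, hρ₀, -⟩ := exists_cont_gen (D := D) hp hm0 hf hgen (hthru (swapIdx l))
    rw [← ((Cont.branch_w₂ l hρ₀).unique_q hρ).2, coe_w₂Chart, coe_w₂Chart,
      red₂_w₂ _ (branch_mem_gaussInt hp _ _), red₂_w₂ _ (branch_mem_gaussInt hp _ _)]
    exact (hv (swapIdx l)).2 ρ₀ hρ₀
  have rB0 := hB x' hx' hthru' halone' _ _ _ hgen' _ _ hv' wη wη' hwη hwη'
  rw [hx'def, Ideal.mem_comap] at rB0
  simp only [map_sub, map_mul, map_pow, w₂Chart_w₂Chart, w₂Chart_algebraMap] at rB0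
  have rB := Ideal.Quotient.eq.mpr rB0
  simp only [swapIdx, Matrix.cons_val_zero, Matrix.cons_val_one, Matrix.cons_val] at rB
  simp only [map_mul, map_pow, ← hμ, ← hψ, hwξ, hwξ', hwη, hwη'] at rA rB
  rw [← Ideal.Quotient.eq_zero_iff_mem, map_sub, sub_eq_zero, ← hμ]
  simp only [map_mul, map_pow, ← hψ, hw]
  have ha : ∀ l, μ (C l) ≠ 0 := fun l h0 =>
    (hv l).notMem hp hm0 hf hgen (hthru l) (Ideal.Quotient.eq_zero_iff_mem.mp h0)
  have hb : ∀ l, μ (S l) ≠ 0 := fun l h0 => (hv l).1 (Ideal.Quotient.eq_zero_iff_mem.mp h0)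
  set a₀ := μ (C 0)
  set a₁ := μ (C 1)
  set a₂ := μ (C 2)
  set b₀ := μ (S 0)
  set b₁ := μ (S 1)
  set b₂ := μ (S 2)
  have n1 := (_root_.map_ne_zero ψ).mpr hξ
  have n2 := (_root_.map_ne_zero ψ).mpr hξ'
  have n3 := (_root_.map_ne_zero ψ).mpr hη
  have n4 := (_root_.map_ne_zero ψ).mpr hη'
  have H2 : ψ ξ * ψ η' * (a₂ * b₀) ^ (q + 1) = ψ ξ' * ψ η * (a₀ * b₂) ^ (q + 1) := by
    apply mul_right_cancel₀ (mul_ne_zero (pow_ne_zero (q - 1) (ha 1)) (pow_ne_zero (q - 1) (hb 1)))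
    rw [pow_succ, pow_succ, mul_pow, mul_pow]
    linear_combination (ψ ξ * b₀ * b₁ ^ (q - 1) * a₂ ^ q) * rB -
      (ψ η * b₂ * b₁ ^ (q - 1) * a₀ ^ q) * rA
  fin_cases i
  · show (a₀ * b₀) ^ meetExp q = ψ 1 * (a₀ * b₀) ^ meetExp q
    rw [map_one, one_mul]
  · show (a₁ * b₀) ^ meetExp q =
      ψ ((η / η') ^ (q + 1) * (ξ * η' / (ξ' * η))) * (a₀ * b₁) ^ meetExp q
    rw [map_mul, map_pow, map_div₀, map_div₀, map_mul, map_mul, div_pow, div_mul_div_comm,
      div_mul_eq_mul_div, eq_div_iff (mul_ne_zero (pow_ne_zero _ n4) (mul_ne_zero n2 n3))]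
    have h3 : (ψ η' * (a₂ * a₁ ^ (q - 1) * b₀ ^ q)) ^ (q + 1) =
        (ψ η * (b₂ * b₁ ^ (q - 1) * a₀ ^ q)) ^ (q + 1) := by rw [rB]
    apply mul_right_cancel₀ (pow_ne_zero (q + 1) (mul_ne_zero (ha 0) (hb 2)))
    obtain ⟨n, hn⟩ : ∃ n, q = n + 1 := ⟨q - 1, by have := T.prime.pos; omega⟩
    simp only [meetExp, hn, Nat.add_sub_cancel, mul_pow, ← pow_mul] at h3 H2 ⊢
    linear_combination (ψ ξ * ψ η') * h3 -
      (ψ η' ^ (n + 1 + 1) * a₁ ^ (n * (n + 1 + 1)) * b₀ ^ ((n + 1 + 1) * n)) * H2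
  · show (a₂ * b₀) ^ meetExp q = ψ ((ξ' * η / (ξ * η')) ^ (q - 1)) * (a₀ * b₂) ^ meetExp q
    rw [map_pow, map_div₀, map_mul, map_mul, div_pow, div_mul_eq_mul_div,
      eq_div_iff (pow_ne_zero _ (mul_ne_zero n1 n4)), meetExp, pow_mul, pow_mul, ← mul_pow,
      ← mul_pow]
    congr 1
    linear_combination H2

end Roots

end Tower

end FermatLib.Igusa.Carayol
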