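import Mathlib
import Fermat.Agent.Igusa.Carayol.MainMeet
import Fermat.Agent.Igusa.Carayol.MainGlue

/-!
Carayol's vanishing on the abstract tower.
-/

set_option autoImplicit false
set_option maxHeartbeats 800000
set_option synthInstance.maxHeartbeats 200000
set_option linter.style.haveILetI false

noncomputable section

open ModularCurve FermatLib.Igusa

namespace FermatLib.Igusa.Carayol

namespace Tower

variable {q : ℕ} [NeZero q] {T : Tower q} {t : T.F₀} {m : ℕ} {f : T.F₂}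

theorem IsLocPow.const_mul_pow (h : T.IsLocPow m f) {c : T.K} (n : ℕ) :
    T.IsLocPow m (algebraMap T.K T.F₂ c * f ^ n) := by
  intro V hV hK
  obtain ⟨a, ha0, ha, ha'⟩ := h V hV hK
  refine ⟨a ^ n, pow_ne_zero _ ha0, ?_, ?_⟩
  · rw [← pow_mul, mul_comm n m, pow_mul, div_mul_eq_div_div_swap, ← div_pow, div_eq_mul_inv,
      ← map_inv₀]
    exact mul_mem (pow_mem ha n) (hK _)
  · rw [← pow_mul, mul_comm n m, pow_mul, div_mul_eq_div_div_swap, ← div_pow, div_eq_mul_inv,
      mul_inv, inv_inv, ← inv_pow]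
    exact mul_mem (pow_mem ha' n) (hK _)

/-- Powers of the inverse coordinate move the finite chart into the chart at infinity. -/
theorem exists_inv_pow_mul_mem_chart₂ (ht : t ≠ 0) (b : T.chart₂ t) :
    ∃ n : ℕ, T.ι₁ (T.ι₀ t⁻¹) ^ n * (b : T.F₂) ∈ T.chart₂ t⁻¹ := by
  set τ := T.ι₁ (T.ι₀ t⁻¹) with hτ
  have hτ0 : τ ≠ 0 := (map_ne_zero T.ι₁).mpr ((map_ne_zero T.ι₀).mpr (inv_ne_zero ht))
  have hτi : T.ι₁ (T.ι₀ t) = τ⁻¹ := by rw [hτ, map_inv₀, map_inv₀, inv_inv]
  obtain ⟨n, hn⟩ := exists_pow_mul_isIntegral (Algebra.adjoin T.W {τ}).toSubring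
    (Algebra.adjoin T.W {T.ι₁ (T.ι₀ t)}).toSubring (Algebra.self_mem_adjoin_singleton T.W τ)
    (fun r hr => exists_pow_mul_mem_adjoin hτ0
      (Algebra.adjoin_mono (by rw [hτi]; exact Set.subset_insert _ _) hr))
    (b.2 : IsIntegral (Algebra.adjoin T.W {T.ι₁ (T.ι₀ t)}) (b : T.F₂))
  exact ⟨n, hn⟩

namespace Roots

variable (D : T.Roots m f)

/-- The data of the `E`-th power, the roots twisted by roots of unity. -/
def powTwist (E : ℕ) (c : Fin 3 → T.k) (hc : ∀ i, c i ^ m = 1) : T.Roots m (f ^ E) where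
  s i := E * D.s i
  g i := algebraMap T.k (LaurentSeries T.k) (c i) * D.g i ^ E
  cont i := by
    rw [map_pow, mul_pow, ← (algebraMap T.k (LaurentSeries T.k)).map_pow, hc, map_one, one_mul,
      ← pow_mul, mul_comm E m, pow_mul]
    refine ((D.cont i).pow E).congr ?_
    rw [← zpow_natCast ((q : T.L) ^ _) E, ← zpow_mul, mul_assoc, mul_comm (D.s i)]
  mem i := mul_mem (T.algebraMap_mem_redField _) (pow_mem (D.mem i) E)

variable {D}

theorem BranchVal.powTwist (hp : T.ChartParam t) (hm : m ≠ 0) (hf : f ≠ 0)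
    {x : Ideal (T.chart₂ t)} [x.IsMaximal] {h : T.F₂} {num den : T.chart₂ t}
    (hg : IsGen m f x h num den) {i : Fin 3} (hi : Thru i x) {C S : T.chart₂ t}
    (hv : D.BranchVal x i h C S) {E : ℕ} {c : Fin 3 → T.k} {hc : ∀ i, c i ^ m = 1} {w : T.W}
    (hw : T.πW w = c i) :
    (D.powTwist E c hc).BranchVal x i (h ^ E) (algebraMap T.W _ w * C ^ E) (S ^ E) := by
  refine ⟨fun h0 => hv.1 ((Ideal.IsMaximal.isPrime ‹_›).mem_of_pow_mem _ h0), fun ρ hρ => ?_⟩
  obtain ⟨ρ₀, hρ₀, -⟩ := exists_cont_gen (D := D) hp hm hf hg hi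
  have h1 : T.Cont (T.branch i (h ^ E)) ((q : T.L) ^ ((E : ℤ) * D.s i)) (ρ₀ ^ E) := by
    rw [map_pow, mul_comm, zpow_mul, zpow_natCast]
    exact hρ₀.pow E
  rw [← (h1.unique_q hρ).2, ← hp.redHom₂_apply, ← hp.redHom₂_apply i (S ^ E), map_mul, map_pow,
    map_pow, hp.redHom₂_W, hw, mul_assoc, ← mul_pow, hp.redHom₂_apply, hv.2 ρ₀ hρ₀, mul_pow]
  show _ = _ * (algebraMap T.k (LaurentSeries T.k) (c i) * D.g i ^ E)
  rw [hp.redHom₂_apply]
  ring

theorem isGen_pow {x : Ideal (T.chart₂ t)} [x.IsMaximal] {h : T.F₂} {num den : T.chart₂ t}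
    (hg : IsGen m f x h num den) (E : ℕ) : IsGen m (f ^ E) x (h ^ E) (num ^ E) (den ^ E) := by
  refine ⟨fun h0 => hg.1 ((Ideal.IsMaximal.isPrime ‹_›).mem_of_pow_mem _ h0),
    fun h0 => hg.2.1 ((Ideal.IsMaximal.isPrime ‹_›).mem_of_pow_mem _ h0), ?_⟩
  rw [SubmonoidClass.coe_pow, SubmonoidClass.coe_pow, ← pow_mul, mul_comm E m, pow_mul, ← div_pow,
    ← mul_pow, hg.2.2]

/-- Generators and values at every point. -/
theorem exists_gen_values (D : T.Roots m f) (hI : T.Inputs) (ht : t = T.j ∨ t = T.j⁻¹)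
    (hm : (m : T.k) ≠ 0) (hf : f ≠ 0) (hloc : T.IsLocPow m f) (x : Ideal (T.chart₂ t))
    [x.IsMaximal] (hx : (q : T.chart₂ t) ∈ x) :
    ∃ (h : T.F₂) (num den : T.chart₂ t) (C S : Fin 3 → T.chart₂ t),
      IsGen m f x h num den ∧ ∀ i, Thru i x → D.BranchVal x i h (C i) (S i) := by
  classical
  have hm0 : m ≠ 0 := fun h0 => hm (by rw [h0, Nat.cast_zero])
  obtain ⟨h, num, den, hn, hd, -, he⟩ := exists_unit_generator hI ht hm hf hloc D x hx
  have hg : IsGen m f x h num den := ⟨hn, hd, he⟩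
  have hex : ∀ i, ∃ C S : T.chart₂ t, Thru i x → D.BranchVal x i h C S := fun i => by
    by_cases hi : Thru i x
    · obtain ⟨C, S, hCS⟩ := exists_branchVal (D := D) hI ht hm0 hf hx hg hi
      exact ⟨C, S, fun _ => hCS⟩
    · exact ⟨1, 1, fun h => absurd h hi⟩
  choose C S hCS using hex
  exact ⟨h, num, den, C, S, hg, hCS⟩

/-- The twisted power has a root on both charts. -/
theorem exists_glues (D : T.Roots m f) (hI : T.Inputs) (hm : (m : T.k) ≠ 0) (hf : f ≠ 0)
    (hloc : T.IsLocPow m f) (hN : T.NormRoot m f) (hN' : T.NormRoot m (T.w₂ f)) :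
    ∃ D' : T.Roots m (f ^ meetExp q), D'.Glues T.j ∧ D'.Glues T.j⁻¹ := by
  classical
  have hm0 : m ≠ 0 := fun h0 => hm (by rw [h0, Nat.cast_zero])
  obtain ⟨c, hc, hmeet⟩ := D.exists_value_constants hI hm hf hN hN'
  set E := meetExp q
  have hc' : ∀ i, (c i)⁻¹ ^ m = 1 := fun i => by rw [inv_pow, hc, inv_one]
  set D' := D.powTwist E (fun i => (c i)⁻¹) hc'
  choose w hw using fun i => T.πW_surjective (c i)⁻¹
  choose u hu using fun i => T.πW_surjective (c i)
  have hwu : ∀ i, T.πW (w i * u i) = 1 := fun i => by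
    rw [map_mul, hw, hu, inv_mul_cancel₀ fun h0 => by
      have := hc i
      rw [h0, zero_pow hm0] at this
      exact zero_ne_one this]
  have hfE : f ^ E ≠ 0 := pow_ne_zero _ hf
  -- the finite chart
  have hp₀ := T.chartParam_j hI
  have h₀ : D'.Glues T.j := by
    refine D'.glues_of_rootIdeal_eq_top hp₀ hm0 hfE ?_
    by_contra hne
    obtain ⟨x, hxmax, hle⟩ := Ideal.exists_le_maximal _ hne
    have hx : (q : T.chart₂ T.j) ∈ x := hle (D'.natCast_q_mem_rootIdeal hp₀ hm0 hfE)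
    obtain ⟨h, num, den, C, S, hg, hv⟩ :=
      D.exists_gen_values hI (Or.inl rfl) hm hf hloc x hx
    obtain ⟨S', hS', hSI⟩ := D'.exists_notMem_rootIdeal hI (Or.inl rfl) hm hfE hx (isGen_pow hg E)
      (fun i => algebraMap T.W _ (w i) * C i ^ E) (fun i => S i ^ E)
      (fun i hi => (hv i hi).powTwist hp₀ hm0 hf hg hi (hw i)) (fun i k hi hk => by
        by_cases hik : i = k
        · subst hik
          rw [sub_self]
          exact x.zero_mem
        have hall := (branches_meet hI x hx i k hik hi hk).1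
        have hrel := hmeet x hx hall h num den hg C S (fun l => hv l (hall l)) u hu
        haveI := (Ideal.IsMaximal.isPrime hxmax)
        letI := Ideal.Quotient.field x
        have e : ∀ l, Ideal.Quotient.mk x (C l * S 0) ^ E =
            Ideal.Quotient.mk x (algebraMap T.W _ (u l)) * Ideal.Quotient.mk x (C 0 * S l) ^ E := by
          intro l
          rw [← map_pow, ← map_pow, ← map_mul]
          exact Ideal.Quotient.eq.mpr (hrel l)
        have hS0 : Ideal.Quotient.mk x (S 0) ≠ 0 := fun h0 =>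
          (hv 0 (hall 0)).1 (Ideal.Quotient.eq_zero_iff_mem.mp h0)
        have hone : ∀ l, Ideal.Quotient.mk x (algebraMap T.W _ (w l)) *
            Ideal.Quotient.mk x (algebraMap T.W _ (u l)) = 1 := by
          intro l
          rw [← map_mul, ← map_mul, ← map_one (Ideal.Quotient.mk x), Ideal.Quotient.eq,
            ← map_one (algebraMap T.W (T.chart₂ T.j)), ← map_sub]
          haveI := T.isDiscreteValuationRing_W
          have h1 : w l * u l - 1 ∈ IsLocalRing.maximalIdeal T.W :=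
            (IsLocalRing.mem_maximalIdeal _).mpr fun h2 => (h2.map T.πW).ne_zero (by
              rw [map_sub, hwu, map_one, sub_self])
          rw [Irreducible.maximalIdeal_eq T.irreducible_q, Ideal.mem_span_singleton] at h1
          obtain ⟨b, hb⟩ := h1
          rw [hb, map_mul, map_natCast]
          exact x.mul_mem_right _ hx
        rw [← Ideal.Quotient.eq_zero_iff_mem, map_sub, sub_eq_zero]
        apply mul_right_cancel₀ (pow_ne_zero E hS0)
        simp only [map_mul, map_pow, mul_pow] at e ⊢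
        linear_combination (Ideal.Quotient.mk x (algebraMap T.W _ (w i)) *
            Ideal.Quotient.mk x (S k) ^ E) * e i -
          (Ideal.Quotient.mk x (algebraMap T.W _ (w k)) * Ideal.Quotient.mk x (S i) ^ E) * e k +
          (Ideal.Quotient.mk x (C 0) ^ E * Ideal.Quotient.mk x (S i) ^ E *
            Ideal.Quotient.mk x (S k) ^ E) * (hone i - hone k))
    exact hS' (hle hSI)
  refine ⟨D', h₀, ?_⟩
  -- the chart at infinity
  have hp₁ := T.chartParam_jinv hI
  refine D'.glues_of_rootIdeal_eq_top hp₁ hm0 hfE ?_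
  by_contra hne
  obtain ⟨x, hxmax, hle⟩ := Ideal.exists_le_maximal _ hne
  have hx : (q : T.chart₂ T.j⁻¹) ∈ x := hle (D'.natCast_q_mem_rootIdeal hp₁ hm0 hfE)
  set v : T.chart₂ T.j⁻¹ := ⟨_, ι₁ι₀_mem_chart₂ T.j⁻¹⟩ with hv_def
  by_cases hvx : v ∈ x
  · obtain ⟨h, num, den, C, S, hg, hv⟩ :=
      D.exists_gen_values hI (Or.inr rfl) hm hf hloc x hx
    obtain ⟨S', hS', hSI⟩ := D'.exists_notMem_rootIdeal hI (Or.inr rfl) hm hfE hx (isGen_pow hg E)
      (fun i => algebraMap T.W _ (w i) * C i ^ E) (fun i => S i ^ E)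
      (fun i hi => (hv i hi).powTwist hp₁ hm0 hf hg hi (hw i)) (fun i k hi hk => by
        rw [branches_meet_inf hI x hx v rfl hvx i k hi hk, sub_self]
        exact x.zero_mem)
    exact hS' (hle hSI)
  · obtain ⟨e, he, her⟩ := h₀
    have hj : T.j ≠ 0 := fun h0 => T.transcendental_j (by rw [h0]; exact isAlgebraic_zero)
    obtain ⟨n, hn⟩ := exists_inv_pow_mul_mem_chart₂ hj ⟨_, he⟩
    have hvn : (v ^ n : T.chart₂ T.j⁻¹) ∈ D'.rootIdeal hp₁ hm0 hfE := by
      refine ⟨(v : T.F₂) ^ n * e, ?_, fun i => ?_⟩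
      · obtain ⟨k, rfl⟩ : ∃ k, m = k + 1 := ⟨m - 1, by omega⟩
        rw [mul_pow, pow_succ ((v : T.F₂) ^ n), mul_div_assoc, mul_assoc]
        exact mul_mem (pow_mem (pow_mem v.2 n) k) hn
      · obtain ⟨-, hI', hr, -⟩ := her i
        rw [SubmonoidClass.coe_pow]
        show gred T.π _ = gred T.π _ * _
        rw [map_mul, mul_left_comm, map_pow,
          gred_mul (pow_mem (branch_mem_gaussInt hp₁ i v) n) hI',
          show gred T.π (algebraMap T.L (LaurentSeries T.L) _ * T.branch i e) = D'.g i from hr]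
    exact hvx ((Ideal.IsMaximal.isPrime hxmax).mem_of_pow_mem _ (hle hvn))

end Roots

/-- **Main statement for a tower satisfying the inputs.** -/
theorem mainStatement (T : Tower q) (hI : T.Inputs) : T.MainStatement := by
  intro m hm f hf hloc hN hNβ
  obtain ⟨c, hc, ⟨D⟩, hN₁, hN₁'⟩ := exists_normalised hI hm hf hN (normRoot_w₂ hNβ)
  set f₁ := algebraMap T.K T.F₂ c * f ^ normExp q with hf₁
  have hf₁0 : f₁ ≠ 0 := mul_ne_zero ((_root_.map_ne_zero _).mpr hc) (pow_ne_zero _ hf)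
  obtain ⟨D', h0, h1⟩ := D.exists_glues hI hm hf₁0 (hloc.const_mul_pow _) hN₁ hN₁'
  obtain ⟨a, ha, haV⟩ := D'.exists_root hI hm (pow_ne_zero _ hf₁0) h0 h1
  refine ⟨a ^ ((q + 1) ^ 2 * (q - 1)), pow_ne_zero _ ha, fun V hK => ?_⟩
  set M := (q + 1) ^ 2 * (q - 1) with hM
  have hb : bound q = normExp q * Roots.meetExp q * M := by
    simp only [bound, normExp, Roots.meetExp, hM]
    ring
  have e : (a ^ M) ^ m / f ^ bound q =
      algebraMap T.K T.F₂ (c ^ (Roots.meetExp q * M)) *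
        (a ^ m / f₁ ^ Roots.meetExp q) ^ M := by
    rw [hb, pow_mul f, pow_mul f, hf₁, map_pow]
    have hc0 : algebraMap T.K T.F₂ c ≠ 0 := (_root_.map_ne_zero _).mpr hc
    rw [mul_pow, div_pow, mul_pow, ← pow_mul (algebraMap T.K T.F₂ c), ← pow_mul a M m,
      mul_comm M m, pow_mul a m M, ← mul_div_assoc, mul_comm _ ((a ^ m) ^ M), mul_comm _ (((f ^ _) ^ _) ^ _),
      mul_div_mul_right _ _ (pow_ne_zero _ hc0)]
  rw [e]
  exact mul_mem (hK _) (pow_mem (haV V hK) M)

end Tower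

end FermatLib.Igusa.Carayol
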