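import Mathlib
import Fermat.Agent.Galois.MazurP.HeckePoles
import Fermat.Agent.Igusa.GaussReduction
import Fermat.Agent.Igusa.Carayol.LevelSeries
import Fermat.Agent.Igusa.Carayol.TowerEmbeddings

/-!
The modular polynomial of prime degree: symmetry, degree bounds and Kronecker's congruence, giving
the `modular` input of a tower.
-/

set_option autoImplicit false
set_option linter.style.haveILetI false
set_option linter.unusedSectionVars false
set_option maxHeartbeats 400000

noncomputable section

open ModularCurve Polynomial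
open scoped Polynomial.Bivariate

namespace FermatLib.Igusa.Carayol

open FermatLib.MazurP (evalInt)

section bivariate

/-- The coefficients of the exchanged polynomial. -/
theorem coeff_bivariateSwap {R : Type*} [CommSemiring R] (P : R[X][Y]) (i a : ℕ) :
    ((Bivariate.swap P).coeff i).coeff a = (P.coeff a).coeff i := by
  induction P using Polynomial.induction_on' with
  | add p r hp hr => simp only [map_add, coeff_add, hp, hr]
  | monomial n f =>
    induction f using Polynomial.induction_on' with
    | add p r hp hr => simp only [map_add, coeff_add, hp, hr]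
    | monomial m c =>
      rw [Bivariate.swap_monomial_monomial]
      simp only [coeff_monomial, apply_ite (fun f : R[X] => f.coeff a),
        apply_ite (fun f : R[X] => f.coeff i), coeff_zero]
      split_ifs <;> simp_all

theorem eval₂_bivariateSwap {R : Type*} [CommRing R] (x y : R) (P : ℤ[X][Y]) :
    (Bivariate.swap P).eval₂ (evalInt x) y = P.eval₂ (evalInt y) x := by
  show ((eval₂RingHom (evalInt x) y).comp (Bivariate.swap (R := ℤ)).toRingEquiv.toRingHom) P =
    eval₂RingHom (evalInt y) x P
  congr 1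
  refine Polynomial.ringHom_ext' (Polynomial.ringHom_ext' (Subsingleton.elim _ _) ?_) ?_
  · simp [Bivariate.swap_X]
  · simp [Bivariate.swap_Y]

theorem eval_X_bivariateSwap (P : ℤ[X][Y]) : (Bivariate.swap P).eval X = P.eval X := by
  show ((evalRingHom (X : ℤ[X])).comp (Bivariate.swap (R := ℤ)).toRingEquiv.toRingHom) P =
    evalRingHom (X : ℤ[X]) P
  congr 1
  refine Polynomial.ringHom_ext' (Polynomial.ringHom_ext' (Subsingleton.elim _ _) ?_) ?_
  · simp [Bivariate.swap_X]
  · simp [Bivariate.swap_Y]

end bivariate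

variable (q : ℕ) [hq : Fact q.Prime] [NeZero q]

/-- The modular polynomial of degree `q`. -/
abbrev kronPoly : ℤ[X][Y] := (FermatLib.Modular.modularPolynomialData q).Φ

local notation "Φq" => kronPoly q

theorem natDegree_modularPoly : (Φq).natDegree = q + 1 := by
  rw [(FermatLib.Modular.modularPolynomialData q).natDegree_eq]
  have h := FermatLib.Modular.Corr.dedekindPsi_mul_prime 1 hq.out
  rw [if_neg hq.out.not_dvd_one, dedekindPsi_one] at h
  simpa using h

/-- The pair `(j(τ), j(qτ))` satisfies no relation of degree at most `q`. -/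
theorem eq_zero_of_eval₂_jq {P : ℤ[X][Y]} (hP : P.degree < ((q + 1 : ℕ) : WithBot ℕ))
    (h : P.eval₂ (evalInt (jqModC ℚ)) (qExpand ℚ q (jqModC ℚ)) = 0) : P = 0 := by
  have hinj : Function.Injective (mapRingHom (Int.castRingHom ℚ)) :=
    Polynomial.map_injective _ Int.cast_injective
  refine Polynomial.map_injective _ hinj ?_
  rw [Polynomial.map_zero]
  refine FermatLib.Modular.eq_zero_of_biSer_eq_zero ℚ q ?_ ?_
  · rw [degree_map_eq_of_injective hinj, ← (FermatLib.Modular.modularPolynomialData q).natDegree_eq,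
      natDegree_modularPoly]
    exact hP
  · have e : coeffEmb ℚ jq = jqModC ℚ := by rw [coeffEmb, ← jqModC_rat, coeffMap_jqModC]
    rw [FermatLib.Modular.biSer, coe_eval₂RingHom, eval₂_map,
      FermatLib.Modular.Corr.coeffEmb_qExpand, e, ← h]
    congr 1
    exact Polynomial.ringHom_ext' (Subsingleton.elim _ _) (by simp)

theorem modularPoly_dvd_of_eval₂_jq {P : ℤ[X][Y]}
    (h : P.eval₂ (evalInt (jqModC ℚ)) (qExpand ℚ q (jqModC ℚ)) = 0) : Φq ∣ P := by
  have hm := (FermatLib.Modular.modularPolynomialData q).monic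
  rw [← modByMonic_eq_zero_iff_dvd hm]
  refine eq_zero_of_eval₂_jq q ?_ ?_
  · refine (degree_modByMonic_lt _ hm).trans_le ?_
    rw [degree_eq_natDegree hm.ne_zero, natDegree_modularPoly]
  · have h2 := congrArg (eval₂RingHom (evalInt (jqModC ℚ)) (qExpand ℚ q (jqModC ℚ)))
      (modByMonic_add_div P (Φq))
    rw [map_add, map_mul, coe_eval₂RingHom, h,
      (FermatLib.MazurP.modularEquation_series q ℚ).1, zero_mul, add_zero] at h2
    exact h2

theorem qExpand_jqModC_ne : qExpand ℚ q (jqModC ℚ) ≠ jqModC ℚ := by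
  intro h
  have h1 := congrArg (fun f : LaurentSeries ℚ => f.coeff (-1)) h
  simp only [coeff_jqModC_neg_one] at h1
  rw [qExpand_coeff_of_not_dvd q _ (by
    rw [Int.dvd_neg, show (1 : ℤ) = ((1 : ℕ) : ℤ) from rfl, Int.natCast_dvd_natCast, Nat.dvd_one]
    exact hq.out.ne_one)] at h1
  exact zero_ne_one h1

/-- **Symmetry of the modular polynomial.** -/
theorem bivariateSwap_modularPoly : Bivariate.swap (Φq) = Φq := by
  set P := Φq with hPdef
  have hm : P.Monic := (FermatLib.Modular.modularPolynomialData q).monic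
  obtain ⟨G, hG⟩ : P ∣ Bivariate.swap P := modularPoly_dvd_of_eval₂_jq q (by
    rw [eval₂_bivariateSwap]
    exact (FermatLib.MazurP.modularEquation_series q ℚ).2)
  have hGG : G * Bivariate.swap G = 1 := by
    have h := congrArg (Bivariate.swap (R := ℤ)) hG
    rw [Bivariate.swap_swap_apply, map_mul, hG, mul_assoc] at h
    exact (mul_right_eq_self₀.mp h.symm).resolve_right hm.ne_zero
  obtain ⟨r, hr, hrG⟩ := Polynomial.isUnit_iff.mp (IsUnit.of_mul_eq_one _ hGG)
  obtain ⟨u, hu, hur⟩ := Polynomial.isUnit_iff.mp hr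
  rcases Int.isUnit_iff.mp hu with rfl | rfl
  · rw [hG, ← hrG, ← hur]
    simp
  · exfalso
    have hneg : Bivariate.swap P = -P := by
      rw [hG, ← hrG, ← hur, map_neg, map_one, map_neg, map_one]
      ring
    have h0 : P.eval X = 0 := by
      have h := congrArg (fun Q : ℤ[X][Y] => Q.eval X) hneg
      simp only [eval_X_bivariateSwap, eval_neg] at h
      exact (mul_eq_zero.mp (show (2 : ℤ[X]) * P.eval X = 0 by linear_combination h)).resolve_left
        two_ne_zero
    obtain ⟨H, hH⟩ := dvd_iff_isRoot.mpr (show P.IsRoot X from h0)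
    have hHm : H.Monic := (monic_X_sub_C (X : ℤ[X])).of_mul_monic_left (hH ▸ hm)
    have hd : H.natDegree = q := by
      have h := natDegree_modularPoly q
      rw [← hPdef, hH, (monic_X_sub_C (X : ℤ[X])).natDegree_mul hHm, natDegree_X_sub_C] at h
      omega
    refine hHm.ne_zero (eq_zero_of_eval₂_jq q ?_ ?_)
    · rw [degree_eq_natDegree hHm.ne_zero, hd]
      exact_mod_cast q.lt_succ_self
    · have h := (FermatLib.MazurP.modularEquation_series q ℚ).1
      rw [show (FermatLib.Modular.modularPolynomialData q).Φ = P from rfl, hH, eval₂_mul, eval₂_sub, eval₂_X, eval₂_C] at h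
      refine (mul_eq_zero.mp h).resolve_left (sub_ne_zero.mpr ?_)
      simpa using qExpand_jqModC_ne q

theorem coeff_modularPoly_symm (i a : ℕ) :
    ((Φq).coeff i).coeff a = ((Φq).coeff a).coeff i := by
  conv_lhs => rw [← bivariateSwap_modularPoly q, coeff_bivariateSwap]

theorem coeff_modularPoly_eq (i a : ℕ) (ha : q + 1 ≤ a) :
    ((Φq).coeff i).coeff a = if i = 0 ∧ a = q + 1 then 1 else 0 := by
  rw [coeff_modularPoly_symm]
  rcases eq_or_lt_of_le ha with rfl | ha'
  · have hm := (FermatLib.Modular.modularPolynomialData q).monic.coeff_natDegree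
    rw [natDegree_modularPoly] at hm
    rw [hm, coeff_one]
    simp
  · rw [show (Φq).coeff a = 0 from coeff_eq_zero_of_natDegree_lt
      (by rw [natDegree_modularPoly]; exact ha'), Polynomial.coeff_zero,
      if_neg (fun h => ha'.ne' h.2)]

theorem natDegree_coeff_modularPoly_le (i : ℕ) : ((Φq).coeff i).natDegree ≤ q + 1 :=
  natDegree_le_iff_coeff_eq_zero.mpr fun a ha => by
    rw [coeff_modularPoly_eq q i a ha.le, if_neg (fun h => ha.ne' h.2)]

theorem natDegree_coeff_modularPoly_lt {i : ℕ} (hi : i ≠ 0) :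
    ((Φq).coeff i).natDegree ≤ q :=
  natDegree_le_iff_coeff_eq_zero.mpr fun a ha => by
    rw [coeff_modularPoly_eq q i a ha, if_neg (fun h => hi h.1)]

theorem coeff_zero_modularPoly :
    ((Φq).coeff 0).natDegree = q + 1 ∧ ((Φq).coeff 0).Monic := by
  have h1 : ((Φq).coeff 0).coeff (q + 1) = 1 := by
    rw [coeff_modularPoly_eq q 0 (q + 1) le_rfl, if_pos ⟨rfl, rfl⟩]
  have hd : ((Φq).coeff 0).natDegree = q + 1 :=
    le_antisymm (natDegree_coeff_modularPoly_le q 0) (le_natDegree_of_ne_zero (by rw [h1]; simp))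
  refine ⟨hd, ?_⟩
  rw [Monic, leadingCoeff, hd, h1]

theorem degree_bound_modularPoly {i : ℕ} (hi : i ≤ q + 1) :
    ((Φq).coeff i).natDegree + q * i ≤ q * (q + 1) := by
  rcases eq_or_ne i 0 with rfl | hi0
  · have := (coeff_zero_modularPoly q).1
    have := hq.out.two_le
    nlinarith
  rcases eq_or_lt_of_le hi with rfl | hlt
  · have hm := (FermatLib.Modular.modularPolynomialData q).monic.coeff_natDegree
    rw [natDegree_modularPoly] at hm
    rw [hm, natDegree_one, zero_add]
  · have := natDegree_coeff_modularPoly_lt q hi0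
    have : q * i ≤ q * q := Nat.mul_le_mul_left q (Nat.lt_succ_iff.mp hlt)
    nlinarith

/-- The reduced expansion of `j` is fixed by Frobenius on coefficients. -/
theorem qExpand_jqModC_zmod :
    qExpand (ZMod q) q (jqModC (ZMod q)) = jqModC (ZMod q) ^ q := by
  rw [← coeffMap_jqModC (Int.castRingHom (ZMod q))]
  exact coeffMap_intCast_mem_frobFixed hq.out _

theorem eval_eq_zero_of_eval₂_jbar {F : Type*} [Field F] (f g : F[X]) (P : ℤ[X][Y])
    (h : P.eval₂ (evalInt (aeval (jqModC F) f)) (aeval (jqModC F) g) = 0) :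
    P.eval₂ (evalInt f) g = 0 := by
  refine transcendental_iff.mp (transcendental_jqModC F) _ ?_
  rw [show aeval (jqModC F) (P.eval₂ (evalInt f) g) =
    (aeval (jqModC F)).toRingHom (P.eval₂ (evalInt f) g) from rfl, FermatLib.MazurP.map_eval₂_evalInt]
  exact h

/-- A polynomial of degree less than `q` in `Y` vanishing at `X = T ^ q`, `Y = T` is zero. -/
theorem eq_zero_of_eval₂_expand {F : Type*} [CommRing F] {n : ℕ} (hn : 0 < n) {P : F[X][Y]}
    (hP : P.natDegree < n) (h : P.eval₂ (expand F n).toRingHom X = 0) : P = 0 := by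
  ext i a
  rcases lt_or_ge i n with hi | hi
  · have hc := congrArg (fun f : F[X] => f.coeff (n * a + i)) h
    simp only [eval₂_eq_sum_range' _ hP, finsetSum_coeff, coeff_mul_X_pow', coeff_zero,
      AlgHom.toRingHom_eq_coe, RingHom.coe_coe] at hc
    rw [Finset.sum_eq_single i] at hc
    · rw [if_pos (Nat.le_add_left i _), Nat.add_sub_cancel,
        coeff_expand_mul' hn] at hc
      simpa using hc
    · intro b hb hbi
      have hb' : b < n := Finset.mem_range.mp hb
      split_ifs with hle
      · rw [coeff_expand hn, if_neg]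
        intro hdvd
        obtain ⟨c, hc'⟩ := hdvd
        apply hbi
        have h1 : (n * a + i) % n = i := by rw [Nat.mul_add_mod, Nat.mod_eq_of_lt hi]
        rw [show n * a + i = n * c + b by omega, Nat.mul_add_mod, Nat.mod_eq_of_lt hb'] at h1
        exact h1
      · rfl
    · intro hmem
      exact absurd (Finset.mem_range.mpr hi) hmem
  · rw [coeff_eq_zero_of_natDegree_lt (hP.trans_le hi), Polynomial.coeff_zero]
    simp

/-- **Kronecker's congruence.** -/
theorem kronecker_modularPoly :
    C (C (q : ℤ)) ∣ Φq - (X - C (X ^ q)) * (X ^ q - C X) := by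
  set F := ZMod q
  set cast2 : ℤ[X][Y] →+* F[X][Y] := mapRingHom (mapRingHom (Int.castRingHom F)) with hcast
  set P := cast2 (Φq) with hP
  have hev : ∀ f g : F[X], P.eval₂ ((aeval f).toRingHom) g = (Φq).eval₂ (evalInt f) g := by
    intro f g
    rw [hP, hcast, coe_mapRingHom, eval₂_map]
    congr 1
    exact Polynomial.ringHom_ext' (Subsingleton.elim _ _) (by simp)
  have h1 : P.eval (X ^ q) = 0 := by
    have h := eval_eq_zero_of_eval₂_jbar (X : F[X]) (X ^ q) (Φq) (by
      rw [aeval_X, map_pow, aeval_X, ← qExpand_jqModC_zmod]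
      exact (FermatLib.MazurP.modularEquation_series q F).1)
    rw [← hev, show (aeval (X : F[X])).toRingHom = RingHom.id F[X] from
      RingHom.ext fun f => by simp, eval₂_id] at h
    exact h
  have h2 : P.eval₂ (expand F q).toRingHom X = 0 := by
    have h := eval_eq_zero_of_eval₂_jbar (X ^ q : F[X]) X (Φq) (by
      rw [map_pow, aeval_X, ← qExpand_jqModC_zmod]
      exact (FermatLib.MazurP.modularEquation_series q F).2)
    rw [← hev] at h
    rw [← h]
    congr 1
  set M : F[X][Y] := X ^ q - C X with hM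
  have hMm : M.Monic := monic_X_pow_sub_C _ hq.out.ne_zero
  have hMd : M.natDegree = q := natDegree_X_pow_sub_C
  have hPm : P.Monic := (FermatLib.Modular.modularPolynomialData q).monic.map _
  have hPd : P.natDegree = q + 1 := by
    rw [hP, hcast, coe_mapRingHom, (FermatLib.Modular.modularPolynomialData q).monic.natDegree_map,
      natDegree_modularPoly]
  have hM0 : M.eval₂ (expand F q).toRingHom X = 0 := by
    simp [hM]
  obtain ⟨G, hG⟩ : M ∣ P := by
    rw [← modByMonic_eq_zero_iff_dvd hMm]
    refine eq_zero_of_eval₂_expand hq.out.pos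
      (lt_of_lt_of_le (natDegree_modByMonic_lt P hMm (fun h => by
        rw [h, natDegree_one] at hMd; exact hq.out.ne_zero hMd.symm)) hMd.le) ?_
    have h := congrArg (eval₂RingHom (expand F q).toRingHom (X : F[X])) (modByMonic_add_div P M)
    rw [map_add, map_mul, coe_eval₂RingHom, h2, hM0, zero_mul, add_zero] at h
    exact h
  have hGm : G.Monic := hMm.of_mul_monic_left (hG ▸ hPm)
  obtain ⟨H, hH⟩ : (X - C (X ^ q : F[X])) ∣ G := by
    rw [dvd_iff_isRoot, IsRoot]
    have h := h1
    rw [hG, eval_mul, hM, eval_sub, eval_pow, eval_X, eval_C, ← pow_mul] at h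
    refine (mul_eq_zero.mp h).resolve_left fun h0 => ?_
    have := congrArg (fun f : F[X] => f.coeff 1) h0
    have h2q : 1 < q * q := Nat.one_lt_mul_iff.mpr
      ⟨hq.out.pos, hq.out.pos, Or.inl hq.out.one_lt⟩
    simp [coeff_X_pow, h2q.ne] at this
  have hHm : H.Monic := (monic_X_sub_C _).of_mul_monic_left (hH ▸ hGm)
  have hH1 : H = 1 := by
    refine hHm.natDegree_eq_zero.mp ?_
    have h := hPd
    rw [hG, hMm.natDegree_mul hGm, hH, (monic_X_sub_C _).natDegree_mul hHm, hMd,
      natDegree_X_sub_C] at h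
    omega
  have hzero : cast2 (Φq - (X - C (X ^ q)) * (X ^ q - C X)) = 0 := by
    rw [map_sub, ← hP, hG, hH, hH1, mul_one, hcast]
    simp [hM, mul_comm]
  rw [C_dvd_iff_dvd_coeff]
  intro i
  rw [C_dvd_iff_dvd_coeff]
  intro a
  have h := congrArg (fun Q : F[X][Y] => (Q.coeff i).coeff a) hzero
  simp only [hcast, coe_mapRingHom, coeff_map, coeff_zero, eq_intCast] at h
  exact (ZMod.intCast_zmod_eq_zero_iff_dvd _ _).mp h

variable {q}

/-- **The modular input** of a tower whose `j` expands as the `j`-invariant. -/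
theorem Tower.modular_of_jqModC {T : Tower q} (hj : T.e₀ T.j = jqModC T.L) :
    ∃ Φ : Polynomial (Polynomial ℤ), Φ.Monic ∧ Φ.natDegree = q + 1 ∧
    (Φ.map (Polynomial.aeval (T.ι₀ T.j)).toRingHom).eval (T.β₀ T.j) = 0 ∧
    (∀ i ≤ q + 1, (Φ.coeff i).natDegree + q * i ≤ q * (q + 1)) ∧
    (∀ i, (Φ.coeff i).natDegree ≤ q + 1) ∧
    (Φ.coeff 0).natDegree = q + 1 ∧ (Φ.coeff 0).Monic ∧
    Polynomial.C (Polynomial.C (q : ℤ)) ∣
      Φ - (Polynomial.X - Polynomial.C (Polynomial.X ^ q)) *
        (Polynomial.X ^ q - Polynomial.C Polynomial.X) := by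
  refine ⟨Φq, (FermatLib.Modular.modularPolynomialData q).monic, natDegree_modularPoly q, ?_,
    fun i hi => degree_bound_modularPoly q hi, natDegree_coeff_modularPoly_le q,
    (coeff_zero_modularPoly q).1, (coeff_zero_modularPoly q).2, kronecker_modularPoly q⟩
  apply (T.e₁).injective
  rw [map_zero, eval_map, FermatLib.MazurP.aeval_toRingHom_eq_evalInt,
    FermatLib.MazurP.map_eval₂_evalInt, T.e₁_ι₀, T.e₁_β₀, hj]
  exact (FermatLib.MazurP.modularEquation_series q T.L).1

end FermatLib.Igusa.Carayol
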