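import Fermat.Agent.Igusa.Carayol.TowerModularLevel
import Fermat.Agent.Igusa.Carayol.LevelZeroChart
import Fermat.Agent.Igusa.Carayol.InputDelta
import Fermat.Agent.Igusa.Carayol.InputModular
import Fermat.Agent.Galois.MazurP.DeltaUnitSwap
import Fermat.Agent.Galois.MazurP.DeltaUnitIntegral

/-!
The inputs of the modular tower: the modular unit `Δ(τ)/Δ(qτ)` of level `N q`, its transform under
the Atkin–Lehner involution, and all clauses of `Tower.Inputs`.
-/

set_option autoImplicit false
set_option maxHeartbeats 400000
set_option synthInstance.maxHeartbeats 100000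
set_option linter.style.haveILetI false

noncomputable section

open ModularCurve

namespace FermatLib.Igusa.Carayol

open FermatLib.Modular
open FermatLib.MazurP (deltaUnit coe_deltaUnit)

local notation "Qbar" => AlgebraicClosure ℚ

section unit

variable {N q M : ℕ} [NeZero N] [NeZero q] [NeZero M]

/-- `w_q u = q ^ 12 / u` at level `N q`, over a subfield of `ℚ̄`. -/
theorem atkinLehner_deltaUnit (hq : q.Prime) (hqN : ¬ q ∣ N) (hM : M = N * q ^ 1)
    {K : Type*} [Field K] [Algebra ℚ K] (i : K →+* Qbar)
    (w : laurentBaseChange K (modularFunctionFieldFull M) ≃ₐ[K]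
      laurentBaseChange K (modularFunctionFieldFull M))
    (hw : ∀ e, w (jDiv K M e) = jDiv K M (alSub hq hqN hM e)) (hd : q ∣ M) :
    w (deltaUnit K hd) =
      (q : laurentBaseChange K (modularFunctionFieldFull M)) ^ 12 * (deltaUnit K hd)⁻¹ := by
  letI : Algebra K Qbar := i.toAlgebra
  obtain rfl : M = q * N := by rw [hM, pow_one, mul_comm]
  obtain ⟨w', hw', -⟩ := exists_atkinLehner (L := Qbar) (M := q * N) hq hqN hM
  set b := baseEmb K Qbar (modularFunctionFieldFull (q * N))
  have h : ∀ x, b (w x) = w' (b x) := fun x =>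
    induction_jDiv (p := fun x => b (w x) = w' (b x))
      (fun c => by rw [w.commutes, baseEmb_algebraMap, w'.commutes])
      (fun e => by rw [hw, baseEmb_jDiv, baseEmb_jDiv, hw'])
      (fun x y hx hy => by simp only [map_add, hx, hy])
      (fun x hx => by simp only [map_inv₀, hx])
      (fun x y hx hy => by simp only [map_mul, hx, hy]) x
  have hu : b (deltaUnit K hd) = deltaUnit Qbar (dvd_mul_right q N) :=
    Subtype.ext (by rw [coe_baseEmb, coe_deltaUnit, coe_deltaUnit, coeffMap_coeffEmb'])
  apply b.injective
  rw [h, hu, map_mul, map_pow, map_natCast, map_inv₀, hu]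
  have hswap := MazurP.map_deltaUnit_of_swap (hq.coprime_iff_not_dvd.mpr hqN) w'.toAlgHom ?_ ?_
  · rw [map_pow, map_natCast] at hswap
    exact hswap
  · show ((w' (jElem Qbar (q * N))) : LaurentSeries Qbar) = _
    rw [← jDiv_one Qbar (q * N), hw', jDiv_congr (e := ⟨q, dvd_mul_right q N⟩)
      ((alSub_eq hq hqN hM _ (d := 1) (i := 0) (one_dvd N) zero_le_one (by simp)).trans
        (by simp)), coe_jDiv]
  · show ((w' (jScaleElem Qbar (q * N))) : LaurentSeries Qbar) = _
    rw [← jDiv_self Qbar (q * N), hw', jDiv_congr (e := ⟨N, dvd_mul_left N q⟩)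
      ((alSub_eq hq hqN hM _ (d := N) (i := 1) dvd_rfl le_rfl (by simp [mul_comm])).trans
        (by simp)), coe_jDiv]

/-- `u⁻¹` is integral over `K[j]`. -/
theorem isIntegral_inv_deltaUnit (K : Type*) [Field K] [Algebra ℚ K] (hd : q ∣ M) :
    IsIntegral (Algebra.adjoin K {jElem K M}) (deltaUnit K hd)⁻¹ := by
  let φ : Polynomial ℚ →+* Algebra.adjoin K {jElem K M} :=
    Polynomial.eval₂RingHom ((algebraMap K _).comp (algebraMap ℚ K))
      ⟨jElem K M, Algebra.self_mem_adjoin_singleton _ _⟩
  obtain ⟨P, hm, hP⟩ := (MazurP.exists_monic_modularUnitSeries q).2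
  refine ⟨P.map φ, hm.map φ, ?_⟩
  rw [Polynomial.eval₂_map]
  apply (laurentBaseChange K (modularFunctionFieldFull M)).val.toRingHom.injective
  have h := congrArg (coeffEmb K) hP
  rw [Polynomial.hom_eval₂, map_zero] at h
  rw [Polynomial.hom_eval₂, map_zero, ← h]
  congr 1
  · refine Polynomial.ringHom_ext' (Subsingleton.elim _ _) ?_
    simp [φ]
  · show (((deltaUnit K hd)⁻¹ : laurentBaseChange K (modularFunctionFieldFull M)) :
      LaurentSeries K) = _
    rw [IntermediateField.coe_inv, coe_deltaUnit, map_inv₀]

end unit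

variable (N q : ℕ) [NeZero N] [NeZero q] (hq : q.Prime) (hqN : ¬ q ∣ N)
  (A : ValuationSubring Qbar) (hA : A.LiesOverPrime q)

/-- The coordinate `j` of the modular tower. -/
theorem modularTower_chartParam_j :
    (modularTower N q hq hqN A hA).ChartParam (modularTower N q hq hqN A hA).j where
  int := (modularTower N q hq hqN A hA).e₀_j_int.1
  red_transcendental := (modularTower N q hq hqN A hA).transcendental_red_j
  transcendental := (modularTower N q hq hqN A hA).transcendental_j
  finite := (modularTower N q hq hqN A hA).finite_j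
  gauss_mem := (modularLevelModel N q hq hqN A hA).gauss_mem
  smooth := (modularLevelModel N q hq hqN A hA).smooth

theorem modularTower_e₀_j :
    (modularTower N q hq hqN A hA).e₀ (modularTower N q hq hqN A hA).j =
      jqModC (modularTower N q hq hqN A hA).L := by
  set M := modularLevelModel N q hq hqN A hA
  rw [M.e₀_eq, M.model_j, coeffMap_jqModC]

theorem towerEps_alpha_deltaUnit (K L : Type*) [Field K] [Algebra ℚ K] [Field L] [Algebra ℚ L]
    [Algebra K L] (hd : q ∣ N * q) :
    towerEps N q K L (heckeAlphaBar K (N * q) q (deltaUnit K hd)) =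
      Mazur.Classes.uModC L q := by
  show (baseEmb K L _ _ : LaurentSeries L) = _
  rw [coe_baseEmb, coe_heckeAlphaBar, coe_deltaUnit, coeffMap_coeffEmb',
    Mazur.Classes.uModC_eq_coeffEmb]

/-- The `delta` clause of the modular tower. -/
theorem modularTower_delta :
    ∃ (D : LaurentSeries (modularTower N q hq hqN A hA).L)
      (U : (modularTower N q hq hqN A hA).F₁),
      D ∈ gaussInt (modularTower N q hq hqN A hA).π ∧
      (modularTower N q hq hqN A hA).red D ≠ 0 ∧
      thetaSeries ((modularTower N q hq hqN A hA).e₀ (modularTower N q hq hqN A hA).j) ^ 6 =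
        (modularTower N q hq hqN A hA).e₀ (modularTower N q hq hqN A hA).j ^ 4 *
          ((modularTower N q hq hqN A hA).e₀ (modularTower N q hq hqN A hA).j - 1728) ^ 3 * D ∧
      U ∈ (modularTower N q hq hqN A hA).chart₁ (modularTower N q hq hqN A hA).j ∧
      (modularTower N q hq hqN A hA).e₁ U ∈ gaussInt (modularTower N q hq hqN A hA).π ∧
      (modularTower N q hq hqN A hA).red ((modularTower N q hq hqN A hA).e₁ U) = 0 ∧
      (modularTower N q hq hqN A hA).e₁ ((modularTower N q hq hqN A hA).w₁ U) ∈
        gaussInt (modularTower N q hq hqN A hA).π ∧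
      (modularTower N q hq hqN A hA).red ((modularTower N q hq hqN A hA).e₁
          ((modularTower N q hq hqN A hA).w₁ U)) *
        (modularTower N q hq hqN A hA).red D ^ (q - 1) = 1 := by
  refine (modularTower N q hq hqN A hA).delta_of_unit (modularTower_chartParam_j N q hq hqN A hA)
    (modularTower_e₀_j N q hq hqN A hA)
    (deltaUnit (MazurP.inertiaField A) (dvd_mul_left q N))
    (towerEps_alpha_deltaUnit N q (MazurP.inertiaField A) (zetaField A q) _) ?_ ?_
  · have h := isIntegral_inv_deltaUnit (M := N * q) (MazurP.inertiaField A) (dvd_mul_left q N)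
    rw [← heckeAlphaBar_jElem] at h
    exact h
  · exact atkinLehner_deltaUnit hq hqN (towerLevel_one N q)
      (algebraMap (MazurP.inertiaField A) Qbar) _
      (exists_atkinLehner hq hqN (towerLevel_one N q)).choose_spec.1 (dvd_mul_left q N)

/-- **The inputs of the modular tower**, when a prime `≡ 11 (mod 12)` divides the level. -/
theorem modularTower_inputs {r : ℕ} (hr : r.Prime) (hrN : r ∣ N) (hr12 : r % 12 = 11) :
    (modularTower N q hq hqN A hA).Inputs where
  gauss_mem := (modularLevelModel N q hq hqN A hA).gauss_mem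
  gauss_mem_inf := (modularLevelModel N q hq hqN A hA).gauss_mem_inf
  smooth := (modularLevelModel N q hq hqN A hA).smooth
  smooth_inf := (modularLevelModel N q hq hqN A hA).smooth_inf
  elliptic_zero := (modularLevelModel N q hq hqN A hA).elliptic_zero hr hrN hr12
  elliptic_1728 := (modularLevelModel N q hq hqN A hA).elliptic_1728 hr hrN hr12
  delta := modularTower_delta N q hq hqN A hA
  modular := by
    haveI : Fact q.Prime := ⟨hq⟩
    exact Tower.modular_of_jqModC (modularTower_e₀_j N q hq hqN A hA)

end FermatLib.Igusa.Carayol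

end
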