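import Fermat.Prelude.Def_ModularCurve_X0ModL
import Fermat.Agent.Modular.CoeffDescent
import Fermat.Agent.Curve.Descent.LaurentDescent

/-!
# Rational descent of the functions with bounded poles at the cusps

A function over `ℚ̄` with poles only over `j = ∞`, of order bounded by `m`, is a combination of
such functions over `ℚ`.
-/

set_option autoImplicit false
set_option synthInstance.maxHeartbeats 400000

noncomputable section

open Polynomial ModularCurve

namespace FermatLib.Igusa.Carayol

section generic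

/-- Scalars act on series as constants. -/
theorem smul_eq_algebraMap_mul {L : Type*} [Field L] (c : L) (f : LaurentSeries L) :
    c • f = algebraMap L (LaurentSeries L) c * f := by
  rw [algebraMap_laurentSeries_eq_single, HahnSeries.single_zero_mul_eq_smul]

/-- Integrality over `K[x]` can be tested after extending the constants of a series field. -/
theorem isIntegral_adjoin_of_coeffMap {K L : Type*} [Field K] [Field L] [Algebra K L]
    {x f : LaurentSeries K}
    (h : IsIntegral (Algebra.adjoin L {coeffMap (algebraMap K L) x})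
      (coeffMap (algebraMap K L) f)) :
    IsIntegral (Algebra.adjoin K {x}) f := by
  classical
  set e := coeffMap (algebraMap K L) with he
  obtain ⟨p, hp, hpf⟩ := h
  set d := p.natDegree
  set S : Set (LaurentSeries K) :=
    {z | ∃ i < d, ∃ r ∈ Algebra.adjoin K {x}, z = r * f ^ i} with hS
  have hS' : ∀ i < d, ∀ r : Algebra.adjoin L {e x},
      (r : LaurentSeries L) * e f ^ i ∈ Submodule.span L (e '' S) := by
    rintro i hi ⟨r, hr⟩
    obtain ⟨P, rfl⟩ := (AlgHom.mem_range _).mp
      ((Algebra.adjoin_singleton_eq_range_aeval L (e x)).le hr)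
    show aeval (e x) P * e f ^ i ∈ _
    rw [aeval_eq_sum_range, Finset.sum_mul]
    refine Submodule.sum_mem _ fun l _ => ?_
    rw [Algebra.smul_def, mul_assoc, ← smul_eq_algebraMap_mul]
    refine Submodule.smul_mem _ _ (Submodule.subset_span ⟨x ^ l * f ^ i,
      ⟨i, hi, x ^ l, Subalgebra.pow_mem _ (Algebra.self_mem_adjoin_singleton K x) l, rfl⟩, ?_⟩)
    rw [map_mul, map_pow, map_pow]
  have hfd : e (f ^ d) ∈ Submodule.span L (e '' S) := by
    have h0 : e f ^ d = -∑ i ∈ Finset.range d, (p.coeff i : LaurentSeries L) * e f ^ i := by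
      have hd : p.coeff d = 1 := hp.coeff_natDegree
      rw [eval₂_eq_sum_range, Finset.sum_range_succ, hd, map_one, one_mul] at hpf
      rw [eq_neg_iff_add_eq_zero, add_comm]
      exact hpf
    rw [map_pow, h0]
    exact Submodule.neg_mem _
      (Submodule.sum_mem _ fun i hi => hS' i (Finset.mem_range.mp hi) _)
  have hmem : f ^ d ∈ Submodule.span K S := Curve.mem_span_of_coeffMap_mem_span hfd
  suffices key : ∀ z ∈ Submodule.span K S, ∃ q : (Algebra.adjoin K {x})[X],
      q.degree < d ∧ aeval f q = z by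
    obtain ⟨q, hq, hqz⟩ := key _ hmem
    refine ⟨X ^ d - q, monic_X_pow_sub (lt_of_lt_of_le hq le_rfl), ?_⟩
    rw [← aeval_def, map_sub, map_pow, aeval_X, hqz, sub_self]
  intro z hz
  induction hz using Submodule.span_induction with
  | mem z hz =>
    obtain ⟨i, hi, r, hr, rfl⟩ := hz
    refine ⟨monomial i ⟨r, hr⟩, (degree_monomial_le _ _).trans_lt (by exact_mod_cast hi), ?_⟩
    rw [aeval_monomial]
    rfl
  | zero => exact ⟨0, by simp, by simp⟩
  | add a b _ _ ha hb =>
    obtain ⟨qa, hqa, ha⟩ := ha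
    obtain ⟨qb, hqb, hb⟩ := hb
    exact ⟨qa + qb, (degree_add_le _ _).trans_lt (max_lt hqa hqb), by rw [map_add, ha, hb]⟩
  | smul c a _ ha =>
    obtain ⟨qa, hqa, ha⟩ := ha
    refine ⟨c • qa, (degree_smul_le _ _).trans_lt hqa, ?_⟩
    rw [← algebraMap_smul (Algebra.adjoin K {x}) c qa, map_smul, ha, Algebra.smul_def, smul_eq_algebraMap_mul]
    rfl

/-- Integrality over `L[x]` is kept by a ring endomorphism fixing `x` and mapping constants to
constants. -/
theorem isIntegral_adjoin_map_of_fix {L F : Type*} [Field L] [Field F] [Algebra L F]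
    (τ : F →+* F) (σ : L → L) (hτ : ∀ c, τ (algebraMap L F c) = algebraMap L F (σ c))
    {x f : F} (hx : τ x = x) (hf : IsIntegral (Algebra.adjoin L {x}) f) :
    IsIntegral (Algebra.adjoin L {x}) (τ f) := by
  have hmaps : ∀ r ∈ Algebra.adjoin L {x}, τ r ∈ Algebra.adjoin L {x} := by
    intro r hr
    induction hr using Algebra.adjoin_induction with
    | mem z hz =>
      rw [Set.mem_singleton_iff.mp hz, hx]
      exact Algebra.self_mem_adjoin_singleton L x
    | algebraMap c => rw [hτ]; exact Subalgebra.algebraMap_mem _ _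
    | add a b _ _ ha hb => rw [map_add]; exact add_mem ha hb
    | mul a b _ _ ha hb => rw [map_mul]; exact mul_mem ha hb
  obtain ⟨p, hp, hpf⟩ := hf
  let τ' : Algebra.adjoin L {x} →+* Algebra.adjoin L {x} :=
    (τ.comp (Algebra.adjoin L {x}).val.toRingHom).codRestrict _ fun r => hmaps r r.2
  refine ⟨p.map τ', hp.map _, ?_⟩
  rw [eval₂_map, ← map_zero τ, ← hpf, hom_eval₂]
  rfl

end generic

/-- The functions over `L` with poles only over `j = ∞`, of order at most `m`. -/
def polarSpace (L : Type*) [Field L] [Algebra ℚ L] (N m : ℕ) :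
    Submodule L (LaurentSeries L) where
  carrier := {f | f ∈ laurentBaseChange L (modularFunctionFieldFull N) ∧
    IsIntegral (Algebra.adjoin L {jqModC L}) f ∧
    IsIntegral (Algebra.adjoin L {(jqModC L)⁻¹}) (f / jqModC L ^ m)}
  zero_mem' := ⟨zero_mem _, isIntegral_zero, by rw [zero_div]; exact isIntegral_zero⟩
  add_mem' := fun {a b} ha hb => ⟨add_mem ha.1 hb.1, ha.2.1.add hb.2.1, by
    rw [add_div]; exact ha.2.2.add hb.2.2⟩
  smul_mem' := fun c f hf => by
    rw [Set.mem_ofPred_eq, smul_eq_algebraMap_mul, mul_div_assoc]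
    exact ⟨mul_mem (IntermediateField.algebraMap_mem _ c) hf.1,
      (isIntegral_algebraMap (x := algebraMap L (Algebra.adjoin L {jqModC L}) c)).mul hf.2.1,
      (isIntegral_algebraMap (x := algebraMap L (Algebra.adjoin L {(jqModC L)⁻¹}) c)).mul hf.2.2⟩

theorem mem_polarSpace {L : Type*} [Field L] [Algebra ℚ L] {N m : ℕ} {f : LaurentSeries L} :
    f ∈ polarSpace L N m ↔ f ∈ laurentBaseChange L (modularFunctionFieldFull N) ∧
      IsIntegral (Algebra.adjoin L {jqModC L}) f ∧
      IsIntegral (Algebra.adjoin L {(jqModC L)⁻¹}) (f / jqModC L ^ m) := Iff.rfl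

/-- Membership in the rational space is tested after base change. -/
theorem mem_polarSpace_of_coeffEmb {L : Type*} [Field L] [Algebra ℚ L] {N m : ℕ}
    {g : LaurentSeries ℚ} (h : coeffEmb L g ∈ polarSpace L N m) :
    g ∈ modularFunctionFieldFull N ∧ IsIntegral (Algebra.adjoin ℚ {jq}) g ∧
      IsIntegral (Algebra.adjoin ℚ {jq⁻¹}) (g / jq ^ m) := by
  obtain ⟨h1, h2, h3⟩ := h
  have hj : coeffMap (algebraMap ℚ L) jq = jqModC L := by
    rw [← jqModC_rat, coeffMap_jqModC]
  refine ⟨Modular.mem_of_coeffEmb_mem_laurentBaseChange h1,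
    isIntegral_adjoin_of_coeffMap (L := L) (by rwa [hj]),
    isIntegral_adjoin_of_coeffMap (L := L) ?_⟩
  rwa [map_inv₀, map_div₀, map_pow, hj]

local notation "Qbar" => AlgebraicClosure ℚ

/-- Coefficientwise automorphisms preserve the polar spaces. -/
theorem coeffMap_mem_polarSpace (σ : Qbar →ₐ[ℚ] Qbar) {N m : ℕ} {f : LaurentSeries Qbar}
    (hf : f ∈ polarSpace Qbar N m) : coeffMap (σ : Qbar →+* Qbar) f ∈ polarSpace Qbar N m := by
  have hj : coeffMap (σ : Qbar →+* Qbar) (jqModC Qbar) = jqModC Qbar := coeffMap_jqModC _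
  have hc : ∀ c, coeffMap (σ : Qbar →+* Qbar) (algebraMap Qbar _ c) =
      algebraMap Qbar (LaurentSeries Qbar) (σ c) := fun c => coeffMap_algebraMap _ c
  refine ⟨?_, isIntegral_adjoin_map_of_fix _ _ hc hj hf.2.1, ?_⟩
  · exact coeffMap_mem_laurentBaseChange (AlgEquiv.ofBijective σ
      ((AlgebraicClosure.isAlgebraic ℚ).algHom_bijective σ)) hf.1
  · have h := isIntegral_adjoin_map_of_fix _ _ hc (x := (jqModC Qbar)⁻¹)
      (by rw [map_inv₀, hj]) hf.2.2
    rwa [map_div₀, map_pow, hj] at h

/-- The coefficients of a function over `ℚ̄` lie in a number field. -/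
theorem exists_numberField_coeff {N : ℕ} {f : LaurentSeries Qbar}
    (hf : f ∈ laurentBaseChange Qbar (modularFunctionFieldFull N)) :
    ∃ E : IntermediateField ℚ Qbar, FiniteDimensional ℚ E ∧
      f ∈ (coeffMap E.val.toRingHom).range := by
  have hmono : ∀ {E E' : IntermediateField ℚ Qbar}, E ≤ E' →
      (coeffMap E.val.toRingHom).range ≤ (coeffMap E'.val.toRingHom).range := by
    rintro E E' h _ ⟨y, rfl⟩
    exact ⟨coeffMap (IntermediateField.inclusion h).toRingHom y, by
      ext i; rfl⟩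
  rw [mem_laurentBaseChange_iff] at hf
  induction hf using Subfield.closure_induction with
  | mem y hy =>
    rcases hy with ⟨a, rfl⟩ | ⟨z, -, rfl⟩
    · exact ⟨IntermediateField.adjoin ℚ {a}, IntermediateField.adjoin.finiteDimensional
        ((AlgebraicClosure.isAlgebraic ℚ).isAlgebraic a).isIntegral,
        ⟨HahnSeries.single 0 ⟨a, IntermediateField.mem_adjoin_simple_self ℚ a⟩, by
          rw [coeffMap_single, algebraMap_laurentSeries_eq_single]; rfl⟩⟩
    · exact ⟨⊥, inferInstance, ⟨coeffMap (algebraMap ℚ (⊥ : IntermediateField ℚ Qbar)) z, by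
        ext i; rfl⟩⟩
  | one => exact ⟨⊥, inferInstance, ⟨1, map_one _⟩⟩
  | add a b _ _ ha hb =>
    obtain ⟨E, _, ha⟩ := ha
    obtain ⟨E', _, hb⟩ := hb
    exact ⟨E ⊔ E', inferInstance, add_mem (hmono le_sup_left ha) (hmono le_sup_right hb)⟩
  | neg a _ ha =>
    obtain ⟨E, hE, ha⟩ := ha
    exact ⟨E, hE, neg_mem ha⟩
  | inv a _ ha =>
    obtain ⟨E, hE, ⟨y, rfl⟩⟩ := ha
    exact ⟨E, hE, ⟨y⁻¹, map_inv₀ _ _⟩⟩
  | mul a b _ _ ha hb =>
    obtain ⟨E, _, ha⟩ := ha
    obtain ⟨E', _, hb⟩ := hb
    exact ⟨E ⊔ E', inferInstance, mul_mem (hmono le_sup_left ha) (hmono le_sup_right hb)⟩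

/-- **Descent**: a function over `ℚ̄` in a polar space is a combination of rational ones. -/
theorem mem_span_rational_of_mem_polarSpace {N m : ℕ} {f : LaurentSeries Qbar}
    (hf : f ∈ polarSpace Qbar N m) :
    f ∈ Submodule.span Qbar (coeffEmb Qbar ''
      {g : LaurentSeries ℚ | coeffEmb Qbar g ∈ polarSpace Qbar N m}) := by
  classical
  have : Algebra.IsAlgebraic ℚ Qbar := AlgebraicClosure.isAlgebraic ℚ
  have : Normal ℚ Qbar := normal_iff.mpr fun x =>
    ⟨(Algebra.IsAlgebraic.isAlgebraic x).isIntegral, IsAlgClosed.splits _⟩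
  obtain ⟨E, hE, y, hy⟩ := exists_numberField_coeff hf.1
  let b := Module.finBasis ℚ E
  let d := (Algebra.traceForm ℚ E).dualBasis (traceForm_nondegenerate ℚ E) b
  let dd := (Algebra.traceForm ℚ E).dualBasis (traceForm_nondegenerate ℚ E) d
  let φ : Fin (Module.finrank ℚ E) → (E →ₗ[ℚ] ℚ) := fun i =>
    (Algebra.trace ℚ E).comp (LinearMap.mulLeft ℚ (d i))
  let g : Fin (Module.finrank ℚ E) → LaurentSeries ℚ := fun i => Modular.coeffFun (φ i) y
  have hg : ∀ i, coeffEmb Qbar (g i) ∈ polarSpace Qbar N m := by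
    intro i
    have h : coeffEmb Qbar (g i) = ∑ σ : E →ₐ[ℚ] Qbar,
        σ (d i) • coeffMap (σ.liftNormal Qbar : Qbar →+* Qbar) f := by
      ext n
      rw [HahnSeries.coeff_sum, coeffEmb, coeffMap_coeff, Modular.coeffFun_coeff]
      show algebraMap ℚ Qbar (Algebra.trace ℚ E (d i * y.coeff n)) = _
      rw [trace_eq_sum_embeddings Qbar]
      refine Finset.sum_congr rfl fun σ _ => ?_
      rw [HahnSeries.coeff_smul, coeffMap_coeff, ← hy, coeffMap_coeff, smul_eq_mul, map_mul]
      congr 1
      exact (AlgHom.liftNormal_commutes σ Qbar (y.coeff n)).symm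
    rw [h]
    exact Submodule.sum_mem _ fun σ _ => Submodule.smul_mem _ _ (coeffMap_mem_polarSpace _ hf)
  have hsum : f = ∑ i, ((dd i : E) : Qbar) • coeffEmb Qbar (g i) := by
    ext n
    rw [HahnSeries.coeff_sum, ← hy, coeffMap_coeff]
    have h1 := dd.sum_repr (y.coeff n)
    conv_lhs => rw [← h1, map_sum]
    refine Finset.sum_congr rfl fun i _ => ?_
    rw [HahnSeries.coeff_smul, coeffEmb, coeffMap_coeff, Modular.coeffFun_coeff, smul_eq_mul,
      LinearMap.BilinForm.dualBasis_repr_apply, Algebra.traceForm_apply, Algebra.smul_def, map_mul,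
      mul_comm (y.coeff n), mul_comm (E.val.toRingHom _)]
    rfl
  rw [hsum]
  exact Submodule.sum_mem _ fun i _ =>
    Submodule.smul_mem _ _ (Submodule.subset_span ⟨g i, hg i, rfl⟩)

end FermatLib.Igusa.Carayol
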