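import Mathlib
import Fermat.Agent.Igusa.GaussBasis

/-!
# Integrality over `A[x]` read on a constant reduction

If a basis of `F` over `L(x)` reduces to a basis over `k(x̄)`, a function integral over `L[x]`
with integral value for the constant reduction is integral over `A[x]`.
-/

set_option autoImplicit false
set_option linter.style.haveILetI false

noncomputable section

open Polynomial

namespace FermatLib.Igusa

variable {L F k Fb : Type*} [Field L] [Field F] [Algebra L F] [Field k] [Field Fb] [Algebra k Fb]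
variable {A : ValuationSubring L} {π : A →+* k}

namespace ConstantReduction

variable (R : ConstantReduction A π F Fb)

/-- The ring of a constant reduction is a valuation ring. -/
def valRing : ValuationSubring F :=
  { R.ring with
    mem_or_inv_mem' := fun f => by
      rcases eq_or_ne f 0 with rfl | hf
      · exact Or.inl R.ring.zero_mem
      obtain ⟨c, h, hc, hh, hred⟩ := R.exists_smul_red_ne_zero hf
      rw [Algebra.smul_def] at hh
      have hc' : algebraMap L F c ≠ 0 := by simpa using hc
      rcases A.mem_or_inv_mem c with hA | hA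
      · refine Or.inr ?_
        have h1 := R.ring.mul_mem (R.algebraMap_mem ⟨c, hA⟩) (R.inv_mem h hred)
        rwa [hh, mul_inv, ← mul_assoc, mul_inv_cancel₀ hc', one_mul] at h1
      · refine Or.inl ?_
        have h1 := R.ring.mul_mem (R.algebraMap_mem ⟨c⁻¹, hA⟩) h.2
        rwa [hh, map_inv₀, inv_mul_cancel_left₀ hc'] at h1 }

theorem mem_valRing {f : F} : f ∈ R.valRing ↔ f ∈ R.ring := Iff.rfl

/-- A scaled polynomial: value in the ring, with nonzero reduction at a transcendental. -/
theorem exists_scale_aeval {jj : R.ring} (htk : Transcendental k (R.red jj)) {P : L[X]}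
    (hP : P ≠ 0) :
    ∃ (c : L) (u : R.ring) (P₁ : A[X]), c ≠ 0 ∧ P = C c * P₁.map A.subtype ∧
      (u : F) = aeval (jj : F) (P₁.map A.subtype) ∧
      R.red u = aeval (R.red jj) (P₁.map π) ∧ R.red u ≠ 0 := by
  classical
  obtain ⟨i₀, hi₀, hA⟩ := exists_scale_coeffs A
    (c := fun i : Fin (P.natDegree + 1) => P.coeff i)
    ⟨Fin.last _, by simpa using Polynomial.leadingCoeff_ne_zero.mpr hP⟩
  set a : Fin (P.natDegree + 1) → A := fun i => ⟨_, hA i⟩ with ha
  set P₁ : A[X] := ∑ i : Fin (P.natDegree + 1), C (a i) * X ^ (i : ℕ) with hP₁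
  set u : R.ring := ∑ i : Fin (P.natDegree + 1), R.constMul (a i) (jj ^ (i : ℕ)) with hu
  have hPeq : P = C (P.coeff i₀) * P₁.map A.subtype := by
    conv_lhs => rw [P.as_sum_range_C_mul_X_pow]
    rw [hP₁, Polynomial.map_sum, Finset.mul_sum, ← Fin.sum_univ_eq_sum_range
      (fun i => C (P.coeff i) * X ^ i)]
    refine Finset.sum_congr rfl fun i _ => ?_
    rw [Polynomial.map_mul, Polynomial.map_pow, map_C, map_X, ← mul_assoc, ← map_mul]
    congr 2
    show P.coeff i = P.coeff i₀ * ((P.coeff i₀)⁻¹ * P.coeff i)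
    rw [mul_inv_cancel_left₀ hi₀]
  have huF : (u : F) = aeval (jj : F) (P₁.map A.subtype) := by
    rw [hP₁, Polynomial.map_sum, map_sum, hu, AddSubmonoidClass.coe_finsetSum]
    refine Finset.sum_congr rfl fun i _ => ?_
    rw [coe_constMul, Polynomial.map_mul, Polynomial.map_pow, map_C, map_X, map_mul (aeval _),
      map_pow, aeval_X, aeval_C, SubmonoidClass.coe_pow]
    rfl
  have hured : R.red u = aeval (R.red jj) (P₁.map π) := by
    simp only [hP₁, hu, Polynomial.map_sum, map_sum]
    refine Finset.sum_congr rfl fun i _ => ?_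
    rw [red_constMul, map_pow, Polynomial.map_mul, Polynomial.map_pow, map_C, map_X,
      map_mul (aeval _), map_pow, aeval_X, aeval_C, ← Algebra.smul_def]
  refine ⟨P.coeff i₀, u, P₁, hi₀, hPeq, huF, hured, fun h0 => ?_⟩
  rw [hured] at h0
  have h1 := congrArg (fun Q : k[X] => Q.coeff (i₀ : ℕ)) (transcendental_iff.mp htk _ h0)
  simp only [hP₁, Polynomial.map_sum, Polynomial.map_mul, Polynomial.map_pow, map_C, map_X,
    finsetSum_coeff, coeff_C_mul_X_pow, coeff_zero] at h1
  rw [Finset.sum_eq_single i₀ (fun j _ hj => if_neg fun h => hj (Fin.ext h.symm))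
    (fun h => absurd (Finset.mem_univ _) h), if_pos rfl,
    show a i₀ = 1 from Subtype.ext (inv_mul_cancel₀ hi₀), map_one] at h1
  exact one_ne_zero h1

/-- A nonzero constant times a function with nonzero reduction is in the ring only if the
constant is integral. -/
theorem mem_of_algebraMap_mul_mem {c : L} {u : R.ring} (hu : R.red u ≠ 0)
    (h : algebraMap L F c * (u : F) ∈ R.ring) : c ∈ A := by
  by_contra hc
  have hinv : c⁻¹ ∈ A := (A.mem_or_inv_mem c).resolve_left hc
  have hc0 : c ≠ 0 := fun h0 => hc (h0 ▸ A.zero_mem)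
  have hnu : ¬ IsUnit (⟨c⁻¹, hinv⟩ : A) := fun hu' => by
    obtain ⟨v, hv⟩ := hu'.exists_right_inv
    refine hc ?_
    have h' : c⁻¹ * (v : L) = 1 := congrArg Subtype.val hv
    rw [inv_mul_eq_one₀ hc0] at h'
    exact h' ▸ v.2
  refine hu ?_
  have h2 : R.constMul ⟨c⁻¹, hinv⟩ ⟨_, h⟩ = u := Subtype.ext (by
    rw [coe_constMul, map_inv₀, inv_mul_cancel_left₀ (by simpa using hc0)])
  rw [← h2, red_constMul, R.res_eq_zero _ hnu, zero_smul]

/-- A polynomial in `x` lying in the ring has integral coefficients. -/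
theorem coeff_mem_of_aeval_mem {jj : R.ring} (htk : Transcendental k (R.red jj)) {P : L[X]}
    (hP : aeval (jj : F) P ∈ R.ring) (n : ℕ) : P.coeff n ∈ A := by
  rcases eq_or_ne P 0 with rfl | h0
  · simp
  obtain ⟨c, u, P₁, -, hPeq, huF, -, hu⟩ := R.exists_scale_aeval htk h0
  have hc : c ∈ A := R.mem_of_algebraMap_mul_mem hu (by
    rwa [hPeq, map_mul, aeval_C, ← huF] at hP)
  rw [hPeq, coeff_C_mul, coeff_map]
  exact mul_mem hc (P₁.coeff n).2

variable {M : ℕ} {jj : R.ring} {m : Fin M → R.ring}

/-- Reductions of elements of `L(x)` lie in `k(x̄)`. -/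
theorem red_mem_adjoin (htk : Transcendental k (R.red jj)) {d : R.ring}
    (hd : (d : F) ∈ IntermediateField.adjoin L {(jj : F)}) :
    R.red d ∈ IntermediateField.adjoin k {R.red jj} := by
  obtain ⟨r, s, hrs⟩ := (IntermediateField.mem_adjoin_simple_iff _ _).mp hd
  have hmem : ∀ Q : k[X], aeval (R.red jj) Q ∈ IntermediateField.adjoin k {R.red jj} := fun Q =>
    IntermediateField.algebra_adjoin_le_adjoin k _ (aeval_mem_adjoin_singleton k _)
  rcases eq_or_ne (d : F) 0 with h0 | h0
  · rw [show d = 0 from Subtype.ext h0, map_zero]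
    exact zero_mem _
  have hr : r ≠ 0 := fun h => h0 (by rw [hrs, h, map_zero, zero_div])
  have hs : s ≠ 0 := fun h => h0 (by rw [hrs, h, map_zero, div_zero])
  obtain ⟨cr, ur, r₁, hcr, hr', hurF, hured, hur⟩ := R.exists_scale_aeval htk hr
  obtain ⟨cs, us, s₁, hcs, hs', husF, husred, hus⟩ := R.exists_scale_aeval htk hs
  have husF0 := R.coe_ne_zero hus
  have hcs0 : algebraMap L F cs ≠ 0 := by simpa using hcs
  have heq : algebraMap L F (cr / cs) * (ur : F) = ((d * us : R.ring) : F) := by
    rw [Subring.coe_mul, hrs, hr', hs', map_mul, map_mul, aeval_C, aeval_C, ← hurF, ← husF,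
      map_div₀]
    field_simp
  have hc : cr / cs ∈ A := R.mem_of_algebraMap_mul_mem hur (heq ▸ (d * us).2)
  have h2 : R.constMul ⟨_, hc⟩ ur = d * us := Subtype.ext (by rw [coe_constMul]; exact heq)
  have h3 := congrArg R.red h2
  rw [map_mul, red_constMul, eq_comm, ← eq_div_iff hus] at h3
  rw [h3, Algebra.smul_def, hured, husred]
  exact div_mem (mul_mem (IntermediateField.algebraMap_mem _ _) (hmem _)) (hmem _)

/-- Coordinates of an element of the ring along a basis with independent reductions are
integral. -/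
theorem coord_mem (htk : Transcendental k (R.red jj))
    (hm : PolyIndependent k (R.red jj) (fun i => R.red (m i)))
    (c : Fin M → IntermediateField.adjoin L {(jj : F)}) {a : F} (ha : a ∈ R.ring)
    (hac : ∑ i, (c i : F) * (m i : F) = a) (i : Fin M) : (c i : F) ∈ R.ring := by
  classical
  by_contra hi
  have hli := linearIndependent_adjoin_of_polyIndependent htk hm
  obtain ⟨i₀, -, hmax⟩ := Finset.exists_max_image Finset.univ
    (fun l => R.valRing.valuation (c l : F)) ⟨i, Finset.mem_univ i⟩
  have hi₀ : (c i₀ : F) ∉ R.ring := fun h0 => hi (R.mem_valRing.mp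
    ((R.valRing.valuation_le_one_iff _).mp ((hmax i (Finset.mem_univ i)).trans
      ((R.valRing.valuation_le_one_iff _).mpr h0))))
  have hne : (c i₀ : F) ≠ 0 := fun h => hi₀ (h ▸ R.ring.zero_mem)
  have hd : ∀ l, (c i₀ : F)⁻¹ * (c l : F) ∈ R.ring := fun l => R.mem_valRing.mp <| by
    rw [← R.valRing.valuation_le_one_iff, map_mul, map_inv₀]
    exact inv_mul_le_one_of_le₀ (hmax l (Finset.mem_univ l)) zero_le
  have hinv : (c i₀ : F)⁻¹ ∈ R.ring := (R.valRing.mem_or_inv_mem _).resolve_left hi₀
  have hred0 : R.red ⟨_, hinv⟩ = 0 := by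
    by_contra h
    exact hi₀ (by simpa using R.inv_mem _ h)
  have hsum : (∑ l, (⟨_, hd l⟩ : R.ring) * m l) = ⟨_, hinv⟩ * ⟨a, ha⟩ := by
    apply Subtype.ext
    rw [AddSubmonoidClass.coe_finsetSum, Subring.coe_mul]
    simp only [Subring.coe_mul, mul_assoc, ← Finset.mul_sum]
    rw [hac]
  have h0 := congrArg R.red hsum
  rw [map_mul, hred0, zero_mul, map_sum] at h0
  simp only [map_mul] at h0
  have hdK : ∀ l, R.red ⟨_, hd l⟩ ∈ IntermediateField.adjoin k {R.red jj} := fun l =>
    R.red_mem_adjoin htk (mul_mem ((IntermediateField.inv_mem _ (c i₀).2)) (c l).2)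
  have h1 := Fintype.linearIndependent_iff.mp hli (fun l => ⟨_, hdK l⟩) (by
    simpa [IntermediateField.smul_def, smul_eq_mul] using h0) i₀
  have h2 : R.red ⟨_, hd i₀⟩ = 1 := by
    rw [show (⟨_, hd i₀⟩ : R.ring) = 1 from Subtype.ext (inv_mul_cancel₀ hne), map_one]
  have h3 := congrArg Subtype.val h1
  simp only [ZeroMemClass.coe_zero] at h3
  exact one_ne_zero (h2.symm.trans h3)

/-- An element of the ring is integral over the ring's part inside `L(x)`. -/
theorem isIntegral_comap (htk : Transcendental k (R.red jj))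
    (hm : PolyIndependent k (R.red jj) (fun i => R.red (m i)))
    (hspan : Submodule.span (IntermediateField.adjoin L {(jj : F)})
      (Set.range fun i => (m i : F)) = ⊤) {a : F} (ha : a ∈ R.ring) :
    IsIntegral (R.valRing.comap (algebraMap (IntermediateField.adjoin L {(jj : F)}) F)) a := by
  classical
  set K₁ := IntermediateField.adjoin L {(jj : F)}
  set O := R.valRing.comap (algebraMap K₁ F)
  let S : Subalgebra O F := { R.ring.toSubsemiring with algebraMap_mem' := fun o => o.2 }
  refine IsIntegral.of_mem_of_fg S ?_ a ha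
  refine ⟨Finset.univ.image fun i => (m i : F), le_antisymm ?_ ?_⟩
  · rw [Submodule.span_le]
    intro z hz
    obtain ⟨i, -, rfl⟩ := Finset.mem_image.mp hz
    exact (m i).2
  · intro b hb
    obtain ⟨c, hc⟩ := (Submodule.mem_span_range_iff_exists_fun K₁).mp
      (hspan.ge (Submodule.mem_top (x := b)))
    have hcO := R.coord_mem htk hm c hb (by
      simpa [IntermediateField.smul_def, smul_eq_mul] using hc)
    rw [← hc]
    refine Submodule.sum_mem _ fun i _ => ?_
    have : c i • (m i : F) = (⟨c i, hcO i⟩ : O) • (m i : F) := rfl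
    rw [this]
    exact Submodule.smul_mem _ _ (Submodule.subset_span
      (Finset.mem_image_of_mem _ (Finset.mem_univ i)))

include R in
/-- A function integral over `L[x]` and integral for the reduction is integral over `A[x]`. -/
theorem isIntegral_adjoin_of_mem (htL : Transcendental L (jj : F))
    (htk : Transcendental k (R.red jj))
    (hm : PolyIndependent k (R.red jj) (fun i => R.red (m i)))
    (hspan : Submodule.span (IntermediateField.adjoin L {(jj : F)})
      (Set.range fun i => (m i : F)) = ⊤)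
    {a : F} (ha : a ∈ R.ring) (hint : IsIntegral (Algebra.adjoin L {(jj : F)}) a) :
    IsIntegral (Algebra.adjoin A {(jj : F)}) a := by
  classical
  set x : F := (jj : F) with hx
  set K₁ := IntermediateField.adjoin L {x} with hK₁
  set O := R.valRing.comap (algebraMap K₁ F) with hO
  set xK : K₁ := IntermediateField.AdjoinSimple.gen L x with hxK
  have haev : ∀ P : L[X], ((aeval xK P : K₁) : F) = aeval x P := fun P =>
    (Polynomial.aeval_algHom_apply K₁.val xK P).symm
  letI algP : Algebra L[X] K₁ := (aeval xK : L[X] →ₐ[L] K₁).toRingHom.toAlgebra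
  have hinj : Function.Injective (algebraMap L[X] K₁) := fun P Q h =>
    transcendental_iff_injective.mp htL (by rw [← haev, ← haev]; exact congrArg _ h)
  haveI : FaithfulSMul L[X] K₁ := (faithfulSMul_iff_algebraMap_injective L[X] K₁).mpr hinj
  haveI : IsFractionRing L[X] K₁ := by
    refine IsFractionRing.of_field L[X] K₁ fun z => ?_
    obtain ⟨r, s, hrs⟩ := (IntermediateField.mem_adjoin_simple_iff _ _).mp z.2
    exact ⟨r, s, Subtype.ext (by rw [hrs, IntermediateField.coe_div, ← haev r, ← haev s]; rfl)⟩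
  letI : Algebra L[X] F := (aeval x : L[X] →ₐ[L] F).toRingHom.toAlgebra
  haveI : IsScalarTower L[X] K₁ F := IsScalarTower.of_algebraMap_eq fun P => (haev P).symm
  have hintX : IsIntegral L[X] a := by
    obtain ⟨p, hp, hpa⟩ := hint
    have hlift : p.map (algebraMap _ F) ∈ Polynomial.lifts (algebraMap L[X] F) := by
      rw [Polynomial.lifts_iff_coeff_lifts]
      intro n
      obtain ⟨P, hP⟩ := (AlgHom.mem_range _).mp
        ((Algebra.adjoin_singleton_eq_range_aeval L x).le (p.coeff n).2)
      exact ⟨P, by rw [coeff_map]; exact hP⟩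
    obtain ⟨p', hp', -, hp'm⟩ := Polynomial.lifts_and_natDegree_eq_and_monic hlift (hp.map _)
    refine ⟨p', hp'm, ?_⟩
    rw [eval₂_eq_eval_map, hp', eval_map]
    exact hpa
  have hintO : IsIntegral O a := R.isIntegral_comap htk hm hspan ha
  have hintK : IsIntegral K₁ a := hintX.tower_top
  have hmX := minpoly.isIntegrallyClosed_eq_field_fractions' K₁ hintX
  have hmO := minpoly.isIntegrallyClosed_eq_field_fractions' K₁ hintO
  have hcoef : ∀ n, ∃ r : Algebra.adjoin A {x}, algebraMap _ F r =
      algebraMap K₁ F ((minpoly K₁ a).coeff n) := by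
    intro n
    have h1 : algebraMap K₁ F ((minpoly K₁ a).coeff n) =
        aeval x ((minpoly L[X] a).coeff n) := by
      rw [hmX, coeff_map]
      exact haev _
    have h2 : algebraMap K₁ F ((minpoly K₁ a).coeff n) ∈ R.ring := by
      rw [hmO, coeff_map]
      exact ((minpoly O a).coeff n).2
    set P := (minpoly L[X] a).coeff n
    rw [h1] at h2 ⊢
    refine ⟨⟨aeval x P, ?_⟩, rfl⟩
    rw [aeval_eq_sum_range]
    refine Subalgebra.sum_mem _ fun i _ => ?_
    have hi := R.coeff_mem_of_aeval_mem htk h2 i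
    rw [show P.coeff i • x ^ i = (⟨_, hi⟩ : A) • x ^ i from rfl]
    exact Subalgebra.smul_mem _ (Subalgebra.pow_mem _ (Algebra.self_mem_adjoin_singleton A x) i) _
  have hlift : (minpoly K₁ a).map (algebraMap K₁ F) ∈
      Polynomial.lifts (algebraMap (Algebra.adjoin A {x}) F) := by
    rw [Polynomial.lifts_iff_coeff_lifts]
    intro n
    obtain ⟨r, hr⟩ := hcoef n
    exact ⟨r, by rw [coeff_map]; exact hr⟩
  obtain ⟨p', hp', -, hp'm⟩ :=
    Polynomial.lifts_and_natDegree_eq_and_monic hlift ((minpoly.monic hintK).map _)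
  refine ⟨p', hp'm, ?_⟩
  rw [eval₂_eq_eval_map, hp', eval_map]
  exact minpoly.aeval K₁ a

end ConstantReduction

end FermatLib.Igusa
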