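import Fermat.Agent.Igusa.Carayol.Gauss
import Fermat.Agent.Igusa.Carayol.LevelGauss
import Fermat.Agent.Igusa.CuspLattice
import Fermat.Agent.Igusa.GenusCompare
import Fermat.Agent.Igusa.DegreeInputModL

/-!
# `X₀(N)` over a subfield: the Gauss ring read on expansions, integrality over `W[j]`

`K ⊆ L` with a valuation ring `A` of `L` and its reduction `π`; `W = A ∩ K` reduces onto `k`.
-/

set_option autoImplicit false
set_option linter.style.haveILetI false
set_option synthInstance.maxHeartbeats 400000

noncomputable section

open ModularCurve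

namespace FermatLib.Igusa.Carayol

variable (K : Type*) {L k : Type*} [Field K] [Field L] [Field k] [Algebra K L]
variable (A : ValuationSubring L) (π : A →+* k)

/-- The inclusion of `A ∩ K` into `A`. -/
def comapIncl : A.comap (algebraMap K L) →+* A where
  toFun a := ⟨algebraMap K L (a : K), a.2⟩
  map_one' := Subtype.ext (map_one _)
  map_zero' := Subtype.ext (map_zero _)
  map_mul' a b := Subtype.ext (map_mul _ _ _)
  map_add' a b := Subtype.ext (map_add _ _ _)

/-- The reduction on `A ∩ K`. -/
def comapRed : A.comap (algebraMap K L) →+* k := π.comp (comapIncl K A)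

variable {K A π}

theorem isUnit_comap_iff (a : A.comap (algebraMap K L)) :
    IsUnit a ↔ IsUnit (comapIncl K A a) := by
  refine ⟨fun h => h.map _, fun h => ?_⟩
  obtain ⟨b, hb⟩ := h.exists_right_inv
  have hb' : algebraMap K L (a : K) * (b : L) = 1 := congrArg Subtype.val hb
  have ha : (a : K) ≠ 0 := fun h0 => by simp [h0] at hb'
  have hbe : (b : L) = algebraMap K L (a : K)⁻¹ := by
    rw [map_inv₀]; exact eq_inv_of_mul_eq_one_right hb'
  exact IsUnit.of_mul_eq_one ⟨(a : K)⁻¹, show algebraMap K L (a : K)⁻¹ ∈ A from hbe ▸ b.2⟩
    (Subtype.ext (mul_inv_cancel₀ ha))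

section level

variable [Algebra ℚ K] (hπ0 : ∀ a : A, π a = 0 ↔ ¬ IsUnit a)
  (hsurj : Function.Surjective (comapRed K A π)) {N : ℕ} [NeZero N] (hN : (N : k) ≠ 0)

include hπ0 in
theorem comapRed_res (a : A.comap (algebraMap K L)) (ha : ¬ IsUnit a) :
    comapRed K A π a = 0 :=
  (hπ0 _).mpr fun h => ha ((isUnit_comap_iff a).mpr h)

include hπ0 in
theorem isUnit_of_comapRed (a : A.comap (algebraMap K L)) (ha : comapRed K A π a ≠ 0) :
    IsUnit a :=
  by_contra fun h => ha (comapRed_res hπ0 a h)

include hπ0 hsurj hN in
/-- The Gauss constant reduction over `K`. -/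
def levelReduction : ConstantReduction (A.comap (algebraMap K L)) (comapRed K A π)
    (laurentBaseChange K (modularFunctionFieldFull N)) (modularFunctionFieldFullC k N) :=
  gaussReduction (comapRed_res hπ0) (isUnit_of_comapRed hπ0) hsurj
    (degreeInput_of_ne_zero _ _ N hN)

theorem latVal_genericFun (y : integralSeries (A.comap (algebraMap K L)) (comapRed K A π) N) :
    latVal A (coeffMap (comapIncl K A) (y : LaurentSeries _)) =
      coeffMap (algebraMap K L) (genericFun _ _ N y : LaurentSeries K) := by
  ext i
  rfl

theorem latRed_specialFun (y : integralSeries (A.comap (algebraMap K L)) (comapRed K A π) N) :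
    latRed π (coeffMap (comapIncl K A) (y : LaurentSeries _)) =
      (specialFun _ _ N y : LaurentSeries k) := by
  ext i
  rfl

/-- An element of the Gauss ring over `K` has Gauss integral expansion over `L`, with the same
reduction. -/
theorem mem_gaussInt_of_mem
    (f : gaussRing (A.comap (algebraMap K L)) (comapRed K A π) N) :
    coeffMap (algebraMap K L) ((f : laurentBaseChange K (modularFunctionFieldFull N)) :
        LaurentSeries K) ∈ gaussInt π ∧
      gred π (coeffMap (algebraMap K L) ((f : laurentBaseChange K (modularFunctionFieldFull N)) :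
        LaurentSeries K)) =
        ((gaussRed (A.comap (algebraMap K L)) (comapRed K A π) N f :
          modularFunctionFieldFullC k N) : LaurentSeries k) := by
  obtain ⟨y, z, hz, h⟩ := f.2
  have hz' : latRed π (coeffMap (comapIncl K A) (z : LaurentSeries _)) ≠ 0 := by
    rw [latRed_specialFun]
    exact fun h0 => hz (Subtype.ext h0)
  have h' : coeffMap (algebraMap K L) ((f : laurentBaseChange K (modularFunctionFieldFull N)) :
        LaurentSeries K) * latVal A (coeffMap (comapIncl K A) (z : LaurentSeries _)) =
      latVal A (coeffMap (comapIncl K A) (y : LaurentSeries _)) := by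
    rw [latVal_genericFun, latVal_genericFun, ← map_mul, ← h]
    rfl
  refine ⟨⟨_, _, hz', h'⟩, ?_⟩
  rw [gred_eq hz' h', latRed_specialFun, latRed_specialFun, gaussRed_eq _ _ N f hz h,
    IntermediateField.coe_div]

include hπ0 hsurj hN in
/-- Conversely a function with Gauss integral expansion lies in the Gauss ring over `K`. -/
theorem mem_gaussRing_of_gaussInt {f : laurentBaseChange K (modularFunctionFieldFull N)}
    (hf : coeffMap (algebraMap K L) (f : LaurentSeries K) ∈ gaussInt π) :
    f ∈ gaussRing (A.comap (algebraMap K L)) (comapRed K A π) N := by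
  set R := levelReduction hπ0 hsurj hN with hRdef
  by_contra hf'
  have hinv : f⁻¹ ∈ gaussRing _ (comapRed K A π) N :=
    (R.valRing.mem_or_inv_mem f).resolve_left hf'
  have hred : gaussRed _ (comapRed K A π) N ⟨_, hinv⟩ = 0 := by
    by_contra h
    exact hf' (by simpa using gaussRing_inv_mem _ _ N ⟨_, hinv⟩ h)
  have hf0 : (f : LaurentSeries K) ≠ 0 := fun h =>
    hf' (by rw [show f = 0 from Subtype.ext h]; exact zero_mem _)
  obtain ⟨h1, h2⟩ := mem_gaussInt_of_mem ⟨_, hinv⟩
  rw [hred] at h2
  have h3 := gred_mul (π := π) h1 hf
  rw [h2, ZeroMemClass.coe_zero, zero_mul, ← map_mul, IntermediateField.coe_inv,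
    inv_mul_cancel₀ hf0, map_one, gred_one] at h3
  exact one_ne_zero h3

include hπ0 hsurj hN in
/-- A basis of the field over `K(jj)` reducing to a basis, for `jj` one of `j`, `1/j`. -/
theorem exists_levelBasis (jj : integralSeries (A.comap (algebraMap K L)) (comapRed K A π) N)
    (hjj : jj = jInt _ _ N ∨ jj = tInt) :
    ∃ m : Fin (dedekindPsi N) → gaussRing (A.comap (algebraMap K L)) (comapRed K A π) N,
      PolyIndependent k (specialFun _ _ N jj) (fun i => gaussRed _ _ N (m i)) ∧
      Submodule.span (IntermediateField.adjoin K {genericFun _ _ N jj})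
        (Set.range fun i =>
          (m i : laurentBaseChange K (modularFunctionFieldFull N))) = ⊤ := by
  have hd : DegreeInput (A.comap (algebraMap K L)) (comapRed K A π) N (dedekindPsi N) := degreeInput_of_ne_zero (A.comap (algebraMap K L)) (comapRed K A π) N hN
  have hgc := fun a : (A.comap (algebraMap K L)) => (algebraMap_eq_genericFun (A.comap (algebraMap K L)) (comapRed K A π) N a).symm
  have hsc := specialFun_single (A.comap (algebraMap K L)) (comapRed K A π) N
  have hsurj' : ∀ x, ∃ y z, specialFun (A.comap (algebraMap K L)) (comapRed K A π) N z ≠ 0 ∧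
      x = specialFun (A.comap (algebraMap K L)) (comapRed K A π) N y / specialFun (A.comap (algebraMap K L)) (comapRed K A π) N z := by
    intro x
    obtain ⟨f, rfl⟩ := gaussRed_surjective (A.comap (algebraMap K L)) (comapRed K A π) N hsurj x
    obtain ⟨y, z, hz, h⟩ := f.2
    exact ⟨y, z, hz, gaussRed_eq (A.comap (algebraMap K L)) (comapRed K A π) N f hz h⟩
  have key : Transcendental K (genericFun (A.comap (algebraMap K L)) (comapRed K A π) N jj) ∧ Transcendental k (specialFun (A.comap (algebraMap K L)) (comapRed K A π) N jj) ∧
      Module.finrank (IntermediateField.adjoin K {genericFun (A.comap (algebraMap K L)) (comapRed K A π) N jj})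
        (laurentBaseChange K (modularFunctionFieldFull N)) = dedekindPsi N ∧
      Module.finrank (IntermediateField.adjoin k {specialFun (A.comap (algebraMap K L)) (comapRed K A π) N jj})
        (modularFunctionFieldFullC k N) = dedekindPsi N := by
    rcases hjj with rfl | rfl
    · exact ⟨transcendental_genericFun_jInt (A.comap (algebraMap K L)) (comapRed K A π) N, transcendental_specialFun_jInt (A.comap (algebraMap K L)) (comapRed K A π) N,
        hd.finrank_generic, hd.finrank_special⟩
    · rw [genericFun_tInt, specialFun_tInt, Curve.adjoin_simple_inv, Curve.adjoin_simple_inv]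
      exact ⟨fun h => transcendental_genericFun_jInt (A.comap (algebraMap K L)) (comapRed K A π) N (by simpa using h.inv),
        fun h => transcendental_specialFun_jInt (A.comap (algebraMap K L)) (comapRed K A π) N (by simpa using h.inv),
        hd.finrank_generic, hd.finrank_special⟩
  obtain ⟨m, hpi, hspan⟩ := exists_integral_basis (genericFun (A.comap (algebraMap K L)) (comapRed K A π) N) (specialFun (A.comap (algebraMap K L)) (comapRed K A π) N) _ hgc hsc
    (genericFun_injective (A.comap (algebraMap K L)) (comapRed K A π) N) hsurj' key.1 key.2.1 hd.pos key.2.2.1 key.2.2.2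
  refine ⟨fun i => ⟨_, genericFun_mem_gaussRing (A.comap (algebraMap K L)) (comapRed K A π) N (m i)⟩, ?_, hspan⟩
  simpa only [gaussRed_genericFun] using hpi

include hπ0 hsurj hN in
theorem isIntegral_levelAux (jj : integralSeries (A.comap (algebraMap K L)) (comapRed K A π) N)
    (hjj : jj = jInt _ _ N ∨ jj = tInt)
    {f : laurentBaseChange K (modularFunctionFieldFull N)}
    (hint : IsIntegral (Algebra.adjoin K {genericFun _ _ N jj}) f)
    (hf : coeffMap (algebraMap K L) (f : LaurentSeries K) ∈ gaussInt π) :
    IsIntegral (Algebra.adjoin (A.comap (algebraMap K L)) {genericFun _ _ N jj}) f := by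
  obtain ⟨m, hpi, hspan⟩ := exists_levelBasis hπ0 hsurj hN jj hjj
  set R := levelReduction hπ0 hsurj hN with hRdef
  have htk : Transcendental k (specialFun (A.comap (algebraMap K L)) (comapRed K A π) N jj) := by
    rcases hjj with rfl | rfl
    · exact transcendental_specialFun_jInt (A.comap (algebraMap K L)) (comapRed K A π) N
    · rw [specialFun_tInt]
      exact fun h => transcendental_specialFun_jInt (A.comap (algebraMap K L)) (comapRed K A π) N (by simpa using h.inv)
  have htL : Transcendental K (genericFun (A.comap (algebraMap K L)) (comapRed K A π) N jj) := by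
    rcases hjj with rfl | rfl
    · exact transcendental_genericFun_jInt (A.comap (algebraMap K L)) (comapRed K A π) N
    · rw [genericFun_tInt]
      exact fun h => transcendental_genericFun_jInt (A.comap (algebraMap K L)) (comapRed K A π) N (by simpa using h.inv)
  let jR : R.ring := ⟨_, genericFun_mem_gaussRing (A.comap (algebraMap K L)) (comapRed K A π) N jj⟩
  have hjR : R.red jR = specialFun (A.comap (algebraMap K L)) (comapRed K A π) N jj := gaussRed_genericFun (A.comap (algebraMap K L)) (comapRed K A π) N jj
  exact R.isIntegral_adjoin_of_mem (jj := jR) (m := m) htL (by rw [hjR]; exact htk)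
    (by rw [hjR]; exact hpi) hspan (mem_gaussRing_of_gaussInt hπ0 hsurj hN hf) hint

include hπ0 hsurj hN in
/-- A function integral over `K[j]` with Gauss integral expansion is integral over `W[j]`; the
same for `1/j`. -/
theorem isIntegral_adjoin_level {x : laurentBaseChange K (modularFunctionFieldFull N)}
    (hx : (x : LaurentSeries K) = jqModC K)
    {f : laurentBaseChange K (modularFunctionFieldFull N)}
    (hf : coeffMap (algebraMap K L) (f : LaurentSeries K) ∈ gaussInt π) :
    (IsIntegral (Algebra.adjoin K {x}) f →
        IsIntegral (Algebra.adjoin (A.comap (algebraMap K L)) {x}) f) ∧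
      (IsIntegral (Algebra.adjoin K {x⁻¹}) f →
        IsIntegral (Algebra.adjoin (A.comap (algebraMap K L)) {x⁻¹}) f) := by
  have hx' : x = genericFun (A.comap (algebraMap K L)) (comapRed K A π) N (jInt _ _ N) :=
    Subtype.ext (hx.trans (coe_genericFun_jInt _ _ N).symm)
  subst hx'
  refine ⟨fun h => isIntegral_levelAux hπ0 hsurj hN _ (Or.inl rfl) h hf, ?_⟩
  rw [← genericFun_tInt]
  exact fun h => isIntegral_levelAux hπ0 hsurj hN _ (Or.inr rfl) h hf

end level

end FermatLib.Igusa.Carayol
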