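import Fermat.Agent.Igusa.Carayol.Gauss
import Fermat.Agent.Igusa.ConstantReduction
import Fermat.Agent.Curve.Descent.LaurentDescent

/-!
# Integral combinations of a constant reduction over a smaller constant field

`K ⊆ L`, a constant reduction of a field of series over `K` compatible with the Gauss reduction of
series over `L`: an integral series over `L` in the span of functions over `K` reduces into the
span of the reductions of the functions over `K` in the same subspace.
-/

set_option autoImplicit false
set_option synthInstance.maxHeartbeats 400000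

noncomputable section

open ModularCurve

namespace FermatLib.Igusa.Carayol

variable {K L k k₀ : Type*} [Field K] [Field L] [Field k] [Field k₀] [Algebra K L] [Algebra k₀ k]
variable {A : ValuationSubring L} {π : A →+* k} {W : ValuationSubring K} {π₀ : W →+* k₀}
variable {F : IntermediateField K (LaurentSeries K)}
  {Fb : IntermediateField k₀ (LaurentSeries k₀)}

theorem coe_smul_coeffMap (c : K) (f : F) :
    coeffMap (algebraMap K L) ((c • f : F) : LaurentSeries K) =
      algebraMap L (LaurentSeries L) (algebraMap K L c) *
        coeffMap (algebraMap K L) (f : LaurentSeries K) := by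
  rw [Algebra.smul_def, MulMemClass.coe_mul, map_mul]
  congr 1
  show coeffMap (algebraMap K L) (algebraMap K (LaurentSeries K) c) = _
  rw [algebraMap_laurentSeries_eq_single, coeffMap_single, algebraMap_laurentSeries_eq_single]

set_option maxHeartbeats 800000 in
/-- The reduction of an integral series in the span of functions over `K`. -/
theorem latRed_mem_span_red (hπ0 : ∀ a : A, π a = 0 ↔ ¬ IsUnit a)
    (R : ConstantReduction W π₀ F Fb)
    (hR : ∀ f : R.ring, coeffMap (algebraMap K L) ((f : F) : LaurentSeries K) ∈ gaussInt π ∧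
      gred π (coeffMap (algebraMap K L) ((f : F) : LaurentSeries K)) =
        coeffMap (algebraMap k₀ k) ((R.red f : Fb) : LaurentSeries k₀))
    (V : Submodule L (LaurentSeries L)) {S : Set F} (hS : S.Finite)
    (hSV : ∀ g ∈ S, coeffMap (algebraMap K L) (g : LaurentSeries K) ∈ V)
    {y : LaurentSeries A}
    (hy : latVal A y ∈
      Submodule.span L ((fun g : F => coeffMap (algebraMap K L) (g : LaurentSeries K)) '' S)) :
    latRed π y ∈ Submodule.span k
      {r | ∃ f : R.ring, coeffMap (algebraMap K L) ((f : F) : LaurentSeries K) ∈ V ∧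
        r = coeffMap (algebraMap k₀ k) ((R.red f : Fb) : LaurentSeries k₀)} := by
  classical
  set U := Submodule.span K S with hU
  have hUV : ∀ u ∈ U, coeffMap (algebraMap K L) (u : LaurentSeries K) ∈ V := by
    intro u hu
    induction hu using Submodule.span_induction with
    | mem u hu => exact hSV u hu
    | zero => rw [ZeroMemClass.coe_zero, map_zero]; exact zero_mem _
    | add a b _ _ ha hb => rw [AddMemClass.coe_add, map_add]; exact add_mem ha hb
    | smul c a _ ha =>
      rw [coe_smul_coeffMap, algebraMap_laurentSeries_eq_single,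
        HahnSeries.single_zero_mul_eq_smul]
      exact V.smul_mem _ ha
  have : FiniteDimensional K U := FiniteDimensional.span_of_finite K hS
  have := (R.finiteDimensional_redSpace U).1
  let b := Module.finBasisOfFinrankEq k₀ (R.redSpace U) (R.finrank_redSpace U)
  choose w hwU hwred using fun i => R.mem_redSpace.mp (b i).2
  have hwli : LinearIndependent k₀ fun i => R.red (w i) := by
    simp only [hwred]
    exact b.linearIndependent.map' (R.redSpace U).subtype (Submodule.ker_subtype _)
  have hwspan : U ≤ Submodule.span K (Set.range fun i => (w i : F)) := by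
    have h1 : LinearIndependent K fun i => (⟨w i, hwU i⟩ : U) :=
      LinearIndependent.of_comp U.subtype (R.linearIndependent_of_red hwli)
    intro u hu
    obtain ⟨c, hc⟩ := (Submodule.mem_span_range_iff_exists_fun K).mp
      ((h1.span_eq_top_of_card_eq_finrank' (by simp)).ge (Submodule.mem_top (x := ⟨u, hu⟩)))
    rw [Submodule.mem_span_range_iff_exists_fun]
    refine ⟨c, ?_⟩
    have := congrArg U.subtype hc
    simpa using this
  set e : Fin (Module.finrank K U) → LaurentSeries L := fun i =>
    coeffMap (algebraMap K L) ((w i : F) : LaurentSeries K) with he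
  have hspanU : ∀ u ∈ U, coeffMap (algebraMap K L) (u : LaurentSeries K) ∈
      Submodule.span L (Set.range e) := by
    intro u hu
    obtain ⟨c, hc⟩ := (Submodule.mem_span_range_iff_exists_fun K).mp (hwspan hu)
    rw [← hc, AddSubmonoidClass.coe_finsetSum, map_sum]
    refine Submodule.sum_mem _ fun i _ => ?_
    rw [coe_smul_coeffMap, algebraMap_laurentSeries_eq_single, HahnSeries.single_zero_mul_eq_smul]
    exact Submodule.smul_mem _ _ (Submodule.subset_span ⟨i, rfl⟩)
  obtain ⟨μ, hμ⟩ := (Submodule.mem_span_range_iff_exists_fun L).mp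
    (Submodule.span_le.mpr (by
      rintro _ ⟨g, hg, rfl⟩
      exact hspanU _ (Submodule.subset_span hg)) hy)
  have hmemG : ∀ i, e i ∈ gaussInt π := fun i => (hR (w i)).1
  have hli : LinearIndependent k fun i => gred π (e i) := by
    have h0 : LinearIndependent k₀ fun i => ((R.red (w i) : Fb) : LaurentSeries k₀) := by
      rw [Fintype.linearIndependent_iff]
      intro c hc
      refine Fintype.linearIndependent_iff.mp hwli c (Subtype.ext ?_)
      rw [AddSubmonoidClass.coe_finsetSum, ZeroMemClass.coe_zero, ← hc]
      refine Finset.sum_congr rfl fun i _ => ?_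
      rw [Algebra.smul_def, MulMemClass.coe_mul]
      show algebraMap k₀ (LaurentSeries k₀) (c i) * _ = _
      rw [algebraMap_laurentSeries_eq_single, HahnSeries.single_zero_mul_eq_smul]
    have h1 := Curve.linearIndependent_coeffMap (L := k) h0
    have e2 : (fun i => gred π (e i)) =
        fun i => coeffMap (algebraMap k₀ k) ((R.red (w i) : Fb) : LaurentSeries k₀) :=
      funext fun i => (hR (w i)).2
    rwa [e2]
  have hsumred : ∀ a : Fin (Module.finrank K U) → A,
      gred π (∑ i, algebraMap L (LaurentSeries L) (a i : L) * e i) =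
        ∑ i, π (a i) • gred π (e i) := by
    intro a
    have h := map_sum (gaussIntRed π)
      (fun i => (⟨_, mul_mem (algebraMap_mem_gaussInt (π := π) (a i)) (hmemG i)⟩ :
        gaussInt π)) Finset.univ
    simp only [gaussIntRed_apply, AddSubmonoidClass.coe_finsetSum] at h
    rw [h]
    refine Finset.sum_congr rfl fun i _ => ?_
    rw [gred_mul (algebraMap_mem_gaussInt _) (hmemG i), gred_algebraMap,
      algebraMap_laurentSeries_eq_single, HahnSeries.single_zero_mul_eq_smul]
  have hlat : latVal A y = ∑ l, algebraMap L (LaurentSeries L) (μ l) * e l := by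
    rw [← hμ]
    simp only [algebraMap_laurentSeries_eq_single, HahnSeries.single_zero_mul_eq_smul]
  have hμA : ∀ i, μ i ∈ A := by
    by_contra! hcon
    obtain ⟨i, hi⟩ := hcon
    obtain ⟨i₀, hi₀, hA'⟩ := ConstantReduction.exists_scale_coeffs A (c := μ)
      ⟨i, fun h => hi (h ▸ A.zero_mem)⟩
    have hinv : (μ i₀)⁻¹ ∈ A := by
      rcases A.mem_or_inv_mem (μ i₀) with hm | hm
      · exact absurd (by simpa [hi₀] using mul_mem hm (hA' i)) hi
      · exact hm
    have hnu : π ⟨_, hinv⟩ = 0 := (hπ0 _).mpr fun hu => by
      obtain ⟨v, hv⟩ := hu.exists_right_inv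
      have hv' : (μ i₀)⁻¹ * (v : L) = 1 := congrArg Subtype.val hv
      rw [inv_mul_eq_one₀ hi₀] at hv'
      have hm : μ i₀ ∈ A := hv'.symm ▸ v.2
      exact hi (by simpa [hi₀] using mul_mem hm (hA' i))
    have h1 : algebraMap L (LaurentSeries L) (μ i₀)⁻¹ * latVal A y =
        ∑ l, algebraMap L (LaurentSeries L) ((μ i₀)⁻¹ * μ l) * e l := by
      rw [hlat, Finset.mul_sum]
      refine Finset.sum_congr rfl fun l _ => ?_
      rw [map_mul, mul_assoc]
    have h2 := gred_algebraMap_mul_eq_zero (π := π) hnu (latVal_mem_gaussInt y)
    rw [h1, hsumred fun l => ⟨_, hA' l⟩] at h2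
    have h3 := Fintype.linearIndependent_iff.mp hli _ h2 i₀
    rw [show (⟨_, hA' i₀⟩ : A) = 1 from Subtype.ext (inv_mul_cancel₀ hi₀), map_one] at h3
    exact one_ne_zero h3
  have hred : latRed π y = ∑ i, π ⟨μ i, hμA i⟩ • gred π (e i) := by
    rw [← hsumred fun i => ⟨μ i, hμA i⟩, ← gred_latVal (π := π), hlat]
  rw [hred]
  exact Submodule.sum_mem _ fun i _ => Submodule.smul_mem _ _ (Submodule.subset_span
    ⟨w i, hUV _ (hwU i), (hR (w i)).2⟩)

end FermatLib.Igusa.Carayol
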