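import Fermat.Agent.Igusa.Carayol.LevelDescent
import Fermat.Agent.Igusa.Carayol.LevelIntegrality
import Fermat.Agent.Igusa.Carayol.LevelSpan
import Fermat.Agent.Igusa.SpecialLift
import Fermat.Agent.Igusa.MonoNewScale

/-!
# Reductions of rational functions exhaust the reduced affine rings

At a place of `ℚ̄` over `q ∤ N`: a function on the special fibre of `X₀(N)` regular away from
`j = ∞` (or from `j = 0`) is a combination of reductions of rational functions of the same kind,
whose reduced expansions are fixed by Frobenius.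
-/

set_option autoImplicit false
set_option synthInstance.maxHeartbeats 400000

noncomputable section

open Polynomial ModularCurve IsLocalRing

namespace FermatLib.Igusa.Carayol

local notation "Qbar" => AlgebraicClosure ℚ

variable (A₀ : ValuationSubring (AlgebraicClosure ℚ))

instance isLocalHom_comapIncl_rat : IsLocalHom (comapIncl ℚ A₀) :=
  ⟨fun a h => (isUnit_comap_iff a).mpr h⟩

/-- The prime field of the residue field of a place of `ℚ̄`. -/
def primeEmb : ResidueField (A₀.comap (algebraMap ℚ Qbar)) →+* ResidueField A₀ :=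
  ResidueField.map (comapIncl ℚ A₀)

/-- An integral rational function with nonzero denominator reduction has Gauss integral expansion
over `ℚ̄`. -/
theorem coeffEmb_mem_gaussInt {N : ℕ}
    (f : gaussRing (A₀.comap (algebraMap ℚ Qbar)) (residue _) N) :
    coeffEmb Qbar ((f : laurentBaseChange ℚ (modularFunctionFieldFull N)) : LaurentSeries ℚ) ∈
        gaussInt (residue A₀) ∧
      gred (residue A₀)
          (coeffEmb Qbar ((f : laurentBaseChange ℚ (modularFunctionFieldFull N)) :
            LaurentSeries ℚ)) =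
        coeffMap (primeEmb A₀) ((gaussRed (A₀.comap (algebraMap ℚ Qbar)) (residue _) N f :
          modularFunctionFieldFullC (ResidueField (A₀.comap (algebraMap ℚ Qbar))) N) :
            LaurentSeries _) := by
  obtain ⟨y, z, hz, h⟩ := f.2
  have hval : ∀ w : integralSeries (A₀.comap (algebraMap ℚ Qbar)) (residue _) N,
      latVal A₀ (coeffMap (comapIncl ℚ A₀) (w : LaurentSeries _)) =
        coeffEmb Qbar ((genericFun _ _ N w :
          laurentBaseChange ℚ (modularFunctionFieldFull N)) : LaurentSeries ℚ) := fun w => by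
    ext i; rfl
  have hred : ∀ w : integralSeries (A₀.comap (algebraMap ℚ Qbar)) (residue _) N,
      latRed (residue A₀) (coeffMap (comapIncl ℚ A₀) (w : LaurentSeries _)) =
        coeffMap (primeEmb A₀) ((specialFun _ _ N w :
          modularFunctionFieldFullC _ N) : LaurentSeries _) := fun w => by
    ext i; rfl
  have hz' : latRed (residue A₀) (coeffMap (comapIncl ℚ A₀) (z : LaurentSeries _)) ≠ 0 := by
    rw [hred]
    exact fun h0 => hz (Subtype.ext ((map_eq_zero (coeffMap (primeEmb A₀))).mp h0))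
  have h' : coeffEmb Qbar ((f : laurentBaseChange ℚ (modularFunctionFieldFull N)) :
        LaurentSeries ℚ) * latVal A₀ (coeffMap (comapIncl ℚ A₀) (z : LaurentSeries _)) =
      latVal A₀ (coeffMap (comapIncl ℚ A₀) (y : LaurentSeries _)) := by
    rw [hval, hval, ← map_mul, ← h]
    rfl
  refine ⟨⟨_, _, hz', h'⟩, ?_⟩
  rw [gred_eq hz' h', hred, hred, gaussRed_eq _ _ N f hz h, IntermediateField.coe_div, map_div₀]

variable {A₀} {q : ℕ} [Fact q.Prime]

theorem natCast_residue_eq_zero (hA : A₀.LiesOverPrime q) : (q : ResidueField A₀) = 0 := by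
  rw [← map_natCast (residue A₀) q, residue_eq_zero_iff]
  obtain ⟨h, hne⟩ := ValuationSubring.mem_nonunits_iff_exists_mem_maximalIdeal.mp hA
  exact (Subtype.ext (by simp) : (⟨_, h⟩ : A₀) = (q : A₀)) ▸ hne

theorem charP_residueField (hA : A₀.LiesOverPrime q) : CharP (ResidueField A₀) q := by
  obtain ⟨p, hp⟩ := CharP.exists (ResidueField A₀)
  have hdvd : p ∣ q := (CharP.cast_eq_zero_iff _ p q).mp (natCast_residue_eq_zero hA)
  rcases (Nat.dvd_prime (Fact.out : q.Prime)).mp hdvd with rfl | rfl
  · exact absurd rfl (CharP.char_ne_one (ResidueField A₀) 1)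
  · exact hp

/-- Residues of rational numbers are fixed by Frobenius. -/
theorem primeEmb_pow (hA : A₀.LiesOverPrime q)
    (c : ResidueField (A₀.comap (algebraMap ℚ Qbar))) :
    primeEmb A₀ c ^ q = primeEmb A₀ c := by
  have := charP_residueField hA
  obtain ⟨⟨r, hr⟩, rfl⟩ := residue_surjective c
  have hmul : primeEmb A₀ (residue _ ⟨r, hr⟩) * (r.den : ResidueField A₀) =
      (r.num : ResidueField A₀) := by
    rw [← map_natCast (primeEmb A₀), ← map_intCast (primeEmb A₀), ← map_mul,
      ← map_natCast (residue (A₀.comap (algebraMap ℚ Qbar))),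
      ← map_intCast (residue (A₀.comap (algebraMap ℚ Qbar))), ← map_mul]
    refine congrArg _ (congrArg _ (Subtype.ext ?_))
    simp
  have hden : (r.den : ResidueField A₀) ≠ 0 := by
    intro h0
    rw [h0, mul_zero, eq_comm, CharP.intCast_eq_zero_iff (ResidueField A₀) q] at hmul
    rw [CharP.cast_eq_zero_iff (ResidueField A₀) q] at h0
    have h1 : q ∣ r.num.natAbs := Int.natCast_dvd.mp hmul
    exact (Fact.out : q.Prime).not_dvd_one (r.reduced ▸ Nat.dvd_gcd h1 h0)
  rw [eq_div_iff hden |>.mpr hmul, div_pow]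
  rw [← frobenius_def q, ← frobenius_def q, map_intCast, map_natCast]

/-- A series with coefficients in the prime field is fixed by Frobenius. -/
theorem qExpand_coeffMap_primeEmb (hA : A₀.LiesOverPrime q) [NeZero q]
    (s : LaurentSeries (ResidueField (A₀.comap (algebraMap ℚ Qbar)))) :
    qExpand (ResidueField A₀) q (coeffMap (primeEmb A₀) s) = coeffMap (primeEmb A₀) s ^ q := by
  have := charP_residueField hA
  rw [monoNew_pow_char]
  congr 1
  ext i
  simp only [coeffMap_coeff, frobenius_def, primeEmb_pow hA]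

/-- Reductions of rational functions with poles only over `j = ∞`, of order at most `m`. -/
def ratRedSet (A₀ : ValuationSubring (AlgebraicClosure ℚ)) (q : ℕ) [NeZero q] (N m : ℕ) :
    Set (LaurentSeries (ResidueField A₀)) :=
  {r | ∃ g : LaurentSeries ℚ, coeffEmb Qbar g ∈ polarSpace Qbar N m ∧
    coeffEmb Qbar g ∈ gaussInt (residue A₀) ∧ r = gred (residue A₀) (coeffEmb Qbar g) ∧
    qExpand (ResidueField A₀) q r = r ^ q}

variable {N : ℕ} [NeZero N]

/-- The reduction of an integral function in a polar space is a combination of reductions of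
rational ones. -/
theorem latRed_mem_span_ratRedSet (hqN : ¬ q ∣ N) (hA : A₀.LiesOverPrime q) [NeZero q] {m : ℕ}
    {y : LaurentSeries A₀} (hy : latVal A₀ y ∈ polarSpace Qbar N m) :
    latRed (residue A₀) y ∈ Submodule.span (ResidueField A₀) (ratRedSet A₀ q N m) := by
  classical
  set W := A₀.comap (algebraMap ℚ Qbar) with hW
  have hres : ∀ a : W, ¬ IsUnit a → residue W a = 0 := fun a ha =>
    (residue_eq_zero_iff _).mpr ((mem_maximalIdeal _).mpr ha)
  have hunit : ∀ a : W, residue W a ≠ 0 → IsUnit a := fun a ha =>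
    by_contra fun h => ha (hres a h)
  have hN0 : (N : ResidueField W) ≠ 0 := fun h => by
    have h' := congrArg (primeEmb A₀) h
    rw [map_natCast, map_zero] at h'
    exact natCast_residueField_ne_zero hqN A₀ hA h'
  let R := gaussReduction hres hunit residue_surjective (degreeInput_of_ne_zero W (residue W) N hN0)
  letI : Algebra (ResidueField W) (ResidueField A₀) := (primeEmb A₀).toAlgebra
  -- rational functions spanning `y`
  obtain ⟨T, hT, hyT⟩ :=
    Submodule.mem_span_finite_of_mem_span (mem_span_rational_of_mem_polarSpace hy)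
  have hTg : ∀ t : T, ∃ g : laurentBaseChange ℚ (modularFunctionFieldFull N),
      coeffEmb Qbar (g : LaurentSeries ℚ) = (t : LaurentSeries Qbar) ∧
      coeffEmb Qbar (g : LaurentSeries ℚ) ∈ polarSpace Qbar N m := by
    intro t
    obtain ⟨g, hg, hgt⟩ := hT t.2
    have hid : coeffEmb ℚ g = g := by ext i; simp [coeffEmb]
    exact ⟨⟨g, hid ▸ coeffEmb_mem_laurentBaseChange ℚ
      (mem_polarSpace_of_coeffEmb hg).1⟩, hgt, hg⟩
  choose g hg hgmem using hTg
  have hsub : (T : Set (LaurentSeries Qbar)) ⊆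
      (fun g' : laurentBaseChange ℚ (modularFunctionFieldFull N) =>
        coeffMap (algebraMap ℚ Qbar) (g' : LaurentSeries ℚ)) '' Set.range g :=
    fun t ht => ⟨g ⟨t, ht⟩, Set.mem_range_self _, hg ⟨t, ht⟩⟩
  have h := latRed_mem_span_red (π := residue A₀)
    (fun a => by rw [residue_eq_zero_iff, mem_maximalIdeal]; rfl) R
    (fun f => coeffEmb_mem_gaussInt A₀ f) (polarSpace Qbar N m) (Set.finite_range g)
    (by rintro _ ⟨t, rfl⟩; exact hgmem t) (y := y)
    (Submodule.span_mono hsub hyT)
  refine Submodule.span_le.mpr ?_ h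
  rintro r ⟨f, hfV, rfl⟩
  refine Submodule.subset_span
    ⟨_, hfV, (coeffEmb_mem_gaussInt A₀ f).1, (coeffEmb_mem_gaussInt A₀ f).2.symm, ?_⟩
  exact qExpand_coeffMap_primeEmb hA _

/-- Multiplying by a power of the coordinate turns integrality over `k[x]` into integrality over
`k[1/x]`. -/
theorem exists_isIntegral_div_pow {k F : Type*} [Field k] [Field F] [Algebra k F] {x h : F}
    (hx : x ≠ 0) (hint : IsIntegral (Algebra.adjoin k {x}) h) :
    ∃ m₀ : ℕ, ∀ m ≥ m₀, IsIntegral (Algebra.adjoin k {x⁻¹}) (h / x ^ m) := by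
  classical
  obtain ⟨p, hp, hph⟩ := hint
  have hex : ∀ i, ∃ Q : k[X], aeval x Q = (p.coeff i : F) := fun i =>
    (AlgHom.mem_range _).mp ((Algebra.adjoin_singleton_eq_range_aeval k x).le (p.coeff i).2)
  choose Q hQ using hex
  set d := p.natDegree
  refine ⟨(Finset.range (d + 1)).sup fun i => (Q i).natDegree, fun m hm => ?_⟩
  have hxinv : ∀ (i : ℕ) (_ : i < d),
      (p.coeff i : F) / x ^ (m * (d - i)) ∈ Algebra.adjoin k {x⁻¹} := by
    intro i hi
    rw [← hQ i, aeval_eq_sum_range, Finset.sum_div]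
    refine Subalgebra.sum_mem _ fun l hl => ?_
    have hl' : l ≤ m * (d - i) :=
      ((Nat.lt_succ_iff.mp (Finset.mem_range.mp hl)).trans ((Finset.le_sup (f := fun i =>
        (Q i).natDegree) (Finset.mem_range.mpr (Nat.lt_succ_of_lt hi))).trans hm)).trans
          (Nat.le_mul_of_pos_right _ (by omega))
    rw [Algebra.smul_def, mul_div_assoc, show x ^ l / x ^ (m * (d - i)) =
      x⁻¹ ^ (m * (d - i) - l) by
        rw [inv_pow, pow_sub₀ x hx hl', mul_inv, inv_inv, div_eq_mul_inv, mul_comm]]
    exact mul_mem (Subalgebra.algebraMap_mem _ _)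
      (Subalgebra.pow_mem _ (Algebra.self_mem_adjoin_singleton k x⁻¹) _)
  set r : F[X] := X ^ d + ∑ i ∈ Finset.range d, C ((p.coeff i : F) / x ^ (m * (d - i))) * X ^ i
  have hlift : r ∈ Polynomial.lifts (algebraMap (Algebra.adjoin k {x⁻¹}) F) := by
    refine add_mem (Polynomial.X_pow_mem_lifts _ _) (sum_mem fun i hi => ?_)
    exact mul_mem (Polynomial.C'_mem_lifts ⟨⟨_, hxinv i (Finset.mem_range.mp hi)⟩, rfl⟩)
      (Polynomial.X_pow_mem_lifts _ _)
  have hmonic : r.Monic := monic_X_pow_add ((degree_sum_le _ _).trans_lt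
    ((Finset.sup_lt_iff (WithBot.bot_lt_coe d)).mpr fun i hi =>
      (degree_C_mul_X_pow_le _ _).trans_lt (WithBot.coe_lt_coe.mpr (Finset.mem_range.mp hi))))
  obtain ⟨r', hr', -, hr'm⟩ := Polynomial.lifts_and_natDegree_eq_and_monic hlift hmonic
  refine ⟨r', hr'm, ?_⟩
  rw [eval₂_eq_eval_map, hr', eval_add, eval_pow, eval_X, eval_finsetSum]
  have h0 : h ^ d + ∑ i ∈ Finset.range d, (p.coeff i : F) * h ^ i = 0 := by
    have hd : p.coeff d = 1 := hp.coeff_natDegree
    rw [eval₂_eq_sum_range, Finset.sum_range_succ, hd, map_one, one_mul] at hph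
    rwa [add_comm]
  have h1 : ∀ i ∈ Finset.range d,
      eval (h / x ^ m) (C ((p.coeff i : F) / x ^ (m * (d - i))) * X ^ i) =
        (p.coeff i : F) * h ^ i / x ^ (m * d) := by
    intro i hi
    have hid := Finset.mem_range.mp hi
    rw [eval_mul, eval_C, eval_pow, eval_X, div_pow, ← pow_mul, div_mul_div_comm, ← pow_add,
      ← Nat.mul_add, Nat.sub_add_cancel hid.le]
  rw [Finset.sum_congr rfl h1, ← Finset.sum_div, div_pow, ← pow_mul, ← add_div, h0, zero_div]

/-- The reduced affine rings are spanned by reductions of rational functions. -/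
theorem exists_mem_span_ratRedSet (hqN : ¬ q ∣ N) (hA : A₀.LiesOverPrime q) [NeZero q]
    {h : LaurentSeries (ResidueField A₀)}
    (hF : h ∈ modularFunctionFieldFullC (ResidueField A₀) N) :
    (IsIntegral (Algebra.adjoin (ResidueField A₀) {jqModC (ResidueField A₀)}) h →
      ∃ m, h ∈ Submodule.span (ResidueField A₀) (ratRedSet A₀ q N m)) ∧
    (IsIntegral (Algebra.adjoin (ResidueField A₀) {(jqModC (ResidueField A₀))⁻¹}) h →
      ∃ m, h * jqModC (ResidueField A₀) ^ m ∈
        Submodule.span (ResidueField A₀) (ratRedSet A₀ q N m)) := by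
  set j := jqModC (ResidueField A₀)
  have hj : j ≠ 0 := fun h0 => transcendental_jqModC (ResidueField A₀) (by
    change IsAlgebraic (ResidueField A₀) j
    rw [h0]
    exact isAlgebraic_zero)
  obtain ⟨n₀, hlift⟩ := exists_lift_of_isIntegral N hqN A₀ hA
  constructor
  · intro hint
    obtain ⟨m₀, hm₀⟩ := exists_isIntegral_div_pow hj hint
    refine ⟨max n₀ m₀, ?_⟩
    obtain ⟨y, h1, h2, h3, rfl⟩ := hlift _ (le_max_left n₀ m₀) h hF hint (hm₀ _ (le_max_right _ _))
    exact latRed_mem_span_ratRedSet hqN hA ⟨h1, h2, h3⟩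
  · intro hint
    obtain ⟨m₀, hm₀⟩ := exists_isIntegral_div_pow (inv_ne_zero hj) hint
    refine ⟨max n₀ m₀, ?_⟩
    set m := max n₀ m₀
    have hint' : IsIntegral (Algebra.adjoin (ResidueField A₀) {j}) (h * j ^ m) := by
      have := hm₀ m (le_max_right _ _)
      rwa [inv_inv, inv_pow, div_inv_eq_mul] at this
    obtain ⟨y, h1, h2, h3, hy⟩ := hlift m (le_max_left n₀ m₀) (h * j ^ m)
      (mul_mem hF (pow_mem (jqModC_mem_full _ N) m)) hint'
      (by rwa [mul_div_cancel_right₀ _ (pow_ne_zero _ hj)])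
    rw [← hy]
    exact latRed_mem_span_ratRedSet hqN hA ⟨h1, h2, h3⟩

end FermatLib.Igusa.Carayol
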