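import Fermat.Agent.Igusa.Carayol.TowerEmbeddings
import Fermat.Agent.Igusa.Carayol.LevelTransfer
import Fermat.Agent.Igusa.Carayol.MainAlg

/-!
# Contents of bounded series over the base of the tower

`T.Cont h c r`: `h / c` is Gauss integral with nonzero reduction `r`.
-/

set_option autoImplicit false
set_option maxHeartbeats 400000

noncomputable section

open ModularCurve HahnSeries FermatLib.Igusa

namespace FermatLib.Igusa.Carayol

namespace Tower

variable {q : ℕ} [NeZero q] (T : Tower q)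

/-- `h / c` is Gauss integral with nonzero reduction `r`. -/
def Cont (h : LaurentSeries T.L) (c : T.L) (r : LaurentSeries T.k) : Prop :=
  c ≠ 0 ∧ algebraMap T.L (LaurentSeries T.L) c⁻¹ * h ∈ gaussInt T.π ∧
    T.red (algebraMap T.L (LaurentSeries T.L) c⁻¹ * h) = r ∧ r ≠ 0

theorem charZero_L : CharZero T.L :=
  charZero_of_injective_algebraMap (algebraMap T.K T.L).injective

theorem q_ne_zero : (q : T.L) ≠ 0 :=
  haveI := T.charZero_L
  Nat.cast_ne_zero.mpr (NeZero.ne q)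

variable {T} {h g : LaurentSeries T.L} {c d : T.L} {r r' : LaurentSeries T.k}

theorem Cont.ne_zero (hc : T.Cont h c r) : h ≠ 0 := by
  rintro rfl
  obtain ⟨-, -, h3, h4⟩ := hc
  rw [mul_zero, Base.red, gred_zero] at h3
  exact h4 h3.symm

theorem cont_one_iff : T.Cont h 1 r ↔ h ∈ gaussInt T.π ∧ T.red h = r ∧ r ≠ 0 := by
  simp [Cont]

theorem Cont.congr {c' : T.L} (hc : T.Cont h c r) (e : c = c') : T.Cont h c' r := e ▸ hc

theorem Cont.mul (hh : T.Cont h c r) (hg : T.Cont g d r') : T.Cont (h * g) (c * d) (r * r') := by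
  obtain ⟨hc0, hm, hr, hr0⟩ := hh
  obtain ⟨hd0, hm', hr', hr0'⟩ := hg
  have e : algebraMap T.L (LaurentSeries T.L) (c * d)⁻¹ * (h * g) =
      (algebraMap T.L (LaurentSeries T.L) c⁻¹ * h) *
        (algebraMap T.L (LaurentSeries T.L) d⁻¹ * g) := by
    rw [mul_inv, map_mul, mul_mul_mul_comm]
  refine ⟨mul_ne_zero hc0 hd0, e ▸ mul_mem hm hm', ?_, mul_ne_zero hr0 hr0'⟩
  rw [e, Base.red, gred_mul hm hm', ← hr, ← hr']

theorem Cont.inv (hh : T.Cont h c r) : T.Cont h⁻¹ c⁻¹ r⁻¹ := by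
  obtain ⟨hc0, hm, hr, hr0⟩ := hh
  have e : algebraMap T.L (LaurentSeries T.L) c⁻¹⁻¹ * h⁻¹ =
      (algebraMap T.L (LaurentSeries T.L) c⁻¹ * h)⁻¹ := by
    rw [mul_inv, map_inv₀ (algebraMap T.L (LaurentSeries T.L)) c⁻¹]
  have hne : gred T.π (algebraMap T.L (LaurentSeries T.L) c⁻¹ * h) ≠ 0 := by
    rw [show gred T.π _ = r from hr]; exact hr0
  refine ⟨inv_ne_zero hc0, e ▸ inv_mem_gaussInt hm hne, ?_, inv_ne_zero hr0⟩
  rw [e, Base.red, gred_inv hm hne, ← hr]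

theorem Cont.one : T.Cont 1 1 1 :=
  cont_one_iff.mpr ⟨one_mem _, gred_one, one_ne_zero⟩

theorem Cont.pow (hh : T.Cont h c r) : ∀ n : ℕ, T.Cont (h ^ n) (c ^ n) (r ^ n)
  | 0 => by rw [pow_zero, pow_zero, pow_zero]; exact Cont.one
  | n + 1 => by rw [pow_succ, pow_succ, pow_succ]; exact (hh.pow n).mul hh

theorem cont_const {a : T.L} (ha : a ≠ 0) : T.Cont (algebraMap T.L (LaurentSeries T.L) a) a 1 := by
  refine ⟨ha, ?_, ?_, one_ne_zero⟩ <;> rw [← map_mul, inv_mul_cancel₀ ha, map_one]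
  · exact one_mem _
  · exact gred_one

theorem cont_unit (u : T.Aˣ) :
    T.Cont (algebraMap T.L (LaurentSeries T.L) ((u : T.A) : T.L)) 1
      (algebraMap T.k (LaurentSeries T.k) (T.π u)) :=
  cont_one_iff.mpr ⟨algebraMap_mem_gaussInt _, gred_algebraMap _,
    (_root_.map_ne_zero _).mpr ((u.isUnit.map T.π).ne_zero)⟩

/-- The content is unique up to units. -/
theorem Cont.unique (hh : T.Cont h c r) (hh' : T.Cont h d r') :
    ∃ u : T.Aˣ, d = c * ((u : T.A) : T.L) ∧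
      r = algebraMap T.k (LaurentSeries T.k) (T.π u) * r' := by
  obtain ⟨hc0, hm, hr, hr0⟩ := hh
  obtain ⟨hd0, hm', hr', hr0'⟩ := hh'
  have hx : d / c ≠ 0 := div_ne_zero hd0 hc0
  have e : algebraMap T.L (LaurentSeries T.L) c⁻¹ * h =
      algebraMap T.L (LaurentSeries T.L) (d / c) *
        (algebraMap T.L (LaurentSeries T.L) d⁻¹ * h) := by
    rw [← mul_assoc, ← map_mul]
    congr 2
    field_simp
  have key : ∀ (x : T.A) (f : LaurentSeries T.L), f ∈ gaussInt T.π →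
      T.red (algebraMap T.L (LaurentSeries T.L) (x : T.L) * f) ≠ 0 → IsUnit x := by
    intro x f hf hne
    by_contra hu
    exact hne (gred_algebraMap_mul_eq_zero ((T.π_eq_zero x).mpr hu) hf)
  have hu : ∃ hx' : d / c ∈ T.A, IsUnit (⟨d / c, hx'⟩ : T.A) := by
    rcases T.A.mem_or_inv_mem (d / c) with h' | h'
    · exact ⟨h', key _ _ hm' (by rw [← e, hr]; exact hr0)⟩
    · have hu := key ⟨_, h'⟩ _ hm (by
        show T.red (algebraMap T.L (LaurentSeries T.L) (d / c)⁻¹ * _) ≠ 0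
        rw [e, ← mul_assoc, ← map_mul, inv_mul_cancel₀ hx, map_one, one_mul, hr']
        exact hr0')
      obtain ⟨b, hb⟩ := hu.exists_right_inv
      have hb' : (d / c)⁻¹ * (b : T.L) = 1 := congrArg Subtype.val hb
      have hbe : (b : T.L) = d / c := by
        rw [eq_inv_of_mul_eq_one_right hb', inv_inv]
      refine ⟨hbe ▸ b.2, ?_⟩
      rw [show (⟨d / c, hbe ▸ b.2⟩ : T.A) = b from Subtype.ext hbe.symm]
      exact IsUnit.of_mul_eq_one _ (by rw [mul_comm]; exact hb)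
  obtain ⟨hx', hu⟩ := hu
  refine ⟨hu.unit, by rw [IsUnit.unit_spec]; exact (mul_div_cancel₀ d hc0).symm, ?_⟩
  rw [← hr, e, Base.red, gred_mul (algebraMap_mem_gaussInt ⟨d / c, hx'⟩) hm',
    gred_algebraMap, ← hr', IsUnit.unit_spec]

/-- Changing the content by a unit. -/
theorem Cont.mul_unit (hh : T.Cont h c r) (u : T.Aˣ) :
    T.Cont h (c * ((u : T.A) : T.L))
      (algebraMap T.k (LaurentSeries T.k) (T.π u)⁻¹ * r) := by
  have hu : ((u : T.A) : T.L) ≠ 0 := fun h0 => u.ne_zero (Subtype.ext h0)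
  have h1 := (cont_unit (T := T) u).inv.mul (cont_const hu)
  rw [inv_one, one_mul, mul_one, inv_mul_cancel₀ ((_root_.map_ne_zero _).mpr hu)] at h1
  have h2 := hh.mul h1
  rwa [mul_one, ← map_inv₀, mul_comm r] at h2

theorem zpow_eq_one_of_unit {n : ℤ} {u : T.Aˣ} (h : (q : T.L) ^ n = ((u : T.A) : T.L)) : n = 0 := by
  have hq : ∀ (m : ℕ) (v : T.Aˣ), (q : T.L) ^ m = ((v : T.A) : T.L) → m = 0 := by
    intro m v hv
    by_contra hm
    have h1 : T.π (v : T.A) = 0 := by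
      rw [show (v : T.A) = (q : T.A) ^ m from Subtype.ext (by simpa using hv.symm), map_pow,
        map_natCast, CharP.cast_eq_zero, zero_pow hm]
    exact (T.π_eq_zero _).mp h1 v.isUnit
  obtain ⟨m, rfl | rfl⟩ := Int.eq_nat_or_neg n
  · rw [zpow_natCast] at h
    exact_mod_cast hq m u h
  · rw [zpow_neg, zpow_natCast, inv_eq_iff_eq_inv] at h
    have hinv : ((u : T.A) : T.L)⁻¹ = ((u⁻¹ : T.Aˣ) : T.A) :=
      inv_eq_of_mul_eq_one_right (by rw [← MulMemClass.coe_mul, u.mul_inv]; rfl)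
    rw [hinv] at h
    simp [hq m _ h]

/-- Contents which are powers of `q` are unique. -/
theorem Cont.unique_q {s s' : ℤ} (hh : T.Cont h ((q : T.L) ^ s) r)
    (hh' : T.Cont h ((q : T.L) ^ s') r') : s = s' ∧ r = r' := by
  obtain ⟨u, hu, -⟩ := hh.unique hh'
  have : s' - s = 0 := zpow_eq_one_of_unit (u := u) (by
    rw [zpow_sub₀ T.q_ne_zero, hu, mul_div_cancel_left₀ _ (zpow_ne_zero _ T.q_ne_zero)])
  obtain rfl : s = s' := by omega
  exact ⟨rfl, hh.2.2.1.symm.trans hh'.2.2.1⟩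

variable (T)

theorem exists_cont {h : LaurentSeries T.L} (hb : h ∈ gaussField T.A) (h0 : h ≠ 0) :
    ∃ c r, T.Cont h c r := by
  obtain ⟨ϖ, hϖ⟩ := IsDiscreteValuationRing.exists_irreducible T.A
  have hne : (ϖ : T.L) ≠ 0 := by simpa using hϖ.ne_zero
  obtain ⟨n, hn, hn0⟩ := exists_zpow_mul_gred_ne_zero T.π_eq_zero hϖ hb h0
  exact ⟨((ϖ : T.L) ^ n)⁻¹, _, inv_ne_zero (zpow_ne_zero _ hne), by rwa [inv_inv],
    by rw [inv_inv], hn0⟩

theorem exists_cont_ε {y : T.F₂} (hy : y ≠ 0) :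
    ∃ (s : ℤ) (r : LaurentSeries T.k), T.Cont (T.ε y) ((q : T.L) ^ s) r := by
  obtain ⟨n, hn, hn0⟩ := T.ε_content y hy
  refine ⟨-n, _, zpow_ne_zero _ T.q_ne_zero, ?_, rfl, ?_⟩ <;> rw [zpow_neg, inv_inv]
  exacts [hn, hn0]

/-- A positive power of a nonzero scalar is a power of `q` times a unit. -/
theorem exists_pow_eq_zpow_mul {c : T.L} (hc : c ≠ 0) :
    ∃ (d : ℕ) (j : ℤ) (u : T.Aˣ), d ≠ 0 ∧ c ^ d = (q : T.L) ^ j * ((u : T.A) : T.L) := by
  obtain ⟨ϖ, hϖ⟩ := IsDiscreteValuationRing.exists_irreducible T.A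
  have hq : (q : T.A) ≠ 0 := fun h => T.q_ne_zero (by simpa using congrArg Subtype.val h)
  obtain ⟨e, uq, hque⟩ := IsDiscreteValuationRing.eq_unit_mul_pow_irreducible hq hϖ
  have he : e ≠ 0 := fun h => by
    rw [h, pow_zero, mul_one] at hque
    exact (T.π_eq_zero _).mp (by rw [map_natCast, CharP.cast_eq_zero]) (hque ▸ uq.isUnit)
  have key : ∀ a : T.A, a ≠ 0 → ∃ (j : ℕ) (u : T.Aˣ), a ^ e = (q : T.A) ^ j * u := by
    intro a ha
    obtain ⟨n, ua, rfl⟩ := IsDiscreteValuationRing.eq_unit_mul_pow_irreducible ha hϖ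
    refine ⟨n, ua ^ e * uq⁻¹ ^ n, ?_⟩
    rw [hque, mul_pow, ← pow_mul, mul_comm n e, pow_mul, mul_pow, Units.val_mul,
      Units.val_pow_eq_pow_val, Units.val_pow_eq_pow_val]
    calc ((ua : T.A)) ^ e * (ϖ ^ e) ^ n = ((uq : T.A) * ↑uq⁻¹) ^ n * ((ua : T.A) ^ e * (ϖ ^ e) ^ n) := by
          rw [uq.mul_inv, one_pow, one_mul]
      _ = _ := by ring
  rcases T.A.mem_or_inv_mem c with h | h
  · obtain ⟨j, u, hu⟩ := key ⟨c, h⟩ (fun h0 => hc (congrArg Subtype.val h0))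
    exact ⟨e, j, u, he, by simpa using congrArg Subtype.val hu⟩
  · obtain ⟨j, u, hu⟩ := key ⟨c⁻¹, h⟩ (fun h0 => inv_ne_zero hc (congrArg Subtype.val h0))
    refine ⟨e, -(j : ℤ), u⁻¹, he, ?_⟩
    have h1 : (c ^ e)⁻¹ = (q : T.L) ^ j * ((u : T.A) : T.L) := by
      simpa [inv_pow] using congrArg Subtype.val hu
    have hinv : (((u⁻¹ : T.Aˣ) : T.A) : T.L) = ((u : T.A) : T.L)⁻¹ :=
      (inv_eq_of_mul_eq_one_right (by rw [← MulMemClass.coe_mul, u.mul_inv]; rfl)).symm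
    rw [hinv, zpow_neg, zpow_natCast, ← mul_inv, ← h1, inv_inv]

/-- The conjugations move scalars by units. -/
theorem exists_conj_eq_mul (i : ℕ) {c : T.L} (hc : c ≠ 0) :
    ∃ u : T.Aˣ, T.conj i c = c * ((u : T.A) : T.L) := by
  obtain ⟨d, j, u, hd, hcd⟩ := T.exists_pow_eq_zpow_mul hc
  have hu : ((u : T.A) : T.L) ≠ 0 := fun h0 => u.ne_zero (Subtype.ext h0)
  obtain ⟨v, hv⟩ := isUnit_of_pow T.A (x := T.conj i c / c) hd
    (u := (Units.map (T.conjA i : T.A →* T.A) u) * u⁻¹) (by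
      have h1 : (((u⁻¹ : T.Aˣ) : T.A) : T.L) * ((u : T.A) : T.L) = 1 := by
        rw [← MulMemClass.coe_mul, u.inv_mul]; rfl
      rw [div_pow, ← map_pow, hcd, map_mul, map_zpow₀, map_natCast,
        mul_div_mul_left _ _ (zpow_ne_zero _ T.q_ne_zero), div_eq_iff hu, Units.val_mul,
        MulMemClass.coe_mul, mul_assoc, h1, mul_one]
      rfl)
  exact ⟨v, by rw [← hv, mul_div_cancel₀ _ hc]⟩

variable {T}

theorem Cont.conj (hh : T.Cont h c r) (i : ℕ) :
    T.Cont (coeffMap (T.conj i).toRingHom h) (T.conj i c) r := by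
  obtain ⟨hc0, hm, hr, hr0⟩ := hh
  have := coeffMap_mem_gaussInt (π := T.π) (π' := T.π) (T.conj i).toRingHom (T.conjA i)
    (fun a => T.coe_conjA i a) (RingHom.id _) (fun a => (T.π_conjA i a).symm) hm
  rw [map_mul, FermatLib.Igusa.Carayol.coeffMap_const] at this
  refine ⟨(map_ne_zero _).mpr hc0, ?_, ?_, hr0⟩
  · rw [← map_inv₀]; exact this.1
  · rw [← map_inv₀]
    refine this.2.trans ?_
    rw [← hr]
    ext n
    rfl

theorem Cont.scale (hh : T.Cont h c r) (i : ℕ) :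
    T.Cont (monoNewScale (T.toBase.ζL ^ i) h) c r := by
  obtain ⟨hc0, hm, hr, hr0⟩ := hh
  have := monoNewScale_mem_gaussInt (π := T.π) (T.ζ ^ i)
    (by rw [Units.val_pow_eq_pow_val, map_pow, T.π_ζ, one_pow]) hm
  rw [map_pow (Units.map (T.A.subtype : T.A →* T.L)), map_mul,
    show Units.map (T.A.subtype : T.A →* T.L) T.ζ = T.toBase.ζL from rfl, T.scale_const] at this
  exact ⟨hc0, this.1, this.2.trans hr, hr0⟩

/-- Roots have root contents. -/
theorem Cont.of_pow {n : ℕ} (hn : n ≠ 0) (hb : h ∈ gaussField T.A)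
    (hh : T.Cont (h ^ n) (c ^ n) r) : ∃ r', T.Cont h c r' ∧ r' ^ n = r := by
  obtain ⟨hc0, hm, hr, hr0⟩ := hh
  have hc : c ≠ 0 := fun h0 => hc0 (by rw [h0, zero_pow hn])
  set g := algebraMap T.L (LaurentSeries T.L) c⁻¹ * h with hg
  have e : algebraMap T.L (LaurentSeries T.L) (c ^ n)⁻¹ * h ^ n = g ^ n := by
    rw [hg, mul_pow, ← map_pow, inv_pow]
  rw [e] at hm hr
  have hgI : g ∈ gaussInt T.π := by
    rcases mem_or_inv_mem_gaussInt T.π_eq_zero
      (mul_mem ((gaussField T.A).algebraMap_mem _) hb : g ∈ gaussField T.A) with h' | h'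
    · exact h'
    rcases eq_or_ne g 0 with h0 | h0
    · rw [h0]; exact zero_mem _
    have h1 : T.red (g⁻¹) ≠ 0 := fun hz => by
      have := gred_mul (pow_mem h' n) hm
      rw [← mul_pow, inv_mul_cancel₀ h0, one_pow, gred_one, gred_pow h'] at this
      rw [show gred T.π g⁻¹ = 0 from hz, zero_pow hn, zero_mul] at this
      exact one_ne_zero this
    have h2 := inv_mem_gaussInt h' h1
    rwa [inv_inv] at h2
  have hp : T.red g ^ n = r := by rw [← hr, Base.red, gred_pow hgI]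
  exact ⟨_, ⟨hc, hgI, rfl, fun h0 => hr0 (by rw [← hp, show T.red g = 0 from h0, zero_pow hn])⟩, hp⟩

/-- Roots of constants are constants. -/
theorem exists_const_of_pow_eq {n : ℕ} (hn : n ≠ 0) {z : LaurentSeries T.k} {a : T.k}
    (hz : z ^ n = algebraMap T.k (LaurentSeries T.k) a) :
    ∃ b : T.k, z = algebraMap T.k (LaurentSeries T.k) b ∧ b ^ n = a := by
  have halg : IsAlgebraic T.k z :=
    ⟨Polynomial.X ^ n - Polynomial.C a, Polynomial.X_pow_sub_C_ne_zero (Nat.pos_of_ne_zero hn) a,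
      by simp [hz]⟩
  obtain ⟨b, hb⟩ := minpoly.mem_range_of_degree_eq_one T.k z
    (IsAlgClosed.degree_eq_one_of_irreducible T.k (minpoly.irreducible halg.isIntegral))
  refine ⟨b, hb.symm, (algebraMap T.k (LaurentSeries T.k)).injective ?_⟩
  rw [map_pow, hb, hz]

end Tower

end FermatLib.Igusa.Carayol
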