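import Fermat.Agent.Igusa.Carayol.MainNorm

/-!
# A root on one chart modulo the radical of `q`
-/

set_option autoImplicit false

noncomputable section

namespace FermatLib.Igusa.Carayol

namespace Tower

variable {q : ℕ} [NeZero q] {T : Tower q} {m : ℕ} {f : T.F₂}

/-- An element whose `m`-th power divided by `f` lies in the chart and whose three reductions are
the prescribed roots. -/
def Roots.Glues (D : T.Roots m f) (t : T.F₀) : Prop :=
  ∃ e : T.F₂, e ^ m / f ∈ T.chart₂ t ∧
    ∀ i, T.Cont (T.branch i e) ((q : T.L) ^ D.s i) (D.g i)

end Tower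

end FermatLib.Igusa.Carayol
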