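import Fermat.Agent.Igusa.Carayol.MainUnit

/-!
# Roots near a point of the special fibre from compatible values on its branches
-/

set_option autoImplicit false
set_option maxHeartbeats 800000
set_option synthInstance.maxHeartbeats 200000
set_option linter.style.haveILetI false

noncomputable section

open ModularCurve FermatLib.Igusa

namespace FermatLib.Igusa.Carayol

section mk'

variable {R S : Type*} [CommRing R] [CommRing S] [Algebra R S] (M : Submonoid R)
  [IsLocalization M S]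

theorem mk'_sub_mem_map_iff (I : Ideal R) (a b : R) (s s' : M) :
    IsLocalization.mk' S a s - IsLocalization.mk' S b s' ∈ I.map (algebraMap R S) ↔
      ∃ w ∈ M, w * (a * s' - b * s) ∈ I := by
  have e : IsLocalization.mk' S a s - IsLocalization.mk' S b s' =
      IsLocalization.mk' S (a * s' - b * s) (s * s') := by
    rw [IsLocalization.eq_mk'_iff_mul_eq, Submonoid.coe_mul, map_mul, sub_mul, ← mul_assoc,
      IsLocalization.mk'_spec, mul_comm (algebraMap R S s), ← mul_assoc, IsLocalization.mk'_spec,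
      map_sub, map_mul, map_mul]
  rw [e, IsLocalization.mk'_mem_map_algebraMap_iff]

theorem mk'_pow_mul_sub_one_mem (I : Ideal R) {a n : R} {s d : M} {m : ℕ}
    (h : a ^ m * n - (s : R) ^ m * d ∈ I) :
    IsLocalization.mk' S a s ^ m * IsLocalization.mk' S n d - 1 ∈ I.map (algebraMap R S) := by
  have e : IsLocalization.mk' S a s ^ m * IsLocalization.mk' S n d - 1 =
      IsLocalization.mk' S (a ^ m * n - (s : R) ^ m * d) (s ^ m * d) := by
    rw [IsLocalization.eq_mk'_iff_mul_eq, Submonoid.coe_mul, SubmonoidClass.coe_pow, map_mul,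
      map_sub, map_mul, map_mul, map_pow, map_pow]
    have h1 := IsLocalization.mk'_spec S a s
    have h2 := IsLocalization.mk'_spec S n d
    rw [← h1, ← h2, mul_pow]
    ring
  rw [e, IsLocalization.mk'_mem_map_algebraMap_iff]
  exact ⟨1, M.one_mem, by rwa [one_mul]⟩

end mk'

namespace Tower

variable {q : ℕ} [NeZero q] {T : Tower q} {t : T.F₀} {m : ℕ} {f : T.F₂}

/-- `h ^ m / f = num / den` with both outside the point. -/
def IsGen (m : ℕ) (f : T.F₂) (x : Ideal (T.chart₂ t)) (h : T.F₂) (num den : T.chart₂ t) : Prop :=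
  num ∉ x ∧ den ∉ x ∧ (den : T.F₂) * (h ^ m / f) = num

theorem mul_mem_redField_lift (i : Fin 3) {r : LaurentSeries T.k} (hr : r ∈ T.redField) :
    ∃ y : T.F₂, T.branch i y ∈ gaussInt T.π ∧ T.red₂ i y = r := by
  obtain ⟨b, hb, rfl⟩ := hr
  fin_cases i
  · exact ⟨T.ι₁ (T.ι₀ b), hb, rfl⟩
  · refine ⟨T.ι₁ (T.ι₀ b), ?_, ?_⟩
    · show T.εb _ ∈ _
      rw [T.εb_ι₁]; exact hb
    · show gred T.π (T.εb _) = _
      rw [T.εb_ι₁]
      rfl
  · refine ⟨T.w₂ (T.ι₁ (T.ι₀ b)), ?_, ?_⟩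
    · show T.εc _ ∈ _
      rw [εc_w₂]; exact hb
    · show gred T.π (T.εc _) = _
      rw [εc_w₂]
      rfl

namespace Roots

variable (D : T.Roots m f)

theorem g_ne_zero (hm : m ≠ 0) (i : Fin 3) : D.g i ≠ 0 := fun h0 =>
  (D.cont i).2.2.2 (by rw [h0, zero_pow hm])

/-- The value of the root on a branch through a point. -/
def BranchVal (x : Ideal (T.chart₂ t)) (i : Fin 3) (h : T.F₂) (C S : T.chart₂ t) : Prop :=
  S ∉ x ∧ ∀ ρ, T.Cont (T.branch i h) ((q : T.L) ^ D.s i) ρ →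
    T.red₂ i C * ρ = T.red₂ i S * D.g i

variable {D}

theorem exists_cont_gen (hp : T.ChartParam t) (hm : m ≠ 0) (hf : f ≠ 0)
    {x : Ideal (T.chart₂ t)} {h : T.F₂} {num den : T.chart₂ t} (hg : IsGen m f x h num den)
    {i : Fin 3} (hi : Thru i x) :
    ∃ ρ, T.Cont (T.branch i h) ((q : T.L) ^ D.s i) ρ ∧
      ρ ^ m * T.red₂ i den = T.red₂ i num * D.g i ^ m := by
  obtain ⟨hn, hd, he⟩ := hg
  have hd0 : T.red₂ i (den : T.F₂) ≠ 0 := fun h0 => hd (hi den h0)
  have hn0 : T.red₂ i (num : T.F₂) ≠ 0 := fun h0 => hn (hi num h0)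
  have hnc : T.Cont (T.branch i num) 1 (T.red₂ i num) :=
    cont_one_iff.mpr ⟨branch_mem_gaussInt hp i num, rfl, hn0⟩
  have hdc : T.Cont (T.branch i den) 1 (T.red₂ i den) :=
    cont_one_iff.mpr ⟨branch_mem_gaussInt hp i den, rfl, hd0⟩
  have hd0' : (den : T.F₂) ≠ 0 := fun h0 => hdc.ne_zero (by rw [h0, map_zero])
  have e : h ^ m = (num : T.F₂) * f * (den : T.F₂)⁻¹ := by
    rw [← he]; field_simp
  have hc : T.Cont (T.branch i h ^ m) (((q : T.L) ^ D.s i) ^ m)
      (T.red₂ i num * D.g i ^ m * (T.red₂ i den)⁻¹) := by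
    rw [← map_pow, e, map_mul, map_mul, map_inv₀]
    refine ((hnc.mul (D.cont i)).mul hdc.inv).congr ?_
    rw [inv_one, one_mul, mul_one, ← zpow_natCast ((q : T.L) ^ D.s i), ← zpow_mul, mul_comm]
  obtain ⟨ρ, hρ, hρm⟩ := hc.of_pow hm (T.branch_bounded i h)
  exact ⟨ρ, hρ, by rw [hρm, inv_mul_cancel_right₀ hd0]⟩

/-- Values exist on every branch through the point. -/
theorem exists_branchVal (hI : T.Inputs) (ht : t = T.j ∨ t = T.j⁻¹) (hm : m ≠ 0) (hf : f ≠ 0)
    {x : Ideal (T.chart₂ t)} [x.IsMaximal] (hx : (q : T.chart₂ t) ∈ x) {h : T.F₂}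
    {num den : T.chart₂ t} (hg : IsGen m f x h num den) {i : Fin 3} (hi : Thru i x) :
    ∃ C S, D.BranchVal x i h C S := by
  have hp := chartParam_of_eq hI ht
  obtain ⟨ρ, hρ, hρm⟩ := exists_cont_gen (D := D) hp hm hf hg hi
  obtain ⟨y, hy, hyr⟩ := mul_mem_redField_lift i (D.mem i)
  have hgi := D.g_ne_zero hm i
  have hM : T.Cont (T.branch i (y * algebraMap T.K T.F₂ ((q : T.K) ^ D.s i) * h⁻¹)) 1
      (D.g i / ρ) := by
    rw [map_mul, map_mul, map_inv₀, div_eq_mul_inv]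
    have h1 := ((cont_one_iff.mpr ⟨hy, hyr, hgi⟩).mul (T.cont_q_pow i (D.s i))).mul hρ.inv
    rw [mul_one (D.g i)] at h1
    refine h1.congr ?_
    rw [one_mul, mul_inv_cancel₀ (zpow_ne_zero _ T.q_ne_zero)]
  obtain ⟨hMI, hMr, -⟩ := cont_one_iff.mp hM
  obtain ⟨d, b, hd, hdb⟩ := hp.exists_branch_fraction i hMI
  have hb : T.red₂ i (b : T.F₂) = T.red₂ i (d : T.F₂) * (D.g i / ρ) := by
    rw [← hdb]
    show gred T.π (T.branch i _) = _
    rw [map_mul, gred_mul (branch_mem_gaussInt hp i d) hMI, ← hMr]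
  obtain ⟨c, s, hs, hcase⟩ := branchRegularAt hI ht x hx i hi b d hd
  have hρ0 : ρ ≠ 0 := hρ.2.2.2
  rcases hcase with h1 | ⟨hc, h1⟩
  · refine ⟨c, s, hs, fun ρ' hρ' => ?_⟩
    rw [← (hρ.unique_q hρ').2]
    rw [hb] at h1
    field_simp at h1
    linear_combination -h1
  · exfalso
    rw [hb] at h1
    field_simp at h1
    have h2 : T.red₂ i (s : T.F₂) ^ m * T.red₂ i (num : T.F₂) =
        T.red₂ i (c : T.F₂) ^ m * T.red₂ i (den : T.F₂) := by
      apply mul_right_cancel₀ (pow_ne_zero m hgi)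
      have h3 := congrArg (· ^ m) h1
      simp only [mul_pow] at h3
      linear_combination T.red₂ i (den : T.F₂) * h3 - (T.red₂ i (s : T.F₂)) ^ m * hρm
    have hmem : s ^ m * num - c ^ m * den ∈ x := hi _ (by
      rw [← hp.redHom₂_apply, map_sub, map_mul, map_mul, map_pow, map_pow]
      exact sub_eq_zero.mpr h2)
    have h4 : s ^ m * num ∈ x := by
      have := x.add_mem hmem (x.mul_mem_right den (x.pow_mem_of_mem hc m (Nat.pos_of_ne_zero hm)))
      rwa [sub_add_cancel] at this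
    rcases (Ideal.IsMaximal.isPrime ‹_›).mem_or_mem h4 with h5 | h5
    · exact hs ((Ideal.IsMaximal.isPrime ‹_›).mem_of_pow_mem _ h5)
    · exact hg.1 h5

theorem BranchVal.pow_rel (hp : T.ChartParam t) (hm : m ≠ 0) (hf : f ≠ 0)
    {x : Ideal (T.chart₂ t)} {h : T.F₂} {num den : T.chart₂ t} (hg : IsGen m f x h num den)
    {i : Fin 3} (hi : Thru i x) {C S : T.chart₂ t} (hv : D.BranchVal x i h C S) :
    T.red₂ i (C : T.F₂) ^ m * T.red₂ i (num : T.F₂) =
      T.red₂ i (S : T.F₂) ^ m * T.red₂ i (den : T.F₂) := by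
  obtain ⟨ρ, hρ, hρm⟩ := exists_cont_gen (D := D) hp hm hf hg hi
  have h1 := congrArg (· ^ m) (hv.2 ρ hρ)
  simp only [mul_pow] at h1
  apply mul_right_cancel₀ (pow_ne_zero m (D.g_ne_zero hm i))
  linear_combination T.red₂ i (den : T.F₂) * h1 - T.red₂ i (C : T.F₂) ^ m * hρm

theorem BranchVal.sub_mem (hp : T.ChartParam t) (hm : m ≠ 0) (hf : f ≠ 0)
    {x : Ideal (T.chart₂ t)} {h : T.F₂} {num den : T.chart₂ t} (hg : IsGen m f x h num den)
    {i : Fin 3} (hi : Thru i x) {C S : T.chart₂ t} (hv : D.BranchVal x i h C S) :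
    C ^ m * num - S ^ m * den ∈ x :=
  hi _ (by
    rw [← hp.redHom₂_apply, map_sub, map_mul, map_mul, map_pow, map_pow]
    exact sub_eq_zero.mpr (hv.pow_rel hp hm hf hg hi))

theorem BranchVal.notMem (hp : T.ChartParam t) (hm : m ≠ 0) (hf : f ≠ 0)
    {x : Ideal (T.chart₂ t)} [x.IsMaximal] {h : T.F₂} {num den : T.chart₂ t}
    (hg : IsGen m f x h num den) {i : Fin 3} (hi : Thru i x) {C S : T.chart₂ t}
    (hv : D.BranchVal x i h C S) : C ∉ x := fun hC => by
  have h1 : S ^ m * den ∈ x := by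
    have := x.sub_mem (x.mul_mem_right num (x.pow_mem_of_mem hC m (Nat.pos_of_ne_zero hm)))
      (hv.sub_mem hp hm hf hg hi)
    rwa [sub_sub_cancel] at this
  rcases (Ideal.IsMaximal.isPrime ‹_›).mem_or_mem h1 with h2 | h2
  · exact hv.1 ((Ideal.IsMaximal.isPrime ‹_›).mem_of_pow_mem _ h2)
  · exact hg.2.1 h2

variable (D)

/-- An element of the root module is integral after dividing by the content. -/
theorem root_integral (hp : T.ChartParam t) (hm : m ≠ 0) (hf : f ≠ 0) (i : Fin 3) {e : T.F₂}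
    (he : e ^ m / f ∈ T.chart₂ t) :
    algebraMap T.L (LaurentSeries T.L) ((q : T.L) ^ D.s i)⁻¹ * T.branch i e ∈ gaussInt T.π ∧
      T.red (algebraMap T.L (LaurentSeries T.L) ((q : T.L) ^ D.s i)⁻¹ * T.branch i e) ^ m =
        T.red₂ i (e ^ m / f) * D.g i ^ m := by
  obtain ⟨-, hfI, hfr, -⟩ := D.cont i
  set X := algebraMap T.L (LaurentSeries T.L) ((q : T.L) ^ D.s i)⁻¹ * T.branch i e with hX
  have hpow : X ^ m = T.branch i (e ^ m / f) *
      (algebraMap T.L (LaurentSeries T.L) ((q : T.L) ^ ((m : ℤ) * D.s i))⁻¹ * T.branch i f) := by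
    rw [hX, mul_pow, map_div₀, map_pow, ← map_pow (algebraMap T.L (LaurentSeries T.L)), inv_pow,
      ← zpow_natCast ((q : T.L) ^ D.s i), ← zpow_mul, mul_comm (D.s i)]
    have hbf : T.branch i f ≠ 0 := (map_ne_zero _).mpr hf
    field_simp
  have hI' : X ^ m ∈ gaussInt T.π := hpow ▸ mul_mem (branch_mem_gaussInt hp i ⟨_, he⟩) hfI
  have hXI : X ∈ gaussInt T.π := by
    refine mem_gaussInt_of_isIntegral T.π_eq_zero
      (mul_mem ((gaussField T.A).algebraMap_mem _) (T.branch_bounded i e))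
      (IsIntegral.of_pow (Nat.pos_of_ne_zero hm) ?_)
    exact isIntegral_algebraMap (x := (⟨_, hI'⟩ : gaussInt T.π))
  refine ⟨hXI, ?_⟩
  rw [← hfr]
  show gred T.π X ^ m = _
  rw [← gred_pow hXI, hpow, gred_mul (branch_mem_gaussInt hp i ⟨_, he⟩) hfI]

/-- The elements `S` of the chart such that `S` times the prescribed roots comes from the root
module. -/
def rootIdeal (hp : T.ChartParam t) (hm : m ≠ 0) (hf : f ≠ 0) : Ideal (T.chart₂ t) where
  carrier := {S | ∃ e : T.F₂, e ^ m / f ∈ T.chart₂ t ∧ ∀ i,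
    T.red (algebraMap T.L (LaurentSeries T.L) ((q : T.L) ^ D.s i)⁻¹ * T.branch i e) =
      T.red₂ i (S : T.F₂) * D.g i}
  zero_mem' := ⟨0, by rw [zero_pow hm, zero_div]; exact zero_mem _, fun i => by
    show gred T.π _ = gred T.π _ * _
    rw [ZeroMemClass.coe_zero, map_zero, mul_zero, gred_zero, zero_mul]⟩
  add_mem' := by
    rintro S S' ⟨e, he, hr⟩ ⟨e', he', hr'⟩
    haveI := isIntegrallyClosed_chart₂ hp
    haveI := isFractionRing_chart₂ hp
    refine ⟨e + e', ?_, fun i => ?_⟩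
    · exact (mem_range_algebraMap_subalgebra _ _).mp ((rootModule (T.chart₂ t) f hm).add_mem
        ((mem_range_algebraMap_subalgebra _ _).mpr he) ((mem_range_algebraMap_subalgebra _ _).mpr he'))
    · show gred T.π _ = gred T.π _ * _
      rw [map_add, mul_add, gred_add (D.root_integral hp hm hf i he).1
        (D.root_integral hp hm hf i he').1, AddMemClass.coe_add, map_add,
        gred_add (branch_mem_gaussInt hp i S) (branch_mem_gaussInt hp i S'), add_mul]
      exact congrArg₂ (· + ·) (hr i) (hr' i)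
  smul_mem' := by
    rintro c S ⟨e, he, hr⟩
    refine ⟨(c : T.F₂) * e, ?_, fun i => ?_⟩
    · rw [mul_pow, mul_div_assoc]
      exact mul_mem (pow_mem c.2 m) he
    · show gred T.π _ = gred T.π _ * _
      rw [map_mul, mul_left_comm, gred_mul (branch_mem_gaussInt hp i c)
        (D.root_integral hp hm hf i he).1, smul_eq_mul, MulMemClass.coe_mul, map_mul,
        gred_mul (branch_mem_gaussInt hp i c) (branch_mem_gaussInt hp i S), mul_assoc]
      exact congrArg (_ * ·) (hr i)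

theorem glues_of_rootIdeal_eq_top (hp : T.ChartParam t) (hm : m ≠ 0) (hf : f ≠ 0)
    (h : D.rootIdeal hp hm hf = ⊤) : D.Glues t := by
  obtain ⟨e, he, hr⟩ := (h ▸ Submodule.mem_top : (1 : T.chart₂ t) ∈ D.rootIdeal hp hm hf)
  refine ⟨e, he, fun i => ⟨zpow_ne_zero _ T.q_ne_zero, (D.root_integral hp hm hf i he).1, ?_,
    D.g_ne_zero hm i⟩⟩
  rw [hr i]
  show gred T.π (T.branch i ((1 : T.chart₂ t) : T.F₂)) * _ = _
  rw [OneMemClass.coe_one, map_one, gred_one, one_mul]

theorem natCast_q_mem_rootIdeal (hp : T.ChartParam t) (hm : m ≠ 0) (hf : f ≠ 0) :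
    (q : T.chart₂ t) ∈ D.rootIdeal hp hm hf := by
  refine ⟨0, by rw [zero_pow hm, zero_div]; exact zero_mem _, fun i => ?_⟩
  rw [← hp.redHom₂_apply i (q : T.chart₂ t), hp.redHom₂_q, zero_mul, map_zero, mul_zero]
  exact gred_zero

theorem isUnit_natCast_W (hm : (m : T.k) ≠ 0) : IsUnit (m : T.W) := by
  haveI := T.isDiscreteValuationRing_W
  by_contra hu
  have h1 : (m : T.W) ∈ IsLocalRing.maximalIdeal T.W := (IsLocalRing.mem_maximalIdeal _).mpr hu
  rw [Irreducible.maximalIdeal_eq T.irreducible_q, Ideal.mem_span_singleton] at h1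
  obtain ⟨w, hw⟩ := h1
  exact hm (by rw [← map_natCast T.πW m, hw, map_mul, T.πW_q, zero_mul])

/-- Compatible values on the branches through a point give a root near it. -/
theorem exists_notMem_rootIdeal (hI : T.Inputs) (ht : t = T.j ∨ t = T.j⁻¹) (hm : (m : T.k) ≠ 0)
    (hf : f ≠ 0) {x : Ideal (T.chart₂ t)} [x.IsMaximal] (hx : (q : T.chart₂ t) ∈ x)
    {h : T.F₂} {num den : T.chart₂ t} (hg : IsGen m f x h num den) (C S : Fin 3 → T.chart₂ t)
    (hv : ∀ i, Thru i x → D.BranchVal x i h (C i) (S i))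
    (hcomp : ∀ i k, Thru i x → Thru k x → C i * S k - C k * S i ∈ x) :
    ∃ S' ∉ x, S' ∈ D.rootIdeal (chartParam_of_eq hI ht)
      (fun h0 => hm (by rw [h0, Nat.cast_zero])) hf := by
  classical
  have hp := chartParam_of_eq hI ht
  have hm0 : m ≠ 0 := fun h0 => hm (by rw [h0, Nat.cast_zero])
  haveI := T.isDiscreteValuationRing_W
  haveI := finiteType_chart₂ hI ht
  haveI : IsNoetherianRing (T.chart₂ t) := Algebra.FiniteType.isNoetherianRing T.W (T.chart₂ t)
  have hxp : x.IsPrime := Ideal.IsMaximal.isPrime ‹_›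
  set R := Localization.AtPrime x
  haveI : IsNoetherianRing R := IsLocalization.isNoetherianRing x.primeCompl R inferInstance
  let ι := {i : Fin 3 // Thru i x}
  let P : ι → Ideal R := fun i => (RingHom.ker (hp.redHom₂ i.1)).map (algebraMap _ R)
  let Sx : ι → x.primeCompl := fun i => ⟨S i.1, (hv i.1 i.2).1⟩
  obtain ⟨i₀, hi₀⟩ := exists_thru hp x hx
  obtain ⟨ee, hee⟩ := exists_forall_sub_mem_of_pow_eq_of_le P
    (fun i => by
      refine (Ideal.map_mono fun b hb => i.2 b (RingHom.mem_ker.mp hb)).trans ?_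
      rw [IsLocalization.AtPrime.map_eq_maximalIdeal x R])
    (IsLocalization.mk' R num (⟨den, hg.2.1⟩ : x.primeCompl)) (m := m)
    (by
      rw [← map_natCast ((algebraMap (T.chart₂ t) R).comp (algebraMap T.W (T.chart₂ t)))]
      exact (isUnit_natCast_W hm).map _)
    (fun i => IsLocalization.mk' R (C i.1) (Sx i))
    (IsLocalization.mk' R (C i₀) (Sx ⟨i₀, hi₀⟩))
    (fun i => by
      have hmem : C i.1 ^ m * num - S i.1 ^ m * den ∈ RingHom.ker (hp.redHom₂ i.1) := by
        rw [RingHom.mem_ker, map_sub, map_mul, map_mul, map_pow, map_pow]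
        exact sub_eq_zero.mpr ((hv i.1 i.2).pow_rel hp hm0 hf hg i.2)
      exact mk'_pow_mul_sub_one_mem (S := R) x.primeCompl (RingHom.ker (hp.redHom₂ i.1)) (a := C i.1)
        (n := num) (s := Sx i) (d := ⟨den, hg.2.1⟩) (m := m) hmem)
    (fun i => by
      rw [← IsLocalization.AtPrime.map_eq_maximalIdeal x R]
      exact (mk'_sub_mem_map_iff (S := R) x.primeCompl x (C i.1) (C i₀) (Sx i) (Sx ⟨i₀, hi₀⟩)).mpr
        ⟨1, x.primeCompl.one_mem, by rw [one_mul]; exact hcomp _ _ i.2 hi₀⟩)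
  obtain ⟨⟨e', s₀⟩, he'⟩ := IsLocalization.surj x.primeCompl ee
  have hee' : ee = IsLocalization.mk' R e' s₀ := IsLocalization.eq_mk'_iff_mul_eq.mpr he'
  have hbr : ∀ i : ι, T.red₂ i.1 (e' : T.F₂) * T.red₂ i.1 (S i.1 : T.F₂) =
      T.red₂ i.1 (C i.1 : T.F₂) * T.red₂ i.1 ((s₀ : T.chart₂ t) : T.F₂) := by
    intro i
    have h1 := hee i
    rw [hee'] at h1
    obtain ⟨w, hw, hwk⟩ := (mk'_sub_mem_map_iff (S := R) x.primeCompl (RingHom.ker (hp.redHom₂ i.1))
      e' (C i.1) s₀ (Sx i)).mp h1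
    rw [RingHom.mem_ker, map_mul, map_sub, map_mul, map_mul, mul_eq_zero] at hwk
    rcases hwk with h2 | h2
    · exact absurd (i.2 w h2) hw
    · exact sub_eq_zero.mp h2
  -- a factor killing the other branches
  have hz : ∀ i, ∃ z : T.chart₂ t, z ∉ x ∧ (¬ Thru i x → T.red₂ i (z : T.F₂) = 0) := by
    intro i
    by_cases hi : Thru i x
    · exact ⟨1, fun h1 => hxp.ne_top (x.eq_top_of_isUnit_mem h1 isUnit_one), fun h => absurd hi h⟩
    · simp only [Thru, not_forall] at hi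
      obtain ⟨z, hz, hzx⟩ := hi
      exact ⟨z, hzx, fun _ => hz⟩
  choose z hzx hz using hz
  set Z := ∏ i, z i
  have hZx : Z ∉ x := fun hZ => by
    obtain ⟨i, -, hi⟩ := Ideal.IsPrime.prod_mem_iff.mp hZ
    exact hzx i hi
  have hroot : ((den * Z * e' : T.chart₂ t) * h : T.F₂) ^ m / f ∈ T.chart₂ t := by
    have e1 : ((den * Z * e' : T.chart₂ t) * h : T.F₂) ^ m / f =
        ((den ^ (m - 1) * (Z * e') ^ m * num : T.chart₂ t) : T.F₂) := by
      obtain ⟨k, rfl⟩ : ∃ k, m = k + 1 := ⟨m - 1, by omega⟩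
      push_cast
      rw [← hg.2.2]
      ring
    rw [e1]
    exact SetLike.coe_mem _
  refine ⟨den * Z * s₀, fun hS => ?_, _, hroot, fun i => ?_⟩
  · rcases hxp.mem_or_mem hS with h1 | h1
    · rcases hxp.mem_or_mem h1 with h2 | h2
      exacts [hg.2.1 h2, hZx h2]
    · exact s₀.2 h1
  by_cases hi : Thru i x
  · obtain ⟨ρ, hρ, -⟩ := exists_cont_gen (D := D) hp hm0 hf hg hi
    obtain ⟨-, hρI, hρr, -⟩ := id hρ
    show gred T.π _ = _
    rw [map_mul, mul_left_comm, gred_mul (branch_mem_gaussInt hp i _) hρI,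
      show gred T.π _ = ρ from hρr, ← hp.redHom₂_apply i (den * Z * s₀),
      show gred T.π (T.branch i ((den * Z * e' : T.chart₂ t) : T.F₂)) =
        hp.redHom₂ i (den * Z * e') from rfl, map_mul, map_mul, map_mul, map_mul]
    have h2 := (hv i hi).2 ρ hρ
    have hS0 : T.red₂ i (S i : T.F₂) ≠ 0 := fun h0 => (hv i hi).1 (hi _ h0)
    apply mul_right_cancel₀ hS0
    simp only [ChartParam.redHom₂_apply]
    linear_combination (T.red₂ i (den : T.F₂) * T.red₂ i (Z : T.F₂) * ρ) * hbr ⟨i, hi⟩ +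
      (T.red₂ i (den : T.F₂) * T.red₂ i (Z : T.F₂) * T.red₂ i ((s₀ : T.chart₂ t) : T.F₂)) * h2
  · have hZ0 : hp.redHom₂ i Z = 0 := by
      rw [map_prod]
      exact Finset.prod_eq_zero (Finset.mem_univ i) (hz i hi)
    rw [← hp.redHom₂_apply i (den * Z * s₀), map_mul (hp.redHom₂ i), map_mul (hp.redHom₂ i), hZ0, mul_zero, zero_mul, zero_mul]
    have h3 := (D.root_integral hp hm0 hf i hroot).2
    have h4 : T.red₂ i (((den * Z * e' : T.chart₂ t) * h : T.F₂) ^ m / f) = 0 := by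
      have e1 : ((den * Z * e' : T.chart₂ t) * h : T.F₂) ^ m / f =
          ((den ^ (m - 1) * (Z * e') ^ m * num : T.chart₂ t) : T.F₂) := by
        obtain ⟨k, rfl⟩ : ∃ k, m = k + 1 := ⟨m - 1, by omega⟩
        push_cast
        rw [← hg.2.2]
        ring
      rw [e1, ← hp.redHom₂_apply, map_mul, map_mul, map_pow, map_pow, map_mul, hZ0, zero_mul,
        zero_pow hm0, mul_zero, zero_mul]
    rw [h4, zero_mul] at h3
    exact eq_zero_of_pow_eq_zero h3

end Roots

end Tower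

end FermatLib.Igusa.Carayol
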