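import Fermat.Agent.Igusa.Carayol.MainContent
import Fermat.Agent.Igusa.Carayol.LevelTwo

/-!
# The three contents and reductions of a function whose norms are `m`-th powers

After raising to the power `(q + 1) (q - 1) ^ 2` and dividing by a constant the three contents
are `m`-th powers of powers of `q` and the three reductions `m`-th powers in the reduced field.
-/

set_option autoImplicit false
set_option maxHeartbeats 800000
set_option synthInstance.maxHeartbeats 200000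
set_option linter.style.haveILetI false

noncomputable section

open ModularCurve HahnSeries FermatLib.Igusa

namespace FermatLib.Igusa.Carayol

namespace Tower

variable {q : ℕ} [NeZero q] (T : Tower q)

/-- The reduced field of level `N`. -/
def redField : Subfield (LaurentSeries T.k) where
  carrier := {r | ∃ b : T.F₀, T.e₀ b ∈ gaussInt T.π ∧ T.red₀ b = r}
  one_mem' := ⟨1, by rw [map_one]; exact one_mem _, by
    show gred T.π (T.e₀ 1) = 1
    rw [map_one, gred_one]⟩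
  zero_mem' := ⟨0, by rw [map_zero]; exact zero_mem _, by
    show gred T.π (T.e₀ 0) = 0
    rw [map_zero, gred_zero]⟩
  mul_mem' := by
    rintro _ _ ⟨b, hb, rfl⟩ ⟨d, hd, rfl⟩
    exact ⟨b * d, by rw [map_mul]; exact mul_mem hb hd, by
      show gred T.π (T.e₀ (b * d)) = _
      rw [map_mul]; exact gred_mul hb hd⟩
  add_mem' := by
    rintro _ _ ⟨b, hb, rfl⟩ ⟨d, hd, rfl⟩
    exact ⟨b + d, by rw [map_add]; exact add_mem hb hd, by
      show gred T.π (T.e₀ (b + d)) = _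
      rw [map_add]; exact gred_add hb hd⟩
  neg_mem' := by
    rintro _ ⟨b, hb, rfl⟩
    refine ⟨-b, by rw [map_neg]; exact neg_mem hb, ?_⟩
    show gred T.π (T.e₀ (-b)) = -gred T.π (T.e₀ b)
    rw [map_neg, ← neg_one_mul, gred_mul (neg_mem (one_mem _)) hb]
    have : gred T.π (-1 : LaurentSeries T.L) = -1 := by
      have h := gred_add (π := T.π) (neg_mem (one_mem (gaussInt T.π))) (one_mem _)
      rw [neg_add_cancel, gred_zero, gred_one] at h
      exact eq_neg_of_add_eq_zero_left h.symm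
    rw [this, neg_one_mul]
  inv_mem' := by
    rintro _ ⟨b, hb, rfl⟩
    by_cases h : gred T.π (T.e₀ b) = 0
    · refine ⟨0, by rw [map_zero]; exact zero_mem _, ?_⟩
      show gred T.π (T.e₀ 0) = (gred T.π (T.e₀ b))⁻¹
      rw [map_zero, gred_zero, h, inv_zero]
    · refine ⟨b⁻¹, by rw [map_inv₀]; exact inv_mem_gaussInt hb h, ?_⟩
      show gred T.π (T.e₀ b⁻¹) = _
      rw [map_inv₀]
      exact gred_inv hb h

theorem algebraMap_mem_redField (a : T.k) :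
    algebraMap T.k (LaurentSeries T.k) a ∈ T.redField := by
  obtain ⟨w, rfl⟩ := T.πW_surjective a
  exact ⟨_, (T.e₀_W w).1, (T.e₀_W w).2⟩

theorem εc_algebraMap (c : T.K) :
    T.εc (algebraMap T.K T.F₂ c) = algebraMap T.L (LaurentSeries T.L) (algebraMap T.K T.L c) := by
  rw [εc_apply, AlgEquiv.commutes, T.ε_algebraMap]

theorem q_ne_zero_K : (q : T.K) ≠ 0 := by
  haveI := T.charZeroK
  exact Nat.cast_ne_zero.mpr (NeZero.ne q)

theorem cont_q_pow (i : Fin 3) (n : ℤ) :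
    T.Cont (T.branch i (algebraMap T.K T.F₂ ((q : T.K) ^ n))) ((q : T.L) ^ n) 1 := by
  rw [branch_algebraMap, map_zpow₀, map_natCast]
  exact cont_const (zpow_ne_zero _ T.q_ne_zero)

theorem exists_cont_branch_two {y : T.F₂} (hy : y ≠ 0) :
    ∃ (s : ℤ) (r : LaurentSeries T.k), T.Cont (T.εc y) ((q : T.L) ^ s) r :=
  T.exists_cont_ε ((map_ne_zero T.w₂).mpr hy)

variable {T}

theorem Cont.prod {ι : Type*} (S : Finset ι) {h : ι → LaurentSeries T.L} {c : ι → T.L}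
    {r : ι → LaurentSeries T.k} (hh : ∀ i ∈ S, T.Cont (h i) (c i) (r i)) :
    T.Cont (∏ i ∈ S, h i) (∏ i ∈ S, c i) (∏ i ∈ S, r i) := by
  classical
  induction S using Finset.induction_on with
  | empty => simpa using Cont.one
  | insert a S ha ih =>
    rw [Finset.prod_insert ha, Finset.prod_insert ha, Finset.prod_insert ha]
    exact (hh a (Finset.mem_insert_self _ _)).mul
      (ih fun i hi => hh i (Finset.mem_insert_of_mem hi))

/-- Reductions with content a power of `q` lie in the reduced field. -/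
theorem Cont.mem_redField (hI : T.Inputs) {i : Fin 3} {f : T.F₂} {s : ℤ} {r : LaurentSeries T.k}
    (hf : T.Cont (T.branch i f) ((q : T.L) ^ s) r) : r ∈ T.redField := by
  have h := (T.cont_q_pow i (-s)).mul hf
  simp only [← map_mul, zpow_neg] at h
  rw [inv_mul_cancel₀ (zpow_ne_zero _ T.q_ne_zero), one_mul] at h
  obtain ⟨hm, hr, -⟩ := cont_one_iff.mp h
  obtain ⟨b, d, hb, hd, hd0, he⟩ := red₂_mem_reduced hI i _ hm
  rw [show T.red₂ i _ = r from hr] at he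
  rw [(eq_div_iff hd0).mpr he]
  exact div_mem (⟨b, hb, rfl⟩ : T.red₀ b ∈ T.redField) (⟨d, hd, rfl⟩ : T.red₀ d ∈ T.redField)

variable (T)

/-- The norm to level `N q` along `ι₁`. -/
def norm₁ (f : T.F₂) : T.F₁ :=
  letI := T.ι₁.toRingHom.toAlgebra
  Algebra.norm T.F₁ f

/-- The norm of `f` along `ι₁` is a constant times an `m`-th power. -/
def NormRoot (m : ℕ) (f : T.F₂) : Prop :=
  ∃ (γ : T.K) (G : T.F₁), T.norm₁ f = algebraMap T.K T.F₁ γ * G ^ m

theorem norm₁_mul (f g : T.F₂) : T.norm₁ (f * g) = T.norm₁ f * T.norm₁ g := by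
  unfold norm₁
  exact map_mul _ _ _

theorem norm₁_pow (f : T.F₂) (n : ℕ) : T.norm₁ (f ^ n) = T.norm₁ f ^ n := by
  unfold norm₁
  exact map_pow _ _ _

theorem norm₁_algebraMap (c : T.K) :
    T.norm₁ (algebraMap T.K T.F₂ c) = algebraMap T.K T.F₁ c ^ q := by
  letI := T.ι₁.toRingHom.toAlgebra
  show Algebra.norm T.F₁ _ = _
  rw [show algebraMap T.K T.F₂ c = algebraMap T.F₁ T.F₂ (algebraMap T.K T.F₁ c) from
    (T.ι₁.commutes c).symm, Algebra.norm_algebraMap, T.finrank₁]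

theorem norm₁_ne_zero {f : T.F₂} (hf : f ≠ 0) : T.norm₁ f ≠ 0 := by
  letI := T.ι₁.toRingHom.toAlgebra
  haveI := T.finrank_pos₂
  exact Algebra.norm_ne_zero_iff.mpr hf

variable {T}

theorem NormRoot.pow {m : ℕ} {f : T.F₂} (h : T.NormRoot m f) (n : ℕ) : T.NormRoot m (f ^ n) := by
  obtain ⟨γ, G, h⟩ := h
  exact ⟨γ ^ n, G ^ n, by rw [norm₁_pow, h, mul_pow, map_pow, ← pow_mul, ← pow_mul, mul_comm m n]⟩

theorem NormRoot.const_mul {m : ℕ} {f : T.F₂} (h : T.NormRoot m f) (c : T.K) :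
    T.NormRoot m (algebraMap T.K T.F₂ c * f) := by
  obtain ⟨γ, G, h⟩ := h
  exact ⟨c ^ q * γ, G, by rw [norm₁_mul, norm₁_algebraMap, h, map_mul, map_pow, mul_assoc]⟩

theorem normRoot_w₂ {m : ℕ} {f : T.F₂}
    (h : letI := T.β₁.toRingHom.toAlgebra
      ∃ (γ : T.K) (G : T.F₁), Algebra.norm T.F₁ f = algebraMap T.K T.F₁ γ * G ^ m) :
    T.NormRoot m (T.w₂ f) := by
  obtain ⟨γ, G, h⟩ := h
  refine ⟨γ, T.w₁ G, ?_⟩
  have e := T.norm_β₁ f
  rw [h] at e
  have e' := congrArg T.w₁ e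
  rw [T.w₁_w₁, map_mul, map_pow, AlgEquiv.commutes] at e'
  exact e'.symm

/-- Contents of the norm at `∞`. -/
theorem Cont.norm_inf {f : T.F₂} {c₀ c₁ : T.L} {r₀ r₁ : LaurentSeries T.k}
    (h0 : T.Cont (T.ε f) c₀ r₀) (h1 : T.Cont (T.εb f) c₁ r₁) :
    ∃ u : T.Aˣ, (((∀ i, T.conj i c₁ = c₁) → u = 1)) ∧
      T.Cont (T.ε (T.ι₁ (T.norm₁ f))) (c₀ * c₁ ^ (q - 1) * ((u : T.A) : T.L))
        (r₀ * r₁ ^ (q - 1)) := by
  classical
  choose u hu using fun i : Fin q => T.exists_conj_eq_mul (i : ℕ) h1.1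
  let z : Fin q := ⟨0, Nat.pos_of_ne_zero (NeZero.ne q)⟩
  let S := Finset.univ.erase z
  have hcard : S.card = q - 1 := by
    rw [Finset.card_erase_of_mem (Finset.mem_univ _), Finset.card_univ, Fintype.card_fin]
  have hval : ∀ i ∈ S, (i : ℕ) ≠ 0 := fun i hi h => Finset.ne_of_mem_erase hi (Fin.ext h)
  have hS : T.Cont (∏ i ∈ S, T.emb₂ i f) (∏ i ∈ S, c₁ * ((u i : T.A) : T.L))
      (∏ _i ∈ S, r₁) := by
    refine Cont.prod S fun i hi => ?_
    rw [emb₂, if_neg (hval i hi), ← hu i]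
    exact h1.conj i
  refine ⟨∏ i ∈ S, u i, fun hfix => Finset.prod_eq_one fun i _ => ?_, ?_⟩
  · refine Units.ext (Subtype.ext ?_)
    have h2 := hu i
    rw [hfix] at h2
    exact mul_left_cancel₀ h1.1 (h2.symm.trans (mul_one c₁).symm)
  · have hn : T.ε (T.ι₁ (T.norm₁ f)) = T.emb₂ z f * ∏ i ∈ S, T.emb₂ i f := by
      exact (T.map_norm₂ f).trans
        (Finset.mul_prod_erase Finset.univ (fun i => T.emb₂ i f) (Finset.mem_univ z)).symm
    have hz : T.Cont (T.emb₂ z f) c₀ r₀ := by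
      rw [emb₂, if_pos rfl]; exact h0
    rw [hn]
    have h3 := hz.mul hS
    rw [Finset.prod_const, hcard, Finset.prod_mul_distrib, Finset.prod_const, hcard,
      ← mul_assoc] at h3
    refine h3.congr ?_
    congr 1
    rw [Units.coe_prod, SubmonoidClass.coe_finsetProd]

/-- Contents of the norm at `0`. -/
theorem Cont.norm_zero {f : T.F₂} {c : T.L} {r : LaurentSeries T.k} (h : T.Cont (T.εc f) c r) :
    T.Cont (T.εc (T.ι₁ (T.norm₁ f))) (c ^ q) (r ^ q) := by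
  have h1 := Cont.prod (T := T) (Finset.univ : Finset (Fin q))
    (h := fun i => monoNewScale (T.toBase.ζL ^ (i : ℕ)) (T.εc f)) fun i _ => h.scale (i : ℕ)
  rw [Finset.prod_const, Finset.prod_const, Finset.card_univ, Fintype.card_fin,
    ← T.map_norm₂_zero f] at h1
  rw [εc_ι₁]
  exact h1

/-- The middle branch of the Atkin–Lehner transform. -/
theorem Cont.εb_w₂ {f : T.F₂} {c : T.L} {r : LaurentSeries T.k} (h : T.Cont (T.εb f) c r) :
    T.Cont (T.εb (T.w₂ f)) (T.conj (q - 1) c) r := by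
  rw [T.εb_w₂]
  have := (h.conj (q - 1)).scale 1
  rwa [pow_one] at this

theorem εc_w₂ (f : T.F₂) : T.εc (T.w₂ f) = T.ε f := by
  rw [εc_apply, T.w₂_w₂]

theorem conj_q_zpow (i : ℕ) (n : ℤ) : T.conj i ((q : T.L) ^ n) = (q : T.L) ^ n := by
  rw [map_zpow₀, map_natCast]

/-- The two contents and reductions of a norm which is a constant times an `m`-th power. -/
theorem NormRoot.exists_cont (hI : T.Inputs) {m : ℕ} (hm : m ≠ 0) {f : T.F₂} (hf : f ≠ 0)
    (h : T.NormRoot m f) :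
    ∃ (k g₀ g₂ : ℤ) (a : T.k) (R₀ R₂ : LaurentSeries T.k), a ≠ 0 ∧ R₀ ∈ T.redField ∧
      R₂ ∈ T.redField ∧
      T.Cont (T.ε (T.ι₁ (T.norm₁ f))) ((q : T.L) ^ (k + m * g₀))
        (algebraMap T.k (LaurentSeries T.k) a * R₀ ^ m) ∧
      T.Cont (T.εc (T.ι₁ (T.norm₁ f))) ((q : T.L) ^ (k + m * g₂))
        (algebraMap T.k (LaurentSeries T.k) a * R₂ ^ m) := by
  obtain ⟨γ, G, hN⟩ := h
  have hne := T.norm₁_ne_zero hf
  rw [hN] at hne
  obtain ⟨hγ, hG⟩ := mul_ne_zero_iff.mp hne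
  have hG' : G ≠ 0 := fun h0 => hG (by rw [h0, zero_pow hm])
  have hγ' : algebraMap T.K T.L γ ≠ 0 :=
    (_root_.map_ne_zero _).mpr fun h0 => hγ (by rw [h0, map_zero])
  have hιG : T.ι₁ G ≠ 0 := (map_ne_zero T.ι₁).mpr hG'
  obtain ⟨g₀, R₀, h0⟩ := T.exists_cont_ε hιG
  obtain ⟨g₂, R₂, h2⟩ := T.exists_cont_branch_two hιG
  obtain ⟨k, r, hk⟩ := T.exists_cont_ε (y := algebraMap T.K T.F₂ γ)
    ((_root_.map_ne_zero _).mpr fun h0 => hγ (by rw [h0, map_zero]))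
  have hk' := hk
  rw [T.ε_algebraMap] at hk'
  obtain ⟨u, -, hr⟩ := hk'.unique (cont_const hγ')
  rw [mul_one] at hr
  subst hr
  refine ⟨k, g₀, g₂, T.π u, R₀, R₂, (u.isUnit.map T.π).ne_zero,
    Cont.mem_redField hI (i := 0) h0, Cont.mem_redField hI (i := 2) h2, ?_, ?_⟩
  · rw [hN, map_mul, map_pow, AlgHom.commutes, map_mul, map_pow, zpow_add₀ T.q_ne_zero,
      mul_comm (m : ℤ), zpow_mul, zpow_natCast]
    exact hk.mul (h0.pow m)
  · rw [hN, map_mul, map_pow, AlgHom.commutes, map_mul, map_pow, zpow_add₀ T.q_ne_zero,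
      mul_comm (m : ℤ), zpow_mul, zpow_natCast, T.εc_algebraMap]
    exact hk'.mul (h2.pow m)

/-- Contents of `f` and the linear relations from its norm. -/
theorem NormRoot.exists_exponents (hI : T.Inputs) {m : ℕ} (hm : m ≠ 0) {f : T.F₂} (hf : f ≠ 0)
    (h : T.NormRoot m f) :
    ∃ (a c B : ℤ), (∃ r, T.Cont (T.ε f) ((q : T.L) ^ a) r) ∧
      (∃ r, T.Cont (T.εc f) ((q : T.L) ^ c) r) ∧
      (∃ r, T.Cont (T.εb f ^ (q - 1)) ((q : T.L) ^ B) r) ∧ (m : ℤ) ∣ B + a - q * c := by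
  obtain ⟨a, r₀, h0⟩ := T.exists_cont_ε hf
  obtain ⟨c, r₂, h2⟩ := T.exists_cont_branch_two hf
  obtain ⟨c₁, r₁, h1⟩ := T.exists_cont (T.εb_bounded f) ((map_ne_zero T.εb).mpr hf)
  obtain ⟨k, g₀, g₂, x, R₀, R₂, -, -, -, hN0, hN2⟩ := h.exists_cont hI hm hf
  obtain ⟨u, -, hn⟩ := h0.norm_inf h1
  obtain ⟨v, hv, -⟩ := hn.unique hN0
  have hn2 := h2.norm_zero
  rw [← zpow_natCast, ← zpow_mul] at hn2
  have hc := (hn2.unique_q hN2).1
  refine ⟨a, c, k + m * g₀ - a, ⟨_, h0⟩, ⟨_, h2⟩, ⟨_, ((h1.pow (q - 1)).mul_unit (u * v)).congr ?_⟩,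
    g₀ - g₂, by linear_combination -hc⟩
  rw [zpow_sub₀ T.q_ne_zero, hv, Units.val_mul, MulMemClass.coe_mul,
    eq_div_iff (zpow_ne_zero _ T.q_ne_zero)]
  ring

/-- The normalised data attached to `f`. -/
structure Roots (T : Tower q) (m : ℕ) (f : T.F₂) where
  s : Fin 3 → ℤ
  g : Fin 3 → LaurentSeries T.k
  cont : ∀ i, T.Cont (T.branch i f) ((q : T.L) ^ ((m : ℤ) * s i)) (g i ^ m)
  mem : ∀ i, g i ∈ T.redField

/-- Step 1: the contents become divisible by `m`. -/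
theorem exists_contents_dvd (hI : T.Inputs) {m : ℕ} (hm : m ≠ 0) {f : T.F₂} (hf : f ≠ 0)
    (h : T.NormRoot m f) (h' : T.NormRoot m (T.w₂ f)) :
    ∃ (n : ℤ) (s : Fin 3 → ℤ) (r : Fin 3 → LaurentSeries T.k),
      ∀ i, T.Cont (T.branch i (algebraMap T.K T.F₂ ((q : T.K) ^ n) * f ^ ((q + 1) * (q - 1))))
        ((q : T.L) ^ ((m : ℤ) * s i)) (r i) := by
  obtain ⟨a, c, B, ⟨ra, ha⟩, ⟨rc, hc⟩, ⟨rb, hb⟩, hd⟩ := h.exists_exponents hI hm hf
  obtain ⟨a', c', B', ⟨ra', ha'⟩, ⟨rc', hc'⟩, ⟨rb', hb'⟩, hd'⟩ :=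
    h'.exists_exponents hI hm ((map_ne_zero T.w₂).mpr hf)
  rw [εc_w₂] at hc'
  obtain ⟨rfl, -⟩ := ha.unique_q hc'
  obtain ⟨rfl, -⟩ := hc.unique_q ha'
  have hbw : T.εb (T.w₂ f) ^ (q - 1) = T.εb (T.w₂ (f ^ (q - 1))) := by rw [map_pow, map_pow]
  rw [hbw] at hb'
  rw [← map_pow] at hb
  obtain ⟨rfl, -⟩ := ((Cont.εb_w₂ hb).congr (conj_q_zpow _ _)).unique_q hb'
  obtain ⟨x, hx⟩ := hd
  obtain ⟨y, hy⟩ := hd'
  have hq : ((q - 1 : ℕ) : ℤ) = (q : ℤ) - 1 := by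
    rw [Nat.cast_sub T.prime.pos, Nat.cast_one]
  suffices H : ∀ i : Fin 3, ∃ r, T.Cont (T.branch i (algebraMap T.K T.F₂
      ((q : T.K) ^ (-(a * ((q + 1) * (q - 1) : ℕ)))) * f ^ ((q + 1) * (q - 1))))
      ((q : T.L) ^ ((m : ℤ) * ![0, (q + 1 : ℤ) * x + q * (y - x),
        (q - 1 : ℤ) * (y - x)] i)) r by
    choose r hr using H
    exact ⟨_, _, r, hr⟩
  intro i
  have hn := T.cont_q_pow i (-(a * ((q + 1) * (q - 1) : ℕ)))
  fin_cases i
  · apply Exists.intro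
    show T.Cont (T.ε _) _ _
    rw [map_mul, map_pow]
    refine (hn.mul (ha.pow ((q + 1) * (q - 1)))).congr ?_
    rw [← zpow_natCast, ← zpow_mul, ← zpow_add₀ T.q_ne_zero]
    congr 1
    simp
  · apply Exists.intro
    show T.Cont (T.εb _) _ _
    rw [map_mul, show f ^ ((q + 1) * (q - 1)) = (f ^ (q - 1)) ^ (q + 1) from by
      rw [← pow_mul, Nat.mul_comm], map_pow]
    refine (hn.mul (hb.pow (q + 1))).congr ?_
    rw [← zpow_natCast, ← zpow_mul, ← zpow_add₀ T.q_ne_zero]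
    congr 1
    simp only [Nat.cast_mul, Nat.cast_add, Nat.cast_one, hq, Fin.isValue, Fin.mk_one,
      Matrix.cons_val_one, Matrix.cons_val_zero]
    linear_combination (q + 1 : ℤ) * hx - (q : ℤ) * (hx - hy)
  · apply Exists.intro
    show T.Cont (T.εc _) _ _
    rw [map_mul, map_pow]
    refine (hn.mul (hc.pow ((q + 1) * (q - 1)))).congr ?_
    rw [← zpow_natCast, ← zpow_mul, ← zpow_add₀ T.q_ne_zero]
    congr 1
    simp only [Nat.cast_mul, Nat.cast_add, Nat.cast_one, hq, Fin.reduceFinMk,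
      Matrix.cons_val]
    linear_combination (q - 1 : ℤ) * (hy - hx)

/-- An element of a subfield with `q`-th power a constant times an `m`-th power is one. -/
theorem exists_root_of_pow_eq {m : ℕ} (hm : (m : T.k) ≠ 0) {r R : LaurentSeries T.k}
    (hr0 : r ≠ 0) (hr : r ∈ T.redField) (hR : R ∈ T.redField) {a : T.k}
    (h : r ^ q = algebraMap T.k (LaurentSeries T.k) a * R ^ m) :
    ∃ g ∈ T.redField, g ^ m = r := by
  have hm0 : m ≠ 0 := fun h0 => hm (by rw [h0, Nat.cast_zero])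
  obtain ⟨b, rfl⟩ := IsAlgClosed.exists_pow_nat_eq a (Nat.pos_of_ne_zero hm0)
  have hcop : Int.gcd (q : ℤ) (m : ℤ) = 1 := by
    rw [Int.gcd_natCast_natCast]
    exact (T.prime.coprime_iff_not_dvd).mpr fun hd => hm ((CharP.cast_eq_zero_iff T.k q m).mpr hd)
  obtain ⟨x, y, hxy⟩ := Int.isCoprime_iff_gcd_eq_one.mpr hcop
  set z := algebraMap T.k (LaurentSeries T.k) b * R with hz
  have hzq : z ^ m = r ^ q := by rw [hz, mul_pow, ← map_pow, h]
  refine ⟨z ^ x * r ^ y, mul_mem (zpow_mem (mul_mem (T.algebraMap_mem_redField b) hR) x)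
    (zpow_mem hr y), ?_⟩
  conv_rhs => rw [← zpow_one r, ← hxy, zpow_add₀ hr0]
  rw [mul_pow, ← zpow_natCast, ← zpow_natCast (r ^ y), ← zpow_mul, ← zpow_mul, mul_comm x (m : ℤ),
    mul_comm y (m : ℤ), zpow_mul z, zpow_natCast z, hzq, ← zpow_natCast, ← zpow_mul,
    mul_comm (q : ℤ) x]

/-- Step 2: the reductions become `m`-th powers in the reduced field. -/
theorem exists_roots (hI : T.Inputs) {m : ℕ} (hm : (m : T.k) ≠ 0) {f : T.F₂} (hf : f ≠ 0)
    (h : T.NormRoot m f) (h' : T.NormRoot m (T.w₂ f)) (s : Fin 3 → ℤ)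
    (r : Fin 3 → LaurentSeries T.k)
    (hc : ∀ i, T.Cont (T.branch i f) ((q : T.L) ^ ((m : ℤ) * s i)) (r i)) :
    Nonempty (T.Roots m (f ^ (q - 1))) := by
  have hm0 : m ≠ 0 := fun h0 => hm (by rw [h0, Nat.cast_zero])
  have hmem : ∀ i, r i ∈ T.redField := fun i => (hc i).mem_redField hI
  have hr0 : ∀ i, r i ≠ 0 := fun i => (hc i).2.2.2
  obtain ⟨k, g₀, g₂, a, R₀, R₂, ha, hR₀, hR₂, hN0, hN2⟩ := h.exists_cont hI hm0 hf
  obtain ⟨k', g₀', g₂', a', R₀', R₂', ha', hR₀', hR₂', hN0', hN2'⟩ :=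
    h'.exists_cont hI hm0 ((map_ne_zero T.w₂).mpr hf)
  obtain ⟨u, hu, hn⟩ := (hc 0).norm_inf (hc 1)
  rw [hu (fun i => conj_q_zpow i _), Units.val_one, OneMemClass.coe_one, mul_one, ← zpow_natCast,
    ← zpow_mul, ← zpow_add₀ T.q_ne_zero] at hn
  have e₀ := (hn.unique_q hN0).2
  have hn2 : T.Cont (T.εc (T.ι₁ (T.norm₁ f))) (((q : T.L) ^ ((m : ℤ) * s 2)) ^ q) (r 2 ^ q) :=
    (hc 2).norm_zero
  rw [← zpow_natCast, ← zpow_mul] at hn2
  have e₂ := (hn2.unique_q hN2).2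
  have hn0' : T.Cont (T.εc (T.ι₁ (T.norm₁ (T.w₂ f)))) (((q : T.L) ^ ((m : ℤ) * s 0)) ^ q)
      (r 0 ^ q) := Cont.norm_zero (by rw [εc_w₂]; exact hc 0)
  rw [← zpow_natCast, ← zpow_mul] at hn0'
  have e₀' := (hn0'.unique_q hN2').2
  obtain ⟨z₀, hz₀, hz₀'⟩ := exists_root_of_pow_eq hm (hr0 0) (hmem 0) hR₂' e₀'
  obtain ⟨z₂, hz₂, hz₂'⟩ := exists_root_of_pow_eq hm (hr0 2) (hmem 2) hR₂ e₂
  obtain ⟨b, rfl⟩ := IsAlgClosed.exists_pow_nat_eq a (Nat.pos_of_ne_zero hm0)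
  refine ⟨⟨fun i => (q - 1 : ℕ) * s i,
    ![z₀ ^ (q - 1), algebraMap T.k (LaurentSeries T.k) b * R₀ / z₀, z₂ ^ (q - 1)],
    fun i => ?_, fun i => ?_⟩⟩
  · rw [map_pow]
    have hp := (hc i).pow (q - 1)
    rw [← zpow_natCast ((q : T.L) ^ _), ← zpow_mul, mul_assoc, mul_comm (s i)] at hp
    convert hp using 1
    fin_cases i
    · show (z₀ ^ (q - 1)) ^ m = r 0 ^ (q - 1)
      rw [← pow_mul, mul_comm, pow_mul, hz₀']
    · show (algebraMap T.k (LaurentSeries T.k) b * R₀ / z₀) ^ m = r 1 ^ (q - 1)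
      rw [div_pow, hz₀', mul_pow, ← map_pow, ← e₀, mul_div_cancel_left₀ _ (hr0 0)]
    · show (z₂ ^ (q - 1)) ^ m = r 2 ^ (q - 1)
      rw [← pow_mul, mul_comm, pow_mul, hz₂']
  · fin_cases i
    · exact pow_mem hz₀ _
    · exact div_mem (mul_mem (T.algebraMap_mem_redField b) hR₀) hz₀
    · exact pow_mem hz₂ _

/-- The exponent of the normalisation. -/
def normExp (q : ℕ) : ℕ := (q + 1) * (q - 1) * (q - 1)

/-- Normalisation of a function whose two norms are constants times `m`-th powers. -/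
theorem exists_normalised (hI : T.Inputs) {m : ℕ} (hm : (m : T.k) ≠ 0) {f : T.F₂} (hf : f ≠ 0)
    (h : T.NormRoot m f) (h' : T.NormRoot m (T.w₂ f)) :
    ∃ (c : T.K), c ≠ 0 ∧
      Nonempty (T.Roots m (algebraMap T.K T.F₂ c * f ^ normExp q)) ∧
      T.NormRoot m (algebraMap T.K T.F₂ c * f ^ normExp q) ∧
      T.NormRoot m (T.w₂ (algebraMap T.K T.F₂ c * f ^ normExp q)) := by
  have hm0 : m ≠ 0 := fun h0 => hm (by rw [h0, Nat.cast_zero])
  obtain ⟨n, s, r, hc⟩ := exists_contents_dvd hI hm0 hf h h'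
  set c₀ := (q : T.K) ^ n with hc₀
  set f₁ := algebraMap T.K T.F₂ c₀ * f ^ ((q + 1) * (q - 1)) with hf₁
  have hf₁0 : f₁ ≠ 0 :=
    mul_ne_zero ((_root_.map_ne_zero _).mpr (zpow_ne_zero _ T.q_ne_zero_K)) (pow_ne_zero _ hf)
  have e : algebraMap T.K T.F₂ (c₀ ^ (q - 1)) * f ^ normExp q = f₁ ^ (q - 1) := by
    rw [hf₁, mul_pow, map_pow, ← pow_mul]; rfl
  have h1 : T.NormRoot m f₁ := (h.pow _).const_mul _
  have h1' : T.NormRoot m (T.w₂ f₁) := by
    rw [hf₁, map_mul, map_pow, AlgEquiv.commutes]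
    exact (h'.pow _).const_mul _
  refine ⟨c₀ ^ (q - 1), pow_ne_zero _ (zpow_ne_zero _ T.q_ne_zero_K), ?_, ?_, ?_⟩ <;> rw [e]
  · exact exists_roots hI hm hf₁0 h1 h1' s r hc
  · exact h1.pow _
  · rw [map_pow]; exact h1'.pow _

end Tower

end FermatLib.Igusa.Carayol
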