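import Fermat.Agent.Igusa.Carayol.MainLocal

/-!
# The values of the three roots at a point where the branches meet

The norm to level `N q`, read on its two branches, ties the three values together; applied to the
function and to its Atkin–Lehner transform this makes their ratios constants up to the power
`(q + 1) (q - 1)`.
-/

set_option autoImplicit false
set_option maxHeartbeats 800000
set_option synthInstance.maxHeartbeats 200000
set_option linter.style.haveILetI false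

noncomputable section

open ModularCurve FermatLib.Igusa

namespace FermatLib.Igusa.Carayol

namespace Tower

variable {q : ℕ} [NeZero q] {T : Tower q} {t : T.F₀} {m : ℕ} {f : T.F₂}

/-- On the middle branch the reduced chart is the reduced chart of level `N`. -/
theorem exists_red₂_one_lift (ht : T.ChartParam t) (a : T.chart₂ t) :
    ∃ b : T.chart₀ t, T.red₂ 1 (a : T.F₂) = T.red₀ (b : T.F₀) := by
  obtain ⟨b, d, hb, hd, hd0, he⟩ :=
    inReduced_red₂ (T := T) 1 (a : T.F₂) (branch_mem_gaussInt ht 1 a)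
  have hr : T.red₂ 1 (a : T.F₂) = T.red₀ b / T.red₀ d := (eq_div_iff hd0).mpr he
  set R := Algebra.adjoin T.W {T.ι₁ (T.ι₀ t)} with hR
  have hle : R ≤ T.chart₂ t := Algebra.adjoin_le (Set.singleton_subset_iff.mpr (ι₁ι₀_mem_chart₂ t))
  let g : R →+* LaurentSeries T.k :=
    (ht.redHom₂ 1).comp (Subalgebra.inclusion hle).toRingHom
  have hpair : ∀ r ∈ R, T.εb r ∈ gaussInt T.π ∧
      gred T.π (T.εb r) ∈ Algebra.adjoin T.k {T.red₀ t} := by
    intro r hr'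
    induction hr' using Algebra.adjoin_induction with
    | mem z hz =>
      rw [Set.mem_singleton_iff] at hz
      subst hz
      rw [T.εb_ι₁]
      exact ⟨ht.int, Algebra.self_mem_adjoin_singleton T.k _⟩
    | algebraMap w =>
      rw [show T.εb (algebraMap T.W T.F₂ w) = algebraMap T.L (LaurentSeries T.L)
        (algebraMap T.K T.L (w : T.K)) from T.εb_algebraMap (w : T.K)]
      refine ⟨algebraMap_mem_gaussInt (π := T.π) ⟨_, T.coe_mem_A w⟩, ?_⟩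
      rw [show gred T.π (algebraMap T.L (LaurentSeries T.L) (algebraMap T.K T.L (w : T.K))) =
        algebraMap T.k (LaurentSeries T.k) (T.πW w) from gred_algebraMap (π := T.π) ⟨_, T.coe_mem_A w⟩]
      exact Subalgebra.algebraMap_mem _ _
    | add a b _ _ ha hb =>
      rw [map_add, gred_add ha.1 hb.1]
      exact ⟨add_mem ha.1 hb.1, add_mem ha.2 hb.2⟩
    | mul a b _ _ ha hb =>
      rw [map_mul, gred_mul ha.1 hb.1]
      exact ⟨mul_mem ha.1 hb.1, mul_mem ha.2 hb.2⟩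
  have hgmem : ∀ r, g r ∈ Algebra.adjoin T.k {T.red₀ t} := fun r => (hpair r r.2).2
  have hint : IsIntegral (Algebra.adjoin T.k {T.red₀ t}) (T.red₂ 1 (a : T.F₂)) := by
    obtain ⟨p, hp, hpa⟩ := (a.2 : IsIntegral R (a : T.F₂))
    refine ⟨p.map (g.codRestrict (Algebra.adjoin T.k {T.red₀ t}).toSubring hgmem), hp.map _, ?_⟩
    rw [Polynomial.eval₂_map]
    show p.eval₂ g (ht.redHom₂ 1 a) = 0
    have h0 : p.eval₂ (Subalgebra.inclusion hle).toRingHom a = 0 := Subtype.ext (by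
      show (T.chart₂ t).val.toRingHom _ = _
      rw [Polynomial.hom_eval₂]
      exact hpa)
    rw [← Polynomial.hom_eval₂, h0, map_zero]
  rw [hr] at hint ⊢
  obtain ⟨b', hb'⟩ := ht.span_rat_le_redRing (ht.smooth b d hb hd hd0 hint)
  exact ⟨b', hb'.symm⟩

theorem exists_monic_lift₂ (t : T.F₀) {R : Type} [CommRing R] (i : R →+* T.F₂)
    (hi : ∀ r ∈ Algebra.adjoin T.W {T.ι₁ (T.ι₀ t)}, r ∈ i.range) (a : T.chart₂ t) :
    ∃ p : Polynomial R, p.Monic ∧ p.eval₂ i (a : T.F₂) = 0 := by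
  obtain ⟨p, hp, hpa⟩ := (a.2 : IsIntegral (Algebra.adjoin T.W {T.ι₁ (T.ι₀ t)}) (a : T.F₂))
  obtain ⟨p', hp', -, hp'm⟩ := Polynomial.lifts_and_natDegree_eq_and_monic
    ((Polynomial.lifts_iff_coeff_lifts (f := i) (p.map (algebraMap _ T.F₂))).mpr fun n => by
      rw [Polynomial.coeff_map]
      exact hi _ (p.coeff n).2) (hp.map _)
  refine ⟨p', hp'm, ?_⟩
  rw [Polynomial.eval₂_eq_eval_map, hp', Polynomial.eval_map]
  exact hpa

theorem adjoin_le_range_ι₁ (t : T.F₀) {r : T.F₂}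
    (hr : r ∈ Algebra.adjoin T.W {T.ι₁ (T.ι₀ t)}) :
    ∃ s ∈ Algebra.adjoin T.W {T.ι₀ t}, T.ι₁ s = r := by
  have h : r ∈ (Algebra.adjoin T.W {T.ι₀ t}).map (T.ι₁.restrictScalars T.W) := by
    rwa [AlgHom.map_adjoin, Set.image_singleton]
  obtain ⟨s, hs, hsr⟩ := h
  exact ⟨s, hs, hsr⟩

/-- The norm of an element of the chart of level `N q²` lies in the chart of level `N q`. -/
theorem norm₁_mem_chart₁ (a : T.chart₂ t) : T.norm₁ (a : T.F₂) ∈ T.chart₁ t := by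
  letI := T.ι₁.toRingHom.toAlgebra
  haveI := T.finrank_pos₂
  set R := Algebra.adjoin T.W {T.ι₀ t}
  haveI : IsScalarTower R T.F₁ T.F₂ := IsScalarTower.of_algebraMap_eq fun _ => rfl
  obtain ⟨p, hp, hpa⟩ := exists_monic_lift₂ t (algebraMap R T.F₂) (fun r hr => by
    obtain ⟨s, hs, hsr⟩ := adjoin_le_range_ι₁ t hr
    exact ⟨⟨s, hs⟩, hsr⟩) a
  exact Algebra.isIntegral_norm T.F₁ ⟨p, hp, hpa⟩

/-- Elements outside a point alone over its image divide elements outside that image. -/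
theorem exists_mul_eq_chartIncl₂ (x : Ideal (T.chart₂ t)) [x.IsMaximal]
    (h : ∀ x' : Ideal (T.chart₂ t), x'.IsMaximal →
      x'.comap (chartIncl₂ t) = x.comap (chartIncl₂ t) → x' = x) {s : T.chart₂ t} (hs : s ∉ x) :
    ∃ (r : T.chart₁ t) (s' : T.chart₂ t), chartIncl₂ t r ∉ x ∧ s * s' = chartIncl₂ t r := by
  letI : Algebra (T.chart₁ t) (T.chart₂ t) := (chartIncl₂ t).toRingHom.toAlgebra
  haveI : Algebra.IsIntegral (T.chart₁ t) (T.chart₂ t) := ⟨fun a => by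
    obtain ⟨p, hp, hpa⟩ := exists_monic_lift₂ t ((T.chart₂ t).val.toRingHom.comp
      (chartIncl₂ t).toRingHom) (fun r hr => by
        obtain ⟨s, hs, hsr⟩ := adjoin_le_range_ι₁ t hr
        have hs1 : s ∈ T.chart₁ t :=
          isIntegral_algebraMap (x := (⟨s, hs⟩ : Algebra.adjoin T.W {T.ι₀ t}))
        exact ⟨⟨s, hs1⟩, hsr⟩) a
    refine ⟨p, hp, Subtype.ext ?_⟩
    show (T.chart₂ t).val.toRingHom _ = _
    rw [Polynomial.hom_eval₂]
    exact hpa⟩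
  exact exists_mul_eq_of_alone x h hs

namespace Roots

variable (D : T.Roots m f)

/-- **Values of the norm at a meeting point.** -/
theorem exists_norm_constants (hI : T.Inputs) (hm : (m : T.k) ≠ 0) (hf : f ≠ 0)
    (hN : T.NormRoot m f) :
    ∃ ξ ξ' : T.k, ξ ≠ 0 ∧ ξ' ≠ 0 ∧ ξ ^ m = ξ' ^ m ∧
      ∀ (x : Ideal (T.chart₂ T.j)) [x.IsMaximal], (q : T.chart₂ T.j) ∈ x → (∀ l, Thru l x) →
        (∀ x' : Ideal (T.chart₂ T.j), x'.IsMaximal →
          x'.comap (chartIncl₂ T.j) = x.comap (chartIncl₂ T.j) → x' = x) →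
        ∀ (h : T.F₂) (num den : T.chart₂ T.j), IsGen m f x h num den →
        ∀ C S : Fin 3 → T.chart₂ T.j, (∀ i, D.BranchVal x i h (C i) (S i)) →
        ∀ w w' : T.W, T.πW w = ξ → T.πW w' = ξ' →
          algebraMap T.W _ w' * (C 0 * C 1 ^ (q - 1) * S 2 ^ q) -
            algebraMap T.W _ w * (S 0 * S 1 ^ (q - 1) * C 2 ^ q) ∈ x := by
  have hm0 : m ≠ 0 := fun h0 => hm (by rw [h0, Nat.cast_zero])
  have hp := T.chartParam_j hI
  have hNne := T.norm₁_ne_zero hf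
  obtain ⟨γ, G, hNf⟩ := hN
  rw [hNf] at hNne
  obtain ⟨hγ, hG⟩ := mul_ne_zero_iff.mp hNne
  have hG' : G ≠ 0 := fun h0 => hG (by rw [h0, zero_pow hm0])
  have hγ' : γ ≠ 0 := fun h0 => hγ (by rw [h0, map_zero])
  have hιG : T.ι₁ G ≠ 0 := (map_ne_zero T.ι₁).mpr hG'
  obtain ⟨g₀, R₀, h0G⟩ := T.exists_cont_ε hιG
  obtain ⟨g₂, R₂, h2G⟩ := T.exists_cont_branch_two hιG
  obtain ⟨k, r, hk⟩ := T.exists_cont_ε (y := algebraMap T.K T.F₂ γ)
    ((_root_.map_ne_zero _).mpr hγ')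
  have hk' := hk
  rw [T.ε_algebraMap] at hk'
  obtain ⟨u, hu, hr⟩ := hk'.unique (cont_const ((_root_.map_ne_zero _).mpr hγ'))
  rw [mul_one] at hr
  subst hr
  -- the two norms of `f`
  obtain ⟨u₁, hu₁, hn⟩ := (D.cont 0).norm_inf (D.cont 1)
  rw [hu₁ (fun i => conj_q_zpow i _), Units.val_one, OneMemClass.coe_one, mul_one, ← zpow_natCast,
    ← zpow_mul, ← zpow_add₀ T.q_ne_zero] at hn
  have hfε : T.Cont (T.ε (T.ι₁ (T.norm₁ f))) ((q : T.L) ^ (k + g₀ * m))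
      (algebraMap T.k _ (T.π u) * R₀ ^ m) := by
    rw [hNf, map_mul, map_pow, AlgHom.commutes, map_mul, map_pow, zpow_add₀ T.q_ne_zero,
      zpow_mul, zpow_natCast]
    exact hk.mul (h0G.pow m)
  have hfεc : T.Cont (T.εc (T.ι₁ (T.norm₁ f))) ((q : T.L) ^ (k + g₂ * m))
      (algebraMap T.k _ (T.π u) * R₂ ^ m) := by
    rw [hNf, map_mul, map_pow, AlgHom.commutes, map_mul, map_pow, zpow_add₀ T.q_ne_zero,
      zpow_mul, zpow_natCast, T.εc_algebraMap]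
    exact hk'.mul (h2G.pow m)
  obtain ⟨he₀, hr₀⟩ := hn.unique_q hfε
  have hn2 : T.Cont (T.εc (T.ι₁ (T.norm₁ f))) (((q : T.L) ^ ((m : ℤ) * D.s 2)) ^ q)
      ((D.g 2 ^ m) ^ q) := (D.cont 2).norm_zero
  rw [← zpow_natCast, ← zpow_mul] at hn2
  obtain ⟨he₂, hr₂⟩ := hn2.unique_q hfεc
  have hR₀0 : R₀ ≠ 0 := h0G.2.2.2
  have hR₂0 : R₂ ≠ 0 := h2G.2.2.2
  have hgne := D.g_ne_zero hm0
  obtain ⟨ξ, hξ, hξm⟩ := exists_const_of_pow_eq (T := T) hm0 (a := T.π u)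
    (z := D.g 0 * D.g 1 ^ (q - 1) / R₀) (by
      rw [div_pow, div_eq_iff (pow_ne_zero _ hR₀0), mul_pow, ← pow_mul, mul_comm (q - 1) m,
        pow_mul]
      exact hr₀)
  obtain ⟨ξ', hξ', hξ'm⟩ := exists_const_of_pow_eq (T := T) hm0 (a := T.π u)
    (z := D.g 2 ^ q / R₂) (by
      rw [div_pow, div_eq_iff (pow_ne_zero _ hR₂0), ← pow_mul, mul_comm q m, pow_mul]
      exact hr₂)
  set k' : ℤ := D.s 0 + (q - 1 : ℕ) * D.s 1 - g₀ with hk'def
  have hkm : k = (m : ℤ) * k' := by rw [hk'def]; linear_combination -he₀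
  have hk'₂ : (q : ℤ) * D.s 2 = k' + g₂ := by
    have : (m : ℤ) * ((q : ℤ) * D.s 2 - (k' + g₂)) = 0 := by
      linear_combination he₂ + hkm
    rcases mul_eq_zero.mp this with h0 | h0
    · exact absurd (Int.natCast_eq_zero.mp h0) hm0
    · omega
  have hξ0 : ξ ≠ 0 := fun h0 => by
    rw [h0, map_zero] at hξ
    exact div_ne_zero (mul_ne_zero (hgne 0) (pow_ne_zero _ (hgne 1))) hR₀0 hξ
  have hξ'0 : ξ' ≠ 0 := fun h0 => by
    rw [h0, map_zero] at hξ'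
    exact div_ne_zero (pow_ne_zero _ (hgne 2)) hR₂0 hξ'
  refine ⟨ξ, ξ', hξ0, hξ'0, hξm.trans hξ'm.symm, ?_⟩
  intro x _ hx hthru halone h num den hgen C S hv w w' hw hw'
  have hxp : x.IsPrime := Ideal.IsMaximal.isPrime ‹_›
  have hh : h ≠ 0 := fun h0 => hgen.1 (by
    have h1 := hgen.2.2
    rw [h0, zero_pow hm0, zero_div, mul_zero] at h1
    exact (Subtype.ext h1.symm : num = 0) ▸ x.zero_mem)
  choose ρ hρ hρm using fun i => exists_cont_gen (D := D) hp hm0 hf hgen (hthru i)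
  have hρrel := fun i => (hv i).2 (ρ i) (hρ i)
  -- the root of the norm
  obtain ⟨rd, den', hrd, hdd⟩ := exists_mul_eq_chartIncl₂ x halone hgen.2.1
  set H : T.F₁ := T.norm₁ h * (algebraMap T.K T.F₁ ((q : T.K) ^ k') * G)⁻¹ with hH
  have hιH : T.ι₁ H = T.ι₁ (T.norm₁ h) *
      (algebraMap T.K T.F₂ ((q : T.K) ^ k') * T.ι₁ G)⁻¹ := by
    rw [hH, map_mul, map_inv₀, map_mul, AlgHom.commutes]
  obtain ⟨u₂, hu₂, hnh⟩ := (hρ 0).norm_inf (hρ 1)
  rw [hu₂ (fun i => conj_q_zpow i _), Units.val_one, OneMemClass.coe_one, mul_one, ← zpow_natCast,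
    ← zpow_mul, ← zpow_add₀ T.q_ne_zero] at hnh
  have hH0 : T.Cont (T.ε (T.ι₁ H)) 1 (ρ 0 * ρ 1 ^ (q - 1) * R₀⁻¹) := by
    rw [hιH, map_mul, map_inv₀, map_mul]
    have h1 := hnh.mul ((T.cont_q_pow 0 k').mul h0G).inv
    rw [one_mul R₀] at h1
    refine h1.congr ?_
    rw [← zpow_add₀ T.q_ne_zero, ← zpow_neg, ← zpow_add₀ T.q_ne_zero,
      show D.s 0 + D.s 1 * ((q - 1 : ℕ) : ℤ) + -(k' + g₀) = 0 by rw [hk'def]; ring, zpow_zero]
  have hnh2 : T.Cont (T.εc (T.ι₁ (T.norm₁ h))) (((q : T.L) ^ D.s 2) ^ q) (ρ 2 ^ q) :=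
    (hρ 2).norm_zero
  rw [← zpow_natCast, ← zpow_mul] at hnh2
  have hH2 : T.Cont (T.εc (T.ι₁ H)) 1 (ρ 2 ^ q * R₂⁻¹) := by
    rw [hιH, map_mul, map_inv₀, map_mul]
    have h1 := hnh2.mul ((T.cont_q_pow 2 k').mul h2G).inv
    rw [one_mul R₂] at h1
    refine h1.congr ?_
    rw [← zpow_add₀ T.q_ne_zero, ← zpow_neg, ← zpow_add₀ T.q_ne_zero,
      show D.s 2 * (q : ℤ) + -(k' + g₂) = 0 by linear_combination hk'₂, zpow_zero]
  -- `r ^ q H` lies in the chart of level `N q`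
  have hwW : γ / (q : T.K) ^ k ∈ T.W := by
    show algebraMap T.K T.L (γ / (q : T.K) ^ k) ∈ T.A
    rw [map_div₀, map_zpow₀, map_natCast, hu, mul_div_cancel_left₀ _ (zpow_ne_zero _ T.q_ne_zero)]
    exact (u : T.A).2
  have hnormeq : ((rd : T.F₁) ^ q) * T.norm₁ h ^ m =
      T.norm₁ ((num * den' : T.chart₂ T.j) : T.F₂) * (algebraMap T.K T.F₁ γ * G ^ m) := by
    rw [← hNf, ← T.norm₁_mul]
    have e1 : ((num * den' : T.chart₂ T.j) : T.F₂) * f = T.ι₁ rd * h ^ m := by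
      have hdd' : (den : T.F₂) * den' = T.ι₁ rd := congrArg Subtype.val hdd
      rw [MulMemClass.coe_mul, ← hgen.2.2, ← hdd']
      field_simp
    rw [e1, T.norm₁_mul, T.norm₁_pow]
    congr 1
    letI := T.ι₁.toRingHom.toAlgebra
    show _ = Algebra.norm T.F₁ (algebraMap T.F₁ T.F₂ (rd : T.F₁))
    rw [Algebra.norm_algebraMap, T.finrank₁]
  have hP : (rd : T.F₁) ^ q * H ∈ T.chart₁ T.j := by
    refine IsIntegral.of_pow (R := Algebra.adjoin T.W {T.ι₀ T.j}) (Nat.pos_of_ne_zero hm0) ?_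
    obtain ⟨n, rfl⟩ : ∃ n, m = n + 1 := ⟨m - 1, by omega⟩
    have e : ((rd : T.F₁) ^ q * H) ^ (n + 1) = ((rd : T.F₁) ^ q) ^ n *
        (algebraMap T.W T.F₁ ⟨_, hwW⟩ * T.norm₁ ((num * den' : T.chart₂ T.j) : T.F₂)) := by
      show _ = _ * (algebraMap T.K T.F₁ (γ / (q : T.K) ^ k) * _)
      have hqk : algebraMap T.K T.F₁ ((q : T.K) ^ k) =
          algebraMap T.K T.F₁ ((q : T.K) ^ k') ^ (n + 1) := by
        rw [← map_pow, hkm, ← zpow_natCast ((q : T.K) ^ k'), ← zpow_mul, mul_comm]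
      have hq0 : algebraMap T.K T.F₁ ((q : T.K) ^ k') ≠ 0 :=
        (_root_.map_ne_zero _).mpr (zpow_ne_zero _ T.q_ne_zero_K)
      rw [map_div₀, hqk, hH, mul_pow, mul_pow, inv_pow, mul_pow]
      field_simp
      linear_combination ((rd : T.F₁) ^ q) ^ n * hnormeq
    show ((rd : T.F₁) ^ q * H) ^ (n + 1) ∈ T.chart₁ T.j
    rw [e]
    exact mul_mem (pow_mem (pow_mem rd.2 q) n)
      (mul_mem ((T.chart₁ T.j).algebraMap_mem _) (norm₁_mem_chart₁ _))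
  set P : T.chart₂ T.j := chartIncl₂ T.j ⟨_, hP⟩
  set Q : T.chart₂ T.j := chartIncl₂ T.j rd ^ q
  have hQx : Q ∉ x := fun h0 => hrd (hxp.mem_of_pow_mem _ h0)
  have hPQ : (P : T.F₂) = (Q : T.F₂) * T.ι₁ H := by
    show T.ι₁ ((rd : T.F₁) ^ q * H) = T.ι₁ (rd : T.F₁) ^ q * T.ι₁ H
    rw [map_mul, map_pow]
  obtain ⟨hH0I, hH0r, -⟩ := cont_one_iff.mp hH0
  obtain ⟨hH2I, hH2r, -⟩ := cont_one_iff.mp hH2
  have hP0 : hp.redHom₂ 0 P = hp.redHom₂ 0 Q * (ρ 0 * ρ 1 ^ (q - 1) * R₀⁻¹) := by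
    rw [hp.redHom₂_apply 0 P, hPQ, hp.redHom₂_apply 0 Q]
    show gred T.π (T.ε _) = _
    have hQ : T.ε (Q : T.F₂) ∈ gaussInt T.π := branch_mem_gaussInt hp 0 Q
    rw [map_mul, gred_mul hQ hH0I, show gred T.π _ = _ from hH0r]
    rfl
  have hP2 : hp.redHom₂ 2 P = hp.redHom₂ 2 Q * (ρ 2 ^ q * R₂⁻¹) := by
    rw [hp.redHom₂_apply 2 P, hPQ, hp.redHom₂_apply 2 Q]
    show gred T.π (T.εc _) = _
    have hQ : T.εc (Q : T.F₂) ∈ gaussInt T.π := branch_mem_gaussInt hp 2 Q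
    rw [map_mul, gred_mul hQ hH2I, show gred T.π _ = _ from hH2r]
    rfl
  let ι : T.W →+* T.chart₂ T.j := algebraMap T.W _
  let μ : T.chart₂ T.j →+* T.chart₂ T.j ⧸ x := Ideal.Quotient.mk x
  have toQuot : ∀ i, ∀ a b : T.chart₂ T.j, hp.redHom₂ i a = hp.redHom₂ i b → μ a = μ b :=
    fun i a b hab => Ideal.Quotient.eq.mpr (hthru i _ (by
      rw [← hp.redHom₂_apply, map_sub, sub_eq_zero.mpr hab]))
  have eB : μ P * μ (C 2) ^ q = μ (ι w') * μ Q * μ (S 2) ^ q := by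
    simp only [← map_pow, ← map_mul]
    refine toQuot 2 _ _ ?_
    simp only [map_mul, map_pow, ι, hp.redHom₂_W, hw', ← hξ', hP2]
    have h1 : hp.redHom₂ 2 (C 2) ^ q * ρ 2 ^ q = hp.redHom₂ 2 (S 2) ^ q * D.g 2 ^ q := by
      rw [← mul_pow, ← mul_pow]
      exact congrArg (· ^ q) (hρrel 2)
    field_simp
    linear_combination (hp.redHom₂ 2 Q) * h1
  -- transfer the middle values to the branch at `∞`
  have hmid : ∀ a : T.chart₂ T.j, ∃ a' : T.chart₂ T.j, μ a' = μ a ∧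
      hp.redHom₂ 0 a' = hp.redHom₂ 1 a := by
    intro a
    obtain ⟨b, hb⟩ := exists_red₂_one_lift hp a
    refine ⟨chartIncl₂ T.j (chartIncl₁ T.j b), toQuot 1 _ _ ?_, hb.symm⟩
    rw [hp.redHom₂_apply 1 a, hb]
    show gred T.π (T.εb (T.ι₁ (T.ι₀ (b : T.F₀)))) = _
    rw [T.εb_ι₁]
    rfl
  obtain ⟨C₁, hC₁, hC₁r⟩ := hmid (C 1)
  obtain ⟨S₁, hS₁, hS₁r⟩ := hmid (S 1)
  have eA : μ P * μ (C 0) * μ (C 1) ^ (q - 1) =
      μ (ι w) * μ Q * μ (S 0) * μ (S 1) ^ (q - 1) := by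
    rw [← hC₁, ← hS₁]
    simp only [← map_pow, ← map_mul]
    refine toQuot 0 _ _ ?_
    simp only [map_mul, map_pow, ι, hp.redHom₂_W, hw, ← hξ, hP0, hC₁r, hS₁r]
    have h1 : hp.redHom₂ 1 (C 1) ^ (q - 1) * ρ 1 ^ (q - 1) =
        hp.redHom₂ 1 (S 1) ^ (q - 1) * D.g 1 ^ (q - 1) := by
      rw [← mul_pow, ← mul_pow]
      exact congrArg (· ^ (q - 1)) (hρrel 1)
    have h2 : hp.redHom₂ 0 (C 0) * ρ 0 = hp.redHom₂ 0 (S 0) * D.g 0 := hρrel 0
    field_simp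
    linear_combination (hp.redHom₂ 0 Q * hp.redHom₂ 1 (C 1) ^ (q - 1) * ρ 1 ^ (q - 1)) * h2 +
      (hp.redHom₂ 0 Q * hp.redHom₂ 0 (S 0) * D.g 0) * h1
  have hQne : μ Q ≠ 0 := fun h0 => hQx (Ideal.Quotient.eq_zero_iff_mem.mp h0)
  rw [← Ideal.Quotient.eq_zero_iff_mem]
  show μ (ι w' * (C 0 * C 1 ^ (q - 1) * S 2 ^ q) - ι w * (S 0 * S 1 ^ (q - 1) * C 2 ^ q)) = 0
  haveI := hxp
  apply mul_left_cancel₀ hQne
  simp only [map_sub, map_mul, map_pow, mul_zero]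
  linear_combination (-(μ (C 0) * μ (C 1) ^ (q - 1))) * eB + (μ (C 2) ^ q) * eA

end Roots

end Tower

end FermatLib.Igusa.Carayol
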