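import Fermat.Agent.Igusa.Carayol.MainChart
import Fermat.Agent.Igusa.Carayol.MainData

/-!
# At every point of the special fibre `h ^ m / f` is a unit for a generator `h`
-/

set_option autoImplicit false
set_option maxHeartbeats 800000
set_option synthInstance.maxHeartbeats 200000
set_option linter.style.haveILetI false

noncomputable section

open ModularCurve FermatLib.Igusa

namespace FermatLib.Igusa.Carayol

namespace Tower

variable {q : ℕ} [NeZero q] {T : Tower q} {t : T.F₀} {m : ℕ} {f : T.F₂}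

/-- The image of `q` in a chart reduces to zero on every branch. -/
theorem ChartParam.redHom₂_q (ht : T.ChartParam t) (i : Fin 3) :
    ht.redHom₂ i (q : T.chart₂ t) = 0 := by
  haveI := charP_series (T := T)
  rw [map_natCast]
  exact CharP.cast_eq_zero _ q

/-- At a maximal ideal over `q` there is `h` with `h ^ m / f` a quotient of two elements outside
the ideal. -/
theorem exists_unit_generator (hI : T.Inputs) (ht : t = T.j ∨ t = T.j⁻¹) (hm : (m : T.k) ≠ 0)
    (hf : f ≠ 0) (hloc : T.IsLocPow m f) (D : T.Roots m f) (x : Ideal (T.chart₂ t))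
    [x.IsMaximal] (hx : (q : T.chart₂ t) ∈ x) :
    ∃ (h : T.F₂) (num den : T.chart₂ t), num ∉ x ∧ den ∉ x ∧ h ≠ 0 ∧
      (den : T.F₂) * (h ^ m / f) = num := by
  classical
  have hp := chartParam_of_eq hI ht
  haveI := T.isDiscreteValuationRing_W
  haveI := T.charZeroK
  haveI := finiteType_chart₂ hI ht
  haveI : IsNoetherianRing (T.chart₂ t) := Algebra.FiniteType.isNoetherianRing T.W (T.chart₂ t)
  haveI := isFractionRing_chart₂ hp
  have hm0 : m ≠ 0 := fun h0 => hm (by rw [h0, Nat.cast_zero])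
  obtain ⟨h, hh0, hgen⟩ := rootPrincipalAt hI ht x hx m hm f hf
  obtain ⟨den, hden, hnum⟩ := (hgen h).mpr
    ⟨1, 1, fun h1 => (Ideal.IsMaximal.ne_top ‹_›) (x.eq_top_of_isUnit_mem h1 isUnit_one), by simp⟩
  set num : T.chart₂ t := ⟨_, hnum⟩ with hnumdef
  refine ⟨h, num, den, ?_, hden, hh0, rfl⟩
  intro hnx
  haveI : IsNoetherianRing (Localization.AtPrime x) := IsLocalization.isNoetherianRing x.primeCompl (Localization.AtPrime x) inferInstance
  haveI : IsDomain (Localization.AtPrime x) :=
    IsLocalization.isDomain_localization x.primeCompl_le_nonZeroDivisors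
  have hden0 : den ≠ 0 := fun h0 => hden (h0 ▸ x.zero_mem)
  have hnum0 : num ≠ 0 := fun h0 => by
    have := congrArg Subtype.val h0
    exact mul_ne_zero (fun h1 => hden0 (Subtype.ext h1))
      (div_ne_zero (pow_ne_zero _ hh0) hf) this
  have hinj : Function.Injective (algebraMap (T.chart₂ t) (Localization.AtPrime x)) :=
    IsLocalization.injective (Localization.AtPrime x) x.primeCompl_le_nonZeroDivisors
  suffices hu : IsUnit (algebraMap (T.chart₂ t) (Localization.AtPrime x) num) from
    ((IsLocalization.AtPrime.isUnit_to_map_iff (Localization.AtPrime x) x num).mp hu) hnx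
  refine isUnit_of_forall_height_one (fun P hP hP1 hnP => ?_)
    (fun h0 => hnum0 (hinj (h0.trans (map_zero _).symm)))
  haveI := hP
  set p : Ideal (T.chart₂ t) := P.comap (algebraMap (T.chart₂ t) (Localization.AtPrime x)) with hpdef
  haveI : p.IsPrime := Ideal.comap_isPrime _ P
  have hpx : p ≤ x := fun b hb => by
    by_contra hbx
    exact hP.ne_top (P.eq_top_of_isUnit_mem hb (IsLocalization.map_units (Localization.AtPrime x) (⟨b, hbx⟩ : x.primeCompl)))
  by_cases hqp : (q : T.chart₂ t) ∈ p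
  · -- the prime is the kernel of a branch
    obtain ⟨i, hi⟩ : ∃ i, RingHom.ker (hp.redHom₂ i) ≤ p := by
      by_contra hcon
      push Not at hcon
      choose z hz hzp using fun i => SetLike.not_le_iff_exists.mp (hcon i)
      obtain ⟨b, hb⟩ := exists_pow_eq_mul₂ hp (∏ i, z i) (fun i => by
        rw [← hp.redHom₂_apply, map_prod]
        exact Finset.prod_eq_zero (Finset.mem_univ i) (RingHom.mem_ker.mp (hz i)))
      have h1 : (∏ i, z i) ^ (q - 1) ∈ p := hb ▸ p.mul_mem_right _ hqp
      obtain ⟨i, -, hi⟩ := Ideal.IsPrime.prod_mem_iff.mp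
        ((‹p.IsPrime›).mem_of_pow_mem _ h1)
      exact hzp i hi
    haveI hker : (RingHom.ker (hp.redHom₂ i)).IsPrime := RingHom.ker_isPrime _
    have hdisj : Disjoint (x.primeCompl : Set (T.chart₂ t)) (RingHom.ker (hp.redHom₂ i)) :=
      Set.disjoint_left.mpr fun b hb hb' => hb (hpx (hi hb'))
    set Q := (RingHom.ker (hp.redHom₂ i)).map (algebraMap (T.chart₂ t) (Localization.AtPrime x))
    haveI : Q.IsPrime :=
      IsLocalization.isPrime_of_isPrime_disjoint x.primeCompl (Localization.AtPrime x) _ hker hdisj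
    have hQ0 : Q ≠ ⊥ := fun h0 => by
      have h1 : algebraMap (T.chart₂ t) (Localization.AtPrime x) (q : T.chart₂ t) ∈ Q :=
        Ideal.mem_map_of_mem _ (RingHom.mem_ker.mpr (hp.redHom₂_q i))
      rw [h0, Ideal.mem_bot, map_eq_zero_iff _ hinj] at h1
      haveI : CharZero T.F₂ := charZero_of_injective_algebraMap (algebraMap T.K T.F₂).injective
      exact NeZero.ne q (Nat.cast_eq_zero.mp (congrArg Subtype.val h1 :))
    have hQP : Q = P := by
      refine le_antisymm (Ideal.map_le_iff_le_comap.mpr hi) ?_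
      by_contra hne
      have hlt : Q < P := lt_of_le_of_ne (Ideal.map_le_iff_le_comap.mpr hi) fun h => hne h.ge
      have h1 : Ideal.height (R := Localization.AtPrime x) Q + 1 ≤ P.height := by
        apply Ideal.height_add_one_le_of_lt_of_isPrime
        exact hlt
      rw [hP1] at h1
      have h2 : Ideal.height (R := Localization.AtPrime x) Q = 0 := by
        by_contra h0
        have h3 : (1 : ℕ∞) + 1 ≤ 1 :=
          le_trans (add_le_add_left (Order.one_le_iff_ne_zero.mpr h0) 1) h1
        exact absurd h3 (by decide)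
      exact hQ0 (Ideal.height_eq_zero_iff_eq_bot.mp h2)
    have hnum_i : T.red₂ i (num : T.F₂) = 0 := by
      have h1 : num ∈ Q.comap (algebraMap (T.chart₂ t) (Localization.AtPrime x)) := by rw [hQP]; exact hnP
      exact RingHom.mem_ker.mp
        ((IsLocalization.under_map_of_isPrime_disjoint x.primeCompl (Localization.AtPrime x) hker hdisj).le h1)
    -- but `q ^ s` makes `h ^ m / f` nonzero on that branch
    set M := algebraMap T.K T.F₂ ((q : T.K) ^ D.s i) with hM
    have hMc : T.Cont (T.branch i (M ^ m / f)) 1 ((1 : LaurentSeries T.k) ^ m * (D.g i ^ m)⁻¹) := by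
      rw [map_div₀, map_pow, div_eq_mul_inv]
      refine (((T.cont_q_pow i _).pow m).mul (D.cont i).inv).congr ?_
      rw [← zpow_natCast ((q : T.L) ^ _) m, ← zpow_mul, mul_comm (D.s i) (m : ℤ),
        mul_inv_cancel₀ (zpow_ne_zero _ T.q_ne_zero)]
    obtain ⟨hMI, hMr, hMr0⟩ := cont_one_iff.mp hMc
    obtain ⟨d, b, hd, hdb⟩ := hp.exists_branch_fraction i hMI
    have hb0 : T.red₂ i (b : T.F₂) ≠ 0 := by
      rw [← hdb]
      show gred T.π (T.branch i _) ≠ 0
      rw [map_mul, gred_mul (branch_mem_gaussInt hp i d) hMI]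
      exact mul_ne_zero hd (by rw [show gred T.π _ = _ from hMr]; exact hMr0)
    have hJ : ∃ s : T.chart₂ t, s ∉ x ∧
        (s : T.F₂) * (((d : T.F₂) * M) ^ m / f) ∈ T.chart₂ t := by
      refine ⟨1, fun h1 => (Ideal.IsMaximal.ne_top ‹_›) (x.eq_top_of_isUnit_mem h1 isUnit_one), ?_⟩
      rw [OneMemClass.coe_one, one_mul, mul_pow, mul_div_assoc]
      obtain ⟨k, rfl⟩ : ∃ k, m = k + 1 := ⟨m - 1, by omega⟩
      rw [pow_succ (d : T.F₂), mul_assoc, hdb]
      exact mul_mem (pow_mem d.2 _) b.2
    obtain ⟨s', c, hs', hc⟩ := (hgen _).mp hJ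
    have hs'i : T.red₂ i (s' : T.F₂) ≠ 0 := fun h0 =>
      hs' (hpx (hi (RingHom.mem_ker.mpr h0)))
    have hdeni : T.red₂ i (den : T.F₂) ≠ 0 := fun h0 =>
      hden (hpx (hi (RingHom.mem_ker.mpr h0)))
    obtain ⟨k, rfl⟩ : ∃ k, m = k + 1 := ⟨m - 1, by omega⟩
    have key : den * (s' ^ (k + 1) * d ^ k * b) = c ^ (k + 1) * num := Subtype.ext (by
      show (den : T.F₂) * ((s' : T.F₂) ^ (k + 1) * (d : T.F₂) ^ k * b) =
        (c : T.F₂) ^ (k + 1) * ((den : T.F₂) * (h ^ (k + 1) / f))
      rw [← hdb]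
      have hc' : ((s' : T.F₂) * ((d : T.F₂) * M)) ^ (k + 1) = ((c : T.F₂) * h) ^ (k + 1) := by
        rw [hc]
      linear_combination ((den : T.F₂) / f) * hc')
    have h2 := congrArg (hp.redHom₂ i) key
    rw [map_mul, map_mul, map_mul, map_mul, map_pow, map_pow, hp.redHom₂_apply i num, hnum_i,
      mul_zero] at h2
    exact mul_ne_zero hdeni (mul_ne_zero (mul_ne_zero (pow_ne_zero _ hs'i) (pow_ne_zero _ hd)) hb0) h2
  · -- a horizontal prime: a place over the base
    set B := (T.chart₂ t).toSubring with hB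
    let p' : Ideal B := p
    haveI : p'.IsPrime := ‹p.IsPrime›
    obtain ⟨V, hV⟩ := (LocalSubring.ofPrime B p').exists_le_valuationSubring
    have hBV : ∀ b : T.chart₂ t, (b : T.F₂) ∈ V := fun b =>
      hV.1 (LocalSubring.le_ofPrime B p' b.2)
    have hpV : ∀ b : T.chart₂ t, b ∈ p → (b : T.F₂) ∈ V.nonunits := by
      intro b hb
      rw [← SetLike.mem_coe, ← V.image_maximalIdeal]
      refine ⟨⟨b, hBV b⟩, ?_, rfl⟩
      rw [SetLike.mem_coe, IsLocalRing.mem_maximalIdeal]
      intro hu
      have h1 : IsUnit (⟨(b : T.F₂), LocalSubring.le_ofPrime B p' b.2⟩ :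
          (LocalSubring.ofPrime B p').toSubring) :=
        hV.2.map_nonunit _ hu
      have h2 : IsUnit (algebraMap B (LocalSubring.ofPrime B p').toSubring (b : B)) := h1
      exact (IsLocalization.AtPrime.isUnit_to_map_iff (LocalSubring.ofPrime B p').toSubring p'
        (b : B)).mp h2 hb
    have hunit : ∀ b : T.chart₂ t, b ∉ p → (b : T.F₂) ∉ V.nonunits := by
      intro b hb hbn
      have hu : IsUnit (algebraMap B (LocalSubring.ofPrime B p').toSubring (b : B)) :=
        (IsLocalization.AtPrime.isUnit_to_map_iff (LocalSubring.ofPrime B p').toSubring p'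
          (b : B)).mpr hb
      obtain ⟨_, hbm⟩ := ValuationSubring.mem_nonunits_iff_exists_mem_maximalIdeal.mp hbn
      exact hbm (hu.map (Subring.inclusion hV.1))
    have hKV : ∀ c : T.K, algebraMap T.K T.F₂ c ∈ V := by
      intro c
      obtain ⟨n, w, hw⟩ := exists_pow_q_mul_mem_W c
      have h1 : algebraMap T.K T.F₂ ((q : T.K) ^ n * c) ∈ V := hw ▸ hBV (algebraMap T.W _ w)
      have h2 : ((q : T.F₂) ^ n)⁻¹ ∈ V := by
        rw [← inv_pow]
        refine pow_mem ?_ n
        have := hunit _ hqp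
        rw [mem_nonunits_iff_inv] at this
        push Not at this
        simpa using this.2
      rw [map_mul, map_pow, map_natCast] at h1
      haveI : CharZero T.F₂ := charZero_of_injective_algebraMap (algebraMap T.K T.F₂).injective
      have := mul_mem h2 h1
      rwa [inv_mul_cancel_left₀ (pow_ne_zero _ (Nat.cast_ne_zero.mpr (NeZero.ne q)))] at this
    have hnumV := hpV num hnP
    have hVtop : V ≠ ⊤ := by
      intro htop
      rw [mem_nonunits_iff_inv] at hnumV
      rcases hnumV with h0 | h0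
      · exact hnum0 (Subtype.ext h0)
      · exact h0 (htop ▸ trivial)
    obtain ⟨a, ha0, ha, ha'⟩ := hloc V hVtop hKV
    obtain ⟨d, b, hd, hdb⟩ := hp.exists_horizontal_fraction V hKV hBV ha
    obtain ⟨k, rfl⟩ : ∃ k, m = k + 1 := ⟨m - 1, by omega⟩
    have hJ : ∃ s : T.chart₂ t, s ∉ x ∧
        (s : T.F₂) * (((d : T.F₂) * a) ^ (k + 1) / f) ∈ T.chart₂ t := by
      refine ⟨1, fun h1 => (Ideal.IsMaximal.ne_top ‹_›) (x.eq_top_of_isUnit_mem h1 isUnit_one), ?_⟩
      rw [OneMemClass.coe_one, one_mul, mul_pow, mul_div_assoc, pow_succ (d : T.F₂), mul_assoc, hdb]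
      exact mul_mem (pow_mem d.2 _) b.2
    obtain ⟨s', c, hs', hc⟩ := (hgen _).mp hJ
    have hs'V := hunit s' fun h0 => hs' (hpx h0)
    have hdenV := hunit den fun h0 => hden (hpx h0)
    have key : (den : T.F₂) * ((s' : T.F₂) * d) ^ (k + 1) * (a ^ (k + 1) / f) =
        (c : T.F₂) ^ (k + 1) * num := by
      show _ = (c : T.F₂) ^ (k + 1) * ((den : T.F₂) * (h ^ (k + 1) / f))
      have hc' : ((s' : T.F₂) * ((d : T.F₂) * a)) ^ (k + 1) = ((c : T.F₂) * h) ^ (k + 1) := by
        rw [hc]
      linear_combination ((den : T.F₂) / f) * hc'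
    have hv1 : ∀ z : T.F₂, z ∈ V → z ∉ V.nonunits → V.valuation z = 1 := fun z hz hzn =>
      le_antisymm ((V.valuation_le_one_iff z).mpr hz)
        (not_lt.mp fun hlt => hzn (by rw [ValuationSubring.mem_nonunits_iff]; exact hlt))
    have hva : V.valuation (a ^ (k + 1) / f) = 1 := by
      refine le_antisymm ((V.valuation_le_one_iff _).mpr ha) ?_
      have h1 := (V.valuation_le_one_iff _).mpr ha'
      rw [map_inv₀] at h1
      have hne : V.valuation (a ^ (k + 1) / f) ≠ 0 := by
        rw [Valuation.ne_zero_iff]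
        exact div_ne_zero (pow_ne_zero _ ha0) hf
      rwa [inv_le_one₀ (zero_lt_iff.mpr hne)] at h1
    have h3 := congrArg V.valuation key
    rw [map_mul, map_mul, map_pow, map_mul, hva, hv1 _ (hBV den) hdenV, hv1 _ (hBV s') hs'V,
      hv1 _ (hBV d) hd, one_mul, one_mul, one_pow, one_mul, map_mul, map_pow] at h3
    have hlt : V.valuation (num : T.F₂) < 1 := by rw [← ValuationSubring.mem_nonunits_iff]; exact hnumV
    have hle : V.valuation (c : T.F₂) ^ (k + 1) ≤ 1 :=
      pow_le_one' ((V.valuation_le_one_iff _).mpr (hBV c)) _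
    exact (lt_of_le_of_lt (mul_le_of_le_one_left' hle) hlt).ne h3.symm

end Tower

end FermatLib.Igusa.Carayol
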