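import Mathlib

/-!
Root modules `{a | a ^ m / f ∈ B}` of an integrally closed domain.
-/

set_option autoImplicit false

noncomputable section

namespace FermatLib.Igusa.Carayol

section rootModule

variable (B : Type*) [CommRing B] [IsDomain B] [IsIntegrallyClosed B]
variable {F : Type*} [Field F] [Algebra B F] [IsFractionRing B F]

omit [IsDomain B] in
theorem mem_range_of_pow_mem {x : F} {m : ℕ} (hm : m ≠ 0)
    (h : x ^ m ∈ (algebraMap B F).range) : x ∈ (algebraMap B F).range := by
  obtain ⟨b, hb⟩ := h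
  have hint : IsIntegral B x :=
    IsIntegral.of_pow (Nat.pos_of_ne_zero hm) (hb ▸ isIntegral_algebraMap)
  exact IsIntegrallyClosed.isIntegral_iff.mp hint

/-- Mixed products of two `m`-th roots of `f`, up to integral elements, are integral. -/
theorem mul_pow_div_mem_range (f : F) {m : ℕ} (hm : m ≠ 0) {a b : F}
    (ha : a ^ m / f ∈ (algebraMap B F).range) (hb : b ^ m / f ∈ (algebraMap B F).range)
    {i : ℕ} (hi : i ≤ m) :
    a ^ i * b ^ (m - i) / f ∈ (algebraMap B F).range := by
  refine mem_range_of_pow_mem B hm ?_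
  have e : (a ^ i * b ^ (m - i) / f) ^ m = (a ^ m / f) ^ i * (b ^ m / f) ^ (m - i) := by
    rw [div_pow, div_pow, div_pow, mul_pow, div_mul_div_comm, ← pow_add, Nat.add_sub_cancel' hi]
    simp only [← pow_mul, mul_comm]
  rw [e]
  exact Subring.mul_mem _ (Subring.pow_mem _ ha _) (Subring.pow_mem _ hb _)

/-- `rootModule B f m = {a : F | a ^ m / f ∈ B}`, a submodule as `B` is integrally closed. -/
def rootModule (f : F) {m : ℕ} (hm : m ≠ 0) : Submodule B F where
  carrier := {a | a ^ m / f ∈ (algebraMap B F).range}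
  add_mem' := fun {a b} ha hb => by
    show (a + b) ^ m / f ∈ (algebraMap B F).range
    rw [add_pow, Finset.sum_div]
    refine Subring.sum_mem _ fun i hi => ?_
    rw [mul_comm, mul_div_assoc]
    exact Subring.mul_mem _ (natCast_mem _ _) (mul_pow_div_mem_range B f hm ha hb
      (Nat.lt_succ_iff.mp (Finset.mem_range.mp hi)))
  zero_mem' := by
    show (0 : F) ^ m / f ∈ (algebraMap B F).range
    rw [zero_pow hm, zero_div]
    exact zero_mem _
  smul_mem' := fun c a ha => by
    show (c • a) ^ m / f ∈ (algebraMap B F).range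
    rw [Algebra.smul_def, mul_pow, mul_div_assoc, ← map_pow]
    exact Subring.mul_mem _ ⟨c ^ m, rfl⟩ ha

theorem mem_rootModule {f : F} {m : ℕ} (hm : m ≠ 0) {a : F} :
    a ∈ rootModule B f hm ↔ a ^ m / f ∈ (algebraMap B F).range := Iff.rfl

/-- Mixed products of elements of the root module are integral. -/
theorem rootModule_mul_pow_mem (f : F) {m : ℕ} (hm : m ≠ 0) {a b : F}
    (ha : a ∈ rootModule B f hm) (hb : b ∈ rootModule B f hm) {i : ℕ} (hi : i ≤ m) :
    a ^ i * b ^ (m - i) / f ∈ (algebraMap B F).range :=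
  mul_pow_div_mem_range B f hm ha hb hi

/-- A nonzero element of the root module bounds it by a cyclic module. -/
theorem rootModule_le_span_singleton (f : F) (hf : f ≠ 0) {m : ℕ} (hm : m ≠ 0) {a : F}
    (ha : a ∈ rootModule B f hm) (ha0 : a ≠ 0) :
    rootModule B f hm ≤ Submodule.span B {f / a ^ (m - 1)} := by
  intro x hx
  obtain ⟨b, hb⟩ := rootModule_mul_pow_mem B f hm hx ha (i := 1) (Nat.pos_of_ne_zero hm)
  refine Submodule.mem_span_singleton.mpr ⟨b, ?_⟩
  rw [Algebra.smul_def, hb, pow_one]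
  field_simp

theorem rootModule_fg [IsNoetherianRing B] (f : F) (hf : f ≠ 0) {m : ℕ} (hm : m ≠ 0) :
    (rootModule B f hm).FG := by
  rcases eq_or_ne (rootModule B f hm) ⊥ with h | h
  · rw [h]
    exact Submodule.fg_bot
  · obtain ⟨a, ha, ha0⟩ := (Submodule.ne_bot_iff _).mp h
    exact Submodule.FG.of_le (Submodule.fg_span_singleton _)
      (rootModule_le_span_singleton B f hf hm ha ha0)

theorem exists_ne_zero_mem_rootModule (f : F) (hf : f ≠ 0) {m : ℕ} (hm : m ≠ 0) :
    ∃ a : F, a ≠ 0 ∧ a ∈ rootModule B f hm := by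
  obtain ⟨p, q, hq, rfl⟩ := IsFractionRing.div_surjective (A := B) f
  have hp : algebraMap B F p ≠ 0 := fun h => hf (by rw [h, zero_div])
  refine ⟨algebraMap B F p, hp, p ^ (m - 1) * q, ?_⟩
  rw [map_mul, map_pow]
  obtain ⟨k, rfl⟩ := Nat.exists_eq_succ_of_ne_zero hm
  rw [Nat.succ_eq_add_one, Nat.add_sub_cancel, pow_succ, div_div_eq_mul_div, eq_div_iff hp]
  ring

end rootModule

end FermatLib.Igusa.Carayol
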