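import Fermat.Agent.Igusa.Carayol.TowerBasic
import Fermat.Agent.Igusa.Carayol.LevelTransfer
import Fermat.Agent.Igusa.Carayol.LevelElliptic
import Fermat.Agent.Igusa.Carayol.LevelSmooth

/-!
# The level-`N` inputs of a tower modelled on `X₀(N)`

A tower whose bottom level is the field of `X₀(N)` over `K ⊆ ℚ̄`, read on `q`-expansions, with
`A` cut out by a place of `ℚ̄` over `q`: the clauses of `Tower.Inputs` about level `N`.
-/

set_option autoImplicit false
set_option maxHeartbeats 800000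
set_option synthInstance.maxHeartbeats 400000
set_option linter.style.haveILetI false

noncomputable section

open Polynomial ModularCurve IsLocalRing

namespace FermatLib.Igusa.Carayol

local notation "Qbar" => AlgebraicClosure ℚ

namespace Tower

variable {q : ℕ} [NeZero q]

/-- The bottom level of the tower is `X₀(N)` over `K`, and the base lies in `ℚ̄`. -/
structure LevelModel (T : Tower q) (N : ℕ) [NeZero N] where
  not_dvd : ¬ q ∣ N
  place : ValuationSubring (AlgebraicClosure ℚ)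
  liesOver : place.LiesOverPrime q
  emb : T.L →+* AlgebraicClosure ℚ
  emb_mem : ∀ a : T.A, emb a ∈ place
  resEquiv : T.k ≃+* ResidueField place
  resEquiv_π : ∀ a : T.A, resEquiv (T.π a) = residue place ⟨emb a, emb_mem a⟩
  model : T.F₀ ≃ₐ[T.K] laurentBaseChange T.K (modularFunctionFieldFull N)
  e₀_eq : ∀ x, T.e₀ x = coeffMap (algebraMap T.K T.L) (model x : LaurentSeries T.K)
  model_j : (model T.j : LaurentSeries T.K) = jqModC T.K

variable {T : Tower q} {N : ℕ} [NeZero N] (M : T.LevelModel N)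

namespace LevelModel

include M

theorem natCast_ne_zero : (N : T.k) ≠ 0 := fun h =>
  M.not_dvd ((CharP.cast_eq_zero_iff T.k q N).mp h)

omit M in
theorem comapRed_surjective : Function.Surjective (comapRed T.K T.A T.π) := fun c => by
  obtain ⟨w, hw, h⟩ := T.π_surjective c
  exact ⟨⟨w, hw⟩, h⟩

/-- Functions of level `N` with integral expansion reduce into the reduced function field. -/
theorem red_mem_fullC {a : T.F₀} (ha : T.e₀ a ∈ gaussInt T.π) :
    T.red (T.e₀ a) ∈ modularFunctionFieldFullC T.k N := by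
  rw [M.e₀_eq] at ha ⊢
  have hm := mem_gaussRing_of_gaussInt T.π_eq_zero comapRed_surjective M.natCast_ne_zero ha
  have h2 := (mem_gaussInt_of_mem (L := T.L) (π := T.π) ⟨_, hm⟩).2
  show gred T.π _ ∈ _
  rw [h2]
  exact SetLike.coe_mem _

theorem e₀_j : T.e₀ T.j ∈ gaussInt T.π ∧ T.red (T.e₀ T.j) = jqModC T.k := by
  have h : T.e₀ T.j = latVal T.A (jqModC T.A) := by
    rw [M.e₀_eq, M.model_j, latVal, coeffMap_jqModC, coeffMap_jqModC]
  rw [h]
  refine ⟨latVal_mem_gaussInt _, ?_⟩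
  rw [Base.red, gred_latVal, latRed, coeffMap_jqModC]

theorem red_e₀_j_ne_zero : T.red (T.e₀ T.j) ≠ 0 := by
  rw [M.e₀_j.2]
  intro h
  refine transcendental_jqModC T.k ?_
  rw [h]
  exact isAlgebraic_zero

theorem e₀_inv_j : T.e₀ T.j⁻¹ ∈ gaussInt T.π ∧ T.red (T.e₀ T.j⁻¹) = (jqModC T.k)⁻¹ := by
  rw [map_inv₀]
  exact ⟨inv_mem_gaussInt M.e₀_j.1 M.red_e₀_j_ne_zero,
    by rw [Base.red, gred_inv M.e₀_j.1 M.red_e₀_j_ne_zero, ← M.e₀_j.2]⟩

theorem gauss_mem_both {a : T.F₀} (ha : T.e₀ a ∈ gaussInt T.π) :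
    (IsIntegral (Algebra.adjoin T.K {T.j}) a → a ∈ T.chart₀ T.j) ∧
      (IsIntegral (Algebra.adjoin T.K {T.j⁻¹}) a → a ∈ T.chart₀ T.j⁻¹) := by
  rw [M.e₀_eq] at ha
  have h := isIntegral_adjoin_level T.π_eq_zero comapRed_surjective M.natCast_ne_zero
    M.model_j ha
  constructor
  · intro hint
    exact isIntegral_adjoin_of_algHom (M.model.toAlgHom.restrictScalars T.W) M.model.injective
      (h.1 (isIntegral_adjoin_algHom M.model.toAlgHom hint))
  · intro hint
    have h1 : IsIntegral (Algebra.adjoin T.K {M.model T.j⁻¹}) (M.model a) :=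
      isIntegral_adjoin_algHom M.model.toAlgHom hint
    rw [map_inv₀] at h1
    refine isIntegral_adjoin_of_algHom (M.model.toAlgHom.restrictScalars T.W) M.model.injective ?_
    show IsIntegral (Algebra.adjoin T.W {M.model T.j⁻¹}) (M.model a)
    rw [map_inv₀]
    exact h.2 h1

theorem gauss_mem (a : T.F₀) (h : IsIntegral (Algebra.adjoin T.K {T.j}) a)
    (ha : T.e₀ a ∈ gaussInt T.π) : a ∈ T.chart₀ T.j :=
  (M.gauss_mem_both ha).1 h

theorem gauss_mem_inf (a : T.F₀) (h : IsIntegral (Algebra.adjoin T.K {T.j⁻¹}) a)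
    (ha : T.e₀ a ∈ gaussInt T.π) : a ∈ T.chart₀ T.j⁻¹ :=
  (M.gauss_mem_both ha).2 h

/-- A rational element of the reduced spanning set, lifted to level `N` of the tower. -/
theorem exists_lift_ratRedSet [Fact q.Prime] {m : ℕ} {r : LaurentSeries (ResidueField M.place)}
    (hr : r ∈ ratRedSet M.place q N m) :
    ∃ c : T.F₀, T.e₀ c ∈ gaussInt T.π ∧
      coeffMap (M.resEquiv : T.k →+* ResidueField M.place) (T.red (T.e₀ c)) = r ∧
      qExpand T.k q (T.red (T.e₀ c)) = T.red (T.e₀ c) ^ q ∧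
      IsIntegral (Algebra.adjoin T.K {T.j}) c ∧
      IsIntegral (Algebra.adjoin T.K {T.j⁻¹}) (c / T.j ^ m) := by
  obtain ⟨g, hgV, hgG, rfl, hgq⟩ := hr
  have : CharZero T.L := charZero_of_injective_algebraMap (algebraMap T.K T.L).injective
  letI : Algebra T.K Qbar := (M.emb.comp (algebraMap T.K T.L)).toAlgebra
  have hg : g ∈ modularFunctionFieldFull N := (mem_polarSpace_of_coeffEmb hgV).1
  set c := M.model.symm ⟨coeffEmb T.K g, coeffEmb_mem_laurentBaseChange T.K hg⟩ with hc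
  have hmc : (M.model c : LaurentSeries T.K) = coeffEmb T.K g := by simp [hc]
  have he : T.e₀ c = coeffEmb T.L g := by
    rw [M.e₀_eq, hmc, coeffEmb, coeffEmb, coeffMap_coeffMap]
    exact coeffMap_congr (Subsingleton.elim _ _) g
  have hi : coeffMap M.emb (T.e₀ c) = coeffEmb Qbar g := by
    rw [he, coeffEmb, coeffEmb, coeffMap_coeffMap]
    exact coeffMap_congr (Subsingleton.elim _ _) g
  let iA : T.A →+* M.place := (M.emb.comp T.A.subtype).codRestrict _ M.emb_mem
  have hψ : ∀ a : T.A, (M.resEquiv : T.k →+* ResidueField M.place) (T.π a) =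
      residue M.place (iA a) := M.resEquiv_π
  have hcG : T.e₀ c ∈ gaussInt T.π := by
    rcases eq_or_ne c 0 with h0 | h0
    · rw [h0, map_zero]; exact zero_mem _
    obtain ⟨n, hn, hn0⟩ := T.ε_content (T.ι₁ (T.ι₀ c)) (by simpa using h0)
    have := T.charZeroK
    have hqL : (q : T.L) ≠ 0 := by
      rw [← map_natCast (algebraMap T.K T.L)]
      exact (_root_.map_ne_zero _).mpr (Nat.cast_ne_zero.mpr (NeZero.ne q))
    exact mem_gaussInt_of_coeffMap M.emb iA (fun _ => rfl) _ hψ hqL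
      (natCast_residue_eq_zero M.liesOver) hn hn0 (hi ▸ hgG)
  have hred := (coeffMap_mem_gaussInt M.emb iA (fun _ => rfl) _ hψ hcG).2
  rw [hi] at hred
  refine ⟨c, hcG, hred.symm, ?_, ?_⟩
  · apply coeffMap_injective (g := (M.resEquiv : T.k →+* ResidueField M.place)) M.resEquiv.injective
    show coeffMap (M.resEquiv : T.k →+* ResidueField M.place) _ =
      coeffMap (M.resEquiv : T.k →+* ResidueField M.place) _
    rw [coeffMap_qExpand, map_pow, ← hred]
    exact hgq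
  have hj : coeffMap (algebraMap T.K Qbar) (jqModC T.K) = jqModC Qbar := coeffMap_jqModC _
  have hgK : coeffMap (algebraMap T.K Qbar) (coeffEmb T.K g) = coeffEmb Qbar g := by
    rw [coeffEmb, coeffEmb, coeffMap_coeffMap]
    exact coeffMap_congr (Subsingleton.elim _ _) g
  let φ : T.F₀ →ₐ[T.K] LaurentSeries T.K :=
    (laurentBaseChange T.K (modularFunctionFieldFull N)).val.comp M.model.toAlgHom
  have hφ : ∀ x, φ x = (M.model x : LaurentSeries T.K) := fun _ => rfl
  have hV := mem_polarSpace.mp hgV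
  constructor
  · refine isIntegral_adjoin_of_algHom φ φ.toRingHom.injective ?_
    rw [hφ, hφ, hmc, M.model_j]
    exact isIntegral_adjoin_of_coeffMap (L := Qbar) (by rw [hj, hgK]; exact hV.2.1)
  · refine isIntegral_adjoin_of_algHom φ φ.toRingHom.injective ?_
    rw [map_inv₀, map_div₀, map_pow, hφ, hφ, hmc, M.model_j]
    exact isIntegral_adjoin_of_coeffMap (L := Qbar)
      (by rw [map_inv₀, map_div₀, map_pow, hj, hgK]; exact hV.2.2)

theorem coeffMap_resEquiv_mem {a b : T.F₀} (ha : T.e₀ a ∈ gaussInt T.π)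
    (hb : T.e₀ b ∈ gaussInt T.π) :
    coeffMap (M.resEquiv : T.k →+* ResidueField M.place)
        (T.red (T.e₀ a) / T.red (T.e₀ b)) ∈
      modularFunctionFieldFullC (ResidueField M.place) N :=
  coeffMap_mem_fullC _ N (div_mem (M.red_mem_fullC ha) (M.red_mem_fullC hb))

theorem smooth (a b : T.F₀) (ha : T.e₀ a ∈ gaussInt T.π) (hb : T.e₀ b ∈ gaussInt T.π)
    (_hb0 : T.red (T.e₀ b) ≠ 0)
    (hint : IsIntegral (Algebra.adjoin T.k {T.red (T.e₀ T.j)})
      (T.red (T.e₀ a) / T.red (T.e₀ b))) :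
    T.red (T.e₀ a) / T.red (T.e₀ b) ∈ Submodule.span T.k
      {h | ∃ c ∈ T.chart₀ T.j, T.IsRat c ∧ h = T.red (T.e₀ c)} := by
  have : Fact q.Prime := ⟨T.prime⟩
  set ψ : T.k →+* ResidueField M.place := (M.resEquiv : T.k →+* ResidueField M.place)
  rw [M.e₀_j.2] at hint
  have hint' := isIntegral_adjoin_coeffMap ψ hint
  rw [coeffMap_jqModC] at hint'
  obtain ⟨m, hm⟩ := (exists_mem_span_ratRedSet M.not_dvd M.liesOver
    (M.coeffMap_resEquiv_mem ha hb)).1 hint'
  refine mem_span_of_coeffMap M.resEquiv ?_ hm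
  intro r hr
  obtain ⟨c, hcG, hcr, hcq, hc1, -⟩ := M.exists_lift_ratRedSet hr
  refine ⟨c, M.gauss_mem c hc1 hcG, ⟨hcG, hcq⟩, ?_⟩
  rw [← hcr]
  ext i
  simp

theorem smooth_inf (a b : T.F₀) (ha : T.e₀ a ∈ gaussInt T.π) (hb : T.e₀ b ∈ gaussInt T.π)
    (_hb0 : T.red (T.e₀ b) ≠ 0)
    (hint : IsIntegral (Algebra.adjoin T.k {(T.red (T.e₀ T.j))⁻¹})
      (T.red (T.e₀ a) / T.red (T.e₀ b))) :
    T.red (T.e₀ a) / T.red (T.e₀ b) ∈ Submodule.span T.k
      {h | ∃ c ∈ T.chart₀ T.j⁻¹, T.IsRat c ∧ h = T.red (T.e₀ c)} := by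
  have : Fact q.Prime := ⟨T.prime⟩
  set ψ : T.k →+* ResidueField M.place := (M.resEquiv : T.k →+* ResidueField M.place)
  set j' := jqModC (ResidueField M.place) with hj'
  rw [M.e₀_j.2] at hint
  have hint' := isIntegral_adjoin_coeffMap ψ hint
  rw [map_inv₀, coeffMap_jqModC] at hint'
  obtain ⟨m, hm⟩ := (exists_mem_span_ratRedSet M.not_dvd M.liesOver
    (M.coeffMap_resEquiv_mem ha hb)).2 hint'
  have hj0 : j' ≠ 0 := by
    intro h
    refine transcendental_jqModC (ResidueField M.place) ?_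
    rw [← hj', h]
    exact isAlgebraic_zero
  refine mem_span_of_coeffMap M.resEquiv (S' := (fun r => r / j' ^ m) '' ratRedSet M.place q N m)
    ?_ ?_
  · rintro _ ⟨r, hr, rfl⟩
    obtain ⟨c, hcG, hcr, hcq, -, hc2⟩ := M.exists_lift_ratRedSet hr
    have hi := pow_mem M.e₀_inv_j.1 m
    have heq : T.e₀ (c / T.j ^ m) = T.e₀ c * T.e₀ T.j⁻¹ ^ m := by
      rw [← map_pow, ← map_mul, inv_pow, div_eq_mul_inv]
    have hG : T.e₀ (c / T.j ^ m) ∈ gaussInt T.π := heq ▸ mul_mem hcG hi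
    have hR : T.red (T.e₀ (c / T.j ^ m)) = T.red (T.e₀ c) / jqModC T.k ^ m := by
      rw [heq, Base.red, gred_mul hcG hi, gred_pow M.e₀_inv_j.1, div_eq_mul_inv, ← inv_pow,
        ← M.e₀_inv_j.2]
    refine ⟨c / T.j ^ m, M.gauss_mem_inf _ hc2 hG, ⟨hG, ?_⟩, ?_⟩
    · have hjq : qExpand T.k q (jqModC T.k) = jqModC T.k ^ q := by
        rw [monoNew_pow_char, coeffMap_jqModC]
      rw [hR, map_div₀, map_pow, hcq, hjq, div_pow, ← pow_mul, ← pow_mul, mul_comm]
    · rw [hR, map_div₀, map_pow, hj', coeffMap_jqModC, ← hcr]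
      congr 1
      ext i
      simp
  · have key : ∀ z ∈ Submodule.span (ResidueField M.place) (ratRedSet M.place q N m),
        z / j' ^ m ∈ Submodule.span (ResidueField M.place)
          ((fun r => r / j' ^ m) '' ratRedSet M.place q N m) := by
      intro z hz
      induction hz using Submodule.span_induction with
      | mem z hz => exact Submodule.subset_span ⟨z, hz, rfl⟩
      | zero => rw [zero_div]; exact zero_mem _
      | add x y _ _ hx hy => rw [add_div]; exact add_mem hx hy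
      | smul c x _ hx =>
        rw [smul_eq_algebraMap_mul, mul_div_assoc, ← smul_eq_algebraMap_mul]
        exact Submodule.smul_mem _ _ hx
    have h := key _ hm
    rwa [mul_div_cancel_right₀ _ (pow_ne_zero _ hj0)] at h

/-- The two clauses on elliptic points, when a prime `≡ 11 (mod 12)` divides the level. -/
theorem elliptic {r : ℕ} (hr : r.Prime) (hrN : r ∣ N) (hr12 : r % 12 = 11)
    (V : ValuationSubring T.F₀) (hV : V ≠ ⊤) (hK : ∀ c : T.K, algebraMap T.K T.F₀ c ∈ V)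
    {t : T.F₀} (ht : t ∈ V.nonunits) :
    (T.j ∈ V.nonunits → T.j / t ^ 3 ∈ V ∨ ∃ t' ∈ V.nonunits, t' ≠ 0 ∧ t / t' ∈ V.nonunits) ∧
      (T.j - 1728 ∈ V.nonunits →
        (T.j - 1728) / t ^ 2 ∈ V ∨ ∃ t' ∈ V.nonunits, t' ≠ 0 ∧ t / t' ∈ V.nonunits) := by
  letI : Algebra T.K Qbar := (M.emb.comp (algebraMap T.K T.L)).toAlgebra
  have : Algebra.IsAlgebraic ℚ Qbar := AlgebraicClosure.isAlgebraic ℚ
  have : IsScalarTower ℚ T.K Qbar := IsScalarTower.of_algebraMap_eq' (Subsingleton.elim _ _)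
  have : Algebra.IsAlgebraic T.K Qbar := Algebra.IsAlgebraic.tower_top (K := ℚ) T.K
  set e := M.model
  set V' := V.comap (e.symm.toRingEquiv.toRingHom) with hV'
  have hmem : ∀ z, e z ∈ V' ↔ z ∈ V := fun z => by
    rw [hV', ValuationSubring.mem_comap]
    exact iff_of_eq (congrArg (· ∈ V) (e.symm_apply_apply z))
  have hnu : ∀ z, e z ∈ V'.nonunits ↔ z ∈ V.nonunits := fun z => by
    rw [mem_nonunits_iff_inv, mem_nonunits_iff_inv, ← map_inv₀, hmem, map_eq_zero_iff _ e.injective]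
  have hV1 : V' ≠ ⊤ := fun h => hV (by
    ext z
    simp [← hmem, h])
  have hK' : ∀ c : T.K, algebraMap T.K (laurentBaseChange T.K (modularFunctionFieldFull N)) c ∈ V' :=
    fun c => by rw [← e.commutes, hmem]; exact hK c
  obtain ⟨h1, h2⟩ :=
    elliptic_of_eleven_mod_twelve hr hrN hr12 M.model_j V' hV1 hK' ((hnu t).mpr ht)
  have back : ∀ {P : T.F₀}, (e P ∈ V' ∨ ∃ t' ∈ V'.nonunits, t' ≠ 0 ∧ e t / t' ∈ V'.nonunits) →
      P ∈ V ∨ ∃ t' ∈ V.nonunits, t' ≠ 0 ∧ t / t' ∈ V.nonunits := by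
    rintro P (h | ⟨t', ht', ht0, h⟩)
    · exact Or.inl ((hmem P).mp h)
    · refine Or.inr ⟨e.symm t', (hnu _).mp (by rwa [e.apply_symm_apply]), by simpa using ht0,
        (hnu _).mp ?_⟩
      rwa [map_div₀, e.apply_symm_apply]
  constructor
  · intro h
    refine back ?_
    rw [map_div₀, map_pow]
    exact h1 ((hnu _).mpr h)
  · intro h
    refine back ?_
    have h' := (hnu _).mpr h
    rw [map_sub, map_ofNat] at h'
    rw [map_div₀, map_pow, map_sub, map_ofNat]
    exact h2 h'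

theorem elliptic_zero {r : ℕ} (hr : r.Prime) (hrN : r ∣ N) (hr12 : r % 12 = 11) :
    ∀ V : ValuationSubring T.F₀, V ≠ ⊤ →
      (∀ c : T.K, algebraMap T.K T.F₀ c ∈ V) → ∀ t ∈ V.nonunits, T.j ∈ V.nonunits →
        T.j / t ^ 3 ∈ V ∨ ∃ t' ∈ V.nonunits, t' ≠ 0 ∧ t / t' ∈ V.nonunits :=
  fun V hV hK _ ht => (M.elliptic hr hrN hr12 V hV hK ht).1

theorem elliptic_1728 {r : ℕ} (hr : r.Prime) (hrN : r ∣ N) (hr12 : r % 12 = 11) :
    ∀ V : ValuationSubring T.F₀, V ≠ ⊤ →
      (∀ c : T.K, algebraMap T.K T.F₀ c ∈ V) → ∀ t ∈ V.nonunits, T.j - 1728 ∈ V.nonunits →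
        (T.j - 1728) / t ^ 2 ∈ V ∨ ∃ t' ∈ V.nonunits, t' ≠ 0 ∧ t / t' ∈ V.nonunits :=
  fun V hV hK _ ht => (M.elliptic hr hrN hr12 V hV hK ht).2

end LevelModel

end Tower

end FermatLib.Igusa.Carayol
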