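import Fermat.Agent.Igusa.Carayol.TowerInputs
import Fermat.Agent.Igusa.Carayol.TowerModular

/-!
The bottom level of the modular tower is the function field of `X₀(N)` over the inertia field.
-/

set_option autoImplicit false

noncomputable section

open ModularCurve

namespace FermatLib.Igusa.Carayol

open FermatLib.Modular

local notation "Qbar" => AlgebraicClosure ℚ

variable (N q : ℕ) [NeZero N] [NeZero q] (hq : q.Prime) (hqN : ¬ q ∣ N)
  (A : ValuationSubring Qbar) (hA : A.LiesOverPrime q)

theorem towerEps_alpha_alpha (K L : Type*) [Field K] [Algebra ℚ K] [Field L] [Algebra ℚ L]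
    [Algebra K L] (x : laurentBaseChange K (modularFunctionFieldFull N)) :
    towerEps N q K L (heckeAlphaBar K (N * q) q (heckeAlphaBar K N q x)) =
      coeffMap (algebraMap K L) (x : LaurentSeries K) := by
  show (baseEmb K L _ _ : LaurentSeries L) = _
  rw [coe_baseEmb, coe_heckeAlphaBar, coe_heckeAlphaBar]

theorem coe_jElem_eq_jqModC (K : Type*) [Field K] [Algebra ℚ K] :
    (jElem K N : LaurentSeries K) = jqModC K := by
  rw [coe_jElem, coeffEmb, ← jqModC_rat, coeffMap_jqModC]

/-- The bottom level of the modular tower is `X₀(N)`. -/
def modularLevelModel : (modularTower N q hq hqN A hA).LevelModel N :=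
  { not_dvd := hqN
    place := A
    liesOver := hA
    emb := algebraMap (zetaField A q) Qbar
    emb_mem := fun a => a.2
    resEquiv := RingEquiv.refl _
    resEquiv_π := fun _ => rfl
    model := AlgEquiv.refl
    e₀_eq := towerEps_alpha_alpha N q (MazurP.inertiaField A) (zetaField A q)
    model_j := coe_jElem_eq_jqModC N (MazurP.inertiaField A) }

end FermatLib.Igusa.Carayol

end
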